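/-
S24, block B7 (finite combinatorics), part 0: the model.

`X0 N := SL(2,ℤ) ⧸ Γ₀(N)` is identified, `SL(2,ℤ)`-equivariantly, with the projective line
`P1 N` over `ZMod N` (primitive column vectors modulo units).  All later counting is done on `P1 N`.
-/
import Mathlib

set_option autoImplicit false

namespace Fermat.Agent.S24.Comb

open Matrix MatrixGroups

/-- Primitive column vectors over `ZMod N`. -/
def Prim (N : ℕ) : Type := {v : ZMod N × ZMod N // IsCoprime v.1 v.2}

namespace Prim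

variable {N : ℕ}

@[ext] theorem ext {v w : Prim N} (h1 : v.1.1 = w.1.1) (h2 : v.1.2 = w.1.2) : v = w :=
  Subtype.ext (Prod.ext h1 h2)

instance [NeZero N] : Finite (Prim N) := Subtype.finite

/-- The units of `ZMod N` act on primitive vectors by scaling. -/
instance : MulAction (ZMod N)ˣ (Prim N) where
  smul u v := ⟨((u : ZMod N) * v.1.1, (u : ZMod N) * v.1.2),
    (isCoprime_mul_unit_left u.isUnit _ _).mpr v.2⟩
  one_smul v := by ext <;> simp [HSMul.hSMul]
  mul_smul u u' v := by ext <;> simp [HSMul.hSMul, mul_assoc]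

@[simp] theorem units_smul_fst (u : (ZMod N)ˣ) (v : Prim N) : (u • v).1.1 = u * v.1.1 := rfl
@[simp] theorem units_smul_snd (u : (ZMod N)ˣ) (v : Prim N) : (u • v).1.2 = u * v.1.2 := rfl

/-- `SL(2,ℤ)` acts on primitive vectors through reduction mod `N` (matrix times column). -/
instance : MulAction SL(2, ℤ) (Prim N) where
  smul g v := ⟨(((g 0 0 : ℤ) : ZMod N) * v.1.1 + ((g 0 1 : ℤ) : ZMod N) * v.1.2,
      ((g 1 0 : ℤ) : ZMod N) * v.1.1 + ((g 1 1 : ℤ) : ZMod N) * v.1.2), by
    obtain ⟨x, y, hxy⟩ := v.2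
    have hdet : ((g 0 0 : ℤ) : ZMod N) * ((g 1 1 : ℤ) : ZMod N)
        - ((g 0 1 : ℤ) : ZMod N) * ((g 1 0 : ℤ) : ZMod N) = 1 := by
      have h := g.det_coe
      rw [Matrix.det_fin_two] at h
      have h2 := congrArg (Int.cast : ℤ → ZMod N) h
      push_cast at h2
      exact h2
    refine ⟨x * ((g 1 1 : ℤ) : ZMod N) - y * ((g 1 0 : ℤ) : ZMod N),
      -x * ((g 0 1 : ℤ) : ZMod N) + y * ((g 0 0 : ℤ) : ZMod N), ?_⟩
    linear_combination (x * v.1.1 + y * v.1.2) * hdet + hxy⟩
  one_smul v := by ext <;> simp [HSMul.hSMul]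
  mul_smul g h v := by
    have e := Matrix.two_mul_expl g.1 h.1
    have e00 : (g * h) 0 0 = g 0 0 * h 0 0 + g 0 1 * h 1 0 := by
      exact e.1
    have e01 : (g * h) 0 1 = g 0 0 * h 0 1 + g 0 1 * h 1 1 := by
      exact e.2.1
    have e10 : (g * h) 1 0 = g 1 0 * h 0 0 + g 1 1 * h 1 0 := by
      exact e.2.2.1
    have e11 : (g * h) 1 1 = g 1 0 * h 0 1 + g 1 1 * h 1 1 := by
      exact e.2.2.2
    ext
    · show (((g * h) 0 0 : ℤ) : ZMod N) * v.1.1 + (((g * h) 0 1 : ℤ) : ZMod N) * v.1.2 =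
        ((g 0 0 : ℤ) : ZMod N) * (((h 0 0 : ℤ) : ZMod N) * v.1.1 + ((h 0 1 : ℤ) : ZMod N) * v.1.2)
        + ((g 0 1 : ℤ) : ZMod N) * (((h 1 0 : ℤ) : ZMod N) * v.1.1 + ((h 1 1 : ℤ) : ZMod N) * v.1.2)
      rw [e00, e01]
      push_cast
      ring
    · show (((g * h) 1 0 : ℤ) : ZMod N) * v.1.1 + (((g * h) 1 1 : ℤ) : ZMod N) * v.1.2 =
        ((g 1 0 : ℤ) : ZMod N) * (((h 0 0 : ℤ) : ZMod N) * v.1.1 + ((h 0 1 : ℤ) : ZMod N) * v.1.2)
        + ((g 1 1 : ℤ) : ZMod N) * (((h 1 0 : ℤ) : ZMod N) * v.1.1 + ((h 1 1 : ℤ) : ZMod N) * v.1.2)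
      rw [e10, e11]
      push_cast
      ring

@[simp] theorem sl_smul_fst (g : SL(2, ℤ)) (v : Prim N) :
    (g • v).1.1 = ((g 0 0 : ℤ) : ZMod N) * v.1.1 + ((g 0 1 : ℤ) : ZMod N) * v.1.2 := rfl
@[simp] theorem sl_smul_snd (g : SL(2, ℤ)) (v : Prim N) :
    (g • v).1.2 = ((g 1 0 : ℤ) : ZMod N) * v.1.1 + ((g 1 1 : ℤ) : ZMod N) * v.1.2 := rfl

instance : SMulCommClass SL(2, ℤ) (ZMod N)ˣ (Prim N) where
  smul_comm g u v := by ext <;> simp <;> ring

/-- The base point `(1, 0)ᵀ`. -/
def e1 : Prim N := ⟨(1, 0), isCoprime_one_left⟩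

@[simp] theorem e1_fst : (e1 : Prim N).1.1 = 1 := rfl
@[simp] theorem e1_snd : (e1 : Prim N).1.2 = 0 := rfl

end Prim

/-- The projective line over `ZMod N`: primitive vectors modulo units. -/
abbrev P1 (N : ℕ) : Type := MulAction.orbitRel.Quotient (ZMod N)ˣ (Prim N)

namespace P1

variable {N : ℕ}

/-- The class of a primitive vector. -/
def mk (v : Prim N) : P1 N := Quotient.mk'' v

theorem mk_surjective : Function.Surjective (mk : Prim N → P1 N) := Quotient.mk''_surjective

theorem mk_eq_mk {v w : Prim N} : mk v = mk w ↔ ∃ u : (ZMod N)ˣ, u • w = v := by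
  unfold mk
  rw [Quotient.eq'']
  exact Iff.rfl

instance [NeZero N] : Finite (P1 N) := Quotient.finite _

instance : MulAction SL(2, ℤ) (P1 N) where
  smul g := Quotient.map' (fun v => g • v) (by
    rintro v w ⟨u, rfl⟩
    exact ⟨u, (smul_comm g u w).symm⟩)
  one_smul x := by
    induction x using Quotient.inductionOn' with
    | h v => exact congrArg mk (one_smul _ v)
  mul_smul g h x := by
    induction x using Quotient.inductionOn' with
    | h v => exact congrArg mk (mul_smul g h v)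

@[simp] theorem smul_mk (g : SL(2, ℤ)) (v : Prim N) : g • mk v = mk (g • v) := rfl

end P1

/-- Lifting lemma (arithmetic core): adapted from the proof of `ZMod.unitsMap_surjective`. -/
theorem exists_add_mul_coprime (x n m : ℕ) (hm : m ≠ 0) (hx : Nat.gcd x (Nat.gcd n m) = 1) :
    ∃ k : ℕ, (x + k * n).Coprime m := by
  let ps : Finset ℕ := {p ∈ m.primeFactors | ¬p ∣ x}
  use ps.prod id
  apply Nat.coprime_of_dvd
  intro p pp hp hpn
  by_cases hpx : p ∣ x
  · have h := Nat.dvd_sub hp hpx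
    rw [add_comm, Nat.add_sub_cancel] at h
    rcases pp.dvd_mul.mp h with h | h
    · have ⟨q, hq, hq'⟩ := (pp.prime.dvd_finsetProd_iff id).mp h
      rw [Finset.mem_filter, Nat.mem_primeFactors,
        ← (Nat.prime_dvd_prime_iff_eq pp hq.1.1).mp hq'] at hq
      exact hq.2 hpx
    · have h1 : p ∣ Nat.gcd x (Nat.gcd n m) := Nat.dvd_gcd hpx (Nat.dvd_gcd h hpn)
      rw [hx] at h1
      exact pp.one_lt.ne' (Nat.dvd_one.mp h1)
  · have pps : p ∈ ps := Finset.mem_filter.mpr ⟨Nat.mem_primeFactors.mpr ⟨pp, hpn, hm⟩, hpx⟩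
    have h := Nat.dvd_sub hp ((Finset.dvd_prod_of_mem id pps).mul_right n)
    rw [Nat.add_sub_cancel] at h
    contradiction

/-- Every primitive vector mod `N` is the first column of an element of `SL(2,ℤ)`. -/
theorem exists_smul_e1_eq {N : ℕ} [NeZero N] (v : Prim N) : ∃ g : SL(2, ℤ), g • Prim.e1 = v := by
  obtain ⟨⟨a, c⟩, hv⟩ := v
  obtain ⟨r, s, hrs⟩ := hv
  -- natural number representatives
  set x : ℕ := a.val with hxdef
  set y : ℕ := c.val + N with hydef
  have hxa : ((x : ℕ) : ZMod N) = a := ZMod.natCast_zmod_val a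
  have hyc : ((y : ℕ) : ZMod N) = c := by
    rw [hydef]; push_cast; rw [ZMod.natCast_zmod_val, ZMod.natCast_self, add_zero]
  have hy0 : y ≠ 0 := by
    have := NeZero.ne N
    omega
  -- integer Bezout relation `r' x + s' y + t N = 1`
  obtain ⟨r', rfl⟩ := ZMod.intCast_surjective r
  obtain ⟨s', rfl⟩ := ZMod.intCast_surjective s
  have h1 : (((r' * x + s' * y - 1 : ℤ)) : ZMod N) = 0 := by
    push_cast
    rw [hxa, hyc]
    linear_combination hrs
  rw [ZMod.intCast_zmod_eq_zero_iff_dvd] at h1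
  obtain ⟨t, ht⟩ := h1
  have hgcd : Nat.gcd x (Nat.gcd N y) = 1 := by
    rw [Nat.eq_one_iff_not_exists_prime_dvd]
    intro p pp hp
    have hpx : (p : ℤ) ∣ x := Int.natCast_dvd_natCast.mpr (hp.trans (Nat.gcd_dvd_left _ _))
    have hpN : (p : ℤ) ∣ N :=
      Int.natCast_dvd_natCast.mpr (hp.trans ((Nat.gcd_dvd_right _ _).trans (Nat.gcd_dvd_left _ _)))
    have hpy : (p : ℤ) ∣ y :=
      Int.natCast_dvd_natCast.mpr (hp.trans ((Nat.gcd_dvd_right _ _).trans (Nat.gcd_dvd_right _ _)))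
    have h1 : (p : ℤ) ∣ 1 := by
      have : (1 : ℤ) = r' * x + s' * y - N * t := by linarith
      rw [this]
      exact dvd_sub (dvd_add (hpx.mul_left _) (hpy.mul_left _)) (hpN.mul_right _)
    have := Int.natCast_dvd_natCast.mp (by simpa using h1 : ((p : ℕ) : ℤ) ∣ ((1 : ℕ) : ℤ))
    exact pp.one_lt.ne' (Nat.dvd_one.mp this)
  obtain ⟨k, hk⟩ := exists_add_mul_coprime x N y hy0 hgcd
  -- Bezout for the coprime integers `x + k N` and `y`
  have hcop : IsCoprime ((x + k * N : ℕ) : ℤ) (y : ℤ) := Nat.isCoprime_iff_coprime.mpr hk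
  obtain ⟨u, w, huw⟩ := hcop
  have hdet : (!![((x + k * N : ℕ) : ℤ), -w; (y : ℤ), u]).det = 1 := by
    rw [Matrix.det_fin_two_of]
    linarith
  let g : SL(2, ℤ) := ⟨!![((x + k * N : ℕ) : ℤ), -w; (y : ℤ), u], hdet⟩
  have g00 : g 0 0 = ((x + k * N : ℕ) : ℤ) := rfl
  have g10 : g 1 0 = (y : ℤ) := rfl
  refine ⟨g, ?_⟩
  apply Prim.ext
  · rw [Prim.sl_smul_fst, g00, Prim.e1_fst, Prim.e1_snd, mul_one, mul_zero, add_zero]
    show ((((x + k * N : ℕ) : ℤ)) : ZMod N) = a
    push_cast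
    rw [hxa, ZMod.natCast_self, mul_zero, add_zero]
  · rw [Prim.sl_smul_snd, g10, Prim.e1_fst, Prim.e1_snd, mul_one, mul_zero, add_zero]
    show (((y : ℤ)) : ZMod N) = c
    push_cast
    exact hyc

/-- The coset space `SL(2,ℤ) ⧸ Γ₀(N)` (left cosets, with the left translation action). -/
abbrev X0 (N : ℕ) : Type := SL(2, ℤ) ⧸ CongruenceSubgroup.Gamma0 N

open CongruenceSubgroup in
/-- `Γ₀(N)` is the stabiliser of the point `[1 : 0]` of `P1 N`. -/
theorem smul_mk_e1_eq_iff {N : ℕ} (g : SL(2, ℤ)) :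
    g • P1.mk (Prim.e1 : Prim N) = P1.mk Prim.e1 ↔ g ∈ Gamma0 N := by
  rw [P1.smul_mk, P1.mk_eq_mk, Gamma0_mem]
  constructor
  · rintro ⟨u, hu⟩
    have h2 := congrArg (fun v : Prim N => v.1.2) hu
    simp only [Prim.units_smul_snd, Prim.e1_snd, mul_zero, Prim.sl_smul_snd, Prim.e1_fst,
      mul_one, add_zero] at h2
    exact h2.symm
  · intro h
    have hdet : ((g 0 0 : ℤ) : ZMod N) * ((g 1 1 : ℤ) : ZMod N) = 1 := by
      have h1 := g.det_coe
      rw [Matrix.det_fin_two] at h1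
      have h2 := congrArg (Int.cast : ℤ → ZMod N) h1
      push_cast at h2
      rw [h, mul_zero, sub_zero] at h2
      exact h2
    refine ⟨Units.mkOfMulEqOne _ _ hdet, ?_⟩
    apply Prim.ext
    · simp
    · simp [h]

namespace X0

variable {N : ℕ}

open CongruenceSubgroup in
/-- The orbit map `g Γ₀(N) ↦ g • [1 : 0]`. -/
def toP1 : X0 N → P1 N :=
  Quotient.lift (fun g : SL(2, ℤ) => g • P1.mk (Prim.e1 : Prim N)) (by
    intro g g' h
    have h' : g⁻¹ * g' ∈ Gamma0 N := QuotientGroup.leftRel_apply.mp h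
    calc g • P1.mk Prim.e1 = g • ((g⁻¹ * g') • P1.mk (Prim.e1 : Prim N)) := by
          rw [(smul_mk_e1_eq_iff _).mpr h']
      _ = g' • P1.mk Prim.e1 := by rw [← mul_smul, mul_inv_cancel_left])

@[simp] theorem toP1_mk (g : SL(2, ℤ)) :
    toP1 (QuotientGroup.mk g : X0 N) = g • P1.mk (Prim.e1 : Prim N) := rfl

theorem toP1_smul (g : SL(2, ℤ)) (x : X0 N) : toP1 (g • x) = g • toP1 x := by
  induction x using QuotientGroup.induction_on with
  | H h => rw [MulAction.Quotient.smul_mk, toP1_mk, toP1_mk, smul_eq_mul, mul_smul]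

theorem toP1_injective : Function.Injective (toP1 : X0 N → P1 N) := by
  intro x y
  induction x using QuotientGroup.induction_on with
  | H g =>
    induction y using QuotientGroup.induction_on with
    | H g' =>
      intro h
      rw [toP1_mk, toP1_mk] at h
      rw [QuotientGroup.eq]
      rw [← smul_mk_e1_eq_iff, mul_smul, ← h, ← mul_smul, inv_mul_cancel, one_smul]

theorem toP1_surjective [NeZero N] : Function.Surjective (toP1 : X0 N → P1 N) := by
  intro x
  obtain ⟨v, rfl⟩ := P1.mk_surjective x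
  obtain ⟨g, rfl⟩ := exists_smul_e1_eq v
  exact ⟨QuotientGroup.mk g, by rw [toP1_mk, P1.smul_mk]⟩

/-- The `SL(2,ℤ)`-equivariant identification of `SL(2,ℤ) ⧸ Γ₀(N)` with `P1 N`. -/
noncomputable def equivP1 [NeZero N] : X0 N ≃ P1 N :=
  Equiv.ofBijective toP1 ⟨toP1_injective, toP1_surjective⟩

@[simp] theorem equivP1_apply [NeZero N] (x : X0 N) : equivP1 x = toP1 x := rfl

theorem equivP1_smul [NeZero N] (g : SL(2, ℤ)) (x : X0 N) : equivP1 (g • x) = g • equivP1 x :=
  toP1_smul g x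

instance [NeZero N] : Finite (X0 N) := Finite.of_equiv _ equivP1.symm

end X0

/-! ### Explicit formulas for `S`, `T`, `S * T` -/

section STformulas

variable {N : ℕ}

open ModularGroup

@[simp] theorem S_smul_fst (v : Prim N) : (S • v).1.1 = -v.1.2 := by
  rw [Prim.sl_smul_fst]; simp [S]
@[simp] theorem S_smul_snd (v : Prim N) : (S • v).1.2 = v.1.1 := by
  rw [Prim.sl_smul_snd]; simp [S]
@[simp] theorem T_smul_fst (v : Prim N) : (T • v).1.1 = v.1.1 + v.1.2 := by
  rw [Prim.sl_smul_fst]; simp [T]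
@[simp] theorem T_smul_snd (v : Prim N) : (T • v).1.2 = v.1.2 := by
  rw [Prim.sl_smul_snd]; simp [T]
@[simp] theorem ST_smul_fst (v : Prim N) : ((S * T) • v).1.1 = -v.1.2 := by
  rw [mul_smul]; simp
@[simp] theorem ST_smul_snd (v : Prim N) : ((S * T) • v).1.2 = v.1.1 + v.1.2 := by
  rw [mul_smul]; simp

theorem T_zpow_smul_fst (n : ℤ) (v : Prim N) : ((T ^ n) • v).1.1 = v.1.1 + n * v.1.2 := by
  rw [Prim.sl_smul_fst, ModularGroup.coe_T_zpow]; simp
theorem T_zpow_smul_snd (n : ℤ) (v : Prim N) : ((T ^ n) • v).1.2 = v.1.2 := by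
  rw [Prim.sl_smul_snd, ModularGroup.coe_T_zpow]; simp

end STformulas

/-! ### Transport of fixed-point and orbit counts along equivariant bijections -/

section Transport

variable {G α β : Type*} [Group G] [MulAction G α] [MulAction G β]

/-- Fixed points correspond under an equivariant bijection. -/
def fixedByEquiv (e : α ≃ β) (he : ∀ (g : G) (x : α), e (g • x) = g • e x) (g : G) :
    MulAction.fixedBy α g ≃ MulAction.fixedBy β g where
  toFun x := ⟨e x.1, by
    have hx : g • x.1 = x.1 := x.2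
    show g • e x.1 = e x.1
    rw [← he, hx]⟩
  invFun y := ⟨e.symm y.1, by
    have hy : g • y.1 = y.1 := y.2
    show g • e.symm y.1 = e.symm y.1
    apply e.injective
    rw [he, e.apply_symm_apply, hy]⟩
  left_inv x := Subtype.ext (e.symm_apply_apply _)
  right_inv y := Subtype.ext (e.apply_symm_apply _)

theorem card_fixedBy_eq (e : α ≃ β) (he : ∀ (g : G) (x : α), e (g • x) = g • e x) (g : G) :
    Nat.card (MulAction.fixedBy α g) = Nat.card (MulAction.fixedBy β g) :=
  Nat.card_congr (fixedByEquiv e he g)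

/-- Orbit spaces of a subgroup correspond under an equivariant bijection. -/
def orbitQuotientEquiv (e : α ≃ β) (he : ∀ (g : G) (x : α), e (g • x) = g • e x)
    (H : Subgroup G) :
    MulAction.orbitRel.Quotient H α ≃ MulAction.orbitRel.Quotient H β where
  toFun := Quotient.map' e (by
    rintro x y ⟨h, rfl⟩
    exact ⟨h, (he h.1 y).symm⟩)
  invFun := Quotient.map' e.symm (by
    rintro x y ⟨h, rfl⟩
    refine ⟨h, ?_⟩
    apply e.injective
    show e (h.1 • e.symm y) = e (e.symm (h.1 • y))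
    rw [he, e.apply_symm_apply, e.apply_symm_apply])
  left_inv x := by
    induction x using Quotient.inductionOn' with
    | h a => exact congrArg _ (e.symm_apply_apply a)
  right_inv x := by
    induction x using Quotient.inductionOn' with
    | h a => exact congrArg _ (e.apply_symm_apply a)

theorem card_orbitQuotient_eq (e : α ≃ β) (he : ∀ (g : G) (x : α), e (g • x) = g • e x)
    (H : Subgroup G) :
    Nat.card (MulAction.orbitRel.Quotient H α) = Nat.card (MulAction.orbitRel.Quotient H β) :=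
  Nat.card_congr (orbitQuotientEquiv e he H)

end Transport

end Fermat.Agent.S24.Comb
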