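/-
S24, block B7.a: `Nat.card (P1 N) = dedekindPsi N`.

Route: the units of `ZMod N` act freely on primitive vectors, so
`card (Prim N) = card (P1 N) * φ(N)`; `card (Prim N)`, `φ` and `ψ` are multiplicative (CRT) and the
identity `card (Prim (p^k)) = ψ(p^k) * φ(p^k)` is checked on prime powers.
-/
import Fermat.Agent.S24.CombModel
import Fermat.Prelude.Def_ModularCurve_X0

set_option autoImplicit false

namespace Fermat.Agent.S24.Comb

open ModularCurve

/-! ### The Dedekind psi function is multiplicative -/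

/-- Indicator of squarefree numbers as an arithmetic function. -/
def sqfInd : ArithmeticFunction ℕ :=
  ⟨fun n => if Squarefree n then 1 else 0, by simp⟩

@[simp] theorem sqfInd_apply (n : ℕ) : sqfInd n = if Squarefree n then 1 else 0 := rfl

theorem sqfInd_isMultiplicative : sqfInd.IsMultiplicative := by
  refine ⟨by simp, ?_⟩
  intro m n hmn
  simp only [sqfInd_apply, Nat.squarefree_mul hmn]
  by_cases h1 : Squarefree m <;> by_cases h2 : Squarefree n <;> simp [h1, h2]

theorem dedekindPsi_eq_mul (N : ℕ) : dedekindPsi N = (sqfInd * ArithmeticFunction.id) N := by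
  rw [ArithmeticFunction.mul_apply,
    Nat.sum_divisorsAntidiagonal (fun a b => sqfInd a * ArithmeticFunction.id b), dedekindPsi,
    Finset.sum_filter]
  refine Finset.sum_congr rfl fun d _ => ?_
  by_cases h : Squarefree d <;> simp [h]

theorem dedekindPsi_mul {m n : ℕ} (h : m.Coprime n) :
    dedekindPsi (m * n) = dedekindPsi m * dedekindPsi n := by
  rw [dedekindPsi_eq_mul, dedekindPsi_eq_mul, dedekindPsi_eq_mul]
  exact (sqfInd_isMultiplicative.mul ArithmeticFunction.isMultiplicative_id).map_mul_of_coprime h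

theorem dedekindPsi_prime_pow {p : ℕ} (hp : p.Prime) (j : ℕ) :
    dedekindPsi (p ^ (j + 1)) = p ^ (j + 1) + p ^ j := by
  rw [dedekindPsi, Nat.divisors_prime_pow hp, Finset.sum_filter, Finset.sum_map]
  simp only [Function.Embedding.coeFn_mk]
  rw [Finset.sum_range_succ', Finset.sum_range_succ']
  have h0 : ∑ i ∈ Finset.range j,
      (if Squarefree (p ^ (i + 1 + 1)) then p ^ (j + 1) / p ^ (i + 1 + 1) else 0) = 0 := by
    refine Finset.sum_eq_zero fun i _ => ?_
    rw [if_neg]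
    rw [Nat.squarefree_pow_iff hp.ne_one (by omega)]
    omega
  rw [h0, zero_add, pow_zero, if_pos squarefree_one, Nat.div_one, zero_add, pow_one,
    if_pos hp.squarefree, pow_succ, Nat.mul_div_cancel _ hp.pos, add_comm]

/-! ### The units act freely on primitive vectors -/

variable {N : ℕ}

theorem stabilizer_eq_bot (v : Prim N) : MulAction.stabilizer (ZMod N)ˣ v = ⊥ := by
  rw [eq_bot_iff]
  intro u hu
  rw [MulAction.mem_stabilizer_iff] at hu
  rw [Subgroup.mem_bot]
  obtain ⟨x, y, hxy⟩ := v.2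
  have h1 : (u : ZMod N) * v.1.1 = v.1.1 := by
    have := congrArg (fun w : Prim N => w.1.1) hu
    simpa using this
  have h2 : (u : ZMod N) * v.1.2 = v.1.2 := by
    have := congrArg (fun w : Prim N => w.1.2) hu
    simpa using this
  apply Units.ext
  rw [Units.val_one]
  calc (u : ZMod N) = u * (x * v.1.1 + y * v.1.2) := by rw [hxy, mul_one]
    _ = x * (u * v.1.1) + y * (u * v.1.2) := by ring
    _ = 1 := by rw [h1, h2, hxy]

theorem card_prim_eq_card_P1_mul [NeZero N] :
    Nat.card (Prim N) = Nat.card (P1 N) * N.totient := by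
  have e : Prim N ≃ P1 N × (ZMod N)ˣ := MulAction.selfEquivOrbitsQuotientProd stabilizer_eq_bot
  rw [Nat.card_congr e, Nat.card_prod, Nat.card_eq_fintype_card (α := (ZMod N)ˣ),
    ZMod.card_units_eq_totient]

/-! ### Multiplicativity of the number of primitive vectors -/

theorem isCoprime_prod_iff {R S : Type*} [CommSemiring R] [CommSemiring S] (a c : R × S) :
    IsCoprime a c ↔ IsCoprime a.1 c.1 ∧ IsCoprime a.2 c.2 := by
  constructor
  · rintro ⟨x, y, hxy⟩
    exact ⟨⟨x.1, y.1, congrArg Prod.fst hxy⟩, ⟨x.2, y.2, congrArg Prod.snd hxy⟩⟩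
  · rintro ⟨⟨x1, y1, h1⟩, ⟨x2, y2, h2⟩⟩
    exact ⟨(x1, x2), (y1, y2), Prod.ext h1 h2⟩

theorem isCoprime_ringEquiv_iff {R S : Type*} [CommSemiring R] [CommSemiring S] (e : R ≃+* S)
    (a c : R) : IsCoprime (e a) (e c) ↔ IsCoprime a c := by
  constructor
  · intro h
    have := h.map (e.symm : S →+* R)
    simpa using this
  · intro h
    exact h.map (e : R →+* S)

/-- CRT for primitive vectors. -/
noncomputable def primMulEquiv {m n : ℕ} (h : m.Coprime n) : Prim (m * n) ≃ Prim m × Prim n :=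
  let e := ZMod.chineseRemainder h
  ((Equiv.subtypeEquiv (p := fun v : ZMod (m * n) × ZMod (m * n) => IsCoprime v.1 v.2)
      (q := fun w : (ZMod m × ZMod n) × (ZMod m × ZMod n) => IsCoprime w.1 w.2)
      (e.toEquiv.prodCongr e.toEquiv) (by
      intro v
      exact (isCoprime_ringEquiv_iff e v.1 v.2).symm)).trans
    ((Equiv.subtypeEquiv (p := fun w : (ZMod m × ZMod n) × (ZMod m × ZMod n) => IsCoprime w.1 w.2)
      (q := fun w : (ZMod m × ZMod m) × (ZMod n × ZMod n) =>
        IsCoprime w.1.1 w.1.2 ∧ IsCoprime w.2.1 w.2.2)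
      (Equiv.prodProdProdComm (ZMod m) (ZMod n) (ZMod m) (ZMod n)) (by
      intro v
      exact isCoprime_prod_iff v.1 v.2)).trans
    (Equiv.subtypeProdEquivProd (p := fun v : ZMod m × ZMod m => IsCoprime v.1 v.2)
      (q := fun v : ZMod n × ZMod n => IsCoprime v.1 v.2))))

theorem card_prim_mul {m n : ℕ} (h : m.Coprime n) :
    Nat.card (Prim (m * n)) = Nat.card (Prim m) * Nat.card (Prim n) := by
  rw [Nat.card_congr (primMulEquiv h), Nat.card_prod]

/-! ### Prime powers -/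

section PrimePow

variable {p : ℕ}

theorem castHom_eq_zero_of_not_isUnit (hp : p.Prime) (j : ℕ) (a : ZMod (p ^ (j + 1)))
    (ha : ¬ IsUnit a) :
    ZMod.castHom (dvd_pow_self p (Nat.succ_ne_zero j)) (ZMod p) a = 0 := by
  have : NeZero (p ^ (j + 1)) := ⟨pow_ne_zero _ hp.ne_zero⟩
  have h1 : ((a.val : ℕ) : ZMod (p ^ (j + 1))) = a := ZMod.natCast_zmod_val a
  rw [← h1, ZMod.isUnit_iff_coprime] at ha
  have h2 : p ∣ a.val := by
    by_contra h
    exact ha (Nat.Coprime.pow_right _ ((Nat.Prime.coprime_iff_not_dvd hp).mpr h).symm)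
  rw [← h1, map_natCast]
  exact (ZMod.natCast_eq_zero_iff _ _).mpr h2

theorem isCoprime_iff_isUnit_or (hp : p.Prime) (j : ℕ) (a c : ZMod (p ^ (j + 1))) :
    IsCoprime a c ↔ IsUnit a ∨ IsUnit c := by
  have : Fact p.Prime := ⟨hp⟩
  constructor
  · rintro ⟨x, y, hxy⟩
    by_contra h
    rw [not_or] at h
    have h1 := castHom_eq_zero_of_not_isUnit hp j a h.1
    have h2 := castHom_eq_zero_of_not_isUnit hp j c h.2
    have h3 := congrArg (ZMod.castHom (dvd_pow_self p (Nat.succ_ne_zero j)) (ZMod p)) hxy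
    rw [map_add, map_mul, map_mul, h1, h2, mul_zero, mul_zero, add_zero, map_one] at h3
    exact zero_ne_one h3
  · rintro (⟨u, rfl⟩ | ⟨u, rfl⟩)
    · exact ⟨((u⁻¹ : (ZMod (p ^ (j + 1)))ˣ) : ZMod (p ^ (j + 1))), 0, by simp⟩
    · exact ⟨0, ((u⁻¹ : (ZMod (p ^ (j + 1)))ˣ) : ZMod (p ^ (j + 1))), by simp⟩

/-- Units as a subtype. -/
noncomputable def isUnitSubtypeEquivUnits (R : Type*) [Monoid R] : {a : R // IsUnit a} ≃ Rˣ where
  toFun a := a.2.unit
  invFun u := ⟨u, u.isUnit⟩
  left_inv a := Subtype.ext (IsUnit.unit_spec a.2)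
  right_inv u := Units.ext (IsUnit.unit_spec u.isUnit)

theorem natCard_subtype_add_compl {α : Type*} [Finite α] (P : α → Prop) :
    Nat.card {x // P x} + Nat.card {x // ¬ P x} = Nat.card α := by
  classical
  rw [← Nat.card_sum, Nat.card_congr (Equiv.sumCompl P)]

theorem card_not_isUnit (hp : p.Prime) (j : ℕ) :
    Nat.card {a : ZMod (p ^ (j + 1)) // ¬ IsUnit a} = p ^ j := by
  have : NeZero (p ^ (j + 1)) := ⟨pow_ne_zero _ hp.ne_zero⟩
  have h1 := natCard_subtype_add_compl (fun a : ZMod (p ^ (j + 1)) => IsUnit a)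
  rw [Nat.card_congr (isUnitSubtypeEquivUnits (ZMod (p ^ (j + 1)))),
    Nat.card_eq_fintype_card (α := (ZMod (p ^ (j + 1)))ˣ),
    ZMod.card_units_eq_totient, Nat.totient_prime_pow_succ hp, Nat.card_zmod] at h1
  obtain ⟨q, rfl⟩ : ∃ q, p = q + 1 := ⟨p - 1, (Nat.succ_pred_eq_of_pos hp.pos).symm⟩
  rw [Nat.add_sub_cancel] at h1
  have h2 : (q + 1) ^ j * q + (q + 1) ^ j = (q + 1) ^ (j + 1) := by ring
  omega

theorem card_prim_prime_pow (hp : p.Prime) (j : ℕ) :
    Nat.card (Prim (p ^ (j + 1))) + p ^ j * p ^ j = p ^ (j + 1) * p ^ (j + 1) := by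
  have : NeZero (p ^ (j + 1)) := ⟨pow_ne_zero _ hp.ne_zero⟩
  have e1 : Prim (p ^ (j + 1)) ≃
      {v : ZMod (p ^ (j + 1)) × ZMod (p ^ (j + 1)) // IsUnit v.1 ∨ IsUnit v.2} :=
    Equiv.subtypeEquivRight fun v => isCoprime_iff_isUnit_or hp j v.1 v.2
  have e2 : {v : ZMod (p ^ (j + 1)) × ZMod (p ^ (j + 1)) // ¬ (IsUnit v.1 ∨ IsUnit v.2)} ≃
      {a : ZMod (p ^ (j + 1)) // ¬ IsUnit a} × {a : ZMod (p ^ (j + 1)) // ¬ IsUnit a} :=
    (Equiv.subtypeEquivRight fun v => not_or).trans
      (Equiv.subtypeProdEquivProd (p := fun a : ZMod (p ^ (j + 1)) => ¬ IsUnit a)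
        (q := fun a : ZMod (p ^ (j + 1)) => ¬ IsUnit a))
  have h3 := natCard_subtype_add_compl
    (fun v : ZMod (p ^ (j + 1)) × ZMod (p ^ (j + 1)) => IsUnit v.1 ∨ IsUnit v.2)
  rw [Nat.card_congr e2, Nat.card_prod, card_not_isUnit hp j, Nat.card_prod,
    Nat.card_zmod, ← Nat.card_congr e1] at h3
  exact h3

end PrimePow

/-! ### Assembly -/

theorem card_prim_eq_psi_mul_totient (N : ℕ) (hN : N ≠ 0) :
    Nat.card (Prim N) = dedekindPsi N * N.totient := by
  induction N using Nat.recOnPosPrimePosCoprime with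
  | zero => exact absurd rfl hN
  | one =>
    rw [dedekindPsi_one, Nat.totient_one, mul_one]
    have : Subsingleton (Prim 1) := ⟨fun v w => Prim.ext (Subsingleton.elim _ _)
      (Subsingleton.elim _ _)⟩
    have : Nonempty (Prim 1) := ⟨Prim.e1⟩
    exact Nat.card_unique
  | prime_pow p n hp hn =>
    obtain ⟨j, rfl⟩ : ∃ j, n = j + 1 := ⟨n - 1, by omega⟩
    have h1 := card_prim_prime_pow hp j
    rw [dedekindPsi_prime_pow hp, Nat.totient_prime_pow_succ hp]
    clear hn
    obtain ⟨q, rfl⟩ : ∃ q, p = q + 1 := ⟨p - 1, (Nat.succ_pred_eq_of_pos hp.pos).symm⟩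
    rw [Nat.add_sub_cancel]
    have h2 : ((q + 1) ^ (j + 1) + (q + 1) ^ j) * ((q + 1) ^ j * q) + (q + 1) ^ j * (q + 1) ^ j
        = (q + 1) ^ (j + 1) * (q + 1) ^ (j + 1) := by ring
    omega
  | coprime a b ha hb hab iha ihb =>
    rw [card_prim_mul hab, dedekindPsi_mul hab, Nat.totient_mul hab, iha (by omega), ihb (by omega)]
    ring

theorem card_P1 (N : ℕ) [NeZero N] : Nat.card (P1 N) = ModularCurve.dedekindPsi N := by
  have h1 := card_prim_eq_card_P1_mul (N := N)
  rw [card_prim_eq_psi_mul_totient N (NeZero.ne N)] at h1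
  exact (Nat.eq_of_mul_eq_mul_right (Nat.totient_pos.mpr (NeZero.pos N)) h1).symm

end Fermat.Agent.S24.Comb
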