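/-
S24, block B7.b: the fixed points of `S` on `P1 N` are counted by `nuTwo N`.
-/
import Fermat.Agent.S24.CombModel
import Fermat.Prelude.Def_ModularCurve_GenusNumerics

set_option autoImplicit false

namespace Fermat.Agent.S24.Comb

open Matrix MatrixGroups ModularGroup

variable {N : ℕ}

/-- The primitive vector `(x, 1)`. -/
def primOne (x : ZMod N) : Prim N := ⟨(x, 1), isCoprime_one_right⟩

@[simp] theorem primOne_fst (x : ZMod N) : (primOne x).1.1 = x := rfl
@[simp] theorem primOne_snd (x : ZMod N) : (primOne x).1.2 = 1 := rfl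

theorem mk_primOne_injective : Function.Injective (fun x : ZMod N => P1.mk (primOne x)) := by
  intro x y h
  obtain ⟨u, hu⟩ := P1.mk_eq_mk.mp h
  have h1 := congrArg (fun v : Prim N => v.1.1) hu
  have h2 := congrArg (fun v : Prim N => v.1.2) hu
  simp only [Prim.units_smul_fst, Prim.units_smul_snd, primOne_fst, primOne_snd, mul_one] at h1 h2
  rw [h2, one_mul] at h1
  exact h1.symm

theorem S_smul_mk_primOne_of_sq {x : ZMod N} (hx : x ^ 2 + 1 = 0) :
    S • P1.mk (primOne x) = P1.mk (primOne x) := by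
  rw [P1.smul_mk, P1.mk_eq_mk]
  have hunit : x * (-x) = 1 := by linear_combination -hx
  refine ⟨Units.mkOfMulEqOne x (-x) hunit, ?_⟩
  apply Prim.ext
  · simp only [Prim.units_smul_fst, Units.val_mkOfMulEqOne, primOne_fst, S_smul_fst, primOne_snd]
    linear_combination hx
  · simp

theorem exists_sq_of_S_smul_eq {p : P1 N} (hp : S • p = p) :
    ∃ x : ZMod N, x ^ 2 + 1 = 0 ∧ P1.mk (primOne x) = p := by
  obtain ⟨v, rfl⟩ := P1.mk_surjective p
  rw [P1.smul_mk, P1.mk_eq_mk] at hp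
  obtain ⟨u, hu⟩ := hp
  have h1 := congrArg (fun w : Prim N => w.1.1) hu
  have h2 := congrArg (fun w : Prim N => w.1.2) hu
  simp only [Prim.units_smul_fst, Prim.units_smul_snd, S_smul_fst, S_smul_snd] at h1 h2
  -- `h1 : u * a = -c`, `h2 : u * c = a`
  set a := v.1.1 with ha
  set c := v.1.2 with hc
  obtain ⟨r, s, hrs⟩ := v.2
  rw [← ha, ← hc] at hrs
  -- `c` is a unit
  have hcunit : (r * (u : ZMod N) + s) * c = 1 := by
    rw [← hrs, ← h2]; ring
  have hcu : IsUnit c := IsUnit.of_mul_eq_one _ (by rw [mul_comm]; exact hcunit)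
  obtain ⟨c', hc'⟩ := hcu
  -- `u ^ 2 = -1`
  have hu2 : ((u : ZMod N) ^ 2 + 1) * c = 0 := by
    have : (u : ZMod N) ^ 2 * c = -c := by
      rw [pow_two, mul_assoc, h2, h1]
    rw [add_mul, this, one_mul, neg_add_cancel]
  have hu2' : (u : ZMod N) ^ 2 + 1 = 0 := by
    have := congrArg (· * ((c'⁻¹ : (ZMod N)ˣ) : ZMod N)) hu2
    simpa [mul_assoc, ← hc'] using this
  refine ⟨u, hu2', ?_⟩
  rw [P1.mk_eq_mk]
  refine ⟨c'⁻¹, ?_⟩
  apply Prim.ext
  · simp only [Prim.units_smul_fst, primOne_fst, ← ha]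
    rw [← h2, ← hc']
    rw [mul_comm (u : ZMod N), ← mul_assoc, Units.inv_mul, one_mul]
  · simp only [Prim.units_smul_snd, primOne_snd, ← hc, ← hc', Units.inv_mul]

/-- The bijection between square roots of `-1` in `ZMod N` and fixed points of `S` on `P1 N`. -/
noncomputable def sqrtNegOneEquivFixedByS (N : ℕ) :
    {x : ZMod N // x ^ 2 + 1 = 0} ≃ MulAction.fixedBy (P1 N) S :=
  Equiv.ofBijective
    (fun x => ⟨P1.mk (primOne x.1), S_smul_mk_primOne_of_sq x.2⟩)
    ⟨fun x y h => Subtype.ext (mk_primOne_injective (congrArg Subtype.val h)),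
     fun p => by
      obtain ⟨x, hx, hxp⟩ := exists_sq_of_S_smul_eq (p := p.1) p.2
      exact ⟨⟨x, hx⟩, Subtype.ext hxp⟩⟩

theorem card_fixedBy_S (N : ℕ) [NeZero N] :
    Nat.card (MulAction.fixedBy (P1 N) ModularGroup.S) = ModularCurve.nuTwo N := by
  rw [ModularCurve.nuTwo]
  exact (Nat.card_congr (sqrtNegOneEquivFixedByS N)).symm

end Fermat.Agent.S24.Comb
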