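/-
S24, block B7.c: the fixed points of `S * T` on `P1 N` are counted by `nuThree N`.
-/
import Fermat.Agent.S24.CombModel
import Fermat.Prelude.Def_ModularCurve_GenusNumerics

set_option autoImplicit false

namespace Fermat.Agent.S24.Comb

open ModularGroup

namespace FixST

variable {N : ℕ}

/-- The primitive vector `(1, x)`. -/
def pt (x : ZMod N) : Prim N := ⟨(1, x), isCoprime_one_left⟩

@[simp] theorem pt_fst (x : ZMod N) : (pt x).1.1 = 1 := rfl
@[simp] theorem pt_snd (x : ZMod N) : (pt x).1.2 = x := rfl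

theorem ST_smul_mk_pt_iff (x : ZMod N) :
    (S * T) • P1.mk (pt x) = P1.mk (pt x) ↔ x ^ 2 + x + 1 = 0 := by
  rw [P1.smul_mk, P1.mk_eq_mk]
  constructor
  · rintro ⟨u, hu⟩
    have h1 := congrArg (fun v : Prim N => v.1.1) hu
    have h2 := congrArg (fun v : Prim N => v.1.2) hu
    simp only [Prim.units_smul_fst, Prim.units_smul_snd, pt_fst, pt_snd, ST_smul_fst,
      ST_smul_snd, mul_one] at h1 h2
    rw [h1] at h2
    linear_combination -h2
  · intro h
    refine ⟨Units.mkOfMulEqOne (-x) (x + 1) (by linear_combination -h), ?_⟩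
    apply Prim.ext
    · simp
    · simp only [Prim.units_smul_snd, Units.val_mkOfMulEqOne, pt_snd, ST_smul_snd, pt_fst]
      linear_combination -h

theorem mk_pt_injective : Function.Injective (fun x : ZMod N => P1.mk (pt x)) := by
  intro x y hxy
  obtain ⟨u, hu⟩ := P1.mk_eq_mk.mp hxy
  have h1 := congrArg (fun v : Prim N => v.1.1) hu
  have h2 := congrArg (fun v : Prim N => v.1.2) hu
  simp only [Prim.units_smul_fst, Prim.units_smul_snd, pt_fst, pt_snd, mul_one] at h1 h2
  rw [h1, one_mul] at h2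
  exact h2.symm

/-- A fixed point of `S * T` is of the form `(1 : x)`. -/
theorem exists_pt_of_fixed (p : P1 N) (hp : (S * T) • p = p) :
    ∃ x : ZMod N, p = P1.mk (pt x) := by
  obtain ⟨v, rfl⟩ := P1.mk_surjective p
  rw [P1.smul_mk, P1.mk_eq_mk] at hp
  obtain ⟨u, hu⟩ := hp
  have h1 := congrArg (fun v : Prim N => v.1.1) hu
  simp only [Prim.units_smul_fst, ST_smul_fst] at h1
  -- `c = -u a`
  obtain ⟨r, s, hrs⟩ := v.2
  have hc : v.1.2 = -((u : ZMod N) * v.1.1) := by rw [h1]; ring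
  have ha : (r - s * (u : ZMod N)) * v.1.1 = 1 := by
    rw [hc] at hrs
    linear_combination hrs
  -- `a` is a unit with inverse `r - s u`
  have ha' : v.1.1 * (r - s * (u : ZMod N)) = 1 := by rw [mul_comm]; exact ha
  refine ⟨(r - s * (u : ZMod N)) * v.1.2, ?_⟩
  rw [P1.mk_eq_mk]
  refine ⟨⟨v.1.1, r - s * (u : ZMod N), ha', ha⟩, ?_⟩
  apply Prim.ext
  · simp only [Prim.units_smul_fst, pt_fst, mul_one]
  · simp only [Prim.units_smul_snd, pt_snd]
    rw [← mul_assoc, ha', one_mul]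

end FixST

open FixST in
theorem card_fixedBy_ST (N : ℕ) [NeZero N] :
    Nat.card (MulAction.fixedBy (P1 N) (ModularGroup.S * ModularGroup.T))
      = ModularCurve.nuThree N := by
  unfold ModularCurve.nuThree
  symm
  refine Nat.card_congr (Equiv.ofBijective
    (fun x : {x : ZMod N // x ^ 2 + x + 1 = 0} =>
      (⟨P1.mk (pt x.1), MulAction.mem_fixedBy.mpr ((ST_smul_mk_pt_iff x.1).mpr x.2)⟩ :
        MulAction.fixedBy (P1 N) (S * T))) ⟨?_, ?_⟩)
  · intro x y hxy
    have := congrArg Subtype.val hxy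
    exact Subtype.ext (mk_pt_injective this)
  · rintro ⟨p, hp⟩
    obtain ⟨x, rfl⟩ := exists_pt_of_fixed p (MulAction.mem_fixedBy.mp hp)
    exact ⟨⟨x, (ST_smul_mk_pt_iff x).mp (MulAction.mem_fixedBy.mp hp)⟩, rfl⟩

end Fermat.Agent.S24.Comb
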