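/-
S24, piece B7.f: orbit counts for an element acting with order dividing 2 / 3 on a finite set
(abstract group actions; Burnside for the cyclic group `ZMod n` acting through `s`).
Owner: helper64.
-/
import Mathlib

set_option autoImplicit false

namespace Fermat.Agent.S24.Comb

open MulAction

section

variable {G X : Type*} [Group G] [MulAction G X]

/-- If `s ^ n` acts trivially then so does every power of it. -/
lemma pow_pow_smul_of_pow_smul (s : G) (n : ℕ) (hs : ∀ x : X, s ^ n • x = x) (q : ℕ) (x : X) :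
    (s ^ n) ^ q • x = x := by
  induction q with
  | zero => simp
  | succ k ih => rw [pow_succ, mul_smul, hs, ih]

/-- If `s ^ n` acts trivially then `s ^ (m % n)` acts as `s ^ m`. -/
lemma pow_mod_smul (s : G) (n : ℕ) (hs : ∀ x : X, s ^ n • x = x) (m : ℕ) (x : X) :
    s ^ (m % n) • x = s ^ m • x := by
  conv_rhs => rw [← Nat.mod_add_div m n, pow_add, pow_mul, mul_smul,
    pow_pow_smul_of_pow_smul s n hs]

/-- If `s ^ n` acts trivially then `s ^ k` (`k : ℤ`) acts as `s ^ (k % n).toNat`. -/
lemma zpow_smul_eq_pow_smul (s : G) (n : ℕ) [NeZero n] (hs : ∀ x : X, s ^ n • x = x) (k : ℤ)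
    (x : X) : s ^ k • x = s ^ (k % (n : ℤ)).toNat • x := by
  have hn : (n : ℤ) ≠ 0 := by exact_mod_cast NeZero.ne n
  have hnn : 0 ≤ k % (n : ℤ) := Int.emod_nonneg k hn
  have h1 : ∀ q : ℤ, (s ^ n) ^ q • x = x := by
    intro q
    induction q using Int.induction_on with
    | zero => simp
    | succ i ih => rw [zpow_add_one, mul_smul, hs, ih]
    | pred i ih =>
      rw [zpow_sub_one, mul_smul]
      have : (s ^ n)⁻¹ • x = x := by
        rw [inv_smul_eq_iff, hs]
      rw [this, ih]
  conv_lhs => rw [← Int.emod_add_mul_ediv k n, zpow_add, zpow_mul, zpow_natCast, mul_smul, h1]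
  conv_lhs => rw [← Int.toNat_of_nonneg hnn, zpow_natCast]

/-- The action of the cyclic group `ZMod n` on `X` through an element `s` whose `n`-th power acts
trivially. -/
@[reducible] def cyclicAction (s : G) (n : ℕ) [NeZero n] (hs : ∀ x : X, s ^ n • x = x) :
    MulAction (Multiplicative (ZMod n)) X where
  smul k x := s ^ (Multiplicative.toAdd k).val • x
  one_smul x := by
    change s ^ (Multiplicative.toAdd (1 : Multiplicative (ZMod n))).val • x = x
    rw [toAdd_one, ZMod.val_zero, pow_zero, one_smul]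
  mul_smul a b x := by
    change s ^ (Multiplicative.toAdd (a * b)).val • x =
      s ^ (Multiplicative.toAdd a).val • (s ^ (Multiplicative.toAdd b).val • x)
    rw [toAdd_mul, ZMod.val_add, pow_mod_smul s n hs, pow_add, mul_smul]

lemma cyclicAction_smul_def (s : G) (n : ℕ) [NeZero n] (hs : ∀ x : X, s ^ n • x = x)
    (k : Multiplicative (ZMod n)) (x : X) :
    letI := cyclicAction s n hs
    k • x = s ^ (Multiplicative.toAdd k).val • x := rfl

/-- The orbits of `zpowers s` coincide with the orbits of the cyclic action. -/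
lemma orbitRel_zpowers_iff (s : G) (n : ℕ) [NeZero n] (hs : ∀ x : X, s ^ n • x = x) (x y : X) :
    letI := cyclicAction s n hs
    (orbitRel (Subgroup.zpowers s) X).r x y ↔ (orbitRel (Multiplicative (ZMod n)) X).r x y := by
  let := cyclicAction s n hs
  change x ∈ orbit (Subgroup.zpowers s) y ↔ x ∈ orbit (Multiplicative (ZMod n)) y
  constructor
  · rintro ⟨⟨g, hg⟩, rfl⟩
    obtain ⟨k, rfl⟩ := Subgroup.mem_zpowers_iff.mp hg
    refine ⟨Multiplicative.ofAdd (((k % (n : ℤ)).toNat : ℕ) : ZMod n), ?_⟩
    change s ^ (Multiplicative.toAdd (Multiplicative.ofAdd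
      (((k % (n : ℤ)).toNat : ℕ) : ZMod n))).val • y = (s ^ k) • y
    rw [toAdd_ofAdd, ZMod.val_natCast, pow_mod_smul s n hs, ← zpow_smul_eq_pow_smul s n hs]
  · rintro ⟨k, rfl⟩
    refine ⟨⟨s ^ (Multiplicative.toAdd k).val, ?_⟩, rfl⟩
    exact Subgroup.pow_mem _ (Subgroup.mem_zpowers s) _

/-- Burnside for the cyclic action through `s`. -/
theorem card_orbits_mul_eq_sum (s : G) (n : ℕ) [NeZero n] [Finite X]
    (hs : ∀ x : X, s ^ n • x = x) :
    Nat.card (orbitRel.Quotient (Subgroup.zpowers s) X) * n =
      ∑ k : ZMod n, Nat.card (fixedBy X (s ^ k.val)) := by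
  classical
  let := cyclicAction s n hs
  have : Fintype X := Fintype.ofFinite X
  have hq : Nat.card (orbitRel.Quotient (Subgroup.zpowers s) X) =
      Nat.card (Quotient (orbitRel (Multiplicative (ZMod n)) X)) :=
    Nat.card_congr (Quotient.congrRight fun x y => orbitRel_zpowers_iff s n hs x y)
  have hB := sum_card_fixedBy_eq_card_orbits_mul_card_group (Multiplicative (ZMod n)) X
  rw [hq, Nat.card_eq_fintype_card]
  have hc : Fintype.card (Multiplicative (ZMod n)) = n := by
    rw [Fintype.card_multiplicative, ZMod.card]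
  rw [hc] at hB
  rw [← hB]
  rw [← Equiv.sum_comp Multiplicative.ofAdd]
  refine Finset.sum_congr rfl fun k _ => ?_
  rw [Nat.card_eq_fintype_card]
  have : fixedBy X (Multiplicative.ofAdd k) = fixedBy X (s ^ k.val) := by
    ext x
    simp only [mem_fixedBy]
    rfl
  exact (Fintype.card_congr (Equiv.setCongr this)).symm

end

theorem two_mul_card_orbits {G X : Type*} [Group G] [MulAction G X] [Finite X] (s : G)
    (hs : ∀ x : X, (s * s) • x = x) :
    2 * Nat.card (MulAction.orbitRel.Quotient (Subgroup.zpowers s) X)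
      = Nat.card X + Nat.card (MulAction.fixedBy X s) := by
  have hs' : ∀ x : X, s ^ 2 • x = x := fun x => by rw [pow_two]; exact hs x
  have h := card_orbits_mul_eq_sum s 2 hs'
  rw [mul_comm, h]
  change ∑ k : Fin 2, Nat.card (fixedBy X (s ^ (k : ℕ))) = _
  rw [Fin.sum_univ_two]
  simp only [Fin.val_zero, pow_zero, Fin.val_one, pow_one]
  congr 1
  have : fixedBy X (1 : G) = Set.univ := by
    ext x; simp
  rw [this, Nat.card_congr (Equiv.Set.univ X)]

theorem three_mul_card_orbits {G X : Type*} [Group G] [MulAction G X] [Finite X] (s : G)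
    (hs : ∀ x : X, (s * s * s) • x = x) :
    3 * Nat.card (MulAction.orbitRel.Quotient (Subgroup.zpowers s) X)
      = Nat.card X + 2 * Nat.card (MulAction.fixedBy X s) := by
  have hs' : ∀ x : X, s ^ 3 • x = x := fun x => by
    rw [pow_succ, pow_two]; exact hs x
  have h := card_orbits_mul_eq_sum s 3 hs'
  rw [mul_comm, h]
  change ∑ k : Fin 3, Nat.card (fixedBy X (s ^ (k : ℕ))) = _
  rw [Fin.sum_univ_three]
  simp only [Fin.val_zero, pow_zero, Fin.val_one, pow_one, Fin.val_two]
  have h1 : fixedBy X (1 : G) = Set.univ := by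
    ext x; simp
  have h2 : fixedBy X (s ^ 2) = fixedBy X s := by
    ext x
    simp only [mem_fixedBy]
    constructor
    · intro h2
      have h3 := hs' x
      rw [pow_succ', mul_smul, h2] at h3
      exact h3
    · intro h1
      rw [pow_two, mul_smul, h1, h1]
  rw [h1, h2, Nat.card_congr (Equiv.Set.univ X)]
  ring

end Fermat.Agent.S24.Comb
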