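/-
S24, piece B7.e1: parity of orbit numbers.
For a group `G` acting on a finite set `X` and `s t : G`, the number
`|X| + r(s) + r(t) + r(s t)` is even, where `r(g)` is the number of orbits of `⟨g⟩` on `X`.
Owner: helper54.
-/
import Mathlib

set_option autoImplicit false

namespace Fermat.Agent.S24.Comb.Parity

open Equiv Equiv.Perm MulAction

section Perm

variable {α : Type*} [Fintype α] [DecidableEq α]

/-- The classifying map: a point goes to its cycle (if moved) or to itself (if fixed). -/
noncomputable def orbitClass (f : Perm α) (x : α) :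
    {c : Perm α // c ∈ f.cycleFactorsFinset} ⊕ {y : α // f y = y} :=
  if h : f x = x then Sum.inr ⟨x, h⟩
  else Sum.inl ⟨f.cycleOf x, cycleOf_mem_cycleFactorsFinset_iff.mpr (mem_support.mpr h)⟩

theorem orbitClass_eq_iff (f : Perm α) (x y : α) :
    orbitClass f x = orbitClass f y ↔ f.SameCycle x y := by
  unfold orbitClass
  by_cases hx : f x = x
  · by_cases hy : f y = y
    · rw [dif_pos hx, dif_pos hy]
      constructor
      · intro h
        have : x = y := by simpa using h
        rw [this]
      · rintro ⟨k, hk⟩
        have hxk : (f ^ k) x = x := zpow_apply_eq_self_of_apply_eq_self hx k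
        have : x = y := by rw [← hxk, hk]
        subst this
        rfl
    · rw [dif_pos hx, dif_neg hy]
      constructor
      · intro h; simp at h
      · intro h
        exact absurd (h.apply_eq_self_iff.mp hx) hy
  · by_cases hy : f y = y
    · rw [dif_neg hx, dif_pos hy]
      constructor
      · intro h; simp at h
      · intro h
        exact absurd (h.apply_eq_self_iff.mpr hy) hx
    · rw [dif_neg hx, dif_neg hy]
      constructor
      · intro h
        have h' : f.cycleOf x = f.cycleOf y := by simpa using h
        exact (sameCycle_iff_cycleOf_eq_of_mem_support (mem_support.mpr hx)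
          (mem_support.mpr hy)).mpr h'
      · intro h
        have h' : f.cycleOf x = f.cycleOf y := h.cycleOf_eq
        simp [h']

theorem orbitClass_surjective (f : Perm α) : Function.Surjective (orbitClass f) := by
  rintro (⟨c, hc⟩ | ⟨y, hy⟩)
  · have hcyc : c.IsCycle := (mem_cycleFactorsFinset_iff.mp hc).1
    obtain ⟨a, ha⟩ := hcyc.nonempty_support
    have hca : c = f.cycleOf a := cycle_is_cycleOf ha hc
    have hfa : f a ≠ a := by
      have h1 := (mem_cycleFactorsFinset_iff.mp hc).2 a ha
      rw [← h1]
      exact mem_support.mp ha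
    refine ⟨a, ?_⟩
    unfold orbitClass
    rw [dif_neg hfa]
    simp [hca]
  · refine ⟨y, ?_⟩
    unfold orbitClass
    rw [dif_pos hy]

/-- Number of classes of `SameCycle` = number of nontrivial cycles + number of fixed points. -/
theorem card_quotient_sameCycle (f : Perm α) :
    Nat.card (Quotient (SameCycle.setoid f)) =
      f.cycleFactorsFinset.card + (Finset.univ.filter fun y => f y = y).card := by
  classical
  let Φ : Quotient (SameCycle.setoid f) →
      {c : Perm α // c ∈ f.cycleFactorsFinset} ⊕ {y : α // f y = y} :=
    Quotient.lift (orbitClass f) (fun x y h => (orbitClass_eq_iff f x y).mpr h)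
  have hΦ : Function.Bijective Φ := by
    constructor
    · intro a b
      induction a using Quotient.inductionOn
      induction b using Quotient.inductionOn
      intro h
      exact Quotient.sound ((orbitClass_eq_iff f _ _).mp h)
    · intro z
      obtain ⟨x, hx⟩ := orbitClass_surjective f z
      exact ⟨Quotient.mk _ x, hx⟩
  rw [Nat.card_congr (Equiv.ofBijective Φ hΦ), Nat.card_eq_fintype_card, Fintype.card_sum,
    Fintype.card_coe, Fintype.card_subtype]

/-- `(-1)^(number of orbits of f) = (-1)^|α| * sign f`. -/
theorem neg_one_pow_card_quotient_sameCycle (f : Perm α) :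
    (-1 : ℤˣ) ^ Nat.card (Quotient (SameCycle.setoid f)) =
      (-1) ^ Fintype.card α * Perm.sign f := by
  have hfix : (Finset.univ.filter fun y => f y = y) = f.supportᶜ := by
    ext y
    simp [mem_support]
  have hle : f.support.card ≤ Fintype.card α := Finset.card_le_univ _
  rw [card_quotient_sameCycle, hfix, Finset.card_compl, sign_of_cycleType, sum_cycleType,
    cycleType_def, Multiset.card_map, Finset.card_val]
  have h2 : (-1 : ℤˣ) ^ (Fintype.card α - f.support.card) =
      (-1) ^ (Fintype.card α + f.support.card) := by
    have : Fintype.card α + f.support.card =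
        (Fintype.card α - f.support.card) + 2 * f.support.card := by omega
    rw [this, pow_add, pow_mul]
    simp
  rw [pow_add, h2, pow_add, pow_add]
  -- commutative group identity
  generalize ((-1 : ℤˣ) ^ f.cycleFactorsFinset.card) = a
  generalize ((-1 : ℤˣ) ^ Fintype.card α) = b
  generalize ((-1 : ℤˣ) ^ f.support.card) = c
  rw [mul_comm a, mul_assoc]

end Perm

section Action

variable {G X : Type*} [Group G] [MulAction G X]

/-- Orbits of `⟨g⟩` on `X` are the `SameCycle` classes of the permutation `toPerm g`. -/
theorem orbitRel_zpowers_iff (g : G) (x y : X) :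
    (MulAction.orbitRel (Subgroup.zpowers g) X) x y ↔ (MulAction.toPerm g : Perm X).SameCycle y x := by
  have key : ∀ k : ℤ, ((MulAction.toPerm g : Perm X) ^ k) = MulAction.toPerm (g ^ k) :=
    fun k => (map_zpow (MulAction.toPermHom G X) g k).symm
  rw [MulAction.orbitRel_apply, MulAction.mem_orbit_iff]
  constructor
  · rintro ⟨⟨h, hh⟩, hk⟩
    obtain ⟨k, rfl⟩ := Subgroup.mem_zpowers_iff.mp hh
    refine ⟨k, ?_⟩
    rw [key, ← hk]
    rfl
  · rintro ⟨k, hk⟩
    refine ⟨⟨g ^ k, Subgroup.zpow_mem_zpowers g k⟩, ?_⟩
    rw [key] at hk
    rw [← hk]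
    rfl

/-- The two quotients are in bijection. -/
noncomputable def orbitQuotientEquiv (g : G) :
    MulAction.orbitRel.Quotient (Subgroup.zpowers g) X ≃
      Quotient (SameCycle.setoid (MulAction.toPerm g : Perm X)) :=
  Quotient.congr (Equiv.refl X) (fun x y => by
    rw [orbitRel_zpowers_iff]
    exact ⟨fun h => h.symm, fun h => h.symm⟩)

theorem neg_one_pow_card_orbits [Fintype X] [DecidableEq X] (g : G) :
    (-1 : ℤˣ) ^ Nat.card (MulAction.orbitRel.Quotient (Subgroup.zpowers g) X) =
      (-1) ^ Fintype.card X * Perm.sign (MulAction.toPerm g : Perm X) := by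
  rw [Nat.card_congr (orbitQuotientEquiv g), neg_one_pow_card_quotient_sameCycle]

end Action

end Fermat.Agent.S24.Comb.Parity

namespace Fermat.Agent.S24.Comb

open Equiv Equiv.Perm MulAction Fermat.Agent.S24.Comb.Parity

/-- **B7.e1**: `|X| + r(s) + r(t) + r(st)` is even. -/
theorem even_card_add_orbits {G X : Type*} [Group G] [MulAction G X] [Finite X] (s t : G) :
    Even (Nat.card X
      + Nat.card (MulAction.orbitRel.Quotient (Subgroup.zpowers s) X)
      + Nat.card (MulAction.orbitRel.Quotient (Subgroup.zpowers t) X)
      + Nat.card (MulAction.orbitRel.Quotient (Subgroup.zpowers (s * t)) X)) := by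
  classical
  have : Fintype X := Fintype.ofFinite X
  have hne : (-1 : ℤˣ) ≠ 1 := by decide
  rw [← neg_one_pow_eq_one_iff_even hne, pow_add, pow_add, pow_add, neg_one_pow_card_orbits,
    neg_one_pow_card_orbits, neg_one_pow_card_orbits, Nat.card_eq_fintype_card]
  have hst : (MulAction.toPerm (s * t) : Perm X) = MulAction.toPerm s * MulAction.toPerm t :=
    map_mul (MulAction.toPermHom G X) s t
  rw [hst, map_mul]
  generalize ((-1 : ℤˣ) ^ Fintype.card X) = b
  generalize Perm.sign (MulAction.toPerm s : Perm X) = u
  generalize Perm.sign (MulAction.toPerm t : Perm X) = v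
  have hb : b * b = 1 := Int.units_mul_self b
  have hu : u * u = 1 := Int.units_mul_self u
  have hv : v * v = 1 := Int.units_mul_self v
  calc b * (b * u) * (b * v) * (b * (u * v))
      = (b * b) * (b * b) * (u * u) * (v * v) := by
        simp only [mul_comm, mul_left_comm]
    _ = 1 := by rw [hb, hu, hv]; simp

end Fermat.Agent.S24.Comb
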