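/-
S24 helper (owner: helper31): the Ree–Scott inequality
`r(s) + r(t) + r(st) ≤ n + 2` for a transitive action of `⟨s, t⟩` on `n` points
(`r(g)` = number of orbits of `⟨g⟩`), by Scott's linear-algebra argument over `ℚ`.
-/
import Mathlib

set_option autoImplicit false
set_option linter.unusedSectionVars false

namespace Fermat.Agent.S24.Comb

open Module

section perm

variable {G X : Type*} [Group G] [MulAction G X]

/-- The permutation operator `(P g v) x = v (g⁻¹ • x)` on `X → ℚ`. -/
noncomputable def permOp (g : G) : (X → ℚ) →ₗ[ℚ] (X → ℚ) :=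
  LinearMap.funLeft ℚ ℚ (fun x : X => g⁻¹ • x)

lemma permOp_apply (g : G) (v : X → ℚ) (x : X) : permOp g v x = v (g⁻¹ • x) := rfl

lemma permOp_one (v : X → ℚ) : permOp (1 : G) v = v := by
  funext x; simp [permOp_apply]

lemma permOp_mul (g h : G) (v : X → ℚ) : permOp (g * h) v = permOp g (permOp h v) := by
  funext x; simp [permOp_apply, mul_smul]

lemma permOp_inv_permOp (g : G) (v : X → ℚ) : permOp g⁻¹ (permOp g v) = v := by
  rw [← permOp_mul, inv_mul_cancel, permOp_one]

lemma permOp_single [DecidableEq X] (g : G) (x : X) :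
    permOp g (Pi.single x (1 : ℚ)) = Pi.single (g • x) (1 : ℚ) := by
  funext y
  rw [permOp_apply, Pi.single_apply, Pi.single_apply]
  congr 1
  rw [eq_iff_iff]
  constructor
  · intro h; rw [← h, smul_inv_smul]
  · intro h; rw [h, inv_smul_smul]

/-- Vectors fixed by `P g` are fixed by `P h` for all `h` in a subgroup generated by such `g`. -/
lemma permOp_fixed_of_mem_closure {S : Set G} {v : X → ℚ} (hS : ∀ g ∈ S, permOp g v = v)
    {h : G} (hh : h ∈ Subgroup.closure S) : permOp h v = v := by
  induction hh using Subgroup.closure_induction with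
  | mem g hg => exact hS g hg
  | one => exact permOp_one v
  | mul a b _ _ ha hb => rw [permOp_mul, hb, ha]
  | inv a _ ha =>
    have := permOp_inv_permOp a v
    rwa [ha] at this

end perm

section orbits

variable {G X : Type*} [Group G] [MulAction G X] [Fintype X]

/-- The fixed space of `P g` has dimension the number of `⟨g⟩`-orbits. -/
theorem finrank_ker_one_sub_permOp (g : G) :
    finrank ℚ (LinearMap.ker ((1 : (X → ℚ) →ₗ[ℚ] (X → ℚ)) - permOp g)) =
      Nat.card (MulAction.orbitRel.Quotient (Subgroup.zpowers g) X) := by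
  classical
  set Ω := MulAction.orbitRel.Quotient (Subgroup.zpowers g) X with hΩ
  have : Finite Ω := Quotient.finite _
  have : Fintype Ω := Fintype.ofFinite Ω
  let mk : X → Ω := Quotient.mk''
  have hmk : Function.Surjective mk := Quotient.mk''_surjective
  let Φ : (Ω → ℚ) →ₗ[ℚ] (X → ℚ) := LinearMap.funLeft ℚ ℚ mk
  have hΦinj : Function.Injective Φ := LinearMap.funLeft_injective_of_surjective ℚ ℚ mk hmk
  have hrange : LinearMap.range Φ = LinearMap.ker ((1 : (X → ℚ) →ₗ[ℚ] (X → ℚ)) - permOp g) := by
    ext v
    simp only [LinearMap.mem_range, LinearMap.mem_ker, LinearMap.sub_apply, Module.End.one_apply,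
      sub_eq_zero]
    constructor
    · rintro ⟨f, rfl⟩
      funext x
      rw [permOp_apply]
      show f (mk x) = f (mk (g⁻¹ • x))
      congr 1
      apply Quotient.sound
      change MulAction.orbitRel (Subgroup.zpowers g) X x (g⁻¹ • x)
      rw [MulAction.orbitRel_apply]
      exact ⟨⟨g, Subgroup.mem_zpowers g⟩, by simp [Subgroup.smul_def]⟩
    · intro hv
      -- `v` is invariant under all of `zpowers g`
      have hinv : ∀ h ∈ Subgroup.zpowers g, permOp h v = v := by
        intro h hh
        rw [Subgroup.zpowers_eq_closure] at hh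
        exact permOp_fixed_of_mem_closure (S := {g}) (by
          intro g' hg'; rw [Set.mem_singleton_iff] at hg'; rw [hg']; exact hv.symm) hh
      refine ⟨Quotient.lift v ?_, ?_⟩
      · intro a b hab
        change MulAction.orbitRel (Subgroup.zpowers g) X a b at hab
        rw [MulAction.orbitRel_apply] at hab
        obtain ⟨⟨h, hh⟩, rfl⟩ := hab
        have := congrFun (hinv h⁻¹ (inv_mem hh)) b
        rw [permOp_apply, inv_inv] at this
        exact this
      · funext x
        rfl
  rw [← hrange, LinearMap.finrank_range_of_inj hΦinj, Module.finrank_fintype_fun_eq_card,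
    Nat.card_eq_fintype_card]

end orbits


section scott

variable {G X : Type*} [Group G] [MulAction G X] [Fintype X]

/-- `T g = 1 - P g`. -/
noncomputable abbrev oneSub (g : G) : (X → ℚ) →ₗ[ℚ] (X → ℚ) :=
  (1 : (X → ℚ) →ₗ[ℚ] (X → ℚ)) - permOp g

lemma oneSub_apply (g : G) (v : X → ℚ) : oneSub g v = v - permOp g v := rfl

/-- **Scott's inequality** for the permutation representation of a transitive group generated by
`s, t` (with `u = (s t)⁻¹`): `2 n ≤ rk(1-s) + rk(1-t) + rk(1-u) + 2`. -/
theorem two_mul_card_le [MulAction.IsPretransitive G X] [Nonempty X] (s t : G)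
    (hgen : Subgroup.closure {s, t} = ⊤) :
    2 * Fintype.card X ≤
      finrank ℚ (LinearMap.range (oneSub (X := X) s)) +
      finrank ℚ (LinearMap.range (oneSub (X := X) t)) +
      finrank ℚ (LinearMap.range (oneSub (X := X) (s * t)⁻¹)) + 2 := by
  classical
  set u : G := (s * t)⁻¹ with hu
  set Rs := LinearMap.range (oneSub (X := X) s) with hRs
  set Rt := LinearMap.range (oneSub (X := X) t) with hRt
  set Ru := LinearMap.range (oneSub (X := X) u) with hRu
  let β : (X → ℚ) →ₗ[ℚ] (Rs × Rt × Ru) :=
    (oneSub s).rangeRestrict.prod ((oneSub t).rangeRestrict.prod (oneSub u).rangeRestrict)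
  let δ : (Rs × Rt × Ru) →ₗ[ℚ] (X → ℚ) :=
    Rs.subtype.coprod (((permOp s) ∘ₗ Rt.subtype).coprod ((permOp (s * t)) ∘ₗ Ru.subtype))
  have hδ : ∀ a b c, δ (a, b, c) = (a : X → ℚ) + (permOp s (b : X → ℚ) +
      permOp (s * t) (c : X → ℚ)) := fun a b c => rfl
  have hβ : ∀ v, β v = (⟨oneSub s v, ⟨v, rfl⟩⟩, ⟨oneSub t v, ⟨v, rfl⟩⟩, ⟨oneSub u v, ⟨v, rfl⟩⟩) :=
    fun v => rfl
  -- (1) `δ ∘ β = 0`
  have h1 : LinearMap.range β ≤ LinearMap.ker δ := by
    rintro _ ⟨v, rfl⟩
    rw [LinearMap.mem_ker, hβ, hδ]
    simp only [oneSub_apply, map_sub]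
    have e1 : permOp (s * t) (permOp u v) = v := by
      rw [← permOp_mul, hu, mul_inv_cancel, permOp_one]
    have e2 : permOp s (permOp t v) = permOp (s * t) v := (permOp_mul s t v).symm
    rw [e1, e2]
    abel
  -- (2) `ker β` consists of constants
  have h2 : finrank ℚ (LinearMap.ker β) ≤ 1 := by
    have hle : LinearMap.ker β ≤ Submodule.span ℚ {(fun _ => 1 : X → ℚ)} := by
      intro v hv
      rw [LinearMap.mem_ker, hβ] at hv
      simp only [Prod.mk_eq_zero] at hv
      obtain ⟨hs, ht, -⟩ := hv
      have hs0 : oneSub s v = 0 := congrArg Subtype.val hs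
      have ht0 : oneSub t v = 0 := congrArg Subtype.val ht
      have hs' : permOp s v = v := by
        rw [oneSub_apply, sub_eq_zero] at hs0; exact hs0.symm
      have ht' : permOp t v = v := by
        rw [oneSub_apply, sub_eq_zero] at ht0; exact ht0.symm
      have hall : ∀ h : G, permOp h v = v := fun h =>
        permOp_fixed_of_mem_closure (S := {s, t}) (by
          intro g hg
          rcases hg with rfl | rfl
          · exact hs'
          · exact ht') (hgen ▸ Subgroup.mem_top h)
      obtain ⟨x0⟩ := ‹Nonempty X›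
      rw [Submodule.mem_span_singleton]
      refine ⟨v x0, ?_⟩
      funext y
      obtain ⟨g, hg⟩ := MulAction.exists_smul_eq G y x0
      have := congrFun (hall g⁻¹) y
      rw [permOp_apply, inv_inv, hg] at this
      simp [this]
    have hne : (fun _ => 1 : X → ℚ) ≠ 0 := by
      obtain ⟨x0⟩ := ‹Nonempty X›
      intro h
      have := congrFun h x0
      simp at this
    calc finrank ℚ (LinearMap.ker β) ≤ finrank ℚ (Submodule.span ℚ {(fun _ => 1 : X → ℚ)}) :=
          Submodule.finrank_mono hle
      _ = 1 := finrank_span_singleton hne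
  -- (3) `range δ` has codimension at most one
  have h3 : Fintype.card X ≤ finrank ℚ (LinearMap.range δ) + 1 := by
    set U := LinearMap.range δ with hU
    have ha : ∀ v, oneSub s v ∈ U := fun v =>
      ⟨(⟨oneSub s v, ⟨v, rfl⟩⟩, 0, 0), by rw [hδ]; simp⟩
    have hb : ∀ v, permOp s (oneSub t v) ∈ U := fun v =>
      ⟨(0, ⟨oneSub t v, ⟨v, rfl⟩⟩, 0), by rw [hδ]; simp⟩
    have hc : ∀ v, oneSub t v ∈ U := fun v => by
      have : oneSub t v = permOp s (oneSub t v) + oneSub s (oneSub t v) := by
        rw [oneSub_apply s]; abel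
      rw [this]
      exact U.add_mem (hb v) (ha _)
    have hsingle : ∀ (g : G) (x : X), oneSub g (Pi.single x (1 : ℚ)) =
        Pi.single x (1 : ℚ) - Pi.single (g • x) (1 : ℚ) := fun g x => by
      rw [oneSub_apply, permOp_single]
    have hH : ∀ g : G, ∀ x : X, (Pi.single x (1 : ℚ) - Pi.single (g • x) (1 : ℚ) : X → ℚ) ∈ U := by
      intro g
      have hg : g ∈ Subgroup.closure {s, t} := hgen ▸ Subgroup.mem_top g
      induction hg using Subgroup.closure_induction with
      | mem g hg =>
        intro x
        rcases hg with rfl | rfl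
        · rw [← hsingle]; exact ha _
        · rw [← hsingle]; exact hc _
      | one => intro x; simp
      | mul a b _ _ ha' hb' =>
        intro x
        have := U.add_mem (hb' x) (ha' (b • x))
        rw [mul_smul]
        convert this using 1
        abel
      | inv a _ ha' =>
        intro x
        have := U.neg_mem (ha' (a⁻¹ • x))
        rw [smul_inv_smul] at this
        convert this using 1
        abel
    obtain ⟨x0⟩ := ‹Nonempty X›
    have htop : U ⊔ Submodule.span ℚ {(Pi.single x0 (1 : ℚ) : X → ℚ)} = ⊤ := by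
      rw [eq_top_iff]
      intro v _
      have hv : v = ∑ x, v x • (Pi.single x (1 : ℚ) : X → ℚ) := by
        funext y
        simp [Finset.sum_apply, Pi.single_apply]
      rw [hv]
      refine Submodule.sum_mem _ fun x _ => Submodule.smul_mem _ _ ?_
      obtain ⟨g, hg⟩ := MulAction.exists_smul_eq G x0 x
      have h1 : (Pi.single x (1 : ℚ) : X → ℚ) =
          - (Pi.single x0 (1 : ℚ) - Pi.single (g • x0) (1 : ℚ)) + Pi.single x0 (1 : ℚ) := by
        rw [hg]; abel
      rw [h1]
      exact Submodule.add_mem _ (Submodule.mem_sup_left (U.neg_mem (hH g x0)))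
        (Submodule.mem_sup_right (Submodule.mem_span_singleton_self _))
    have hcard : finrank ℚ (X → ℚ) = Fintype.card X := Module.finrank_fintype_fun_eq_card ℚ
    have hle := Submodule.finrank_add_le_finrank_add_finrank U
      (Submodule.span ℚ {(Pi.single x0 (1 : ℚ) : X → ℚ)})
    rw [htop, finrank_top, hcard] at hle
    have hsp : finrank ℚ (Submodule.span ℚ {(Pi.single x0 (1 : ℚ) : X → ℚ)}) ≤ 1 := by
      refine (finrank_span_le_card _).trans ?_
      simp
    omega
  -- (4) counting
  have hcard : finrank ℚ (X → ℚ) = Fintype.card X := Module.finrank_fintype_fun_eq_card ℚ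
  have c1 := LinearMap.finrank_range_add_finrank_ker δ
  have c2 := LinearMap.finrank_range_add_finrank_ker β
  have c3 : finrank ℚ (LinearMap.range β) ≤ finrank ℚ (LinearMap.ker δ) := Submodule.finrank_mono h1
  have c4 : finrank ℚ (Rs × Rt × Ru) = finrank ℚ Rs + (finrank ℚ Rt + finrank ℚ Ru) := by
    rw [Module.finrank_prod, Module.finrank_prod]
  rw [hcard] at c2
  omega

/-- **Ree–Scott inequality**: for a transitive action of a group generated by `s, t` on a finite
set `X`, the numbers of orbits of `⟨s⟩`, `⟨t⟩`, `⟨s t⟩` add up to at most `|X| + 2`. -/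
theorem orbits_le_card_add_two {G X : Type*} [Group G] [MulAction G X] [Finite X]
    [MulAction.IsPretransitive G X] [Nonempty X] (s t : G) (hgen : Subgroup.closure {s, t} = ⊤) :
    Nat.card (MulAction.orbitRel.Quotient (Subgroup.zpowers s) X)
      + Nat.card (MulAction.orbitRel.Quotient (Subgroup.zpowers t) X)
      + Nat.card (MulAction.orbitRel.Quotient (Subgroup.zpowers (s * t)) X) ≤ Nat.card X + 2 := by
  classical
  have : Fintype X := Fintype.ofFinite X
  have key := two_mul_card_le (X := X) s t hgen
  have hcard : finrank ℚ (X → ℚ) = Fintype.card X := Module.finrank_fintype_fun_eq_card ℚ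
  have hX : Nat.card X = Fintype.card X := Nat.card_eq_fintype_card
  have ks : finrank ℚ (LinearMap.range (oneSub (X := X) s)) +
      Nat.card (MulAction.orbitRel.Quotient (Subgroup.zpowers s) X) = Fintype.card X := by
    rw [← hcard, ← finrank_ker_one_sub_permOp (X := X) s]
    exact LinearMap.finrank_range_add_finrank_ker (oneSub (X := X) s)
  have kt : finrank ℚ (LinearMap.range (oneSub (X := X) t)) +
      Nat.card (MulAction.orbitRel.Quotient (Subgroup.zpowers t) X) = Fintype.card X := by
    rw [← hcard, ← finrank_ker_one_sub_permOp (X := X) t]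
    exact LinearMap.finrank_range_add_finrank_ker (oneSub (X := X) t)
  have ku : finrank ℚ (LinearMap.range (oneSub (X := X) (s * t)⁻¹)) +
      Nat.card (MulAction.orbitRel.Quotient (Subgroup.zpowers (s * t)) X) = Fintype.card X := by
    have eu := finrank_ker_one_sub_permOp (X := X) (s * t)⁻¹
    rw [Subgroup.zpowers_inv] at eu
    rw [← hcard, ← eu]
    exact LinearMap.finrank_range_add_finrank_ker (oneSub (X := X) (s * t)⁻¹)
  omega

end scott

end Fermat.Agent.S24.Comb
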