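/-
S24, block B7.0: an explicit model of the projective line over `ZMod N`, with the left action of
`SL(2, ℤ)`, and the `SL(2, ℤ)`-equivariant bijection
`SL(2, ℤ) ⧸ Gamma0 N ≃ P1 N`, `g Γ₀(N) ↦ class of the first column of g`.
(Left cosets, left multiplication action: the convention of Mathlib's `NormTrace` file.)
-/
import Mathlib

set_option autoImplicit false

open Matrix MatrixGroups CongruenceSubgroup

namespace Fermat.Agent.S24.P1Model

/-- If `gcd(x, n, m) = 1` and `m ≠ 0`, some `x + k n` is coprime to `m`. -/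
theorem exists_add_mul_coprime (x n m : ℕ) (hm : m ≠ 0)
    (h : ∀ p : ℕ, p.Prime → p ∣ x → p ∣ n → p ∣ m → False) :
    ∃ k : ℕ, (x + k * n).Coprime m := by
  classical
  let ps : Finset ℕ := {p ∈ m.primeFactors | ¬p ∣ x}
  refine ⟨ps.prod id, ?_⟩
  apply Nat.coprime_of_dvd
  intro p pp hp hpm
  by_cases hpx : p ∣ x
  · have h1 := (Nat.dvd_add_right hpx).mp hp
    rcases pp.dvd_mul.mp h1 with h2 | h2
    · obtain ⟨q, hq, hq'⟩ := (pp.prime.dvd_finsetProd_iff id).mp h2
      rw [Finset.mem_filter, Nat.mem_primeFactors,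
        ← (Nat.prime_dvd_prime_iff_eq pp hq.1.1).mp hq'] at hq
      exact hq.2 hpx
    · exact h p pp hpx h2 hpm
  · have pps : p ∈ ps := Finset.mem_filter.mpr ⟨Nat.mem_primeFactors.mpr ⟨pp, hpm, hm⟩, hpx⟩
    have h1 : p ∣ ps.prod id * n := (Finset.dvd_prod_of_mem id pps).mul_right n
    exact hpx ((Nat.dvd_add_left h1).mp hp)

/-- A primitive pair mod `N` lifts to a coprime pair of integers. -/
theorem exists_coprime_lift {N : ℕ} [NeZero N] {x y : ZMod N} (h : IsCoprime x y) :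
    ∃ a c : ℤ, IsCoprime a c ∧ ((a : ℤ) : ZMod N) = x ∧ ((c : ℤ) : ZMod N) = y := by
  obtain ⟨s, t, hst⟩ := h
  set a0 : ℕ := x.val with ha0
  set c0 : ℕ := if y.val = 0 then N else y.val with hc0
  have hc0ne : c0 ≠ 0 := by
    rw [hc0]; split_ifs with hy
    · exact NeZero.ne N
    · exact hy
  have hc0y : ((c0 : ℕ) : ZMod N) = y := by
    rw [hc0]; split_ifs with hy
    · rw [ZMod.natCast_self]; exact ((ZMod.val_eq_zero y).mp hy).symm
    · exact ZMod.natCast_zmod_val y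
  have ha0x : ((a0 : ℕ) : ZMod N) = x := ZMod.natCast_zmod_val x
  have hprime : ∀ p : ℕ, p.Prime → p ∣ a0 → p ∣ N → p ∣ c0 → False := by
    intro p pp hpa hpN hpc
    have hz : (((s.val : ℤ) * a0 + (t.val : ℤ) * c0 - 1 : ℤ) : ZMod N) = 0 := by
      have hs : ((s.val : ℕ) : ZMod N) = s := ZMod.natCast_zmod_val s
      have ht : ((t.val : ℕ) : ZMod N) = t := ZMod.natCast_zmod_val t
      push_cast
      rw [hs, ht, ha0x, hc0y, hst, sub_self]
    have hdvd : (N : ℤ) ∣ (s.val : ℤ) * a0 + (t.val : ℤ) * c0 - 1 :=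
      (ZMod.intCast_zmod_eq_zero_iff_dvd _ N).mp hz
    have hpZ : (p : ℤ) ∣ (s.val : ℤ) * a0 + (t.val : ℤ) * c0 - 1 :=
      (Int.natCast_dvd_natCast.mpr hpN).trans hdvd
    have h1 : (p : ℤ) ∣ (s.val : ℤ) * a0 + (t.val : ℤ) * c0 :=
      dvd_add (Dvd.dvd.mul_left (Int.natCast_dvd_natCast.mpr hpa) _)
        (Dvd.dvd.mul_left (Int.natCast_dvd_natCast.mpr hpc) _)
    have h2 : (p : ℤ) ∣ 1 := by
      have := dvd_sub h1 hpZ
      simpa using this
    have h3 : p ∣ 1 := by exact_mod_cast h2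
    exact pp.one_lt.ne' (Nat.dvd_one.mp h3)
  obtain ⟨k, hk⟩ := exists_add_mul_coprime a0 N c0 hc0ne hprime
  refine ⟨((a0 + k * N : ℕ) : ℤ), (c0 : ℤ), Nat.isCoprime_iff_coprime.mpr hk, ?_, ?_⟩
  · push_cast
    rw [ZMod.natCast_self, mul_zero, add_zero]
    exact ha0x
  · push_cast
    exact hc0y

/-- Primitive vectors in `(ZMod N)²`. -/
def Prim (N : ℕ) : Type := {v : ZMod N × ZMod N // IsCoprime v.1 v.2}

namespace Prim

variable {N : ℕ}

@[ext]
theorem ext {v w : Prim N} (h1 : v.1.1 = w.1.1) (h2 : v.1.2 = w.1.2) : v = w :=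
  Subtype.ext (Prod.ext h1 h2)

/-- The scaling relation: `w = u • v` for a unit `u`. -/
def Rel (v w : Prim N) : Prop := ∃ u : (ZMod N)ˣ, w.1.1 = u * v.1.1 ∧ w.1.2 = u * v.1.2

theorem rel_refl (v : Prim N) : Rel v v := ⟨1, by simp, by simp⟩

theorem rel_symm {v w : Prim N} (h : Rel v w) : Rel w v := by
  obtain ⟨u, h1, h2⟩ := h
  exact ⟨u⁻¹, by rw [h1, ← mul_assoc, Units.inv_mul, one_mul],
    by rw [h2, ← mul_assoc, Units.inv_mul, one_mul]⟩

theorem rel_trans {v w z : Prim N} (h : Rel v w) (h' : Rel w z) : Rel v z := by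
  obtain ⟨u, h1, h2⟩ := h
  obtain ⟨u', h1', h2'⟩ := h'
  exact ⟨u' * u, by rw [h1', h1, Units.val_mul, mul_assoc],
    by rw [h2', h2, Units.val_mul, mul_assoc]⟩

/-- Determinant criterion: two primitive vectors are proportional by a unit iff their
determinant vanishes. -/
theorem rel_iff_det {v w : Prim N} : Rel v w ↔ v.1.1 * w.1.2 = w.1.1 * v.1.2 := by
  constructor
  · rintro ⟨u, h1, h2⟩
    rw [h1, h2]; ring
  · intro h
    obtain ⟨a, b, hab⟩ := v.2
    obtain ⟨a', b', hab'⟩ := w.2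
    have hu1 : (a * w.1.1 + b * w.1.2) * v.1.1 = w.1.1 := by
      linear_combination w.1.1 * hab + b * h
    have hu2 : (a * w.1.1 + b * w.1.2) * v.1.2 = w.1.2 := by
      linear_combination w.1.2 * hab - a * h
    have hunit : (a * w.1.1 + b * w.1.2) * (a' * v.1.1 + b' * v.1.2) = 1 := by
      linear_combination a' * hu1 + b' * hu2 + hab'
    exact ⟨Units.mkOfMulEqOne _ _ hunit, hu1.symm, hu2.symm⟩

/-- The setoid of the scaling relation. -/
def setoid (N : ℕ) : Setoid (Prim N) := ⟨Rel, rel_refl, rel_symm, rel_trans⟩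

/-- The `SL(2, ℤ)`-action on primitive vectors (matrix times column vector, mod `N`). -/
instance : SMul SL(2, ℤ) (Prim N) where
  smul g v := ⟨(((g 0 0 : ℤ) : ZMod N) * v.1.1 + ((g 0 1 : ℤ) : ZMod N) * v.1.2,
      ((g 1 0 : ℤ) : ZMod N) * v.1.1 + ((g 1 1 : ℤ) : ZMod N) * v.1.2), by
    obtain ⟨s, t, hst⟩ := v.2
    have hdet : ((g 0 0 : ℤ) : ZMod N) * ((g 1 1 : ℤ) : ZMod N)
        - ((g 0 1 : ℤ) : ZMod N) * ((g 1 0 : ℤ) : ZMod N) = 1 := by
      have h := g.det_coe
      rw [Matrix.det_fin_two] at h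
      have h' := congrArg (Int.cast : ℤ → ZMod N) h
      push_cast at h'
      exact h'
    refine ⟨s * ((g 1 1 : ℤ) : ZMod N) - t * ((g 1 0 : ℤ) : ZMod N),
      t * ((g 0 0 : ℤ) : ZMod N) - s * ((g 0 1 : ℤ) : ZMod N), ?_⟩
    linear_combination (s * v.1.1 + t * v.1.2) * hdet + hst⟩

theorem smul_fst (g : SL(2, ℤ)) (v : Prim N) :
    (g • v).1.1 = ((g 0 0 : ℤ) : ZMod N) * v.1.1 + ((g 0 1 : ℤ) : ZMod N) * v.1.2 := rfl

theorem smul_snd (g : SL(2, ℤ)) (v : Prim N) :
    (g • v).1.2 = ((g 1 0 : ℤ) : ZMod N) * v.1.1 + ((g 1 1 : ℤ) : ZMod N) * v.1.2 := rfl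

instance : MulAction SL(2, ℤ) (Prim N) where
  one_smul v := by
    ext <;> simp [smul_fst, smul_snd]
  mul_smul g h v := by
    ext
    · simp only [smul_fst, smul_snd, Matrix.SpecialLinearGroup.coe_mul, Matrix.mul_apply,
        Fin.sum_univ_two]
      push_cast
      ring
    · simp only [smul_fst, smul_snd, Matrix.SpecialLinearGroup.coe_mul, Matrix.mul_apply,
        Fin.sum_univ_two]
      push_cast
      ring

theorem rel_smul (g : SL(2, ℤ)) {v w : Prim N} (h : Rel v w) : Rel (g • v) (g • w) := by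
  obtain ⟨u, h1, h2⟩ := h
  exact ⟨u, by rw [smul_fst, smul_fst, h1, h2]; ring, by rw [smul_snd, smul_snd, h1, h2]; ring⟩

end Prim

/-- The projective line over `ZMod N`: primitive vectors modulo units. -/
def P1 (N : ℕ) : Type := Quotient (Prim.setoid N)

namespace P1

variable {N : ℕ}

/-- The class of a primitive vector. -/
def ofPrim (v : Prim N) : P1 N := Quotient.mk (Prim.setoid N) v

/-- The point `(x : y)`. -/
def mk (x y : ZMod N) (h : IsCoprime x y) : P1 N := ofPrim ⟨(x, y), h⟩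

theorem ofPrim_surjective : Function.Surjective (ofPrim (N := N)) := Quotient.mk_surjective

theorem exists_mk (p : P1 N) : ∃ (x y : ZMod N) (h : IsCoprime x y), p = mk x y h := by
  obtain ⟨⟨⟨x, y⟩, h⟩, rfl⟩ := ofPrim_surjective p
  exact ⟨x, y, h, rfl⟩

theorem ofPrim_eq_ofPrim_iff {v w : Prim N} : ofPrim v = ofPrim w ↔ Prim.Rel v w :=
  Quotient.eq (r := Prim.setoid N)

theorem mk_eq_mk_iff {x y x' y' : ZMod N} {h : IsCoprime x y} {h' : IsCoprime x' y'} :
    mk x y h = mk x' y' h' ↔ ∃ u : (ZMod N)ˣ, x' = u * x ∧ y' = u * y :=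
  ofPrim_eq_ofPrim_iff

/-- Determinant criterion for equality of points. -/
theorem mk_eq_mk_iff_det {x y x' y' : ZMod N} {h : IsCoprime x y} {h' : IsCoprime x' y'} :
    mk x y h = mk x' y' h' ↔ x * y' = x' * y :=
  ofPrim_eq_ofPrim_iff.trans Prim.rel_iff_det

instance : SMul SL(2, ℤ) (P1 N) where
  smul g := Quotient.map' (g • ·) fun _ _ h => Prim.rel_smul g h

theorem smul_ofPrim (g : SL(2, ℤ)) (v : Prim N) : g • ofPrim v = ofPrim (g • v) := rfl

theorem isCoprime_smul (g : SL(2, ℤ)) {x y : ZMod N} (h : IsCoprime x y) :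
    IsCoprime (((g 0 0 : ℤ) : ZMod N) * x + ((g 0 1 : ℤ) : ZMod N) * y)
      (((g 1 0 : ℤ) : ZMod N) * x + ((g 1 1 : ℤ) : ZMod N) * y) :=
  let v : Prim N := ⟨(x, y), h⟩
  (g • v).2

theorem smul_mk (g : SL(2, ℤ)) (x y : ZMod N) (h : IsCoprime x y) :
    g • mk x y h = mk (((g 0 0 : ℤ) : ZMod N) * x + ((g 0 1 : ℤ) : ZMod N) * y)
      (((g 1 0 : ℤ) : ZMod N) * x + ((g 1 1 : ℤ) : ZMod N) * y) (isCoprime_smul g h) := rfl

instance : MulAction SL(2, ℤ) (P1 N) where
  one_smul p := by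
    obtain ⟨v, rfl⟩ := ofPrim_surjective p
    rw [smul_ofPrim, one_smul]
  mul_smul g h p := by
    obtain ⟨v, rfl⟩ := ofPrim_surjective p
    rw [smul_ofPrim, smul_ofPrim, smul_ofPrim, mul_smul]

theorem mk_congr {x y x' y' : ZMod N} (h : IsCoprime x y) (hx : x = x') (hy : y = y') :
    mk x y h = mk x' y' (hx ▸ hy ▸ h) := by
  subst hx; subst hy; rfl

variable (N) in
/-- The base point `(1 : 0)`. -/
def base : P1 N := mk 1 0 isCoprime_one_left

theorem isCoprime_col (g : SL(2, ℤ)) :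
    IsCoprime (((g 0 0 : ℤ) : ZMod N)) (((g 1 0 : ℤ) : ZMod N)) := by
  have h := isCoprime_smul (N := N) g (x := 1) (y := 0) isCoprime_one_left
  simpa using h

theorem smul_base (g : SL(2, ℤ)) :
    g • base N = mk ((g 0 0 : ℤ) : ZMod N) ((g 1 0 : ℤ) : ZMod N) (isCoprime_col g) := by
  rw [base, smul_mk, mk_eq_mk_iff_det]
  ring

theorem smul_base_eq_base_iff (g : SL(2, ℤ)) : g • base N = base N ↔ g ∈ Gamma0 N := by
  rw [smul_base, base, mk_eq_mk_iff_det, Gamma0_mem]
  constructor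
  · intro h
    simpa using h.symm
  · intro h
    simp [h]

theorem stabilizer_base : MulAction.stabilizer SL(2, ℤ) (base N) = Gamma0 N := by
  ext g
  rw [MulAction.mem_stabilizer_iff, smul_base_eq_base_iff]

theorem smul_base_eq_smul_base_iff (g h : SL(2, ℤ)) :
    g • base N = h • base N ↔ g⁻¹ * h ∈ Gamma0 N := by
  rw [← smul_base_eq_base_iff, mul_smul, eq_comm, inv_smul_eq_iff]

theorem exists_smul_base_eq [NeZero N] (p : P1 N) : ∃ g : SL(2, ℤ), g • base N = p := by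
  obtain ⟨x, y, h, rfl⟩ := exists_mk p
  obtain ⟨a, c, hac, rfl, rfl⟩ := exists_coprime_lift h
  obtain ⟨g, hg0, hg1⟩ := hac.exists_SL2_col 0
  refine ⟨g, ?_⟩
  rw [smul_base, mk_eq_mk_iff_det, hg0, hg1]

instance [NeZero N] : MulAction.IsPretransitive SL(2, ℤ) (P1 N) where
  exists_smul_eq p q := by
    obtain ⟨g, rfl⟩ := exists_smul_base_eq p
    obtain ⟨h, rfl⟩ := exists_smul_base_eq q
    exact ⟨h * g⁻¹, by rw [mul_smul, inv_smul_smul]⟩

variable (N) in
/-- The map `g Γ₀(N) ↦ g • (1 : 0)`. -/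
def cosetMap : SL(2, ℤ) ⧸ Gamma0 N → P1 N :=
  fun q => Quotient.liftOn' q (fun g => g • base N) fun g h hgh => by
    rw [QuotientGroup.leftRel_apply] at hgh
    exact (smul_base_eq_smul_base_iff g h).mpr hgh

@[simp]
theorem cosetMap_mk (g : SL(2, ℤ)) : cosetMap N (g : SL(2, ℤ) ⧸ Gamma0 N) = g • base N := rfl

theorem cosetMap_smul (g : SL(2, ℤ)) (q : SL(2, ℤ) ⧸ Gamma0 N) :
    cosetMap N (g • q) = g • cosetMap N q := by
  induction q using QuotientGroup.induction_on with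
  | H h =>
    rw [MulAction.Quotient.smul_mk, cosetMap_mk, cosetMap_mk, smul_eq_mul, mul_smul]

theorem cosetMap_injective : Function.Injective (cosetMap N) := by
  intro q q' h
  induction q using QuotientGroup.induction_on with
  | H g =>
    induction q' using QuotientGroup.induction_on with
    | H g' =>
      rw [cosetMap_mk, cosetMap_mk, smul_base_eq_smul_base_iff] at h
      exact QuotientGroup.eq.mpr h

theorem cosetMap_surjective [NeZero N] : Function.Surjective (cosetMap N) := by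
  intro p
  obtain ⟨g, rfl⟩ := exists_smul_base_eq p
  exact ⟨(g : SL(2, ℤ) ⧸ Gamma0 N), rfl⟩

variable (N) in
/-- The `SL(2, ℤ)`-equivariant bijection `SL(2, ℤ) ⧸ Γ₀(N) ≃ P¹(ℤ/N)`. -/
noncomputable def cosetEquiv [NeZero N] : SL(2, ℤ) ⧸ Gamma0 N ≃ P1 N :=
  Equiv.ofBijective (cosetMap N) ⟨cosetMap_injective, cosetMap_surjective⟩

@[simp]
theorem cosetEquiv_mk [NeZero N] (g : SL(2, ℤ)) :
    cosetEquiv N (g : SL(2, ℤ) ⧸ Gamma0 N) = g • base N := rfl

theorem cosetEquiv_smul [NeZero N] (g : SL(2, ℤ)) (q : SL(2, ℤ) ⧸ Gamma0 N) :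
    cosetEquiv N (g • q) = g • cosetEquiv N q :=
  cosetMap_smul g q

theorem cosetEquiv_symm_smul [NeZero N] (g : SL(2, ℤ)) (p : P1 N) :
    (cosetEquiv N).symm (g • p) = g • (cosetEquiv N).symm p := by
  apply (cosetEquiv N).injective
  rw [cosetEquiv_smul, Equiv.apply_symm_apply, Equiv.apply_symm_apply]

/-! ### Explicit formulas for `S`, `T`, `T ^ k`, `S * T` -/

theorem isCoprime_S {x y : ZMod N} (h : IsCoprime x y) : IsCoprime (-y) x :=
  h.symm.neg_left

theorem isCoprime_T_zpow {x y : ZMod N} (h : IsCoprime x y) (k : ℤ) :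
    IsCoprime (x + (k : ZMod N) * y) y := by
  have := (IsCoprime.add_mul_right_left_iff (x := x) (y := y) (z := (k : ZMod N))).mpr h
  simpa [mul_comm] using this

theorem S_smul_mk (x y : ZMod N) (h : IsCoprime x y) :
    ModularGroup.S • mk x y h = mk (-y) x (isCoprime_S h) := by
  rw [smul_mk, mk_eq_mk_iff_det]
  simp [ModularGroup.S]

theorem T_zpow_smul_mk (k : ℤ) (x y : ZMod N) (h : IsCoprime x y) :
    ModularGroup.T ^ k • mk x y h = mk (x + (k : ZMod N) * y) y (isCoprime_T_zpow h k) := by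
  rw [smul_mk, mk_eq_mk_iff_det]
  simp [ModularGroup.coe_T_zpow]

theorem T_smul_mk (x y : ZMod N) (h : IsCoprime x y) :
    ModularGroup.T • mk x y h = mk (x + y) y (by simpa using isCoprime_T_zpow h 1) := by
  rw [smul_mk, mk_eq_mk_iff_det]
  simp [ModularGroup.T]

theorem isCoprime_ST {x y : ZMod N} (h : IsCoprime x y) : IsCoprime (-y) (x + y) := by
  have h1 : IsCoprime (x + y) y := by simpa using isCoprime_T_zpow h 1
  exact h1.symm.neg_left

theorem ST_smul_mk (x y : ZMod N) (h : IsCoprime x y) :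
    (ModularGroup.S * ModularGroup.T) • mk x y h = mk (-y) (x + y) (isCoprime_ST h) := by
  rw [mul_smul, T_smul_mk, S_smul_mk]

/-! ### Finiteness and transport of cardinalities along `cosetEquiv` -/

instance [NeZero N] : Finite (Prim N) := by
  unfold Prim; infer_instance

instance [NeZero N] : Finite (P1 N) := Quotient.finite _

theorem card_coset_eq [NeZero N] : Nat.card (SL(2, ℤ) ⧸ Gamma0 N) = Nat.card (P1 N) :=
  Nat.card_congr (cosetEquiv N)

theorem index_Gamma0_eq [NeZero N] : (Gamma0 N).index = Nat.card (P1 N) := by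
  rw [Subgroup.index, card_coset_eq]

/-- Fixed points of `g` on the coset space correspond to fixed points on `P1 N`. -/
noncomputable def fixedByEquiv [NeZero N] (g : SL(2, ℤ)) :
    MulAction.fixedBy (SL(2, ℤ) ⧸ Gamma0 N) g ≃ MulAction.fixedBy (P1 N) g :=
  (cosetEquiv N).subtypeEquiv fun q => by
    rw [MulAction.mem_fixedBy, MulAction.mem_fixedBy, ← cosetEquiv_smul,
      (cosetEquiv N).apply_eq_iff_eq]

theorem card_fixedBy_eq [NeZero N] (g : SL(2, ℤ)) :
    Nat.card (MulAction.fixedBy (SL(2, ℤ) ⧸ Gamma0 N) g) =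
      Nat.card (MulAction.fixedBy (P1 N) g) :=
  Nat.card_congr (fixedByEquiv g)

/-- Orbits of a subgroup `H` on the coset space correspond to orbits on `P1 N`. -/
noncomputable def orbitQuotientEquiv [NeZero N] (H : Subgroup SL(2, ℤ)) :
    MulAction.orbitRel.Quotient H (SL(2, ℤ) ⧸ Gamma0 N) ≃ MulAction.orbitRel.Quotient H (P1 N) :=
  Quotient.congr (cosetEquiv N) fun q q' => by
    rw [MulAction.orbitRel_apply, MulAction.orbitRel_apply, MulAction.mem_orbit_iff,
      MulAction.mem_orbit_iff]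
    constructor
    · rintro ⟨h, rfl⟩
      exact ⟨h, (cosetEquiv_smul (h : SL(2, ℤ)) q').symm⟩
    · rintro ⟨h, hh⟩
      refine ⟨h, (cosetEquiv N).injective ?_⟩
      rw [← hh]
      exact cosetEquiv_smul (h : SL(2, ℤ)) q'

theorem card_orbitQuotient_eq [NeZero N] (H : Subgroup SL(2, ℤ)) :
    Nat.card (MulAction.orbitRel.Quotient H (SL(2, ℤ) ⧸ Gamma0 N)) =
      Nat.card (MulAction.orbitRel.Quotient H (P1 N)) :=
  Nat.card_congr (orbitQuotientEquiv H)

end P1

end Fermat.Agent.S24.P1Model
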