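/-
S24, block B7.4: the number of orbits of `⟨T⟩` on `SL(2, ℤ) ⧸ Γ₀(N)` (equivalently on `P¹(ℤ/N)`)
is `cuspCount N = ∑_{d ∣ N} φ(gcd(d, N/d))`.
-/
import Fermat.Agent.S24.P1Model
import Fermat.Prelude.Def_ModularCurve_GenusNumerics

set_option autoImplicit false

open Matrix MatrixGroups CongruenceSubgroup

namespace Fermat.Agent.S24.CuspCount

open Fermat.Agent.S24.P1Model

variable {N : ℕ} [NeZero N]

/-- Lemma A: `z * d = 0` in `ZMod N` iff `N / d ∣ z` (for `d ∣ N`). -/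
theorem intCast_mul_natCast_eq_zero_iff {d : ℕ} (hd : d ∣ N) (z : ℤ) :
    ((z : ℤ) : ZMod N) * ((d : ℕ) : ZMod N) = 0 ↔ ((N / d : ℕ) : ℤ) ∣ z := by
  have hd0 : d ≠ 0 := fun h => NeZero.ne N (by rw [h] at hd; exact Nat.eq_zero_of_zero_dvd hd)
  have hN : ((N / d : ℕ) : ℤ) * (d : ℤ) = (N : ℤ) := by
    exact_mod_cast Nat.div_mul_cancel hd
  have h1 : ((z : ℤ) : ZMod N) * ((d : ℕ) : ZMod N) = ((z * d : ℤ) : ZMod N) := by push_cast; rfl
  rw [h1, ZMod.intCast_zmod_eq_zero_iff_dvd, ← hN]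
  exact mul_dvd_mul_iff_right (by exact_mod_cast hd0)

/-- Lemma B: equality of points with the same second coordinate `d ∣ N`. -/
theorem mk_eq_mk_same_level_iff {d : ℕ} (hd : d ∣ N) {a a' : ℤ}
    (h : IsCoprime ((a : ℤ) : ZMod N) ((d : ℕ) : ZMod N))
    (h' : IsCoprime ((a' : ℤ) : ZMod N) ((d : ℕ) : ZMod N)) :
    P1.mk (a : ZMod N) (d : ZMod N) h = P1.mk (a' : ZMod N) (d : ZMod N) h' ↔
      ((N / d : ℕ) : ℤ) ∣ a - a' := by
  rw [P1.mk_eq_mk_iff_det, ← intCast_mul_natCast_eq_zero_iff hd]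
  push_cast
  rw [sub_mul, sub_eq_zero]

/-- Lemma C: the level `d ∣ N` of a point is unique. -/
theorem level_unique {d d' : ℕ} (hd : d ∣ N) (hd' : d' ∣ N) {x x' : ZMod N}
    (h : IsCoprime x ((d : ℕ) : ZMod N)) (h' : IsCoprime x' ((d' : ℕ) : ZMod N))
    (heq : P1.mk x (d : ZMod N) h = P1.mk x' (d' : ZMod N) h') : d = d' := by
  have key : ∀ {d d' : ℕ}, d ∣ N → d' ∣ N → (u : ZMod N) →
      ((d' : ℕ) : ZMod N) = u * ((d : ℕ) : ZMod N) → d ∣ d' := by
    intro d d' hd hd' u hu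
    have hd0 : d ≠ 0 := fun h => NeZero.ne N (by rw [h] at hd; exact Nat.eq_zero_of_zero_dvd hd)
    have hq0 : N / d ≠ 0 := by
      intro h0
      have := Nat.div_mul_cancel hd
      rw [h0, zero_mul] at this
      exact NeZero.ne N this.symm
    have h1 : (((N / d) * d' : ℕ) : ZMod N) = 0 := by
      push_cast
      rw [hu, mul_left_comm, ← Nat.cast_mul, Nat.div_mul_cancel hd, ZMod.natCast_self, mul_zero]
    rw [ZMod.natCast_eq_zero_iff] at h1
    have h2 : N / d * d ∣ N / d * d' := by rwa [Nat.div_mul_cancel hd]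
    exact (Nat.mul_dvd_mul_iff_left (Nat.pos_of_ne_zero hq0)).mp h2
  obtain ⟨u, -, hu⟩ := P1.mk_eq_mk_iff.mp heq
  have h1 : d ∣ d' := key hd hd' u hu
  have h2 : d' ∣ d := key hd' hd (u⁻¹ : (ZMod N)ˣ) (by rw [hu, ← mul_assoc, Units.inv_mul, one_mul])
  exact Nat.dvd_antisymm h1 h2

/-- Normal form: `p = (a : d)` with `d ∣ N` and `a` an integer. -/
def IsNF (p : P1 N) (d : ℕ) (a : ℤ) : Prop :=
  d ∣ N ∧ ∃ h : IsCoprime ((a : ℤ) : ZMod N) ((d : ℕ) : ZMod N),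
    p = P1.mk (a : ZMod N) (d : ZMod N) h

/-- L1: every point has a normal form. -/
theorem exists_isNF (p : P1 N) : ∃ (d : ℕ) (a : ℤ), IsNF p d a := by
  obtain ⟨x, y, h, rfl⟩ := P1.exists_mk p
  obtain ⟨d, hd, u, hu, hy⟩ := ZMod.eq_unit_mul_divisor y
  obtain ⟨u, rfl⟩ := hu
  have hco : IsCoprime ((u⁻¹ : (ZMod N)ˣ) * x) ((d : ℕ) : ZMod N) := by
    have h1 : IsCoprime ((u⁻¹ : (ZMod N)ˣ) * x : ZMod N) ((u⁻¹ : (ZMod N)ˣ) * y : ZMod N) := by
      obtain ⟨s, t, hst⟩ := h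
      refine ⟨s * u, t * u, ?_⟩
      have : (u : ZMod N) * ((u⁻¹ : (ZMod N)ˣ) : ZMod N) = 1 := Units.mul_inv u
      linear_combination hst + (s * x + t * y) * this
    have h2 : ((u⁻¹ : (ZMod N)ˣ) * y : ZMod N) = ((d : ℕ) : ZMod N) := by
      rw [hy, ← mul_assoc, Units.inv_mul, one_mul]
    rwa [h2] at h1
  refine ⟨d, (((u⁻¹ : (ZMod N)ˣ) * x : ZMod N)).val, hd, ?_⟩
  have hcast : (((((u⁻¹ : (ZMod N)ˣ) * x : ZMod N)).val : ℤ) : ZMod N) = (u⁻¹ : (ZMod N)ˣ) * x := by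
    rw [Int.cast_natCast, ZMod.natCast_zmod_val]
  refine ⟨by rw [hcast]; exact hco, ?_⟩
  rw [P1.mk_eq_mk_iff_det, hcast, hy]
  have : (u : ZMod N) * ((u⁻¹ : (ZMod N)ˣ) : ZMod N) = 1 := Units.mul_inv u
  linear_combination (-(x * (d : ZMod N))) * this

theorem IsNF.level_eq {p : P1 N} {d d' : ℕ} {a a' : ℤ} (h : IsNF p d a) (h' : IsNF p d' a') :
    d = d' := by
  obtain ⟨hd, hc, rfl⟩ := h
  obtain ⟨hd', hc', heq⟩ := h'
  exact level_unique hd hd' hc hc' heq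

theorem IsNF.dvd_sub {p : P1 N} {d : ℕ} {a a' : ℤ} (h : IsNF p d a) (h' : IsNF p d a') :
    ((N / d : ℕ) : ℤ) ∣ a - a' := by
  obtain ⟨hd, hc, rfl⟩ := h
  obtain ⟨-, hc', heq⟩ := h'
  exact (mk_eq_mk_same_level_iff hd hc hc').mp heq

/-- Lemma E: in a normal form, `a` and `d` are coprime integers. -/
theorem IsNF.isCoprime {p : P1 N} {d : ℕ} {a : ℤ} (h : IsNF p d a) : IsCoprime a (d : ℤ) := by
  obtain ⟨hd, ⟨s, t, hst⟩, -⟩ := h
  have hz : (((s.val : ℤ) * a + (t.val : ℤ) * d - 1 : ℤ) : ZMod N) = 0 := by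
    have hs : ((s.val : ℕ) : ZMod N) = s := ZMod.natCast_zmod_val s
    have ht : ((t.val : ℕ) : ZMod N) = t := ZMod.natCast_zmod_val t
    push_cast
    rw [hs, ht, hst, sub_self]
  obtain ⟨m, hm⟩ := (ZMod.intCast_zmod_eq_zero_iff_dvd _ N).mp hz
  obtain ⟨e, he⟩ := hd
  refine ⟨(s.val : ℤ), (t.val : ℤ) - e * m, ?_⟩
  have hN : (N : ℤ) = d * e := by exact_mod_cast he
  rw [hN] at hm
  linear_combination hm

omit [NeZero N] in
/-- Lemma E': coprime integers give coprime residues. -/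
theorem isCoprime_cast {a : ℤ} {d : ℕ} (h : IsCoprime a (d : ℤ)) :
    IsCoprime ((a : ℤ) : ZMod N) ((d : ℕ) : ZMod N) := by
  have := h.map (Int.castRingHom (ZMod N))
  simpa using this

omit [NeZero N] in
/-- Lemma D: the action of `T ^ k` on normal forms. -/
theorem IsNF.T_zpow_smul {p : P1 N} {d : ℕ} {a : ℤ} (h : IsNF p d a) (k : ℤ) :
    IsNF (ModularGroup.T ^ k • p) d (a + k * d) := by
  obtain ⟨hd, hc, rfl⟩ := h
  have hc' : IsCoprime (((a + k * d : ℤ)) : ZMod N) ((d : ℕ) : ZMod N) := by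
    have := P1.isCoprime_T_zpow hc k
    push_cast
    exact this
  refine ⟨hd, hc', ?_⟩
  rw [P1.T_zpow_smul_mk, P1.mk_eq_mk_iff_det]
  push_cast
  ring

/-- The gcd `g = gcd(d, N/d)` attached to a level. -/
def gOf (N d : ℕ) : ℕ := Nat.gcd d (N / d)

/-- Lemma F: two points of the same level are in the same `T`-orbit iff their first
coordinates agree modulo `gcd(d, N/d)`. -/
theorem exists_T_zpow_smul_eq_iff {p p' : P1 N} {d : ℕ} {a a' : ℤ} (h : IsNF p d a)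
    (h' : IsNF p' d a') :
    (∃ k : ℤ, ModularGroup.T ^ k • p = p') ↔ ((gOf N d : ℕ) : ℤ) ∣ a' - a := by
  have hg1 : ((gOf N d : ℕ) : ℤ) ∣ (d : ℤ) := by
    exact_mod_cast Nat.gcd_dvd_left d (N / d)
  have hg2 : ((gOf N d : ℕ) : ℤ) ∣ ((N / d : ℕ) : ℤ) := by
    exact_mod_cast Nat.gcd_dvd_right d (N / d)
  constructor
  · rintro ⟨k, rfl⟩
    have h1 := (h.T_zpow_smul k).dvd_sub h'
    have h2 : ((gOf N d : ℕ) : ℤ) ∣ a + k * d - a' := hg2.trans h1
    have h3 : ((gOf N d : ℕ) : ℤ) ∣ k * d := Dvd.dvd.mul_left hg1 k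
    have h4 : a' - a = k * d - (a + k * d - a') := by ring
    rw [h4]
    exact dvd_sub h3 h2
  · rintro ⟨m, hm⟩
    have hbez : ((gOf N d : ℕ) : ℤ) = (d : ℤ) * Int.gcdA d (N / d : ℕ) +
        ((N / d : ℕ) : ℤ) * Int.gcdB d (N / d : ℕ) := by
      rw [gOf, ← Int.gcd_natCast_natCast]
      exact Int.gcd_eq_gcd_ab (d : ℤ) ((N / d : ℕ) : ℤ)
    refine ⟨Int.gcdA d (N / d : ℕ) * m, ?_⟩
    have hnf := h.T_zpow_smul (Int.gcdA d (N / d : ℕ) * m)
    obtain ⟨hd, hc, hp⟩ := hnf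
    obtain ⟨-, hc', hp'⟩ := h'
    rw [hp, hp']
    rw [mk_eq_mk_same_level_iff hd hc hc']
    refine ⟨-(Int.gcdB d (N / d : ℕ) * m), ?_⟩
    have : a' = a + ((gOf N d : ℕ) : ℤ) * m := by linear_combination hm
    rw [this, hbez]
    ring

theorem gOf_pos {d : ℕ} (hd : d ∣ N) : 0 < gOf N d := by
  have hd0 : d ≠ 0 := fun h => NeZero.ne N (by rw [h] at hd; exact Nat.eq_zero_of_zero_dvd hd)
  exact Nat.gcd_pos_of_pos_left _ (Nat.pos_of_ne_zero hd0)

/-- The chosen level of a point. -/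
noncomputable def lvl (p : P1 N) : ℕ := (exists_isNF p).choose

/-- The chosen first coordinate of a point. -/
noncomputable def rep (p : P1 N) : ℤ := (exists_isNF p).choose_spec.choose

theorem isNF_lvl_rep (p : P1 N) : IsNF p (lvl p) (rep p) :=
  (exists_isNF p).choose_spec.choose_spec

/-- The invariant `(d, a mod gcd(d, N/d))` of a point. -/
noncomputable def inv (p : P1 N) : ℕ × ℕ :=
  (lvl p, (rep p % ((gOf N (lvl p) : ℕ) : ℤ)).toNat)

theorem inv_eq_of_isNF {p : P1 N} {d : ℕ} {a : ℤ} (h : IsNF p d a) :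
    inv p = (d, (a % ((gOf N d : ℕ) : ℤ)).toNat) := by
  have hl : lvl p = d := (isNF_lvl_rep p).level_eq h
  have h1 : IsNF p d (rep p) := hl ▸ isNF_lvl_rep p
  have hdvd : ((gOf N d : ℕ) : ℤ) ∣ rep p - a := by
    have hg2 : ((gOf N d : ℕ) : ℤ) ∣ ((N / d : ℕ) : ℤ) := by
      exact_mod_cast Nat.gcd_dvd_right d (N / d)
    exact hg2.trans (h1.dvd_sub h)
  unfold inv
  rw [hl]
  congr 2
  exact (Int.modEq_iff_dvd.mpr hdvd).symm

/-- The set of values of the invariant. -/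
def target (N : ℕ) : Finset (ℕ × ℕ) :=
  (N.divisors.sigma fun d => (Finset.range (gOf N d)).filter (gOf N d).Coprime).map
    (Equiv.sigmaEquivProd ℕ ℕ).toEmbedding

omit [NeZero N] in
theorem mem_target {x : ℕ × ℕ} :
    x ∈ target N ↔ x.1 ∈ N.divisors ∧ x.2 < gOf N x.1 ∧ (gOf N x.1).Coprime x.2 := by
  obtain ⟨d, r⟩ := x
  simp only [target, Finset.mem_map_equiv, Finset.mem_sigma, Finset.mem_filter, Finset.mem_range,
    Equiv.sigmaEquivProd_symm_apply]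

omit [NeZero N] in
theorem card_target : (target N).card = ModularCurve.cuspCount N := by
  rw [target, Finset.card_map, Finset.card_sigma, ModularCurve.cuspCount]
  refine Finset.sum_congr rfl fun d _ => ?_
  rw [Nat.totient_eq_card_coprime]
  rfl

theorem inv_mem_target (p : P1 N) : inv p ∈ target N := by
  have h := isNF_lvl_rep p
  have hd : lvl p ∣ N := h.1
  have hg := gOf_pos hd
  have hgZ : (0 : ℤ) < ((gOf N (lvl p) : ℕ) : ℤ) := by exact_mod_cast hg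
  rw [mem_target]
  refine ⟨Nat.mem_divisors.mpr ⟨hd, NeZero.ne N⟩, ?_, ?_⟩
  · show (rep p % ((gOf N (lvl p) : ℕ) : ℤ)).toNat < gOf N (lvl p)
    have h1 := Int.emod_lt_of_pos (rep p) hgZ
    have h0 := Int.emod_nonneg (rep p) hgZ.ne'
    omega
  · show (gOf N (lvl p)).Coprime (rep p % ((gOf N (lvl p) : ℕ) : ℤ)).toNat
    have hco : IsCoprime (rep p) ((lvl p : ℕ) : ℤ) := h.isCoprime
    have hg1 : ((gOf N (lvl p) : ℕ) : ℤ) ∣ ((lvl p : ℕ) : ℤ) := by
      exact_mod_cast Nat.gcd_dvd_left (lvl p) (N / lvl p)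
    have hco' : IsCoprime (rep p) ((gOf N (lvl p) : ℕ) : ℤ) := hco.of_isCoprime_of_dvd_right hg1
    have h0 := Int.emod_nonneg (rep p) hgZ.ne'
    have hco'' : IsCoprime (rep p % ((gOf N (lvl p) : ℕ) : ℤ)) ((gOf N (lvl p) : ℕ) : ℤ) := by
      have hemod : rep p % ((gOf N (lvl p) : ℕ) : ℤ) = rep p + ((gOf N (lvl p) : ℕ) : ℤ) *
          (-(rep p / ((gOf N (lvl p) : ℕ) : ℤ))) := by
        rw [Int.emod_def]; ring
      rw [hemod]
      exact (IsCoprime.add_mul_left_left_iff (x := rep p) (y := ((gOf N (lvl p) : ℕ) : ℤ))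
        (z := -(rep p / ((gOf N (lvl p) : ℕ) : ℤ)))).mpr hco'
    have hnat : ((rep p % ((gOf N (lvl p) : ℕ) : ℤ)).toNat : ℤ) = rep p % ((gOf N (lvl p) : ℕ) : ℤ) :=
      Int.toNat_of_nonneg h0
    rw [← hnat] at hco''
    exact (Nat.isCoprime_iff_coprime.mp hco'').symm

/-- I2 + I3: two points have the same invariant iff they are in the same `⟨T⟩`-orbit. -/
theorem inv_eq_inv_iff (p p' : P1 N) :
    inv p = inv p' ↔ ∃ k : ℤ, ModularGroup.T ^ k • p = p' := by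
  have h := isNF_lvl_rep p
  have h' := isNF_lvl_rep p'
  constructor
  · intro heq
    have hl : lvl p = lvl p' := congrArg Prod.fst heq
    have h'' : IsNF p' (lvl p) (rep p') := hl ▸ h'
    rw [inv_eq_of_isNF h, inv_eq_of_isNF h''] at heq
    have hr := congrArg Prod.snd heq
    simp only at hr
    have hgZ : (0 : ℤ) < ((gOf N (lvl p) : ℕ) : ℤ) := by exact_mod_cast gOf_pos h.1
    have h0 := Int.emod_nonneg (rep p) hgZ.ne'
    have h0' := Int.emod_nonneg (rep p') hgZ.ne'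
    have hmod : rep p % ((gOf N (lvl p) : ℕ) : ℤ) = rep p' % ((gOf N (lvl p) : ℕ) : ℤ) := by
      have := congrArg (Int.ofNat) hr
      rw [Int.ofNat_eq_natCast, Int.ofNat_eq_natCast, Int.toNat_of_nonneg h0,
        Int.toNat_of_nonneg h0'] at this
      exact this
    exact (exists_T_zpow_smul_eq_iff h h'').mpr (Int.modEq_iff_dvd.mp hmod)
  · rintro ⟨k, rfl⟩
    have hk := h.T_zpow_smul k
    rw [inv_eq_of_isNF h, inv_eq_of_isNF hk]
    congr 2
    have : (rep p + k * (lvl p : ℤ)) % ((gOf N (lvl p) : ℕ) : ℤ)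
        = rep p % ((gOf N (lvl p) : ℕ) : ℤ) := by
      have hg1 : ((gOf N (lvl p) : ℕ) : ℤ) ∣ k * ((lvl p : ℕ) : ℤ) := by
        refine Dvd.dvd.mul_left ?_ k
        exact_mod_cast Nat.gcd_dvd_left (lvl p) (N / lvl p)
      exact Int.modEq_iff_dvd.mpr (by simpa using (dvd_neg.mpr hg1))
    exact this.symm

/-- I4: every element of the target is the invariant of a point. -/
theorem exists_inv_eq {x : ℕ × ℕ} (hx : x ∈ target N) : ∃ p : P1 N, inv p = x := by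
  obtain ⟨d, r⟩ := x
  rw [mem_target] at hx
  obtain ⟨hd, hr, hco⟩ := hx
  simp only at hd hr hco
  have hdN : d ∣ N := (Nat.mem_divisors.mp hd).1
  have hd0 : d ≠ 0 := fun h => NeZero.ne N (by rw [h] at hdN; exact Nat.eq_zero_of_zero_dvd hdN)
  obtain ⟨k, hk⟩ := exists_add_mul_coprime r (gOf N d) d hd0 (by
    intro q hq hqr hqg _
    exact hq.one_lt.ne' (Nat.dvd_one.mp (hco ▸ Nat.dvd_gcd hqg hqr)))
  have hcoZ : IsCoprime (((r + k * gOf N d : ℕ) : ℤ)) ((d : ℕ) : ℤ) :=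
    Nat.isCoprime_iff_coprime.mpr hk
  have hc := isCoprime_cast (N := N) hcoZ
  refine ⟨P1.mk _ _ hc, ?_⟩
  have hnf : IsNF (P1.mk _ _ hc) d ((r + k * gOf N d : ℕ) : ℤ) := ⟨hdN, hc, rfl⟩
  rw [inv_eq_of_isNF hnf]
  congr 1
  have h1 : (((r + k * gOf N d : ℕ) : ℤ)) % ((gOf N d : ℕ) : ℤ) = (r : ℤ) := by
    push_cast
    rw [Int.add_mul_emod_self_right]
    exact Int.emod_eq_of_lt (by positivity) (by exact_mod_cast hr)
  rw [h1]
  exact Int.toNat_natCast r

/-- **B7.4 on the model**: the number of `⟨T⟩`-orbits on `P¹(ℤ/N)` is `cuspCount N`. -/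
theorem card_orbits_T_P1 :
    Nat.card (MulAction.orbitRel.Quotient (Subgroup.zpowers ModularGroup.T) (P1 N))
      = ModularCurve.cuspCount N := by
  classical
  have hrel : ∀ p p' : P1 N,
      (MulAction.orbitRel (Subgroup.zpowers ModularGroup.T) (P1 N)) p p' ↔ inv p = inv p' := by
    intro p p'
    rw [MulAction.orbitRel_apply, MulAction.mem_orbit_iff, eq_comm, inv_eq_inv_iff]
    constructor
    · rintro ⟨⟨g, hg⟩, hgp⟩
      obtain ⟨k, rfl⟩ := Subgroup.mem_zpowers_iff.mp hg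
      exact ⟨k, hgp⟩
    · rintro ⟨k, hk⟩
      exact ⟨⟨ModularGroup.T ^ k, Subgroup.zpow_mem_zpowers _ k⟩, hk⟩
  let f : MulAction.orbitRel.Quotient (Subgroup.zpowers ModularGroup.T) (P1 N) → ℕ × ℕ :=
    Quotient.lift inv fun p p' hpp' => (hrel p p').mp hpp'
  have hf_inj : Function.Injective f := by
    intro q q' hqq'
    induction q using Quotient.inductionOn with
    | h p =>
      induction q' using Quotient.inductionOn with
      | h p' => exact Quotient.sound ((hrel p p').mpr hqq')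
  have hrange : Set.range f = (target N : Set (ℕ × ℕ)) := by
    ext x
    constructor
    · rintro ⟨q, rfl⟩
      induction q using Quotient.inductionOn with
      | h p => exact inv_mem_target p
    · intro hx
      obtain ⟨p, hp⟩ := exists_inv_eq hx
      exact ⟨Quotient.mk _ p, hp⟩
  rw [← Nat.card_range_of_injective hf_inj, hrange, Nat.card_coe_set_eq, Set.ncard_coe_finset,
    card_target]

/-- **B7.4**: the number of `⟨T⟩`-orbits on `SL(2, ℤ) ⧸ Γ₀(N)` is `cuspCount N`. -/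
theorem card_orbits_T :
    Nat.card (MulAction.orbitRel.Quotient (Subgroup.zpowers ModularGroup.T)
      (SL(2, ℤ) ⧸ Gamma0 N)) = ModularCurve.cuspCount N := by
  rw [P1.card_orbitQuotient_eq, card_orbits_T_P1]

end Fermat.Agent.S24.CuspCount
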