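/-
S24, block B7 (finite combinatorics): assembly.

For `X0 N = SL(2,ℤ) ⧸ Γ₀(N)` (left cosets, left translation action) and
`numOrbits X g` = number of orbits of the cyclic group generated by `g`:

* `Nat.card (X0 N) = ψ(N)`;
* `3 * numOrbits (X0 N) (S*T) = ψ(N) + 2 ν₃(N)`;
* `2 * numOrbits (X0 N) S = ψ(N) + ν₂(N)`;
* `numOrbits (X0 N) T = cuspCount N`;
* `ψ(N) + 2 - r₀ - r₁₇₂₈ - r_∞ = 2 g` for a natural number `g`, and hence
  `GenusFormulaIsNat N` (Block C of the reduction).
-/
import Fermat.Agent.S24.CombModel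
import Fermat.Agent.S24.CombCard
import Fermat.Agent.S24.CombFixS
import Fermat.Agent.S24.CombFixST
import Fermat.Agent.S24.CombOrbitCount
import Fermat.Agent.S24.CombParity
import Fermat.Agent.S24.CombScott
import Fermat.Agent.S24.CuspCount
import Fermat.Prelude.Def_ModularCurve_GenusNumerics

set_option autoImplicit false

namespace Fermat.Agent.S24.Comb

open MatrixGroups ModularGroup MulAction

/-- Number of orbits of the cyclic group generated by `g`. -/
noncomputable abbrev numOrbits {G : Type*} [Group G] (X : Type*) [MulAction G X] (g : G) : ℕ :=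
  Nat.card (orbitRel.Quotient (Subgroup.zpowers g) X)

section PermBridge

variable {G X : Type*} [Group G] [MulAction G X]

theorem orbitRel_zpowers_toPerm (g : G) :
    orbitRel (Subgroup.zpowers (MulAction.toPerm g : Equiv.Perm X)) X
      = orbitRel (Subgroup.zpowers g) X := by
  ext x y
  simp only [orbitRel_apply, mem_orbit_iff]
  constructor
  · rintro ⟨⟨p, ⟨k, rfl⟩⟩, hk⟩
    refine ⟨⟨g ^ k, ⟨k, rfl⟩⟩, ?_⟩
    rw [← hk]
    show (g ^ k) • y = ((MulAction.toPerm g : Equiv.Perm X) ^ k) y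
    have h := map_zpow (MulAction.toPermHom G X) g k
    rw [MulAction.toPermHom_apply, MulAction.toPermHom_apply] at h
    rw [← h]
    rfl
  · rintro ⟨⟨p, ⟨k, rfl⟩⟩, hk⟩
    refine ⟨⟨(MulAction.toPerm g : Equiv.Perm X) ^ k, ⟨k, rfl⟩⟩, ?_⟩
    rw [← hk]
    show ((MulAction.toPerm g : Equiv.Perm X) ^ k) y = (g ^ k) • y
    have h := map_zpow (MulAction.toPermHom G X) g k
    rw [MulAction.toPermHom_apply, MulAction.toPermHom_apply] at h
    rw [← h]
    rfl

/-- The orbits of the permutation `toPerm g` are the orbits of `g`. -/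
theorem numOrbits_toPerm (g : G) :
    numOrbits X (MulAction.toPerm g : Equiv.Perm X) = numOrbits X g := by
  unfold numOrbits orbitRel.Quotient
  rw [orbitRel_zpowers_toPerm]

theorem numOrbits_inv (g : G) : numOrbits X g⁻¹ = numOrbits X g := by
  unfold numOrbits
  rw [Subgroup.zpowers_inv]

end PermBridge

section TrivialActions

variable {N : ℕ}

theorem neg_one_smul_mk (v : Prim N) : P1.mk ((-1 : (ZMod N)ˣ) • v) = P1.mk v :=
  P1.mk_eq_mk.mpr ⟨-1, rfl⟩

theorem SS_smul (x : P1 N) : (S * S) • x = x := by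
  obtain ⟨v, rfl⟩ := P1.mk_surjective x
  rw [P1.smul_mk, ← neg_one_smul_mk v]
  congr 1
  apply Prim.ext
  · rw [mul_smul]; simp
  · rw [mul_smul]; simp

theorem STSTST_smul (x : P1 N) : ((S * T) * (S * T) * (S * T)) • x = x := by
  obtain ⟨v, rfl⟩ := P1.mk_surjective x
  rw [P1.smul_mk, ← neg_one_smul_mk v]
  congr 1
  apply Prim.ext
  · rw [mul_smul, mul_smul]; simp
  · rw [mul_smul, mul_smul]; simp

end TrivialActions

/-- The Ree–Scott inequality for `S`, `T` acting on `X0 N`. -/
theorem numOrbits_le (N : ℕ) [NeZero N] :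
    numOrbits (X0 N) S + numOrbits (X0 N) T + numOrbits (X0 N) (S * T)
      ≤ Nat.card (X0 N) + 2 :=
  orbits_le_card_add_two (G := SL(2, ℤ)) (X := X0 N) S T
    SpecialLinearGroup.SL2Z_generators

/-- Assembly of the numerics from the remaining input `|P¹(ℤ/N)| = ψ(N)`. -/
theorem numerics_of (N : ℕ) [NeZero N]
    (hcard : Nat.card (P1 N) = ModularCurve.dedekindPsi N) :
    Nat.card (X0 N) = ModularCurve.dedekindPsi N ∧
    3 * numOrbits (X0 N) (S * T) = ModularCurve.dedekindPsi N + 2 * ModularCurve.nuThree N ∧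
    2 * numOrbits (X0 N) S = ModularCurve.dedekindPsi N + ModularCurve.nuTwo N ∧
    numOrbits (X0 N) T = ModularCurve.cuspCount N ∧
    ∃ g : ℕ, (ModularCurve.dedekindPsi N : ℤ) + 2 - numOrbits (X0 N) (S * T)
      - numOrbits (X0 N) S - numOrbits (X0 N) T = 2 * (g : ℤ) := by
  have hS := card_fixedBy_S N
  have hST := card_fixedBy_ST N
  have hT : numOrbits (X0 N) T = ModularCurve.cuspCount N := CuspCount.card_orbits_T
  have hle := numOrbits_le N
  have h2 := two_mul_card_orbits (X := P1 N) S SS_smul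
  have h3 := three_mul_card_orbits (X := P1 N) (S * T) STSTST_smul
  have hpar := even_card_add_orbits (X := X0 N) S T
  have eX : Nat.card (X0 N) = Nat.card (P1 N) := Nat.card_congr X0.equivP1
  have eO : ∀ g : SL(2, ℤ), numOrbits (X0 N) g = numOrbits (P1 N) g := fun g =>
    card_orbitQuotient_eq X0.equivP1 X0.equivP1_smul _
  change Even (Nat.card (X0 N) + numOrbits (X0 N) S + numOrbits (X0 N) T
    + numOrbits (X0 N) (S * T)) at hpar
  change 2 * numOrbits (P1 N) S = _ at h2
  change 3 * numOrbits (P1 N) (S * T) = _ at h3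
  rw [← eO S, ← eX] at h2
  rw [← eO (S * T), ← eX] at h3
  rw [← eX] at hcard
  rw [hcard, hS] at h2
  rw [hcard, hST] at h3
  rw [hcard, hT] at hpar hle
  refine ⟨hcard, h3, h2, hT, ?_⟩
  obtain ⟨m, hm⟩ := hpar
  rw [hT]
  refine ⟨ModularCurve.dedekindPsi N + 1 - m, ?_⟩
  omega

/-- Block C from the numerics: the genus formula is a natural number. -/
theorem genusFormula_isNat_of (N : ℕ) [NeZero N]
    (hcard : Nat.card (P1 N) = ModularCurve.dedekindPsi N) :
    ∃ g : ℕ, (g : ℚ) = ModularCurve.genusFormula N := by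
  obtain ⟨-, h3, h2, hT, g, hg⟩ := numerics_of N hcard
  refine ⟨g, ?_⟩
  unfold ModularCurve.genusFormula
  have h3' : (3 : ℚ) * numOrbits (X0 N) (S * T)
      = ModularCurve.dedekindPsi N + 2 * ModularCurve.nuThree N := by exact_mod_cast h3
  have h2' : (2 : ℚ) * numOrbits (X0 N) S
      = ModularCurve.dedekindPsi N + ModularCurve.nuTwo N := by exact_mod_cast h2
  have hT' : (numOrbits (X0 N) T : ℚ) = ModularCurve.cuspCount N := by exact_mod_cast hT
  have hg' : (ModularCurve.dedekindPsi N : ℚ) + 2 - numOrbits (X0 N) (S * T)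
      - numOrbits (X0 N) S - numOrbits (X0 N) T = 2 * (g : ℚ) := by exact_mod_cast hg
  linarith

/-! ### Final forms (with `card_P1` from `CombCard`) -/

/-- The numerics of the action of `S`, `T`, `S * T` on `X0 N = SL(2,ℤ) ⧸ Γ₀(N)`. -/
theorem numerics (N : ℕ) [NeZero N] :
    Nat.card (X0 N) = ModularCurve.dedekindPsi N ∧
    3 * numOrbits (X0 N) (S * T) = ModularCurve.dedekindPsi N + 2 * ModularCurve.nuThree N ∧
    2 * numOrbits (X0 N) S = ModularCurve.dedekindPsi N + ModularCurve.nuTwo N ∧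
    numOrbits (X0 N) T = ModularCurve.cuspCount N ∧
    ∃ g : ℕ, (ModularCurve.dedekindPsi N : ℤ) + 2 - numOrbits (X0 N) (S * T)
      - numOrbits (X0 N) S - numOrbits (X0 N) T = 2 * (g : ℤ) :=
  numerics_of N (card_P1 N)

theorem card_X0 (N : ℕ) [NeZero N] : Nat.card (X0 N) = ModularCurve.dedekindPsi N :=
  (numerics N).1

theorem three_mul_numOrbits_ST (N : ℕ) [NeZero N] :
    3 * numOrbits (X0 N) (S * T) = ModularCurve.dedekindPsi N + 2 * ModularCurve.nuThree N :=
  (numerics N).2.1

theorem two_mul_numOrbits_S (N : ℕ) [NeZero N] :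
    2 * numOrbits (X0 N) S = ModularCurve.dedekindPsi N + ModularCurve.nuTwo N :=
  (numerics N).2.2.1

theorem numOrbits_T (N : ℕ) [NeZero N] :
    numOrbits (X0 N) T = ModularCurve.cuspCount N :=
  (numerics N).2.2.2.1

/-- Block C: the genus formula is a natural number. -/
theorem genusFormula_isNat (N : ℕ) [NeZero N] :
    ∃ g : ℕ, (g : ℚ) = ModularCurve.genusFormula N :=
  genusFormula_isNat_of N (card_P1 N)

end Fermat.Agent.S24.Comb
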