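import Mathlib

/-!
# S24, piece B2: the analytic `j`-invariant `E₄³ / Δ : ℍ → ℂ` is surjective

Main results (namespace `Fermat.Agent.S24`):

* `jFun z = E₄ z ^ 3 / Δ z` with `jFun_smul : jFun (γ • z) = jFun z` for `γ : SL(2, ℤ)`;
* `tendsto_E₄_atImInfty`, `tendsto_norm_jFun_atImInfty`;
* `differentiableOn_jFun_comp_ofComplex`;
* `jFun_surjective`, `j_surjective`, `exists_jFun_eq_mem_fd`.
-/

open UpperHalfPlane ModularForm Filter Topology Complex CongruenceSubgroup MatrixGroups
open SlashInvariantForm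

namespace Fermat.Agent.S24

/-- The analytic `j`-invariant `E₄³ / Δ` on the upper half plane (no factor `1728`). -/
noncomputable def jFun (z : ℍ) : ℂ := E₄ z ^ 3 / ModularForm.discriminant z

theorem jFun_def (z : ℍ) : jFun z = E₄ z ^ 3 / ModularForm.discriminant z := rfl

theorem jFun_mul_discriminant (z : ℍ) : jFun z * ModularForm.discriminant z = E₄ z ^ 3 := by
  rw [jFun, div_mul_cancel₀ _ (discriminant_ne_zero z)]

theorem jFun_smul (γ : SL(2, ℤ)) (z : ℍ) : jFun (γ • z) = jFun z := by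
  have h4 : SlashInvariantFormClass (ModularForm 𝒮ℒ 4) Γ(1) 4 := Gamma_one_coe_eq_SL ▸ inferInstance
  have h12 : SlashInvariantFormClass (CuspForm 𝒮ℒ 12) Γ(1) 12 :=
    Gamma_one_coe_eq_SL ▸ inferInstance
  have e4 := slash_action_eqn_SL'' E₄ (mem_Gamma_one γ) z
  have e12 := slash_action_eqn_SL'' CuspForm.discriminant (mem_Gamma_one γ) z
  rw [CuspForm.coe_discriminant] at e12
  unfold jFun
  rw [e4, e12]
  have hd : denom γ z ≠ 0 := denom_ne_zero _ _
  have hΔ : ModularForm.discriminant z ≠ 0 := discriminant_ne_zero z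
  field_simp

theorem tendsto_E₄_atImInfty : Tendsto (fun z : ℍ => E₄ z) atImInfty (𝓝 1) := by
  have hper := SlashInvariantFormClass.periodic_comp_ofComplex E₄ one_mem_strictPeriods_SL
  have hcusp : Fact (IsCusp OnePoint.infty 𝒮ℒ) :=
    ⟨Subgroup.isCusp_of_mem_strictPeriods one_pos one_mem_strictPeriods_SL⟩
  have hbdd := ModularFormClass.bdd_at_infty E₄
  have hO := UpperHalfPlane.exp_decay_sub_atImInfty one_pos hper (ModularFormClass.holo E₄) hbdd
  have hv : valueAtInfty (E₄ : ℍ → ℂ) = 1 := by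
    rw [← UpperHalfPlane.qExpansion_coeff_zero one_pos
      (ModularFormClass.analyticAt_cuspFunction_zero E₄ one_pos one_mem_strictPeriods_SL) hper]
    exact EisensteinSeries.E_qExpansion_coeff_zero _ (by decide)
  rw [hv] at hO
  have h0 : Tendsto (fun τ : ℍ => Real.exp (-2 * Real.pi * τ.im / 1)) atImInfty (𝓝 0) := by
    have : Tendsto (fun τ : ℍ => -2 * Real.pi * τ.im / 1) atImInfty atBot := by
      simp only [div_one]
      apply Tendsto.const_mul_atTop_of_neg (by nlinarith [Real.pi_pos])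
      exact tendsto_comap
    exact Real.tendsto_exp_atBot.comp this
  have h1 := hO.trans_tendsto h0
  have := h1.add_const (1 : ℂ)
  simpa using this

theorem tendsto_norm_jFun_atImInfty : Tendsto (fun z : ℍ => ‖jFun z‖) atImInfty atTop := by
  have hΔ : Tendsto (fun z : ℍ => ‖ModularForm.discriminant z‖) atImInfty (𝓝[>] 0) := by
    rw [tendsto_nhdsWithin_iff]
    refine ⟨?_, Eventually.of_forall fun z => ?_⟩
    · have := (discriminant_isZeroAtImInfty : Tendsto ModularForm.discriminant atImInfty (𝓝 0)).norm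
      simpa using this
    · exact norm_pos_iff.mpr (discriminant_ne_zero z)
  have hΔ' := hΔ.inv_tendsto_nhdsGT_zero
  have hE : Tendsto (fun z : ℍ => ‖E₄ z ^ 3‖) atImInfty (𝓝 1) := by
    have := (tendsto_E₄_atImInfty.pow 3).norm
    simpa using this
  have := hE.pos_mul_atTop one_pos hΔ'
  refine this.congr fun z => ?_
  simp [jFun, div_eq_mul_inv]

theorem differentiableOn_jFun_comp_ofComplex :
    DifferentiableOn ℂ (jFun ∘ ofComplex) upperHalfPlaneSet := by
  have h4 : DifferentiableOn ℂ ((E₄ : ℍ → ℂ) ∘ ofComplex) upperHalfPlaneSet :=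
    UpperHalfPlane.mdifferentiable_iff.mp (ModularFormClass.holo E₄)
  have h12 : DifferentiableOn ℂ ((CuspForm.discriminant : ℍ → ℂ) ∘ ofComplex) upperHalfPlaneSet :=
    UpperHalfPlane.mdifferentiable_iff.mp (CuspFormClass.holo CuspForm.discriminant)
  have := (h4.pow 3).div h12 (fun z hz => by
    simpa using discriminant_ne_zero (ofComplex z))
  exact this

theorem continuous_jFun : Continuous jFun := by
  have h : jFun = (jFun ∘ ofComplex) ∘ ((↑) : ℍ → ℂ) := by
    funext z
    simp
  rw [h]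
  refine differentiableOn_jFun_comp_ofComplex.continuousOn.comp_continuous
    UpperHalfPlane.continuous_coe fun z => z.im_pos

theorem range_jFun_eq_image :
    Set.range jFun = (jFun ∘ ofComplex) '' upperHalfPlaneSet := by
  ext w
  constructor
  · rintro ⟨z, rfl⟩
    exact ⟨(z : ℂ), z.im_pos, by simp⟩
  · rintro ⟨z, _, rfl⟩
    exact ⟨ofComplex z, rfl⟩

theorem isOpen_range_jFun : IsOpen (Set.range jFun) := by
  have han := differentiableOn_jFun_comp_ofComplex.analyticOnNhd isOpen_upperHalfPlaneSet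
  have hpre : IsPreconnected upperHalfPlaneSet := (convex_halfSpace_im_gt 0).isPreconnected
  rcases han.is_constant_or_isOpen hpre with ⟨w, hw⟩ | hopen
  · exfalso
    have hconst : ∀ z : ℍ, jFun z = w := fun z => by
      have := hw (z : ℂ) z.im_pos
      simpa using this
    have h1 : Tendsto (fun z : ℍ => ‖jFun z‖) atImInfty (𝓝 ‖w‖) := by
      simp only [hconst]
      exact tendsto_const_nhds
    exact not_tendsto_nhds_of_tendsto_atTop tendsto_norm_jFun_atImInfty _ h1
  · rw [range_jFun_eq_image]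
    exact hopen _ subset_rfl isOpen_upperHalfPlaneSet

/-- The truncated closed fundamental domain, as a subset of `ℂ`. -/
def fdTrunc (A : ℝ) : Set ℂ :=
  {w : ℂ | 1 ≤ Complex.normSq w ∧ |w.re| ≤ 1 / 2 ∧ 0 ≤ w.im ∧ w.im ≤ A}

theorem isCompact_fdTrunc (A : ℝ) : IsCompact (fdTrunc A) := by
  apply Metric.isCompact_of_isClosed_isBounded
  · have h1 : IsClosed {w : ℂ | 1 ≤ Complex.normSq w} :=
      isClosed_le continuous_const Complex.continuous_normSq
    have h2 : IsClosed {w : ℂ | |w.re| ≤ 1 / 2} :=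
      isClosed_le (continuous_abs.comp Complex.continuous_re) continuous_const
    have h3 : IsClosed {w : ℂ | 0 ≤ w.im} := isClosed_le continuous_const Complex.continuous_im
    have h4 : IsClosed {w : ℂ | w.im ≤ A} := isClosed_le Complex.continuous_im continuous_const
    exact h1.inter (h2.inter (h3.inter h4))
  · refine (Metric.isBounded_closedBall (x := (0 : ℂ)) (r := 1 / 2 + |A|)).subset ?_
    rintro w ⟨-, h2, h3, h4⟩
    rw [mem_closedBall_zero_iff]
    calc ‖w‖ ≤ |w.re| + |w.im| := Complex.norm_le_abs_re_add_abs_im w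
      _ ≤ 1 / 2 + |A| :=
        add_le_add h2 (by rw [abs_of_nonneg h3]; exact h4.trans (le_abs_self A))

theorem fdTrunc_subset (A : ℝ) : fdTrunc A ⊆ upperHalfPlaneSet := by
  rintro w ⟨h1, h2, h3, -⟩
  show 0 < w.im
  rcases h3.lt_or_eq with h | h
  · exact h
  · exfalso
    rw [Complex.normSq_apply, ← h] at h1
    have : w.re * w.re ≤ 1 / 4 := by
      have := abs_le.mp h2
      nlinarith [this.1, this.2]
    nlinarith

/-- Every value of `jFun` is attained on the standard closed fundamental domain. -/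
theorem exists_mem_fd_jFun_eq (z : ℍ) : ∃ z' : ℍ, z' ∈ ModularGroup.fd ∧ jFun z' = jFun z := by
  obtain ⟨g, hg⟩ := ModularGroup.exists_smul_mem_fd z
  exact ⟨g • z, hg, jFun_smul g z⟩

theorem isClosed_range_jFun : IsClosed (Set.range jFun) := by
  apply IsSeqClosed.isClosed
  intro u w hu huw
  -- choose preimages in the fundamental domain
  have hz : ∀ n, ∃ z : ℍ, z ∈ ModularGroup.fd ∧ jFun z = u n := by
    intro n
    obtain ⟨z, hz⟩ := hu n
    obtain ⟨z', hz', h⟩ := exists_mem_fd_jFun_eq z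
    exact ⟨z', hz', h.trans hz⟩
  choose z hzfd hzu using hz
  -- growth bound
  have hev := tendsto_atTop.mp tendsto_norm_jFun_atImInfty (‖w‖ + 2)
  obtain ⟨A, hA⟩ := (UpperHalfPlane.atImInfty_mem _).mp hev
  have hbound : ∀ᶠ n in atTop, ‖u n‖ < ‖w‖ + 1 := by
    have := huw.norm
    exact this.eventually (gt_mem_nhds (by linarith))
  have hmem : ∀ᶠ n in atTop, ((z n : ℍ) : ℂ) ∈ fdTrunc A := by
    filter_upwards [hbound] with n hn
    refine ⟨(hzfd n).1, (hzfd n).2, (z n).im_pos.le, ?_⟩
    by_contra hcon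
    have hle : A ≤ (z n).im := (not_le.mp hcon).le
    have h2 : ‖w‖ + 2 ≤ ‖jFun (z n)‖ := hA (z n) hle
    rw [hzu n] at h2
    linarith
  obtain ⟨a, ha, φ, hφ, hlim⟩ := (isCompact_fdTrunc A).tendsto_subseq' hmem.frequently
  have ha' : a ∈ upperHalfPlaneSet := fdTrunc_subset A ha
  have hcont : ContinuousAt (jFun ∘ ofComplex) a :=
    (differentiableOn_jFun_comp_ofComplex.continuousOn).continuousAt
      (isOpen_upperHalfPlaneSet.mem_nhds ha')
  have h1 : Tendsto (fun n => (jFun ∘ ofComplex) ((z (φ n) : ℍ) : ℂ)) atTop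
      (𝓝 ((jFun ∘ ofComplex) a)) := hcont.tendsto.comp hlim
  have h2 : (fun n => (jFun ∘ ofComplex) ((z (φ n) : ℍ) : ℂ)) = u ∘ φ := by
    funext n
    simp [hzu]
  rw [h2] at h1
  have h3 : Tendsto (u ∘ φ) atTop (𝓝 w) := huw.comp hφ.tendsto_atTop
  exact ⟨ofComplex a, tendsto_nhds_unique h1 h3⟩

/-- The analytic `j`-function `E₄³/Δ : ℍ → ℂ` is surjective. -/
theorem jFun_surjective : Function.Surjective jFun := by
  have hclopen : IsClopen (Set.range jFun) := ⟨isClosed_range_jFun, isOpen_range_jFun⟩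
  have hne : (Set.range jFun).Nonempty := ⟨jFun UpperHalfPlane.I, Set.mem_range_self _⟩
  have := hclopen.eq_univ hne
  exact Set.range_eq_univ.mp this

/-- Division-free form: every complex number `a` is a value of `E₄³/Δ`. -/
theorem j_surjective (a : ℂ) : ∃ z : ℍ, E₄ z ^ 3 = a * ModularForm.discriminant z := by
  obtain ⟨z, hz⟩ := jFun_surjective a
  exact ⟨z, by rw [← hz, jFun_mul_discriminant]⟩

/-- Every complex number is a value of `E₄³/Δ` on the standard closed fundamental domain. -/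
theorem exists_jFun_eq_mem_fd (a : ℂ) : ∃ z : ℍ, z ∈ ModularGroup.fd ∧ jFun z = a := by
  obtain ⟨z, hz⟩ := jFun_surjective a
  obtain ⟨z', hz', h⟩ := exists_mem_fd_jFun_eq z
  exact ⟨z', hz', h.trans hz⟩

end Fermat.Agent.S24
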