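import Mathlib
import Fermat.Agent.S24.JSurjective

/-!
# S24, piece B4 (core): the coset polynomial

For `A B : ModularForm Γ₀(N) k` with `B` nowhere vanishing on `ℍ`, the function `A / B` is a root
of a monic polynomial of degree `[SL₂(ℤ) : Γ₀(N)]` whose coefficients are polynomials in `j`.

The two level-one inputs (`LevelOneInputs`) are stated as hypotheses; they are proved in
`Fermat/Agent/S24/LevelOnePoly.lean`.
-/

set_option autoImplicit false

open UpperHalfPlane ModularForm ModularFormClass MatrixGroups Polynomial SlashInvariantForm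

namespace Fermat.Agent.S24.CosetPoly

/-- The level-one inputs: a level-one form of weight `12 r` is `p(j) Δ^r`. -/
def PolyInput : Prop :=
  ∀ (r : ℕ) (X : ModularForm 𝒮ℒ (12 * (r : ℤ))),
    ∃ p : Polynomial ℂ, p.natDegree ≤ r ∧
      ∀ z : ℍ, X z = p.eval (jFun z) * ModularForm.discriminant z ^ r

/-- The level-one inputs: a nowhere vanishing level-one form is `c Δ^r`. -/
def UnitInput : Prop :=
  ∀ {k : ℤ} (Y : ModularForm 𝒮ℒ k), (∀ z : ℍ, Y z ≠ 0) →
    ∃ (r : ℕ) (c : ℂ), c ≠ 0 ∧ k = 12 * (r : ℤ) ∧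
      ∀ z : ℍ, Y z = c * ModularForm.discriminant z ^ r

section General

variable {𝒢 : Subgroup (GL (Fin 2) ℝ)} [𝒢.IsFiniteRelIndex 𝒮ℒ] [𝒢.HasDetOne] {k : ℤ}

local notation "𝒬" => 𝒮ℒ ⧸ (𝒢.subgroupOf 𝒮ℒ)

noncomputable local instance : Fintype 𝒬 := Fintype.ofFinite _

variable (A B : ModularForm 𝒢 k)

lemma quotientFunc_sub_smul (t : ℂ) (q : 𝒬) :
    quotientFunc (t • B - A) q = t • quotientFunc B q - quotientFunc A q := by
  induction q using Quotient.inductionOn with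
  | h r =>
    obtain ⟨g, hg⟩ := r.2
    simp only [quotientFunc_mk]
    have hcoe : (⇑(t • B - A) : ℍ → ℂ) = t • (⇑B : ℍ → ℂ) - ⇑A := by
      ext z; simp
    rw [hcoe, sub_eq_add_neg, SlashAction.add_slash, SlashAction.neg_slash, ← sub_eq_add_neg]
    congr 1
    rw [ModularForm.smul_slash]
    have : UpperHalfPlane.σ ((r : GL (Fin 2) ℝ))⁻¹ = .refl ℝ ℂ := by
      rw [UpperHalfPlane.σ, if_pos]
      rw [← hg, ← map_inv]
      simp
    rw [this]
    rfl

lemma quotientFunc_ne_zero (hB : ∀ z : ℍ, B z ≠ 0) (q : 𝒬) (z : ℍ) : quotientFunc B q z ≠ 0 := by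
  induction q using Quotient.inductionOn with
  | h r =>
    obtain ⟨g, hg⟩ := r.2
    simp only [quotientFunc_mk]
    rw [← hg, ← map_inv]
    show ((⇑B : ℍ → ℂ) ∣[k] (g⁻¹ : SL(2, ℤ))) z ≠ 0
    rw [ModularForm.SL_slash_apply]
    exact mul_ne_zero (hB _) (zpow_ne_zero _ (denom_ne_zero _ z))

lemma quotientFunc_one (f : ModularForm 𝒢 k) :
    quotientFunc f ((1 : 𝒮ℒ) : 𝒬) = (f : ℍ → ℂ) := by
  show quotientFunc f ⟦(1 : 𝒮ℒ)⟧ = _
  rw [quotientFunc_mk]
  simp

/-- The translates `g_q = a_q / b_q` of `A / B`. -/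
noncomputable def gq (q : 𝒬) (z : ℍ) : ℂ := quotientFunc A q z / quotientFunc B q z

lemma gq_one (z : ℍ) : gq A B ((1 : 𝒮ℒ) : 𝒬) z = A z / B z := by
  rw [gq, quotientFunc_one, quotientFunc_one]

lemma norm_sub_smul_apply (hB : ∀ z : ℍ, B z ≠ 0) (t : ℂ) (z : ℍ) :
    ModularForm.norm 𝒮ℒ (t • B - A) z =
      ModularForm.norm 𝒮ℒ B z * ∏ q : 𝒬, (t - gq A B q z) := by
  rw [show ModularForm.norm 𝒮ℒ (t • B - A) z = (⇑(ModularForm.norm 𝒮ℒ (t • B - A)) : ℍ → ℂ) z from rfl,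
    show ModularForm.norm 𝒮ℒ B z = (⇑(ModularForm.norm 𝒮ℒ B) : ℍ → ℂ) z from rfl,
    ModularForm.coe_norm, ModularForm.coe_norm, Finset.prod_apply, Finset.prod_apply,
    ← Finset.prod_mul_distrib]
  refine Finset.prod_congr rfl fun q _ => ?_
  rw [quotientFunc_sub_smul]
  have hb := quotientFunc_ne_zero B hB q z
  simp only [gq, Pi.sub_apply, Pi.smul_apply, smul_eq_mul]
  field_simp

lemma norm_ne_zero_apply (hB : ∀ z : ℍ, B z ≠ 0) (z : ℍ) : ModularForm.norm 𝒮ℒ B z ≠ 0 := by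
  rw [show ModularForm.norm 𝒮ℒ B z = (⇑(ModularForm.norm 𝒮ℒ B) : ℍ → ℂ) z from rfl,
    ModularForm.coe_norm, Finset.prod_apply]
  exact Finset.prod_ne_zero_iff.mpr fun q _ => quotientFunc_ne_zero B hB q z

/-- For every `t`, the function `z ↦ ∏_q (t - g_q z)` is a polynomial in `j`. -/
lemma exists_poly_prod (hP : PolyInput) (hU : UnitInput) (hB : ∀ z : ℍ, B z ≠ 0) (t : ℂ) :
    ∃ p : Polynomial ℂ, ∀ z : ℍ, ∏ q : 𝒬, (t - gq A B q z) = p.eval (jFun z) := by
  obtain ⟨r, c, hc, hk, hNBeq⟩ := hU (ModularForm.norm 𝒮ℒ B) (norm_ne_zero_apply B hB)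
  obtain ⟨p, -, hp⟩ := hP r (ModularForm.mcast hk (ModularForm.norm 𝒮ℒ (t • B - A)))
  refine ⟨C c⁻¹ * p, fun z => ?_⟩
  have h1 := norm_sub_smul_apply A B hB t z
  have h2 : ModularForm.norm 𝒮ℒ (t • B - A) z =
      p.eval (jFun z) * ModularForm.discriminant z ^ r := hp z
  have hΔ : ModularForm.discriminant z ^ r ≠ 0 := pow_ne_zero _ (discriminant_ne_zero z)
  rw [h2, hNBeq z] at h1
  rw [eval_mul, eval_C]
  have h3 : c * (∏ q : 𝒬, (t - gq A B q z)) = p.eval (jFun z) := by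
    apply mul_right_cancel₀ hΔ
    rw [h1]; ring
  rw [← h3, inv_mul_cancel_left₀ hc]

/-- The monic polynomial `Q_z(X) = ∏_q (X - g_q z)`. -/
noncomputable def cosetPolyAt (z : ℍ) : Polynomial ℂ := ∏ q : 𝒬, (X - C (gq A B q z))

lemma cosetPolyAt_monic (z : ℍ) : (cosetPolyAt A B z).Monic :=
  monic_prod_of_monic _ _ fun _ _ => monic_X_sub_C _

lemma cosetPolyAt_natDegree (z : ℍ) : (cosetPolyAt A B z).natDegree = Nat.card 𝒬 := by
  rw [cosetPolyAt, natDegree_prod_of_monic _ _ fun q _ => monic_X_sub_C _]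
  simp [Nat.card_eq_fintype_card]

lemma cosetPolyAt_eval (z : ℍ) (t : ℂ) :
    (cosetPolyAt A B z).eval t = ∏ q : 𝒬, (t - gq A B q z) := by
  rw [cosetPolyAt, eval_prod]
  simp

lemma cosetPolyAt_root (z : ℍ) : (cosetPolyAt A B z).eval (A z / B z) = 0 := by
  rw [cosetPolyAt_eval]
  refine Finset.prod_eq_zero (Finset.mem_univ ((1 : 𝒮ℒ) : 𝒬)) ?_
  rw [gq_one, sub_self]

/-- The coefficients of `Q_z` are polynomials in `j z`. -/
lemma exists_poly_coeff (hP : PolyInput) (hU : UnitInput) (hB : ∀ z : ℍ, B z ≠ 0) (m : ℕ) :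
    ∃ E : Polynomial ℂ, ∀ z : ℍ, (cosetPolyAt A B z).coeff m = E.eval (jFun z) := by
  classical
  choose p hp using exists_poly_prod A B hP hU hB
  set n := Nat.card 𝒬
  set s : Finset ℕ := Finset.range (n + 1)
  set v : ℕ → ℂ := fun i => (i : ℂ)
  have hv : Set.InjOn v s := fun a _ b _ h => Nat.cast_injective h
  refine ⟨∑ i ∈ s, C ((Lagrange.basis s v i).coeff m) * p (v i), fun z => ?_⟩
  have hdeg : (cosetPolyAt A B z).degree < s.card := by
    rw [Finset.card_range, degree_eq_natDegree (cosetPolyAt_monic A B z).ne_zero,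
      cosetPolyAt_natDegree]
    exact_mod_cast Nat.lt_succ_self n
  have h := Lagrange.eq_interpolate hv hdeg
  rw [Lagrange.interpolate_apply] at h
  conv_lhs => rw [h]
  rw [finsetSum_coeff, eval_finsetSum]
  refine Finset.sum_congr rfl fun i _ => ?_
  rw [coeff_C_mul, eval_mul, eval_C, cosetPolyAt_eval, hp, mul_comm]

/-- **Coset polynomial (general form).** `A / B` is a root of a monic polynomial of degree
`[SL₂(ℤ) : 𝒢]` with coefficients in `ℂ[j]`. -/
theorem exists_monic_bivariate_general (hP : PolyInput) (hU : UnitInput)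
    (hB : ∀ z : ℍ, B z ≠ 0) :
    ∃ P : Polynomial (Polynomial ℂ), P.Monic ∧ P.natDegree = Nat.card 𝒬 ∧
      ∀ z : ℍ, P.evalEval (jFun z) (A z / B z) = 0 := by
  classical
  choose E hE using exists_poly_coeff A B hP hU hB
  set n := Nat.card 𝒬 with hn
  set R : Polynomial (Polynomial ℂ) := ∑ m ∈ Finset.range n, C (E m) * X ^ m with hR
  have hRdeg : R.degree < n := by
    refine (degree_sum_le _ _).trans_lt ?_
    rw [Finset.sup_lt_iff (by exact_mod_cast WithBot.bot_lt_coe n)]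
    intro m hm
    refine (degree_C_mul_X_pow_le m (E m)).trans_lt ?_
    exact_mod_cast Finset.mem_range.mp hm
  refine ⟨X ^ n + R, monic_X_pow_add hRdeg, ?_, fun z => ?_⟩
  · rw [natDegree_add_eq_left_of_degree_lt (by rwa [degree_X_pow]), natDegree_X_pow]
  · have hmonic := cosetPolyAt_monic A B z
    have hnat := cosetPolyAt_natDegree A B z
    have key : (X ^ n + R).evalEval (jFun z) (A z / B z) =
        (cosetPolyAt A B z).eval (A z / B z) := by
      conv_rhs => rw [eval_eq_sum_range, hnat, Finset.sum_range_succ]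
      rw [← hn]
      have hlead : (cosetPolyAt A B z).coeff n = 1 := by
        rw [hn, ← hnat]; exact hmonic.coeff_natDegree
      rw [hlead, one_mul, add_comm]
      simp only [evalEval, eval_add, eval_pow, eval_X, hR, eval_finsetSum, eval_mul, eval_C]
      congr 1
      refine Finset.sum_congr rfl fun m _ => ?_
      rw [hE]
    rw [key, cosetPolyAt_root]

end General

section Gamma0

open CongruenceSubgroup

/-- The number of cosets of (the image in `GL₂(ℝ)` of) a subgroup `Γ ≤ SL₂(ℤ)` in `𝒮ℒ`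
is the index of `Γ`. -/
lemma card_quotient_eq_index (Γ : Subgroup SL(2, ℤ)) :
    Nat.card (𝒮ℒ ⧸ ((Γ : Subgroup (GL (Fin 2) ℝ)).subgroupOf 𝒮ℒ)) = Γ.index := by
  have h1 : Nat.card (𝒮ℒ ⧸ ((Γ : Subgroup (GL (Fin 2) ℝ)).subgroupOf 𝒮ℒ)) =
      (Γ : Subgroup (GL (Fin 2) ℝ)).relIndex 𝒮ℒ := rfl
  rw [h1, ← Subgroup.relIndex_top_right, MonoidHom.range_eq_map]
  exact Subgroup.relIndex_map_map_of_injective Γ ⊤ Matrix.SpecialLinearGroup.mapGL_injective

/-- **Coset polynomial for `Γ₀(N)`.** -/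
theorem exists_monic_bivariate (hP : PolyInput) (hU : UnitInput) (N : ℕ) [NeZero N] {k : ℤ}
    (A B : ModularForm ((Gamma0 N : Subgroup SL(2, ℤ)) : Subgroup (GL (Fin 2) ℝ)) k)
    (hB : ∀ z : ℍ, B z ≠ 0) :
    ∃ P : Polynomial (Polynomial ℂ), P.Monic ∧ P.natDegree = (Gamma0 N).index ∧
      ∀ z : ℍ, P.evalEval (jFun z) (A z / B z) = 0 := by
  obtain ⟨P, hmonic, hdeg, hroot⟩ := exists_monic_bivariate_general A B hP hU hB
  exact ⟨P, hmonic, by rw [hdeg, card_quotient_eq_index], hroot⟩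

end Gamma0

end Fermat.Agent.S24.CosetPoly
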