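import Fermat.Agent.S24.JSurjective

/-!
# S24 (block II): the functions `j_d(τ) = j(d τ)` on the upper half plane

Shared definition for the analytic block: `scaleH d τ = d τ` and `jD d τ = jFun (d τ)`.
To connect with any other way of writing `d τ` use `jD_eq`.
-/

set_option autoImplicit false

open UpperHalfPlane
open scoped MatrixGroups

noncomputable section

namespace Fermat.Agent.S24

/-- `τ ↦ d τ` on the upper half plane (junk value `τ` for `d = 0`). -/
def scaleH (d : ℕ) (τ : ℍ) : ℍ :=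
  if h : 0 < d then
    ⟨(d : ℂ) * (τ : ℂ), by
      have h1 : (0 : ℝ) < d := by exact_mod_cast h
      have h2 : ((d : ℂ) * (τ : ℂ)).im = (d : ℝ) * τ.im := by simp
      rw [h2]
      exact mul_pos h1 τ.im_pos⟩
  else τ

theorem coe_scaleH {d : ℕ} (hd : 0 < d) (τ : ℍ) : ((scaleH d τ : ℍ) : ℂ) = (d : ℂ) * (τ : ℂ) := by
  rw [scaleH, dif_pos hd]

theorem scaleH_one (τ : ℍ) : scaleH 1 τ = τ := by
  apply UpperHalfPlane.ext
  rw [coe_scaleH one_pos]
  simp

theorem scaleH_eq {d : ℕ} (hd : 0 < d) {τ τ' : ℍ} (h : (τ' : ℂ) = (d : ℂ) * (τ : ℂ)) :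
    scaleH d τ = τ' := by
  apply UpperHalfPlane.ext
  rw [coe_scaleH hd, h]

/-- The function `j_d(τ) = j(d τ)`. -/
def jD (d : ℕ) (τ : ℍ) : ℂ := jFun (scaleH d τ)

theorem jD_def (d : ℕ) (τ : ℍ) : jD d τ = jFun (scaleH d τ) := rfl

theorem jD_one : jD 1 = jFun := by
  funext τ
  rw [jD_def, scaleH_one]

/-- Bridge to any other way of writing `d τ`. -/
theorem jD_eq {d : ℕ} (hd : 0 < d) {τ τ' : ℍ} (h : (τ' : ℂ) = (d : ℂ) * (τ : ℂ)) :
    jD d τ = jFun τ' := by
  rw [jD_def, scaleH_eq hd h]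

end Fermat.Agent.S24
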