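import Mathlib
import Fermat.Agent.S24.JD
import Fermat.Agent.S24.CosetPoly

/-!
# S24, piece B4: `f(d τ)` as a modular form on `Γ₀(N)` and the algebra of ratios

* `scaleForm N d hd f : ModularForm Γ₀(N) k` for a level-one form `f` of weight `k` and `d ∣ N`,
  with `scaleForm_apply : scaleForm N d hd f z = f (scaleH d z)`;
* `ratioAlg N : Subalgebra ℂ (ℍ → ℂ)`, the functions `A / B` with `A B : ModularForm Γ₀(N) k`
  of the same weight and `B` nowhere vanishing; it contains the functions `jD d`, `d ∣ N`;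
* `exists_monic_of_mem_adjoin`: every element of the `ℂ`-algebra generated by the `jD d` (`d ∣ N`)
  is a root of a monic polynomial of degree `[SL₂(ℤ) : Γ₀(N)]` over `ℂ[j]`.
-/

set_option autoImplicit false

open UpperHalfPlane ModularForm MatrixGroups CongruenceSubgroup Polynomial

namespace Fermat.Agent.S24.LevelForms

open Fermat.Agent.S24.CosetPoly

/-- `diag(d, 1)` as an element of `GL(2, ℝ)`. -/
noncomputable def alphaD (d : ℕ) [NeZero d] : GL (Fin 2) ℝ :=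
  Matrix.GeneralLinearGroup.mkOfDetNeZero !![(d : ℝ), 0; 0, 1]
    (by simp [Matrix.det_fin_two, NeZero.ne])

lemma val_alphaD (d : ℕ) [NeZero d] :
    ((alphaD d : GL (Fin 2) ℝ) : Matrix (Fin 2) (Fin 2) ℝ) = !![(d : ℝ), 0; 0, 1] :=
  rfl

lemma dvd_of_mem_Gamma0 {N d : ℕ} (hd : d ∣ N) {γ : SL(2, ℤ)} (hγ : γ ∈ Gamma0 N) :
    (d : ℤ) ∣ γ 1 0 := by
  have h1 : (N : ℤ) ∣ γ 1 0 :=
    (ZMod.intCast_zmod_eq_zero_iff_dvd _ _).mp (Gamma0_mem.mp hγ)
  exact (Int.natCast_dvd_natCast.mpr hd).trans h1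

/-- For `γ ∈ Γ₀(N)` and `d ∣ N`, the conjugate
`diag(d,1) γ diag(d,1)⁻¹ = [[a, d b], [c / d, e]]`. -/
noncomputable def conjD (N d : ℕ) [NeZero d] (hd : d ∣ N) (γ : SL(2, ℤ)) (hγ : γ ∈ Gamma0 N) :
    SL(2, ℤ) :=
  ⟨!![γ 0 0, (d : ℤ) * γ 0 1; γ 1 0 / (d : ℤ), γ 1 1], by
    obtain ⟨c, hc⟩ := dvd_of_mem_Gamma0 hd hγ
    have hd0 : (d : ℤ) ≠ 0 := by exact_mod_cast NeZero.ne d
    have hdet := γ.det_coe
    rw [Matrix.det_fin_two] at hdet
    rw [Matrix.det_fin_two_of, hc, Int.mul_ediv_cancel_left _ hd0]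
    rw [hc] at hdet
    linarith⟩

lemma alphaD_mul_mapGL (N d : ℕ) [NeZero d] (hd : d ∣ N) (γ : SL(2, ℤ)) (hγ : γ ∈ Gamma0 N) :
    alphaD d * Matrix.SpecialLinearGroup.mapGL ℝ γ =
      Matrix.SpecialLinearGroup.mapGL ℝ (conjD N d hd γ hγ) * alphaD d := by
  obtain ⟨c, hc⟩ := dvd_of_mem_Gamma0 hd hγ
  have hd0 : (d : ℤ) ≠ 0 := by exact_mod_cast NeZero.ne d
  apply Units.ext
  rw [Units.val_mul, Units.val_mul, val_alphaD]
  show !![(d : ℝ), 0; 0, 1] * (γ.val.map (algebraMap ℤ ℝ)) =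
    ((conjD N d hd γ hγ).val.map (algebraMap ℤ ℝ)) * !![(d : ℝ), 0; 0, 1]
  have hval : (conjD N d hd γ hγ).val =
      !![γ 0 0, (d : ℤ) * γ 0 1; γ 1 0 / (d : ℤ), γ 1 1] := rfl
  rw [hval]
  ext i j
  fin_cases i <;> fin_cases j <;>
    simp [Matrix.mul_apply, Fin.sum_univ_two, hc, Int.mul_ediv_cancel_left _ hd0] <;> ring

open ConjAct Pointwise in
lemma gamma0_le_conj (N d : ℕ) [NeZero d] (hd : d ∣ N) :
    ((Gamma0 N : Subgroup SL(2, ℤ)) : Subgroup (GL (Fin 2) ℝ)) ≤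
      toConjAct (alphaD d)⁻¹ • 𝒮ℒ := by
  rintro g ⟨γ, hγ, rfl⟩
  rw [map_inv, Subgroup.mem_inv_pointwise_smul_iff, toConjAct_smul]
  rw [alphaD_mul_mapGL N d hd γ hγ, mul_inv_cancel_right]
  exact ⟨_, rfl⟩

lemma det_alphaD (d : ℕ) [NeZero d] : ((alphaD d).det : ℝ) = d := by
  rw [Matrix.GeneralLinearGroup.val_det_apply, val_alphaD, Matrix.det_fin_two_of]
  ring

lemma det_alphaD_pos (d : ℕ) [NeZero d] : 0 < ((alphaD d).det : ℝ) := by
  rw [det_alphaD]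
  exact_mod_cast Nat.pos_of_ne_zero (NeZero.ne d)

lemma coe_alphaD_smul (d : ℕ) [NeZero d] (z : ℍ) : ((alphaD d • z : ℍ) : ℂ) = (d : ℂ) * z := by
  rw [UpperHalfPlane.coe_smul_of_det_pos (det_alphaD_pos d)]
  simp [UpperHalfPlane.num, UpperHalfPlane.denom, val_alphaD]

lemma alphaD_smul (d : ℕ) [NeZero d] (z : ℍ) : alphaD d • z = scaleH d z := by
  apply UpperHalfPlane.ext
  rw [coe_alphaD_smul, coe_scaleH (Nat.pos_of_ne_zero (NeZero.ne d))]

section scaleForm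

variable {F : Type*} [FunLike F ℍ ℂ] {k : ℤ} [ModularFormClass F 𝒮ℒ k]

/-- `z ↦ f (d z)` as a modular form for `Γ₀(N)`, for a level-one form `f` and `d ∣ N`. -/
noncomputable def scaleForm (N d : ℕ) [NeZero d] (hd : d ∣ N) (f : F) :
    ModularForm ((Gamma0 N : Subgroup SL(2, ℤ)) : Subgroup (GL (Fin 2) ℝ)) k :=
  let t0 := (((d : ℂ) ^ (k - 1))⁻¹) • ModularForm.translate f (alphaD d)
  { toFun := t0
    slash_action_eq' := fun γ hγ => t0.slash_action_eq' γ (gamma0_le_conj N d hd hγ)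
    holo' := t0.holo'
    bdd_at_cusps' := fun hc => t0.bdd_at_cusps' (hc.mono (gamma0_le_conj N d hd)) }

lemma scaleForm_apply (N d : ℕ) [NeZero d] (hd : d ∣ N) (f : F) (z : ℍ) :
    scaleForm N d hd f z = f (scaleH d z) := by
  have hd0 : (d : ℂ) ≠ 0 := by exact_mod_cast NeZero.ne d
  have hσ : UpperHalfPlane.σ (alphaD d) = .refl ℝ ℂ := by
    rw [UpperHalfPlane.σ, if_pos (det_alphaD_pos d)]
  have hden : UpperHalfPlane.denom (alphaD d) z = 1 := by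
    simp [UpperHalfPlane.denom, val_alphaD]
  show ((d : ℂ) ^ (k - 1))⁻¹ • ((f : ℍ → ℂ) ∣[k] alphaD d) z = f (scaleH d z)
  rw [ModularForm.slash_apply, hσ, det_alphaD, hden, alphaD_smul]
  simp only [ContinuousAlgEquiv.refl_apply, Nat.abs_cast, Complex.ofReal_natCast, one_zpow,
    mul_one, smul_eq_mul]
  rw [mul_comm, mul_assoc, mul_inv_cancel₀ (zpow_ne_zero _ hd0), mul_one]

end scaleForm

/-! ### The algebra of ratios -/

/-- `G = A / B` for two modular forms of the same weight on `Γ₀(N)`, `B` nowhere vanishing. -/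
def IsRatio (N : ℕ) (G : ℍ → ℂ) : Prop :=
  ∃ (k : ℤ) (A B : ModularForm ((Gamma0 N : Subgroup SL(2, ℤ)) : Subgroup (GL (Fin 2) ℝ)) k),
    (∀ z : ℍ, B z ≠ 0) ∧ ∀ z : ℍ, G z = A z / B z

variable {N : ℕ}

lemma isRatio_const (c : ℂ) : IsRatio N (fun _ => c) :=
  ⟨0, ModularForm.const c, ModularForm.const 1, fun z => by simp, fun z => by simp⟩

lemma IsRatio.mul {G H : ℍ → ℂ} (hG : IsRatio N G) (hH : IsRatio N H) : IsRatio N (G * H) := by
  obtain ⟨k₁, A₁, B₁, hB₁, hG⟩ := hG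
  obtain ⟨k₂, A₂, B₂, hB₂, hH⟩ := hH
  refine ⟨k₁ + k₂, A₁.mul A₂, B₁.mul B₂, fun z => ?_, fun z => ?_⟩
  · simpa [ModularForm.coe_mul] using mul_ne_zero (hB₁ z) (hB₂ z)
  · simp only [Pi.mul_apply, hG, hH, ModularForm.coe_mul]
    rw [div_mul_div_comm]

lemma IsRatio.add {G H : ℍ → ℂ} (hG : IsRatio N G) (hH : IsRatio N H) : IsRatio N (G + H) := by
  obtain ⟨k₁, A₁, B₁, hB₁, hG⟩ := hG
  obtain ⟨k₂, A₂, B₂, hB₂, hH⟩ := hH
  refine ⟨k₁ + k₂, A₁.mul B₂ + ModularForm.mcast (add_comm k₂ k₁) (A₂.mul B₁), B₁.mul B₂,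
    fun z => ?_, fun z => ?_⟩
  · simpa [ModularForm.coe_mul] using mul_ne_zero (hB₁ z) (hB₂ z)
  · simp only [Pi.add_apply, hG, hH, FunLike.coe_add, ModularForm.coe_mul,
      ModularForm.mcast_apply, Pi.mul_apply]
    rw [div_add_div _ _ (hB₁ z) (hB₂ z)]
    ring

/-- The `ℂ`-algebra of ratios `A / B` of modular forms of equal weight on `Γ₀(N)` with `B`
nowhere vanishing. -/
def ratioAlg (N : ℕ) : Subalgebra ℂ (ℍ → ℂ) where
  carrier := {G | IsRatio N G}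
  mul_mem' := fun hG hH => hG.mul hH
  add_mem' := fun hG hH => hG.add hH
  algebraMap_mem' := fun c => isRatio_const c

lemma mem_ratioAlg {G : ℍ → ℂ} : G ∈ ratioAlg N ↔ IsRatio N G := Iff.rfl

/-- `j(d τ)` is a ratio of modular forms on `Γ₀(N)` for `d ∣ N`. -/
lemma jD_mem_ratioAlg {d : ℕ} (hd0 : 0 < d) (hd : d ∣ N) : jD d ∈ ratioAlg N := by
  have : NeZero d := ⟨hd0.ne'⟩
  refine ⟨(3 : ℕ) * 4, (scaleForm N d hd E₄).pow 3,
    ModularForm.mcast (by norm_num) (scaleForm N d hd CuspForm.discriminant), fun z => ?_,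
    fun z => ?_⟩
  · rw [ModularForm.mcast_apply, scaleForm_apply]
    exact discriminant_ne_zero _
  · rw [ModularForm.mcast_apply, scaleForm_apply, ModularForm.coe_pow, Pi.pow_apply,
      scaleForm_apply, jD_def, jFun_def]
    rfl

/-- **Upper bound, analytic form.** Every element of the `ℂ`-algebra generated by the functions
`j(d τ)`, `d ∣ N`, is a root of a monic polynomial of degree `[SL₂(ℤ) : Γ₀(N)]` over `ℂ[j]`. -/
theorem exists_monic_of_mem_adjoin (hP : PolyInput) (hU : UnitInput) (N : ℕ) [NeZero N]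
    {G : ℍ → ℂ} (hG : G ∈ Algebra.adjoin ℂ (jD '' {d | d ∣ N})) :
    ∃ P : Polynomial (Polynomial ℂ), P.Monic ∧ P.natDegree = (Gamma0 N).index ∧
      ∀ z : ℍ, P.evalEval (jFun z) (G z) = 0 := by
  have hle : Algebra.adjoin ℂ (jD '' {d | d ∣ N}) ≤ ratioAlg N := by
    refine Algebra.adjoin_le ?_
    rintro _ ⟨d, hd, rfl⟩
    exact jD_mem_ratioAlg (Nat.pos_of_dvd_of_pos hd (Nat.pos_of_ne_zero (NeZero.ne N))) hd
  obtain ⟨k, A, B, hB, hGz⟩ := hle hG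
  obtain ⟨P, hmonic, hdeg, hroot⟩ := exists_monic_bivariate hP hU N A B hB
  exact ⟨P, hmonic, hdeg, fun z => by rw [hGz]; exact hroot z⟩

end Fermat.Agent.S24.LevelForms
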