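import Mathlib
import Fermat.Agent.S24.JSurjective

/-!
# S24, piece B4.a: level one functions with a pole of bounded order at `i∞` are polynomials in `j`

If `F : ℍ → ℂ` is holomorphic, `SL(2,ℤ)`-invariant and `F · Δ ^ M` is bounded at `i∞`, then
`F = p(j)` for a polynomial `p` of degree `≤ M`, where `j = E₄ ^ 3 / Δ`.
-/

set_option autoImplicit false

open UpperHalfPlane ModularForm EisensteinSeries MatrixGroups ModularFormClass CuspFormClass
open scoped Manifold Topology

namespace Fermat.Agent.S24.LevelOnePoly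

local notation "Δ" => ModularForm.discriminant

/-- Bundle a holomorphic `SL(2,ℤ)`-slash-invariant function bounded at `i∞` as a level one
modular form. -/
noncomputable def mfOfInvariant (k : ℤ) (G : ℍ → ℂ) (hol : MDiff G)
    (hinv : ∀ γ : SL(2, ℤ), G ∣[k] γ = G) (hbdd : IsBoundedAtImInfty G) : ModularForm 𝒮ℒ k where
  toFun := G
  slash_action_eq' := by
    rintro _ ⟨γ, rfl⟩
    exact hinv γ
  holo' := hol
  bdd_at_cusps' := by
    intro c hc
    rw [OnePoint.isBoundedAt_iff_forall_SL2Z hc]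
    intro γ _
    rw [hinv γ]
    exact hbdd

@[simp]
theorem coe_mfOfInvariant (k : ℤ) (G : ℍ → ℂ) (hol : MDiff G)
    (hinv : ∀ γ : SL(2, ℤ), G ∣[k] γ = G) (hbdd : IsBoundedAtImInfty G) :
    ⇑(mfOfInvariant k G hol hinv hbdd) = G := rfl

/-- The form `E₄ ^ (3 * n)` of weight `12 * n`. -/
noncomputable def E4pow (n : ℕ) : ModularForm 𝒮ℒ (12 * (n : ℤ)) :=
  ModularForm.mcast (by push_cast; ring) (E₄.pow (3 * n))

theorem E4pow_apply (n : ℕ) (z : ℍ) : E4pow n z = (E₄ z ^ 3) ^ n := by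
  simp only [E4pow, coe_mcast, ModularForm.coe_pow, Pi.pow_apply, pow_mul]

theorem E4pow_qExpansion_coeff_zero (n : ℕ) : (qExpansion 1 (E4pow n)).coeff 0 = 1 := by
  have h4 : (qExpansion 1 E₄).coeff 0 = 1 := E_qExpansion_coeff_zero (by norm_num) ⟨2, rfl⟩
  rw [E4pow, ModularForm.qExpansion_mcast,
    ModularForm.qExpansion_pow one_pos one_mem_strictPeriods_SL]
  rw [PowerSeries.coeff_zero_eq_constantCoeff] at h4 ⊢
  rw [map_pow, h4, one_pow]

/-- Main induction: a level one modular form of weight `12 M` is `p(j) · Δ ^ M` with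
`deg p ≤ M`. -/
theorem exists_poly_of_modularForm (M : ℕ) (G : ModularForm 𝒮ℒ (12 * (M : ℤ))) :
    ∃ p : Polynomial ℂ, p.natDegree ≤ M ∧ ∀ z : ℍ, G z = p.eval (jFun z) * Δ z ^ M := by
  induction M with
  | zero =>
    obtain ⟨c, hc⟩ := levelOne_weight_zero_const
      (ModularForm.mcast (by simp) G : ModularForm 𝒮ℒ 0)
    refine ⟨Polynomial.C c, by simp, fun z => ?_⟩
    have := congrFun hc z
    simp only [coe_mcast, Function.const_apply] at this
    simp [this]
  | succ M ih =>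
    set c : ℂ := (qExpansion 1 G).coeff 0 with hc
    have hcusp : ModularForm.IsCuspForm (G - c • E4pow (M + 1)) :=
      ModularForm.sub_smul_isCuspForm G (E4pow (M + 1)) (E4pow_qExpansion_coeff_zero (M + 1))
    obtain ⟨g, hg⟩ := hcusp
    -- `g` is a cusp form equal to `G - c • E4pow (M+1)`
    set H : ModularForm 𝒮ℒ (12 * (M : ℤ)) :=
      ModularForm.mcast (by push_cast; ring) (CuspForm.discriminantEquiv g) with hH
    obtain ⟨p', hp'deg, hp'⟩ := ih H
    refine ⟨Polynomial.C c * Polynomial.X ^ (M + 1) + p', ?_, fun z => ?_⟩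
    · refine (Polynomial.natDegree_add_le _ _).trans (max_le ?_ (hp'deg.trans (Nat.le_succ M)))
      exact (Polynomial.natDegree_C_mul_le _ _).trans (Polynomial.natDegree_X_pow_le _)
    · have hgz : g z = G z - c * E4pow (M + 1) z := by
        have := congrArg (fun f : ModularForm 𝒮ℒ (12 * ((M + 1 : ℕ) : ℤ)) => f z) hg
        simpa using this
      have hHz : H z = g z / Δ z := by
        simp only [hH, coe_mcast, CuspForm.discriminantEquiv_apply]
      have h1 := hp' z
      rw [hHz, hgz, E4pow_apply, ← jFun_mul_discriminant] at h1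
      have hΔ : Δ z ≠ 0 := discriminant_ne_zero z
      simp only [Polynomial.eval_add, Polynomial.eval_mul, Polynomial.eval_C, Polynomial.eval_pow,
        Polynomial.eval_X]
      field_simp at h1
      linear_combination h1

theorem discriminant_smul (γ : SL(2, ℤ)) (z : ℍ) :
    Δ (γ • z) * denom γ z ^ (-(12 : ℤ)) = Δ z := by
  have h := SlashInvariantForm.slash_action_eqn (CuspForm.discriminant : CuspForm 𝒮ℒ 12)
    (γ : GL (Fin 2) ℝ) ⟨γ, rfl⟩
  have h2 := congrFun h z
  rw [← ModularForm.SL_slash, ModularForm.SL_slash_apply] at h2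
  exact h2

/-- Row 81 name for `exists_poly_of_modularForm`. -/
theorem exists_poly_jFun (r : ℕ) (X : ModularForm 𝒮ℒ (12 * (r : ℤ))) :
    ∃ p : Polynomial ℂ, p.natDegree ≤ r ∧
      ∀ z : ℍ, X z = p.eval (jFun z) * ModularForm.discriminant z ^ r :=
  exists_poly_of_modularForm r X

/-- **B4.a.** A holomorphic `SL(2,ℤ)`-invariant function `F` on `ℍ` such that `F · Δ ^ M` is bounded
at `i∞` is a polynomial of degree `≤ M` in `j = E₄ ^ 3 / Δ`. -/
theorem exists_poly_j {F : ℍ → ℂ} (hol : MDiff F)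
    (hinv : ∀ (γ : SL(2, ℤ)) (z : ℍ), F (γ • z) = F z) (M : ℕ)
    (hbdd : IsBoundedAtImInfty (fun z => F z * Δ z ^ M)) :
    ∃ p : Polynomial ℂ, p.natDegree ≤ M ∧ ∀ z : ℍ, F z = p.eval (E₄ z ^ 3 / Δ z) := by
  have hΔhol : MDiff (Δ : ℍ → ℂ) := (CuspForm.discriminant : CuspForm 𝒮ℒ 12).holo'
  have hGhol : MDiff (fun z => F z * Δ z ^ M) := hol.mul (hΔhol.pow M)
  have hGinv : ∀ γ : SL(2, ℤ), (fun z => F z * Δ z ^ M) ∣[12 * (M : ℤ)] γ
      = fun z => F z * Δ z ^ M := by
    intro γ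
    funext z
    rw [ModularForm.SL_slash_apply]
    rw [hinv γ z, ← discriminant_smul γ z, mul_pow, ← zpow_natCast (denom γ z ^ (-(12:ℤ))) M,
      ← zpow_mul]
    have : (-(12 : ℤ)) * (M : ℤ) = -(12 * (M : ℤ)) := by ring
    rw [this]
    ring
  obtain ⟨p, hpdeg, hp⟩ :=
    exists_poly_of_modularForm M (mfOfInvariant _ _ hGhol hGinv hbdd)
  refine ⟨p, hpdeg, fun z => ?_⟩
  have h := hp z
  rw [coe_mfOfInvariant] at h
  have hΔ : Δ z ^ M ≠ 0 := pow_ne_zero _ (discriminant_ne_zero z)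
  exact mul_right_cancel₀ hΔ h

end Fermat.Agent.S24.LevelOnePoly
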