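import Mathlib
import Fermat.Agent.S24.LevelOnePoly

/-!
# S24, piece B4.L1 (second half): a nowhere vanishing level one modular form is `c * Δ ^ r`
-/

set_option autoImplicit false

open UpperHalfPlane ModularForm EisensteinSeries MatrixGroups ModularFormClass CuspFormClass
open Filter Topology
open scoped Manifold

namespace Fermat.Agent.S24.LevelOneUnit

open Fermat.Agent.S24 Fermat.Agent.S24.LevelOnePoly

local notation "Δ" => ModularForm.discriminant

/-- A level one modular form tends to its constant `q`-coefficient at `i∞`. -/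
theorem tendsto_coeff_zero {k : ℤ} (Y : ModularForm 𝒮ℒ k) :
    Tendsto (fun z : ℍ => Y z) atImInfty (𝓝 ((qExpansion 1 Y).coeff 0)) := by
  have hper := SlashInvariantFormClass.periodic_comp_ofComplex Y one_mem_strictPeriods_SL
  have han := ModularFormClass.analyticAt_cuspFunction_zero Y one_pos one_mem_strictPeriods_SL
  have h0 : (qExpansion 1 Y).coeff 0 = cuspFunction 1 Y 0 := by simp [qExpansion_coeff]
  rw [h0]
  have hcomp : (cuspFunction 1 Y ∘ fun τ : ℍ => Function.Periodic.qParam 1 τ) = fun z : ℍ => Y z := by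
    funext τ
    simpa using eq_cuspFunction τ one_ne_zero hper
  have h := han.continuousAt.tendsto.comp (qParam_tendsto_atImInfty one_pos)
  rwa [hcomp] at h

theorem eq_const_mul_discriminant_pow_aux (n : ℕ) :
    ∀ (k : ℤ), k.toNat = n → ∀ (Y : ModularForm 𝒮ℒ k), (∀ z : ℍ, Y z ≠ 0) →
    ∃ (r : ℕ) (c : ℂ), c ≠ 0 ∧ k = 12 * (r : ℤ) ∧ ∀ z : ℍ, Y z = c * Δ z ^ r := by
  induction n using Nat.strong_induction_on with
  | _ n ih =>
  intro k hkn Y hY
  -- the weight is nonnegative
  have hk : 0 ≤ k := by
    by_contra hneg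
    replace hneg : k < 0 := not_le.mp hneg
    have h0 := levelOne_neg_weight_eq_zero hneg Y
    exact hY UpperHalfPlane.I (by rw [h0]; rfl)
  set a : ℂ := (qExpansion 1 Y).coeff 0 with ha_def
  by_cases ha : a = 0
  · -- cusp form: peel off a factor Δ
    set g : CuspForm 𝒮ℒ k := toCuspForm Y ha with hg
    have hgz : ∀ z, g z = Y z := fun z => by rw [hg, toCuspForm_apply]
    have hk12 : 12 ≤ k := by
      by_contra hlt
      replace hlt : k < 12 := not_le.mp hlt
      have hrank := CuspForm.rank_eq_zero_of_weight_lt_twelve hlt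
      have hg0 : g = 0 := rank_zero_iff_forall_zero.mp hrank g
      have := hgz UpperHalfPlane.I
      rw [hg0] at this
      exact hY UpperHalfPlane.I this.symm
    set Y₁ : ModularForm 𝒮ℒ (k - 12) := CuspForm.discriminantEquiv g with hY₁
    have hY₁z : ∀ z, Y₁ z = Y z / Δ z := fun z => by
      rw [hY₁, CuspForm.discriminantEquiv_apply, hgz]
    have hY₁ne : ∀ z, Y₁ z ≠ 0 := fun z => by
      rw [hY₁z]; exact div_ne_zero (hY z) (discriminant_ne_zero z)
    have hlt : (k - 12).toNat < n := by omega
    obtain ⟨r, c, hc, hkr, hform⟩ := ih _ hlt (k - 12) rfl Y₁ hY₁ne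
    refine ⟨r + 1, c, hc, by push_cast; omega, fun z => ?_⟩
    have h1 := hform z
    rw [hY₁z] at h1
    have hΔ : Δ z ≠ 0 := discriminant_ne_zero z
    field_simp at h1
    rw [h1]; ring
  · -- nonzero value at infinity: weight must be zero
    have hk0 : k = 0 := by
      by_contra hkne
      have hn1 : 1 ≤ n := by omega
      have hkn' : k = (n : ℤ) := by omega
      set Y12 : ModularForm 𝒮ℒ (12 * (n : ℤ)) :=
        ModularForm.mcast (by rw [hkn']; push_cast; ring) (Y.pow 12) with hY12
      have hY12z : ∀ z, Y12 z = Y z ^ 12 := fun z => by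
        simp only [hY12, coe_mcast, ModularForm.coe_pow, Pi.pow_apply]
      obtain ⟨p, -, hp⟩ := exists_poly_jFun n Y12
      have hroot : ∀ x : ℂ, p.eval x ≠ 0 := by
        intro x hx
        obtain ⟨z, hz⟩ := jFun_surjective x
        have := hp z
        rw [hz, hx, zero_mul, hY12z] at this
        exact hY z (pow_eq_zero_iff (by norm_num) |>.mp this)
      have hdeg : p.degree = 0 := by
        by_contra hd
        obtain ⟨x, hx⟩ := IsAlgClosed.exists_root p hd
        exact hroot x hx
      have hpC := Polynomial.eq_C_of_degree_eq_zero hdeg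
      set c' := p.coeff 0
      have hform : ∀ z, Y z ^ 12 = c' * Δ z ^ n := fun z => by
        rw [← hY12z, hp z, hpC, Polynomial.eval_C]
      -- limits at i∞
      have hL : Tendsto (fun z : ℍ => Y z ^ 12) atImInfty (𝓝 (a ^ 12)) :=
        (tendsto_coeff_zero Y).pow 12
      have hΔ0 : Tendsto (fun z : ℍ => Δ z) atImInfty (𝓝 0) := discriminant_isZeroAtImInfty
      have hR : Tendsto (fun z : ℍ => c' * Δ z ^ n) atImInfty (𝓝 (c' * 0 ^ n)) :=
        (hΔ0.pow n).const_mul c'
      rw [zero_pow (by omega : n ≠ 0), mul_zero] at hR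
      have hR' : Tendsto (fun z : ℍ => Y z ^ 12) atImInfty (𝓝 0) :=
        hR.congr fun z => (hform z).symm
      have := tendsto_nhds_unique hL hR'
      exact ha (pow_eq_zero_iff (by norm_num) |>.mp this)
    subst hk0
    obtain ⟨c, hc⟩ := levelOne_weight_zero_const Y
    refine ⟨0, c, ?_, by simp, fun z => ?_⟩
    · intro hc0
      have := congrFun hc UpperHalfPlane.I
      rw [hc0] at this
      exact hY UpperHalfPlane.I this
    · have := congrFun hc z
      simpa using this

/-- **B4.L1 (second half).** A nowhere vanishing level one modular form is a nonzero constant times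
a power of the discriminant. -/
theorem eq_const_mul_discriminant_pow {k : ℤ} (Y : ModularForm 𝒮ℒ k) (hY : ∀ z : ℍ, Y z ≠ 0) :
    ∃ (r : ℕ) (c : ℂ), c ≠ 0 ∧ k = 12 * (r : ℤ) ∧
      ∀ z : ℍ, Y z = c * ModularForm.discriminant z ^ r :=
  eq_const_mul_discriminant_pow_aux k.toNat k rfl Y hY

end Fermat.Agent.S24.LevelOneUnit
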