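import Mathlib

/-!
# S24, piece II2.inf: Laurent expansion at the cusp `i∞` of width `h`

For `f : ℍ → ℂ` that is `h`-periodic, holomorphic on `ℍ` and meromorphic at `i∞`
(`u ^ m * f` bounded at `i∞` for some `m`, `u = exp (2πiτ/h)`), we define its Laurent expansion
`cuspLaurent h f : LaurentSeries ℂ` in the local parameter `u` and show it is an injective
`ℂ`-algebra homomorphism.  Everything is about plain functions `ℍ → ℂ`.
-/

set_option autoImplicit false
set_option linter.unusedSectionVars false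

namespace Fermat.Agent.S24.CuspExpansion

open UpperHalfPlane Filter Function Complex
open scoped Manifold Topology Real

/-- The local parameter `u = exp (2πiτ/h)` at the cusp `i∞` of width `h`, as a function on `ℍ`. -/
noncomputable def qh (h : ℕ) (τ : ℍ) : ℂ := Function.Periodic.qParam (h : ℝ) (τ : ℂ)

section qh

variable (h : ℕ) [NeZero h]

lemma hpos : (0 : ℝ) < (h : ℝ) := by exact_mod_cast Nat.pos_of_ne_zero (NeZero.ne h)

lemma qh_ne_zero (τ : ℍ) : qh h τ ≠ 0 := Function.Periodic.qParam_ne_zero _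

lemma norm_qh_lt_one (τ : ℍ) : ‖qh h τ‖ < 1 :=
  Function.Periodic.norm_qParam_lt_one (hpos h) τ.im_pos

lemma qh_mdiff : MDiff (qh h) := by
  intro τ
  rw [UpperHalfPlane.mdifferentiableAt_iff]
  have h1 : DifferentiableAt ℂ (Function.Periodic.qParam (h : ℝ)) (τ : ℂ) :=
    (Function.Periodic.differentiable_qParam (h := (h : ℝ))).differentiableAt
  refine h1.congr_of_eventuallyEq ?_
  filter_upwards [isOpen_upperHalfPlaneSet.mem_nhds τ.im_pos] with z hz
  simp [qh, Function.comp_apply, ofComplex_apply_of_im_pos hz]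

lemma qParam_add_period (z : ℂ) :
    Function.Periodic.qParam (h : ℝ) (z + (h : ℝ)) = Function.Periodic.qParam (h : ℝ) z := by
  have hh : ((h : ℝ) : ℂ) ≠ 0 := by exact_mod_cast (hpos h).ne'
  unfold Function.Periodic.qParam
  have : 2 * (π : ℂ) * Complex.I * (z + (h : ℝ)) / (h : ℝ) = 2 * π * Complex.I * z / (h : ℝ) + 2 * π * Complex.I := by
    field_simp
  rw [this, Complex.exp_add, Complex.exp_two_pi_mul_I, mul_one]

lemma qh_periodic : Periodic (qh h ∘ ofComplex) (h : ℝ) := by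
  intro z
  simp only [Function.comp_apply]
  by_cases hz : 0 < z.im
  · have hz' : 0 < (z + ((h : ℝ) : ℂ)).im := by simpa using hz
    rw [qh, qh, ofComplex_apply_of_im_pos hz, ofComplex_apply_of_im_pos hz']
    exact qParam_add_period h z
  · have hz' : ¬ 0 < (z + ((h : ℝ) : ℂ)).im := by simpa using hz
    rw [ofComplex_apply_of_im_nonpos (not_lt.mp hz), ofComplex_apply_of_im_nonpos (not_lt.mp hz')]

lemma qh_isBoundedAtImInfty : IsBoundedAtImInfty (qh h) := by
  have : Tendsto (qh h) atImInfty (𝓝 0) := qParam_tendsto_atImInfty (hpos h)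
  exact this.isBigO_one ℝ

end qh

/-- Uniqueness of `q`-expansion coefficients, for plain functions `ℍ → ℂ`. -/
theorem qExpansion_coeff_unique_fun {h : ℝ} {f : ℍ → ℂ} {c : ℕ → ℂ} (hh : 0 < h)
    (ha : AnalyticAt ℂ (cuspFunction h f) 0)
    (hs : ∀ τ : ℍ, HasSum (fun m => c m • Function.Periodic.qParam h τ ^ m) (f τ)) (m : ℕ) :
    c m = (qExpansion h f).coeff m := by
  have h1 := (hasFPowerSeriesOnBall_cuspFunction hh ha hs).hasFPowerSeriesAt
  have h2 := ha.hasFPowerSeriesAt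
  have h3 := congr_arg (FormalMultilinearSeries.coeff · m) (h1.eq_formalMultilinearSeries h2)
  simp only [FormalMultilinearSeries.coeff_ofScalars] at h3
  rw [h3, qExpansion_coeff]
  ring

/-! ### Functions holomorphic at the cusp -/

/-- `f` is `h`-periodic, holomorphic on `ℍ` and bounded at `i∞`. -/
structure HolAtCusp (h : ℕ) (f : ℍ → ℂ) : Prop where
  per : Periodic (f ∘ ofComplex) (h : ℝ)
  hol : MDiff f
  bdd : IsBoundedAtImInfty f

namespace HolAtCusp

variable {h : ℕ} [NeZero h] {f g : ℍ → ℂ}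

theorem analyticAt (hf : HolAtCusp h f) : AnalyticAt ℂ (cuspFunction (h : ℝ) f) 0 :=
  analyticAt_cuspFunction_zero (hpos h) hf.per hf.hol hf.bdd

theorem const (c : ℂ) : HolAtCusp h (fun _ : ℍ => c) where
  per := fun _ => rfl
  hol := mdifferentiable_const
  bdd := Filter.const_boundedAtFilter _ c

theorem add (hf : HolAtCusp h f) (hg : HolAtCusp h g) : HolAtCusp h (f + g) where
  per := fun w => by
    have h1 := hf.per w
    have h2 := hg.per w
    simp only [Function.comp_apply, Pi.add_apply] at h1 h2 ⊢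
    rw [h1, h2]
  hol := hf.hol.add hg.hol
  bdd := hf.bdd.add hg.bdd

theorem neg (hf : HolAtCusp h f) : HolAtCusp h (-f) where
  per := fun w => by
    have h1 := hf.per w
    simp only [Function.comp_apply, Pi.neg_apply] at h1 ⊢
    rw [h1]
  hol := hf.hol.neg
  bdd := hf.bdd.neg

theorem mul (hf : HolAtCusp h f) (hg : HolAtCusp h g) : HolAtCusp h (f * g) where
  per := fun w => by
    have h1 := hf.per w
    have h2 := hg.per w
    simp only [Function.comp_apply, Pi.mul_apply] at h1 h2 ⊢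
    rw [h1, h2]
  hol := hf.hol.mul hg.hol
  bdd := hf.bdd.mul hg.bdd

theorem qh (h : ℕ) [NeZero h] : HolAtCusp h (qh h) where
  per := qh_periodic h
  hol := qh_mdiff h
  bdd := qh_isBoundedAtImInfty h

theorem pow (hf : HolAtCusp h f) (n : ℕ) : HolAtCusp h (f ^ n) := by
  induction n with
  | zero => exact (const (h := h) 1)
  | succ n ih => rw [pow_succ]; exact ih.mul hf

theorem hasSum (hf : HolAtCusp h f) (τ : ℍ) :
    HasSum (fun n : ℕ => (qExpansion (h : ℝ) f).coeff n * CuspExpansion.qh h τ ^ n) (f τ) := by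
  simpa [smul_eq_mul, CuspExpansion.qh] using hasSum_qExpansion (hpos h) hf.per hf.hol hf.bdd τ

theorem eq_zero_of_qExpansion (hf : HolAtCusp h f) (h0 : qExpansion (h : ℝ) f = 0) : f = 0 :=
  (qExpansion_eq_zero_iff (hpos h) hf.per hf.hol hf.bdd).mp h0

/-- Computation tool: a function given everywhere by a convergent power series in `u`. -/
theorem of_hasSum {c : ℕ → ℂ} (hper : Periodic (f ∘ ofComplex) (h : ℝ)) (hhol : MDiff f)
    (hs : ∀ τ : ℍ, HasSum (fun n : ℕ => c n * CuspExpansion.qh h τ ^ n) (f τ)) :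
    HolAtCusp h f ∧ qExpansion (h : ℝ) f = PowerSeries.mk c := by
  have hs' : ∀ τ : ℍ, HasSum (fun n : ℕ => c n • Function.Periodic.qParam (h : ℝ) τ ^ n) (f τ) := by
    intro τ
    simpa [smul_eq_mul, CuspExpansion.qh] using hs τ
  have hb : IsBoundedAtImInfty f := isBoundedAtImInfty_of_hasSum_qExpansion (hpos h) hs'
  have hf : HolAtCusp h f := ⟨hper, hhol, hb⟩
  refine ⟨hf, ?_⟩
  ext n
  rw [PowerSeries.coeff_mk]
  exact (qExpansion_coeff_unique_fun (hpos h) hf.analyticAt hs' n).symm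

end HolAtCusp

section qExpansionLemmas

variable {h : ℕ} [NeZero h] {f g : ℍ → ℂ}

theorem qExpansion_qh : qExpansion (h : ℝ) (qh h) = PowerSeries.X := by
  have := (HolAtCusp.of_hasSum (h := h) (f := qh h) (c := fun n => if n = 1 then 1 else 0)
    (qh_periodic h) (qh_mdiff h) (fun τ => by
      have := hasSum_single (f := fun n : ℕ => (if n = 1 then (1 : ℂ) else 0) * qh h τ ^ n) 1
        (fun m hm => by simp [hm])
      simpa using this)).2
  rw [this]
  ext n
  simp [PowerSeries.coeff_X]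

theorem qExpansion_add' (hf : HolAtCusp h f) (hg : HolAtCusp h g) :
    qExpansion (h : ℝ) (f + g) = qExpansion (h : ℝ) f + qExpansion (h : ℝ) g :=
  qExpansion_add hf.analyticAt hg.analyticAt

theorem qExpansion_mul' (hf : HolAtCusp h f) (hg : HolAtCusp h g) :
    qExpansion (h : ℝ) (f * g) = qExpansion (h : ℝ) f * qExpansion (h : ℝ) g :=
  qExpansion_mul hf.analyticAt hg.analyticAt

theorem qExpansion_neg' (hf : HolAtCusp h f) :
    qExpansion (h : ℝ) (-f) = -qExpansion (h : ℝ) f :=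
  qExpansion_neg hf.analyticAt

theorem qExpansion_const' (c : ℂ) :
    qExpansion (h : ℝ) (fun _ : ℍ => c) = PowerSeries.C c := by
  have := (HolAtCusp.of_hasSum (h := h) (f := fun _ : ℍ => c) (c := fun n => if n = 0 then c else 0)
    (fun _ => rfl) mdifferentiable_const (fun τ => by
      have := hasSum_single (f := fun n : ℕ => (if n = 0 then c else 0) * qh h τ ^ n) 0
        (fun m hm => by simp [hm])
      simpa using this)).2
  rw [this]
  ext n
  simp [PowerSeries.coeff_C]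

theorem qExpansion_qh_pow_mul (hf : HolAtCusp h f) (k : ℕ) :
    qExpansion (h : ℝ) (qh h ^ k * f) = PowerSeries.X ^ k * qExpansion (h : ℝ) f := by
  induction k with
  | zero => simp
  | succ k ih =>
    have e : qh h ^ (k + 1) * f = qh h * (qh h ^ k * f) := by rw [pow_succ']; ring
    rw [e, qExpansion_mul' (HolAtCusp.qh h) (((HolAtCusp.qh h).pow k).mul hf), ih, qExpansion_qh,
      pow_succ']
    ring

end qExpansionLemmas

/-! ### Functions meromorphic at the cusp -/

/-- `f` is `h`-periodic, holomorphic on `ℍ` and meromorphic at `i∞`. -/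
structure MerAtCusp (h : ℕ) (f : ℍ → ℂ) : Prop where
  per : Periodic (f ∘ ofComplex) (h : ℝ)
  hol : MDiff f
  mer : ∃ m : ℕ, IsBoundedAtImInfty (qh h ^ m * f)

namespace MerAtCusp

variable {h : ℕ} [NeZero h] {f g : ℍ → ℂ}

theorem holAtCusp_mul (hf : MerAtCusp h f) {m : ℕ} (hm : IsBoundedAtImInfty (qh h ^ m * f)) :
    HolAtCusp h (qh h ^ m * f) where
  per := fun w => by
    have h1 := hf.per w
    have h2 := ((HolAtCusp.qh h).pow m).per w
    simp only [Function.comp_apply, Pi.mul_apply] at h1 h2 ⊢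
    rw [h1, h2]
  hol := ((HolAtCusp.qh h).pow m).hol.mul hf.hol
  bdd := hm

theorem bdd_of_le {m m' : ℕ} (hmm : m ≤ m')
    (hm : IsBoundedAtImInfty (qh h ^ m * f)) : IsBoundedAtImInfty (qh h ^ m' * f) := by
  have e : qh h ^ m' * f = qh h ^ (m' - m) * (qh h ^ m * f) := by
    rw [← mul_assoc, ← pow_add, Nat.sub_add_cancel hmm]
  rw [e]
  exact ((HolAtCusp.qh h).pow (m' - m)).bdd.mul hm

theorem _root_.Fermat.Agent.S24.CuspExpansion.HolAtCusp.merAtCusp (hf : HolAtCusp h f) :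
    MerAtCusp h f where
  per := hf.per
  hol := hf.hol
  mer := ⟨0, by simpa using hf.bdd⟩

theorem const (c : ℂ) : MerAtCusp h (fun _ : ℍ => c) := (HolAtCusp.const c).merAtCusp

theorem add (hf : MerAtCusp h f) (hg : MerAtCusp h g) : MerAtCusp h (f + g) where
  per := fun w => by
    have h1 := hf.per w
    have h2 := hg.per w
    simp only [Function.comp_apply, Pi.add_apply] at h1 h2 ⊢
    rw [h1, h2]
  hol := hf.hol.add hg.hol
  mer := by
    obtain ⟨m1, h1⟩ := hf.mer
    obtain ⟨m2, h2⟩ := hg.mer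
    refine ⟨m1 + m2, ?_⟩
    rw [mul_add]
    exact (bdd_of_le (Nat.le_add_right _ _) h1).add (bdd_of_le (Nat.le_add_left _ _) h2)

theorem neg (hf : MerAtCusp h f) : MerAtCusp h (-f) where
  per := fun w => by
    have h1 := hf.per w
    simp only [Function.comp_apply, Pi.neg_apply] at h1 ⊢
    rw [h1]
  hol := hf.hol.neg
  mer := by
    obtain ⟨m1, h1⟩ := hf.mer
    refine ⟨m1, ?_⟩
    rw [mul_neg]
    exact h1.neg

theorem mul (hf : MerAtCusp h f) (hg : MerAtCusp h g) : MerAtCusp h (f * g) where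
  per := fun w => by
    have h1 := hf.per w
    have h2 := hg.per w
    simp only [Function.comp_apply, Pi.mul_apply] at h1 h2 ⊢
    rw [h1, h2]
  hol := hf.hol.mul hg.hol
  mer := by
    obtain ⟨m1, h1⟩ := hf.mer
    obtain ⟨m2, h2⟩ := hg.mer
    refine ⟨m1 + m2, ?_⟩
    have e : qh h ^ (m1 + m2) * (f * g) = (qh h ^ m1 * f) * (qh h ^ m2 * g) := by
      rw [pow_add]; ring
    rw [e]
    exact h1.mul h2

theorem sub (hf : MerAtCusp h f) (hg : MerAtCusp h g) : MerAtCusp h (f - g) := by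
  rw [sub_eq_add_neg]
  exact hf.add hg.neg

theorem pow (hf : MerAtCusp h f) (n : ℕ) : MerAtCusp h (f ^ n) := by
  induction n with
  | zero => exact (const (h := h) 1)
  | succ n ih => rw [pow_succ]; exact ih.mul hf

end MerAtCusp

/-! ### The Laurent expansion -/

/-- Laurent expansion at `i∞` in the parameter `u = exp (2πiτ/h)` (junk value `0` unless `f` is
meromorphic at `i∞`). -/
noncomputable def cuspLaurent (h : ℕ) (f : ℍ → ℂ) : LaurentSeries ℂ :=
  open Classical in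
  if hf : ∃ m : ℕ, IsBoundedAtImInfty (qh h ^ m * f) then
    HahnSeries.single (-(hf.choose : ℤ)) (1 : ℂ) *
      HahnSeries.ofPowerSeries ℤ ℂ (qExpansion (h : ℝ) (qh h ^ hf.choose * f))
  else 0

section cuspLaurent

variable {h : ℕ} [NeZero h] {f g : ℍ → ℂ}

/-- The candidate expansion with a prescribed pole bound `m`. -/
noncomputable def laurentOf (h : ℕ) (m : ℕ) (f : ℍ → ℂ) : LaurentSeries ℂ :=
  HahnSeries.single (-(m : ℤ)) (1 : ℂ) *
    HahnSeries.ofPowerSeries ℤ ℂ (qExpansion (h : ℝ) (qh h ^ m * f))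

lemma laurentOf_eq_of_le (hf : MerAtCusp h f) {m m' : ℕ} (hmm : m ≤ m')
    (hm : IsBoundedAtImInfty (qh h ^ m * f)) : laurentOf h m' f = laurentOf h m f := by
  have e : qh h ^ m' * f = qh h ^ (m' - m) * (qh h ^ m * f) := by
    rw [← mul_assoc, ← pow_add, Nat.sub_add_cancel hmm]
  unfold laurentOf
  rw [e, qExpansion_qh_pow_mul (hf.holAtCusp_mul hm), map_mul, map_pow,
    HahnSeries.ofPowerSeries_X, HahnSeries.single_pow, one_pow, ← mul_assoc,
    HahnSeries.single_mul_single, one_mul]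
  have e2 : (-(m' : ℤ) + (m' - m) • (1 : ℤ)) = -(m : ℤ) := by
    simp only [nsmul_eq_mul, mul_one]
    push_cast [Nat.cast_sub hmm]
    ring
  rw [e2]

lemma laurentOf_eq (hf : MerAtCusp h f) {m m' : ℕ}
    (hm : IsBoundedAtImInfty (qh h ^ m * f)) (hm' : IsBoundedAtImInfty (qh h ^ m' * f)) :
    laurentOf h m' f = laurentOf h m f := by
  rcases le_total m m' with hle | hle
  · exact laurentOf_eq_of_le hf hle hm
  · exact (laurentOf_eq_of_le hf hle hm').symm

theorem cuspLaurent_eq (hf : MerAtCusp h f) {m : ℕ} (hm : IsBoundedAtImInfty (qh h ^ m * f)) :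
    cuspLaurent h f = HahnSeries.single (-(m : ℤ)) (1 : ℂ) *
      HahnSeries.ofPowerSeries ℤ ℂ (qExpansion (h : ℝ) (qh h ^ m * f)) := by
  have hex : ∃ m : ℕ, IsBoundedAtImInfty (qh h ^ m * f) := ⟨m, hm⟩
  unfold cuspLaurent
  rw [dif_pos hex]
  exact laurentOf_eq hf hm hex.choose_spec

theorem cuspLaurent_of_holAtCusp (hf : HolAtCusp h f) :
    cuspLaurent h f = HahnSeries.ofPowerSeries ℤ ℂ (qExpansion (h : ℝ) f) := by
  have hm : IsBoundedAtImInfty (qh h ^ 0 * f) := by simpa using hf.bdd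
  rw [cuspLaurent_eq hf.merAtCusp hm]
  simp

theorem cuspLaurent_const (c : ℂ) : cuspLaurent h (fun _ : ℍ => c) = HahnSeries.C c := by
  rw [cuspLaurent_of_holAtCusp (HolAtCusp.const c), qExpansion_const', HahnSeries.ofPowerSeries_C]

theorem cuspLaurent_one : cuspLaurent h (1 : ℍ → ℂ) = 1 := by
  show cuspLaurent h (fun _ : ℍ => (1 : ℂ)) = 1
  rw [cuspLaurent_const]
  simp

theorem cuspLaurent_add (hf : MerAtCusp h f) (hg : MerAtCusp h g) :
    cuspLaurent h (f + g) = cuspLaurent h f + cuspLaurent h g := by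
  obtain ⟨m1, h1⟩ := hf.mer
  obtain ⟨m2, h2⟩ := hg.mer
  have b1 := MerAtCusp.bdd_of_le (Nat.le_add_right m1 m2) h1
  have b2 := MerAtCusp.bdd_of_le (Nat.le_add_left m2 m1) h2
  have b3 : IsBoundedAtImInfty (qh h ^ (m1 + m2) * (f + g)) := by
    rw [mul_add]; exact b1.add b2
  rw [cuspLaurent_eq hf b1, cuspLaurent_eq hg b2, cuspLaurent_eq (hf.add hg) b3, mul_add,
    qExpansion_add' (hf.holAtCusp_mul b1) (hg.holAtCusp_mul b2), map_add, mul_add]

theorem cuspLaurent_neg (hf : MerAtCusp h f) : cuspLaurent h (-f) = -cuspLaurent h f := by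
  obtain ⟨m1, h1⟩ := hf.mer
  have b3 : IsBoundedAtImInfty (qh h ^ m1 * (-f)) := by
    rw [mul_neg]; exact h1.neg
  rw [cuspLaurent_eq hf h1, cuspLaurent_eq hf.neg b3, mul_neg,
    qExpansion_neg' (hf.holAtCusp_mul h1), map_neg]
  ring

theorem cuspLaurent_sub (hf : MerAtCusp h f) (hg : MerAtCusp h g) :
    cuspLaurent h (f - g) = cuspLaurent h f - cuspLaurent h g := by
  rw [sub_eq_add_neg, cuspLaurent_add hf hg.neg, cuspLaurent_neg hg, sub_eq_add_neg]

theorem cuspLaurent_mul (hf : MerAtCusp h f) (hg : MerAtCusp h g) :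
    cuspLaurent h (f * g) = cuspLaurent h f * cuspLaurent h g := by
  obtain ⟨m1, h1⟩ := hf.mer
  obtain ⟨m2, h2⟩ := hg.mer
  have e : qh h ^ (m1 + m2) * (f * g) = (qh h ^ m1 * f) * (qh h ^ m2 * g) := by
    rw [pow_add]; ring
  have b3 : IsBoundedAtImInfty (qh h ^ (m1 + m2) * (f * g)) := by
    rw [e]; exact h1.mul h2
  rw [cuspLaurent_eq hf h1, cuspLaurent_eq hg h2, cuspLaurent_eq (hf.mul hg) b3, e,
    qExpansion_mul' (hf.holAtCusp_mul h1) (hg.holAtCusp_mul h2), map_mul]
  have : HahnSeries.single (-((m1 + m2 : ℕ) : ℤ)) (1 : ℂ) =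
      HahnSeries.single (-(m1 : ℤ)) (1 : ℂ) * HahnSeries.single (-(m2 : ℤ)) (1 : ℂ) := by
    rw [HahnSeries.single_mul_single, one_mul]
    have e3 : (-((m1 + m2 : ℕ) : ℤ)) = -(m1 : ℤ) + -(m2 : ℤ) := by
      push_cast
      ring
    rw [e3]
  rw [this]
  ring

theorem cuspLaurent_pow (hf : MerAtCusp h f) (n : ℕ) :
    cuspLaurent h (f ^ n) = cuspLaurent h f ^ n := by
  induction n with
  | zero => simpa using cuspLaurent_one (h := h)
  | succ n ih => rw [pow_succ, cuspLaurent_mul (hf.pow n) hf, ih, pow_succ]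

theorem cuspLaurent_eq_zero_iff (hf : MerAtCusp h f) : cuspLaurent h f = 0 ↔ f = 0 := by
  obtain ⟨m1, h1⟩ := hf.mer
  rw [cuspLaurent_eq hf h1]
  constructor
  · intro H
    have H2 : HahnSeries.ofPowerSeries ℤ ℂ (qExpansion (h : ℝ) (qh h ^ m1 * f)) = 0 := by
      have := congr_arg (fun x => HahnSeries.single ((m1 : ℤ)) (1 : ℂ) * x) H
      simp only [← mul_assoc, HahnSeries.single_mul_single, mul_zero] at this
      simpa using this
    have H3 : qExpansion (h : ℝ) (qh h ^ m1 * f) = 0 := by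
      apply HahnSeries.ofPowerSeries_injective (Γ := ℤ)
      rw [H2, map_zero]
    have H4 := (hf.holAtCusp_mul h1).eq_zero_of_qExpansion H3
    ext τ
    have H5 := congr_fun H4 τ
    simp only [Pi.mul_apply, Pi.pow_apply, Pi.zero_apply, mul_eq_zero] at H5
    rcases H5 with H5 | H5
    · exact absurd H5 (pow_ne_zero m1 (qh_ne_zero h τ))
    · simpa using H5
  · intro H
    subst H
    simp [qExpansion_zero]

/-- Computation tool: if `u ^ m * f` is given everywhere by a convergent power series in `u`,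
then `f` is meromorphic at the cusp with the obvious Laurent expansion. -/
theorem MerAtCusp.of_hasSum {c : ℕ → ℂ} {m : ℕ} (hper : Periodic (f ∘ ofComplex) (h : ℝ))
    (hhol : MDiff f)
    (hs : ∀ τ : ℍ, HasSum (fun n : ℕ => c n * qh h τ ^ n) (qh h τ ^ m * f τ)) :
    MerAtCusp h f ∧ cuspLaurent h f = HahnSeries.single (-(m : ℤ)) (1 : ℂ) *
      HahnSeries.ofPowerSeries ℤ ℂ (PowerSeries.mk c) := by
  have hperg : Periodic ((qh h ^ m * f) ∘ ofComplex) (h : ℝ) := fun w => by
    have h1 := hper w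
    have h2 := ((HolAtCusp.qh h).pow m).per w
    simp only [Function.comp_apply, Pi.mul_apply] at h1 h2 ⊢
    rw [h1, h2]
  have hholg : MDiff (qh h ^ m * f) := ((HolAtCusp.qh h).pow m).hol.mul hhol
  obtain ⟨hg, hq⟩ := HolAtCusp.of_hasSum (h := h) (f := qh h ^ m * f) (c := c) hperg hholg hs
  have hf : MerAtCusp h f := ⟨hper, hhol, ⟨m, hg.bdd⟩⟩
  exact ⟨hf, by rw [cuspLaurent_eq hf hg.bdd, hq]⟩

lemma ofPowerSeries_coeff_neg (p : PowerSeries ℂ) {k : ℤ} (hk : k < 0) :
    (HahnSeries.ofPowerSeries ℤ ℂ p).coeff k = 0 := by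
  rw [HahnSeries.ofPowerSeries_apply]
  refine HahnSeries.embDomain_of_notMem_range ?_
  rintro ⟨n, rfl⟩
  exact absurd hk (not_lt.mpr (Int.natCast_nonneg n))

lemma coeff_single_neg_mul_ofPowerSeries (m : ℕ) (p : PowerSeries ℂ) (k : ℤ) :
    (HahnSeries.single (-(m : ℤ)) (1 : ℂ) * HahnSeries.ofPowerSeries ℤ ℂ p).coeff k =
      if 0 ≤ k + m then p.coeff (k + m).toNat else 0 := by
  rw [HahnSeries.coeff_single_mul, one_mul, sub_neg_eq_add]
  split_ifs with hk
  · conv_lhs => rw [← Int.toNat_of_nonneg hk]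
    rw [HahnSeries.ofPowerSeries_apply_coeff]
  · exact ofPowerSeries_coeff_neg p (not_le.mp hk)

/-- Coefficients of the Laurent expansion, given any valid pole bound `m`. -/
theorem coeff_cuspLaurent (hf : MerAtCusp h f) {m : ℕ} (hm : IsBoundedAtImInfty (qh h ^ m * f))
    (k : ℤ) : (cuspLaurent h f).coeff k =
      if 0 ≤ k + m then (qExpansion (h : ℝ) (qh h ^ m * f)).coeff (k + m).toNat else 0 := by
  rw [cuspLaurent_eq hf hm, coeff_single_neg_mul_ofPowerSeries]

end cuspLaurent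

/-! ### Upper-triangular translates `τ ↦ (a τ + b) / d` -/

section translate

variable {h₁ h : ℕ} [NeZero h₁] [NeZero h]

/-- The root of unity `exp (2πi b / (d h₁))`. -/
noncomputable def omega (b : ℤ) (d h₁ : ℕ) : ℂ :=
  Complex.exp (2 * π * Complex.I * b / (d * h₁))

lemma omega_ne_zero (b : ℤ) (d h₁ : ℕ) : omega b d h₁ ≠ 0 := Complex.exp_ne_zero _

variable {a d e : ℕ} {b : ℤ} {φ : ℍ → ℍ}

lemma qh_comp (hd : 0 < d) (hae : a * h = e * d * h₁)
    (hφ : ∀ τ : ℍ, (φ τ : ℂ) = (a * (τ : ℂ) + b) / d) (τ : ℍ) :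
    qh h₁ (φ τ) = omega b d h₁ * qh h τ ^ e := by
  have hd' : (d : ℂ) ≠ 0 := by exact_mod_cast hd.ne'
  have hh1 : (h₁ : ℂ) ≠ 0 := by exact_mod_cast NeZero.ne h₁
  have hh : (h : ℂ) ≠ 0 := by exact_mod_cast NeZero.ne h
  have hae' : (a : ℂ) * h = e * d * h₁ := by exact_mod_cast hae
  unfold qh omega Function.Periodic.qParam
  rw [← Complex.exp_nat_mul, ← Complex.exp_add, hφ τ]
  congr 1
  push_cast
  field_simp
  linear_combination (τ : ℂ) * hae'

lemma periodic_comp {F : ℍ → ℂ} (hF : Periodic (F ∘ ofComplex) (h₁ : ℝ)) (hd : 0 < d)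
    (hae : a * h = e * d * h₁) (hφ : ∀ τ : ℍ, (φ τ : ℂ) = (a * (τ : ℂ) + b) / d) :
    Periodic ((F ∘ φ) ∘ ofComplex) (h : ℝ) := by
  intro z
  simp only [Function.comp_apply]
  by_cases hz : 0 < z.im
  · have hz' : 0 < (z + ((h : ℝ) : ℂ)).im := by simpa using hz
    rw [ofComplex_apply_of_im_pos hz, ofComplex_apply_of_im_pos hz']
    have hd' : (d : ℂ) ≠ 0 := by exact_mod_cast hd.ne'
    have hae' : (a : ℂ) * h = e * d * h₁ := by exact_mod_cast hae
    have e1 : ((φ ⟨z + ((h : ℝ) : ℂ), hz'⟩ : ℍ) : ℂ) =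
        ((φ ⟨z, hz⟩ : ℍ) : ℂ) + (e : ℂ) * ((h₁ : ℝ) : ℂ) := by
      rw [hφ, hφ]
      push_cast
      field_simp
      linear_combination hae'
    have e2 := (hF.nat_mul e) ((φ ⟨z, hz⟩ : ℍ) : ℂ)
    simp only [Function.comp_apply, ofComplex_apply] at e2
    calc F (φ ⟨z + ((h : ℝ) : ℂ), hz'⟩)
        = F (ofComplex ((φ ⟨z + ((h : ℝ) : ℂ), hz'⟩ : ℍ) : ℂ)) := by rw [ofComplex_apply]
      _ = F (ofComplex (((φ ⟨z, hz⟩ : ℍ) : ℂ) + (e : ℂ) * ((h₁ : ℝ) : ℂ))) := by rw [e1]
      _ = F (φ ⟨z, hz⟩) := e2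
  · have hz' : ¬ 0 < (z + ((h : ℝ) : ℂ)).im := by simpa using hz
    rw [ofComplex_apply_of_im_nonpos (not_lt.mp hz), ofComplex_apply_of_im_nonpos (not_lt.mp hz')]

lemma mdiff_comp {F : ℍ → ℂ} (hF : MDiff F) (hd : 0 < d)
    (hφ : ∀ τ : ℍ, (φ τ : ℂ) = (a * (τ : ℂ) + b) / d) : MDiff (F ∘ φ) := by
  rw [UpperHalfPlane.mdifferentiable_iff] at hF ⊢
  have hd' : (d : ℂ) ≠ 0 := by exact_mod_cast hd.ne'
  have hmaps : ∀ z : ℂ, 0 < z.im → 0 < (((a : ℂ) * z + b) / d).im := by
    intro z hz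
    have := (φ ⟨z, hz⟩).im_pos
    rw [← UpperHalfPlane.coe_im, hφ] at this
    simpa using this
  intro z hz
  have hlin : DifferentiableWithinAt ℂ (fun w : ℂ => ((a : ℂ) * w + b) / d) {z | 0 < z.im} z := by
    fun_prop
  have h1 : DifferentiableWithinAt ℂ ((F ∘ ofComplex) ∘ (fun w : ℂ => ((a : ℂ) * w + b) / d))
      {z | 0 < z.im} z :=
    (hF _ (hmaps z hz)).comp z hlin (fun w hw => hmaps w hw)
  have hcongr : ∀ w : ℂ, 0 < w.im → ((F ∘ φ) ∘ ofComplex) w =
      ((F ∘ ofComplex) ∘ (fun w : ℂ => ((a : ℂ) * w + b) / d)) w := by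
    intro w hw
    simp only [Function.comp_apply]
    rw [ofComplex_apply_of_im_pos hw]
    have : ((a : ℂ) * w + b) / d = ((φ ⟨w, hw⟩ : ℍ) : ℂ) := by rw [hφ]
    rw [this, ofComplex_apply]
  exact h1.congr (fun w hw => hcongr w hw) (hcongr z hz)

/-- **Expansion of upper-triangular translates.** If `F` has width `h₁` and
`φ τ = (a τ + b) / d` with `a h = e d h₁`, then `F ∘ φ` has width `h` and its expansion is obtained
from the one of `F` by the substitution `u ↦ ω u ^ e`, `ω = exp (2πi b / (d h₁))`. -/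
theorem MerAtCusp.comp_affine {F : ℍ → ℂ} (hF : MerAtCusp h₁ F) (hd : 0 < d) (he : 0 < e)
    (hae : a * h = e * d * h₁) (hφ : ∀ τ : ℍ, (φ τ : ℂ) = (a * (τ : ℂ) + b) / d) :
    MerAtCusp h (F ∘ φ) ∧ ∀ k : ℤ, (cuspLaurent h (F ∘ φ)).coeff k =
      if (e : ℤ) ∣ k then omega b d h₁ ^ (k / e) * (cuspLaurent h₁ F).coeff (k / e) else 0 := by
  obtain ⟨m, hm⟩ := hF.mer
  have hG := hF.holAtCusp_mul hm
  set c : ℕ → ℂ := fun n => (qExpansion (h₁ : ℝ) (qh h₁ ^ m * F)).coeff n with hc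
  set ω : ℂ := omega b d h₁ with hω
  have hω0 : ω ≠ 0 := omega_ne_zero b d h₁
  let c' : ℕ → ℂ := fun k => if e ∣ k then ω⁻¹ ^ m * c (k / e) * ω ^ (k / e) else 0
  have hs : ∀ τ : ℍ, HasSum (fun k : ℕ => c' k * qh h τ ^ k) (qh h τ ^ (e * m) * (F ∘ φ) τ) := by
    intro τ
    have h1 := hG.hasSum (φ τ)
    simp only [Pi.mul_apply, Pi.pow_apply] at h1
    rw [qh_comp hd hae hφ τ] at h1
    have h2 := h1.mul_left (ω⁻¹ ^ m)
    have e1 : ω⁻¹ ^ m * ((ω * qh h τ ^ e) ^ m * F (φ τ)) = qh h τ ^ (e * m) * (F ∘ φ) τ := by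
      rw [mul_pow, ← pow_mul, Function.comp_apply, inv_pow]
      field_simp
    rw [e1] at h2
    have hinj : Function.Injective (fun n : ℕ => e * n) := fun x y hxy =>
      Nat.eq_of_mul_eq_mul_left he hxy
    have hfun : (fun i : ℕ => ω⁻¹ ^ m * ((PowerSeries.coeff i)
          (qExpansion (h₁ : ℝ) (qh h₁ ^ m * F)) * (omega b d h₁ * qh h τ ^ e) ^ i)) =
        (fun k : ℕ => c' k * qh h τ ^ k) ∘ (fun n : ℕ => e * n) := by
      funext n
      simp only [Function.comp_apply, c', dvd_mul_right, if_true, Nat.mul_div_cancel_left n he]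
      rw [mul_pow, ← pow_mul]
      ring
    rw [hfun] at h2
    refine (Function.Injective.hasSum_iff hinj ?_).mp h2
    intro k hk
    have : ¬ e ∣ k := by
      rintro ⟨n, rfl⟩
      exact hk ⟨n, rfl⟩
    simp [c', this]
  have hper := periodic_comp (F := F) hF.per hd hae hφ
  have hhol := mdiff_comp (F := F) hF.hol hd hφ
  obtain ⟨hmer, hL⟩ := MerAtCusp.of_hasSum (h := h) (f := F ∘ φ) (m := e * m) hper hhol hs
  refine ⟨hmer, fun k => ?_⟩
  rw [hL, coeff_single_neg_mul_ofPowerSeries, PowerSeries.coeff_mk]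
  have he' : (e : ℤ) ≠ 0 := by exact_mod_cast he.ne'
  have hepos : (0 : ℤ) < e := by exact_mod_cast he
  by_cases hk : (e : ℤ) ∣ k
  · obtain ⟨j, rfl⟩ := hk
    rw [if_pos (dvd_mul_right _ _), Int.mul_ediv_cancel_left j he', coeff_cuspLaurent hF hm j]
    have e2 : (e : ℤ) * j + ((e * m : ℕ) : ℤ) = e * (j + m) := by push_cast; ring
    rw [e2]
    by_cases hj : 0 ≤ j + (m : ℤ)
    · have h0 : 0 ≤ (e : ℤ) * (j + m) := mul_nonneg hepos.le hj
      rw [if_pos h0, if_pos hj]
      have e3 : ((e : ℤ) * (j + m)).toNat = e * (j + m).toNat := by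
        rw [Int.toNat_mul hepos.le hj, Int.toNat_natCast]
      simp only [c', e3, dvd_mul_right, if_true, Nat.mul_div_cancel_left _ he]
      have e4 : ω ^ j = ω ^ ((j + m).toNat : ℤ) * (ω ^ (m : ℤ))⁻¹ := by
        rw [Int.toNat_of_nonneg hj, zpow_add₀ hω0]
        field_simp
      rw [e4, zpow_natCast, zpow_natCast, inv_pow]
      ring
    · have h0 : ¬ 0 ≤ (e : ℤ) * (j + m) := by
        intro h0
        exact hj (nonneg_of_mul_nonneg_right h0 hepos)
      rw [if_neg h0, if_neg hj, mul_zero]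
  · rw [if_neg hk]
    split_ifs with h0
    · have : ¬ e ∣ (k + ((e * m : ℕ) : ℤ)).toNat := by
        intro hdiv
        apply hk
        have h1 : (e : ℤ) ∣ ((k + ((e * m : ℕ) : ℤ)).toNat : ℤ) := by exact_mod_cast hdiv
        rw [Int.toNat_of_nonneg h0] at h1
        have h2 : (e : ℤ) ∣ ((e * m : ℕ) : ℤ) := by
          push_cast
          exact dvd_mul_right _ _
        exact (Int.dvd_add_left h2).mp h1
      simp only [c']
      exact if_neg this
    · rfl

/-- Width change: a function of width `1` has width `h`, with expansion `u ↦ u ^ h`. -/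
theorem MerAtCusp.of_width_one {F : ℍ → ℂ} (hF : MerAtCusp 1 F) :
    MerAtCusp h F ∧ ∀ k : ℤ, (cuspLaurent h F).coeff k =
      if (h : ℤ) ∣ k then (cuspLaurent 1 F).coeff (k / h) else 0 := by
  have hφ : ∀ τ : ℍ, ((id τ : ℍ) : ℂ) = (((1 : ℕ) : ℂ) * (τ : ℂ) + ((0 : ℤ) : ℂ)) / ((1 : ℕ) : ℂ) := by
    intro τ; simp
  have key := MerAtCusp.comp_affine (h₁ := 1) (h := h) (a := 1) (d := 1) (e := h) (b := 0)
    (φ := id) hF one_pos (Nat.pos_of_ne_zero (NeZero.ne h)) (by ring) hφ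
  have hω : omega 0 1 1 = 1 := by simp [omega]
  refine ⟨by simpa using key.1, fun k => ?_⟩
  have := key.2 k
  simpa [hω] using this

/-- Translation `τ ↦ τ + 1` acts on expansions of width `h` by the rotation `u ↦ ζ u`,
`ζ = exp (2πi / h)`. -/
theorem MerAtCusp.comp_translate {F : ℍ → ℂ} (hF : MerAtCusp h F) {φ : ℍ → ℍ}
    (hφ : ∀ τ : ℍ, (φ τ : ℂ) = (τ : ℂ) + 1) :
    MerAtCusp h (F ∘ φ) ∧ ∀ k : ℤ, (cuspLaurent h (F ∘ φ)).coeff k =
      Complex.exp (2 * π * Complex.I / h) ^ k * (cuspLaurent h F).coeff k := by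
  have hφ' : ∀ τ : ℍ, (φ τ : ℂ) = (((1 : ℕ) : ℂ) * (τ : ℂ) + ((1 : ℤ) : ℂ)) / ((1 : ℕ) : ℂ) := by
    intro τ; rw [hφ]; simp
  have key := MerAtCusp.comp_affine (h₁ := h) (h := h) (a := 1) (d := 1) (e := 1) (b := 1)
    (φ := φ) hF one_pos one_pos (by ring) hφ'
  have hω : omega 1 1 h = Complex.exp (2 * π * Complex.I / h) := by simp [omega]
  refine ⟨key.1, fun k => ?_⟩
  have := key.2 k
  simpa [hω] using this

lemma coe_T_smul (τ : ℍ) : ((ModularGroup.T • τ : ℍ) : ℂ) = (τ : ℂ) + 1 := by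
  rw [UpperHalfPlane.modular_T_smul, UpperHalfPlane.coe_vadd]
  push_cast
  ring

/-- `T`-equivariance of the expansion of width `h`. -/
theorem MerAtCusp.comp_T {F : ℍ → ℂ} (hF : MerAtCusp h F) :
    MerAtCusp h (fun τ => F (ModularGroup.T • τ)) ∧
      ∀ k : ℤ, (cuspLaurent h (fun τ => F (ModularGroup.T • τ))).coeff k =
        Complex.exp (2 * π * Complex.I / h) ^ k * (cuspLaurent h F).coeff k :=
  MerAtCusp.comp_translate (φ := fun τ => ModularGroup.T • τ) hF coe_T_smul

end translate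

/-! ### Bundled version -/

section bundled

variable (h : ℕ) [NeZero h]

/-- The `ℂ`-algebra of `h`-periodic holomorphic functions on `ℍ` that are meromorphic at `i∞`. -/
def merCuspAlg : Subalgebra ℂ (ℍ → ℂ) where
  carrier := {f | MerAtCusp h f}
  mul_mem' := fun hf hg => MerAtCusp.mul hf hg
  one_mem' := MerAtCusp.const (1 : ℂ)
  add_mem' := fun hf hg => MerAtCusp.add hf hg
  zero_mem' := MerAtCusp.const (0 : ℂ)
  algebraMap_mem' := fun c => MerAtCusp.const c

variable {h} in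
lemma mem_merCuspAlg {f : ℍ → ℂ} : f ∈ merCuspAlg h ↔ MerAtCusp h f := Iff.rfl

/-- The Laurent expansion at `i∞` as a `ℂ`-algebra homomorphism. -/
noncomputable def cuspLaurentHom : merCuspAlg h →ₐ[ℂ] LaurentSeries ℂ where
  toFun := fun f => cuspLaurent h (f : ℍ → ℂ)
  map_one' := cuspLaurent_one
  map_mul' := fun f g => cuspLaurent_mul f.2 g.2
  map_zero' := by
    show cuspLaurent h (fun _ : ℍ => (0 : ℂ)) = 0
    rw [cuspLaurent_const]
    simp
  map_add' := fun f g => cuspLaurent_add f.2 g.2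
  commutes' := fun c => by
    show cuspLaurent h (fun _ : ℍ => c) = algebraMap ℂ (LaurentSeries ℂ) c
    rw [cuspLaurent_const, HahnSeries.algebraMap_apply', PowerSeries.algebraMap_apply,
      Algebra.algebraMap_self, RingHom.id_apply, HahnSeries.ofPowerSeries_C]

/-- The Laurent expansion at `i∞` as a plain ring homomorphism (no `Algebra` instance on
`LaurentSeries ℂ` involved). -/
noncomputable def cuspLaurentRingHom : merCuspAlg h →+* LaurentSeries ℂ :=
  (cuspLaurentHom h).toRingHom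

@[simp] lemma cuspLaurentRingHom_apply (f : merCuspAlg h) :
    cuspLaurentRingHom h f = cuspLaurent h (f : ℍ → ℂ) := rfl

@[simp] lemma cuspLaurentHom_apply (f : merCuspAlg h) :
    cuspLaurentHom h f = cuspLaurent h (f : ℍ → ℂ) := rfl

theorem cuspLaurentHom_injective : Function.Injective (cuspLaurentHom h) := by
  rw [injective_iff_map_eq_zero]
  intro f hf
  have := (cuspLaurent_eq_zero_iff f.2).mp hf
  exact Subtype.ext this

instance merCuspAlg_isDomain : IsDomain (merCuspAlg h) :=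
  Function.Injective.isDomain (cuspLaurentHom h).toRingHom (cuspLaurentHom_injective h)

end bundled

end Fermat.Agent.S24.CuspExpansion
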