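/-
S24, piece S3: Ramanujan identities for `E₄`, `E₆`, the derivative of the analytic `j`-function,
and the local orders of `j` at `ρ`, `i` and generic points.  Owner: helper45.
-/
import Fermat.Agent.S24.JSurjective

set_option autoImplicit false

namespace Fermat.Agent.S24.JLocalOrder

open UpperHalfPlane hiding I
open ModularForm ModularFormClass MatrixGroups EisensteinSeries Complex Derivative
  Filter Topology CongruenceSubgroup SlashInvariantForm
open scoped Manifold Real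

local notation "𝕢" => Function.Periodic.qParam

/-! ### `D F` vanishes at `i∞` -/

/-- For a `1`-periodic holomorphic function bounded at `i∞`, `D F = q · (d/dq) F`. -/
lemma D_eq_qParam_mul_deriv_cuspFunction {F : ℍ → ℂ}
    (hper : Function.Periodic (F ∘ ofComplex) (1 : ℝ)) (hhol : MDiff F)
    (hbdd : IsBoundedAtImInfty F) (z : ℍ) :
    D F z = 𝕢 1 z * deriv (cuspFunction 1 F) (𝕢 1 z) := by
  have hq : ‖𝕢 1 (z : ℂ)‖ < 1 := Function.Periodic.norm_qParam_lt_one one_pos z.im_pos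
  have hc : DifferentiableAt ℂ (cuspFunction 1 F) (𝕢 1 z) :=
    differentiableAt_cuspFunction one_pos hper hhol hbdd hq
  have hqd : HasDerivAt (𝕢 1) (2 * π * I * 𝕢 1 (z : ℂ)) (z : ℂ) := by
    have h1 : HasDerivAt (fun w : ℂ => 2 * π * I * w / ((1 : ℝ) : ℂ)) (2 * π * I) (z : ℂ) := by
      simpa using ((hasDerivAt_id (z : ℂ)).const_mul (2 * π * I)).div_const ((1 : ℝ) : ℂ)
    have h2 := h1.cexp
    have h3 : (𝕢 1) = fun w : ℂ => cexp (2 * π * I * w / ((1 : ℝ) : ℂ)) := rfl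
    rw [h3]
    refine h2.congr_deriv ?_
    show _ = 2 * (π : ℂ) * I * cexp (2 * π * I * z / ((1 : ℝ) : ℂ))
    ring
  have hcomp : HasDerivAt (fun w => cuspFunction 1 F (𝕢 1 w))
      (deriv (cuspFunction 1 F) (𝕢 1 z) * (2 * π * I * 𝕢 1 (z : ℂ))) (z : ℂ) :=
    hc.hasDerivAt.comp (z : ℂ) hqd
  have heq : (F ∘ ofComplex) =ᶠ[𝓝 (z : ℂ)] fun w => cuspFunction 1 F (𝕢 1 w) := by
    filter_upwards [isOpen_upperHalfPlaneSet.mem_nhds z.im_pos] with w hw
    have := eq_cuspFunction (h := 1) (f := F) ⟨w, hw⟩ one_ne_zero hper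
    simp only [Function.comp_apply, ofComplex_apply_of_im_pos hw]
    exact this.symm
  rw [normalizedDerivOfComplex, (hcomp.congr_of_eventuallyEq heq).deriv]
  have : (2 * (π : ℂ) * I) ≠ 0 := two_pi_I_ne_zero
  field_simp

/-- For a `1`-periodic holomorphic function bounded at `i∞`, `D F` tends to `0` at `i∞`. -/
lemma D_isZeroAtImInfty {F : ℍ → ℂ}
    (hper : Function.Periodic (F ∘ ofComplex) (1 : ℝ)) (hhol : MDiff F)
    (hbdd : IsBoundedAtImInfty F) : IsZeroAtImInfty (D F) := by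
  have han : AnalyticAt ℂ (cuspFunction 1 F) 0 :=
    analyticAt_cuspFunction_zero one_pos hper hhol hbdd
  have hcont : ContinuousAt (deriv (cuspFunction 1 F)) 0 := han.deriv.continuousAt
  have hq : Tendsto (fun τ : ℍ => 𝕢 1 τ) atImInfty (𝓝 0) := qParam_tendsto_atImInfty one_pos
  have h1 : Tendsto (fun τ : ℍ => 𝕢 1 τ * deriv (cuspFunction 1 F) (𝕢 1 τ)) atImInfty
      (𝓝 (0 * deriv (cuspFunction 1 F) 0)) := hq.mul (hcont.tendsto.comp hq)
  rw [zero_mul] at h1
  refine h1.congr fun τ => ?_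
  exact (D_eq_qParam_mul_deriv_cuspFunction hper hhol hbdd τ).symm

/-! ### The Serre derivative of a level one modular form is a modular form -/

section SerreMF

variable {k : ℤ} (F : ModularForm 𝒮ℒ k)

lemma periodic_levelOne : Function.Periodic ((F : ℍ → ℂ) ∘ ofComplex) (1 : ℝ) :=
  SlashInvariantFormClass.periodic_comp_ofComplex F one_mem_strictPeriods_SL

lemma isBoundedAtImInfty_levelOne : IsBoundedAtImInfty (F : ℍ → ℂ) := by
  have : Fact (IsCusp OnePoint.infty 𝒮ℒ) :=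
    ⟨Subgroup.isCusp_of_mem_strictPeriods one_pos one_mem_strictPeriods_SL⟩
  exact bdd_at_infty F

lemma D_isZeroAtImInfty_levelOne : IsZeroAtImInfty (D (F : ℍ → ℂ)) :=
  D_isZeroAtImInfty (periodic_levelOne F) (holo F) (isBoundedAtImInfty_levelOne F)

lemma serreDerivative_isBoundedAtImInfty :
    IsBoundedAtImInfty (serreDerivative k (F : ℍ → ℂ)) := by
  have h1 : IsBoundedAtImInfty (D (F : ℍ → ℂ)) := (D_isZeroAtImInfty_levelOne F).boundedAtFilter
  have h2 : IsBoundedAtImInfty (fun z => (k : ℂ) * 12⁻¹ * E2 z * F z) := by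
    have := ((const_boundedAtFilter atImInfty ((k : ℂ) * 12⁻¹)).mul isBoundedAtImInfty_E2).mul
      (isBoundedAtImInfty_levelOne F)
    exact this
  have h3 := h1.add h2.neg
  have h4 : serreDerivative k (F : ℍ → ℂ) =
      D (F : ℍ → ℂ) + -fun z => (k : ℂ) * 12⁻¹ * E2 z * F z := by
    ext z
    simp [sub_eq_add_neg]
  rw [h4]
  exact h3

lemma serreDerivative_slash_levelOne (γ : SL(2, ℤ)) :
    serreDerivative k (F : ℍ → ℂ) ∣[k + 2] γ = serreDerivative k (F : ℍ → ℂ) := by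
  refine serreDerivative_slash_invariant (holo F) ?_
  rw [ModularForm.SL_slash]
  exact SlashInvariantFormClass.slash_action_eq F _ ⟨γ, rfl⟩

/-- The Serre derivative of a level one modular form of weight `k`, as a modular form of
weight `k + 2`. -/
noncomputable def serreMF : ModularForm 𝒮ℒ (k + 2) where
  toFun := serreDerivative k (F : ℍ → ℂ)
  slash_action_eq' := by
    rintro _ ⟨γ, rfl⟩
    have := serreDerivative_slash_levelOne F γ
    rwa [ModularForm.SL_slash] at this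
  holo' := serreDerivative_mdifferentiable k (holo F)
  bdd_at_cusps' {c} hc := by
    rw [OnePoint.isBoundedAt_iff_forall_SL2Z hc]
    intro γ _
    rw [serreDerivative_slash_levelOne F γ]
    exact serreDerivative_isBoundedAtImInfty F

@[simp] lemma serreMF_apply (z : ℍ) : serreMF F z = serreDerivative k (F : ℍ → ℂ) z := rfl

lemma coe_serreMF : (serreMF F : ℍ → ℂ) = serreDerivative k (F : ℍ → ℂ) := rfl

end SerreMF

/-! ### Limits at `i∞` -/

/-- A `1`-periodic holomorphic function bounded at `i∞` tends to the constant term of its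
`q`-expansion. -/
lemma tendsto_atImInfty_coeff_zero {F : ℍ → ℂ}
    (hper : Function.Periodic (F ∘ ofComplex) (1 : ℝ)) (hhol : MDiff F)
    (hbdd : IsBoundedAtImInfty F) :
    Tendsto F atImInfty (𝓝 ((qExpansion 1 F).coeff 0)) := by
  have han : AnalyticAt ℂ (cuspFunction 1 F) 0 :=
    analyticAt_cuspFunction_zero one_pos hper hhol hbdd
  have h0 : (qExpansion 1 F).coeff 0 = cuspFunction 1 F 0 := by
    rw [qExpansion_coeff_zero one_pos han hper, cuspFunction_apply_zero one_pos han hper]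
  rw [h0]
  have hq : Tendsto (fun τ : ℍ => 𝕢 1 τ) atImInfty (𝓝 0) := qParam_tendsto_atImInfty one_pos
  refine (han.continuousAt.tendsto.comp hq).congr fun τ => ?_
  exact eq_cuspFunction τ one_ne_zero hper

lemma tendsto_levelOne {k : ℤ} (F : ModularForm 𝒮ℒ k) :
    Tendsto (F : ℍ → ℂ) atImInfty (𝓝 ((qExpansion 1 F).coeff 0)) :=
  tendsto_atImInfty_coeff_zero (periodic_levelOne F) (holo F) (isBoundedAtImInfty_levelOne F)

lemma E2_vadd_one (z : ℍ) : E2 ((1 : ℝ) +ᵥ z) = E2 z := by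
  rw [E2_eq_tsum_cexp, E2_eq_tsum_cexp]
  have : cexp (2 * π * I * (((1 : ℝ) +ᵥ z : ℍ) : ℂ)) = cexp (2 * π * I * (z : ℂ)) := by
    rw [UpperHalfPlane.coe_vadd]
    push_cast
    rw [mul_add, Complex.exp_add, mul_one, Complex.exp_two_pi_mul_I, one_mul]
  simp_rw [this]

lemma periodic_E2 : Function.Periodic (E2 ∘ ofComplex) (1 : ℝ) := by
  intro w
  by_cases hw : 0 < w.im
  · have hw1 : 0 < (w + (1 : ℝ)).im := by simpa using hw
    simp only [Function.comp_apply, ofComplex_apply_of_im_pos hw1, ofComplex_apply_of_im_pos hw]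
    rw [← E2_vadd_one ⟨w, hw⟩]
    congr 1
    ext
    simp [add_comm]
  · have hw' : w.im ≤ 0 := not_lt.mp hw
    have hw1 : (w + (1 : ℝ)).im ≤ 0 := by simpa using hw'
    show E2 (ofComplex (w + (1 : ℝ))) = E2 (ofComplex w)
    rw [ofComplex_apply_of_im_nonpos hw1, ofComplex_apply_of_im_nonpos hw']

lemma tendsto_E2 : Tendsto E2 atImInfty (𝓝 1) := by
  have han : AnalyticAt ℂ (cuspFunction 1 E2) 0 :=
    analyticAt_cuspFunction_zero one_pos periodic_E2 E2_mdifferentiable isBoundedAtImInfty_E2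
  have hsum : ∀ τ : ℍ, HasSum (fun m : ℕ =>
      (if m = 0 then 1 else -24 * (ArithmeticFunction.sigma 1 m : ℂ)) • 𝕢 1 τ ^ m) (E2 τ) := by
    intro τ
    have h1 : 𝕢 1 (τ : ℂ) = cexp (2 * π * I * τ) := by
      simp only [Function.Periodic.qParam, ofReal_one, div_one]
    rw [h1]
    exact hasSum_qExpansion_E2 (z := τ)
  have hps := (hasFPowerSeriesOnBall_cuspFunction (h := 1) (f := E2) one_pos han hsum)
  have h0 := hps.hasFPowerSeriesAt.coeff_zero (fun _ => 0)
  have hq : Tendsto (fun τ : ℍ => 𝕢 1 τ) atImInfty (𝓝 0) := qParam_tendsto_atImInfty one_pos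
  have h2 : Tendsto E2 atImInfty (𝓝 (cuspFunction 1 E2 0)) :=
    (han.continuousAt.tendsto.comp hq).congr fun τ => eq_cuspFunction τ one_ne_zero periodic_E2
  rw [← h0] at h2
  simpa [FormalMultilinearSeries.ofScalars] using h2

lemma tendsto_serreDerivative {k : ℤ} (F : ModularForm 𝒮ℒ k) :
    Tendsto (serreDerivative k (F : ℍ → ℂ)) atImInfty
      (𝓝 (-((k : ℂ) * 12⁻¹ * (qExpansion 1 F).coeff 0))) := by
  have h1 : Tendsto (D (F : ℍ → ℂ)) atImInfty (𝓝 0) := D_isZeroAtImInfty_levelOne F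
  have h2 := ((tendsto_const_nhds (x := (k : ℂ) * 12⁻¹)).mul tendsto_E2).mul (tendsto_levelOne F)
  have h3 := h1.sub h2
  simp only [mul_one, zero_sub] at h3
  exact h3

lemma serreMF_coeff_zero {k : ℤ} (F : ModularForm 𝒮ℒ k) :
    (qExpansion 1 (serreMF F)).coeff 0 = -((k : ℂ) * 12⁻¹ * (qExpansion 1 F).coeff 0) :=
  tendsto_nhds_unique (tendsto_levelOne (serreMF F)) (tendsto_serreDerivative F)

/-! ### Ramanujan's identities -/

/-- In a one-dimensional space of level one forms, a form is determined by its limit at `i∞`. -/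
lemma eq_mul_of_rank_one {k : ℤ} (hrank : Module.rank ℂ (ModularForm 𝒮ℒ k) = 1)
    (G H : ModularForm 𝒮ℒ k) {a : ℂ} (hG : Tendsto (G : ℍ → ℂ) atImInfty (𝓝 a))
    (hH : Tendsto (H : ℍ → ℂ) atImInfty (𝓝 1)) (z : ℍ) : G z = a * H z := by
  have hH0 : H ≠ 0 := by
    rintro rfl
    have h0 : Tendsto ((0 : ModularForm 𝒮ℒ k) : ℍ → ℂ) atImInfty (𝓝 0) :=
      (tendsto_const_nhds : Tendsto (fun _ : ℍ => (0 : ℂ)) atImInfty (𝓝 0))
    exact one_ne_zero (tendsto_nhds_unique hH h0)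
  obtain ⟨c, hc⟩ : ∃ c : ℂ, c • H = G :=
    (finrank_eq_one_iff_of_nonzero' H hH0).mp (Module.rank_eq_one_iff_finrank_eq_one.mp hrank) G
  have hcz : ∀ w, G w = c * H w := fun w => by rw [← hc]; rfl
  have h1 : Tendsto (G : ℍ → ℂ) atImInfty (𝓝 (c * 1)) :=
    (((tendsto_const_nhds (x := c)).mul hH)).congr fun w => (hcz w).symm
  have hca : a = c := by simpa using tendsto_nhds_unique hG h1
  rw [hcz z, hca]

lemma E4_coeff_zero : (qExpansion 1 (E₄ : ℍ → ℂ)).coeff 0 = 1 :=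
  E_qExpansion_coeff_zero _ ⟨2, rfl⟩

lemma E6_coeff_zero : (qExpansion 1 (E₆ : ℍ → ℂ)).coeff 0 = 1 :=
  E_qExpansion_coeff_zero _ ⟨3, rfl⟩

lemma tendsto_E4 : Tendsto (E₄ : ℍ → ℂ) atImInfty (𝓝 1) := by
  simpa [E4_coeff_zero] using tendsto_levelOne E₄

lemma tendsto_E6 : Tendsto (E₆ : ℍ → ℂ) atImInfty (𝓝 1) := by
  simpa [E6_coeff_zero] using tendsto_levelOne E₆

/-- Ramanujan: `∂₄ E₄ = -E₆ / 3`. -/
theorem serreDerivative_E4 (z : ℍ) :
    serreDerivative 4 (E₄ : ℍ → ℂ) z = -(1 / 3) * E₆ z := by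
  have hG : Tendsto (ModularForm.mcast (show (4 : ℤ) + 2 = 6 by norm_num) (serreMF E₄) : ℍ → ℂ)
      atImInfty (𝓝 (-(1 / 3))) := by
    have h := tendsto_serreDerivative E₄
    rw [E4_coeff_zero] at h
    have hval : -((((4 : ℤ) : ℂ)) * 12⁻¹ * 1) = -(1 / 3) := by norm_num
    rw [hval] at h
    exact h
  have := eq_mul_of_rank_one levelOne_weight_six_rank_one
    (ModularForm.mcast (show (4 : ℤ) + 2 = 6 by norm_num) (serreMF E₄)) E₆ hG tendsto_E6 z
  exact this

lemma levelOne_weight_eight_rank_one : Module.rank ℂ (ModularForm 𝒮ℒ ((8 : ℕ) : ℤ)) = 1 := by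
  have := dimension_level_one 8 ⟨4, rfl⟩
  rw [this]
  norm_num [Nat.ModEq]

/-- Ramanujan: `∂₆ E₆ = -E₄² / 2`. -/
theorem serreDerivative_E6 (z : ℍ) :
    serreDerivative 6 (E₆ : ℍ → ℂ) z = -(1 / 2) * E₄ z ^ 2 := by
  have hG : Tendsto
      (ModularForm.mcast (show (6 : ℤ) + 2 = ((8 : ℕ) : ℤ) by norm_num) (serreMF E₆) : ℍ → ℂ)
      atImInfty (𝓝 (-(1 / 2))) := by
    have h := tendsto_serreDerivative E₆
    rw [E6_coeff_zero] at h
    have hval : -((((6 : ℤ) : ℂ)) * 12⁻¹ * 1) = -(1 / 2) := by norm_num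
    rw [hval] at h
    exact h
  have hH : Tendsto
      (ModularForm.mcast (show (4 : ℤ) + 4 = ((8 : ℕ) : ℤ) by norm_num) (E₄.mul E₄) : ℍ → ℂ)
      atImInfty (𝓝 1) := by
    have := tendsto_E4.mul tendsto_E4
    rw [one_mul] at this
    exact this
  have := eq_mul_of_rank_one levelOne_weight_eight_rank_one
    (ModularForm.mcast (show (6 : ℤ) + 2 = ((8 : ℕ) : ℤ) by norm_num) (serreMF E₆))
    (ModularForm.mcast (show (4 : ℤ) + 4 = ((8 : ℕ) : ℤ) by norm_num) (E₄.mul E₄)) hG hH z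
  rw [pow_two]
  exact this

/-! ### Derivatives of `E₄`, `E₆`, `Δ` and `j` -/

lemma hasDerivAt_comp_ofComplex {F : ℍ → ℂ} (hF : MDiff F) (z : ℍ) :
    HasDerivAt (F ∘ ofComplex) (2 * π * I * D F z) z := by
  have h := (UpperHalfPlane.mdifferentiableAt_iff.mp (hF z)).hasDerivAt
  have h2 : (2 * (π : ℂ) * I) ≠ 0 := two_pi_I_ne_zero
  have : 2 * π * I * D F z = deriv (F ∘ ofComplex) z := by
    simp only [normalizedDerivOfComplex]
    field_simp
  rw [this]
  exact h

/-- Ramanujan: `D E₄ = (E₂ E₄ - E₆) / 3`. -/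
theorem D_E4 (z : ℍ) : D (E₄ : ℍ → ℂ) z = (E2 z * E₄ z - E₆ z) / 3 := by
  have h := serreDerivative_E4 z
  rw [serreDerivative_apply] at h
  linear_combination h

/-- Ramanujan: `D E₆ = (E₂ E₆ - E₄²) / 2`. -/
theorem D_E6 (z : ℍ) : D (E₆ : ℍ → ℂ) z = (E2 z * E₆ z - E₄ z ^ 2) / 2 := by
  have h := serreDerivative_E6 z
  rw [serreDerivative_apply] at h
  linear_combination h

lemma hasDerivAt_E4 (z : ℍ) :
    HasDerivAt ((E₄ : ℍ → ℂ) ∘ ofComplex) (2 * π * I * ((E2 z * E₄ z - E₆ z) / 3)) z := by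
  have := hasDerivAt_comp_ofComplex (holo E₄) z
  rwa [D_E4] at this

lemma hasDerivAt_E6 (z : ℍ) :
    HasDerivAt ((E₆ : ℍ → ℂ) ∘ ofComplex) (2 * π * I * ((E2 z * E₆ z - E₄ z ^ 2) / 2)) z := by
  have := hasDerivAt_comp_ofComplex (holo E₆) z
  rwa [D_E6] at this

lemma discriminant_comp_ofComplex :
    (ModularForm.discriminant ∘ ofComplex) = fun w : ℂ =>
      ((((E₄ : ℍ → ℂ) ∘ ofComplex) w) ^ 3 - (((E₆ : ℍ → ℂ) ∘ ofComplex) w) ^ 2) / 1728 := by
  funext w
  simp only [Function.comp_apply]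
  exact discriminant_eq_E₄_cube_sub_E₆_sq _

/-- `Δ' = 2πi E₂ Δ`. -/
lemma hasDerivAt_discriminant (z : ℍ) :
    HasDerivAt (ModularForm.discriminant ∘ ofComplex)
      (2 * π * I * (E2 z * ModularForm.discriminant z)) z := by
  rw [discriminant_comp_ofComplex]
  have h4 := hasDerivAt_E4 z
  have h6 := hasDerivAt_E6 z
  have h := ((h4.pow 3).sub (h6.pow 2)).div_const 1728
  refine h.congr_deriv ?_
  simp only [Function.comp_apply, ofComplex_apply]
  rw [discriminant_eq_E₄_cube_sub_E₆_sq z]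
  push_cast
  ring

/-! ### The derivative of `j` -/

lemma jFun_comp_ofComplex :
    (jFun ∘ ofComplex) = fun w : ℂ =>
      (((E₄ : ℍ → ℂ) ∘ ofComplex) w) ^ 3 / ((ModularForm.discriminant ∘ ofComplex) w) := rfl

/-- `j' = 2πi · (-E₄² E₆ / Δ)`. -/
theorem hasDerivAt_jFun (z : ℍ) :
    HasDerivAt (jFun ∘ ofComplex)
      (2 * π * I * (-(E₄ z ^ 2 * E₆ z) / ModularForm.discriminant z)) z := by
  have h4 := hasDerivAt_E4 z
  have hΔ := hasDerivAt_discriminant z
  have hne : (ModularForm.discriminant ∘ ofComplex) (z : ℂ) ≠ 0 := by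
    simpa using discriminant_ne_zero z
  have h := (h4.pow 3).div hΔ hne
  rw [jFun_comp_ofComplex]
  refine h.congr_deriv ?_
  simp only [Pi.pow_apply, Function.comp_apply, ofComplex_apply]
  have := discriminant_ne_zero z
  field_simp
  ring

theorem deriv_jFun (z : ℍ) :
    deriv (jFun ∘ ofComplex) z =
      2 * π * I * (-(E₄ z ^ 2 * E₆ z) / ModularForm.discriminant z) :=
  (hasDerivAt_jFun z).deriv

theorem jFun_sub_1728 (z : ℍ) : jFun z - 1728 = E₆ z ^ 2 / ModularForm.discriminant z := by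
  have h := discriminant_ne_zero z
  rw [jFun, div_sub' h]
  congr 1
  rw [discriminant_eq_E₄_cube_sub_E₆_sq z]
  ring

theorem deriv_jFun_ne_zero_iff (z : ℍ) :
    deriv (jFun ∘ ofComplex) z ≠ 0 ↔ E₄ z ≠ 0 ∧ E₆ z ≠ 0 := by
  rw [deriv_jFun]
  have h := discriminant_ne_zero z
  have h2 : (2 * (π : ℂ) * I) ≠ 0 := two_pi_I_ne_zero
  constructor
  · intro hne
    constructor
    · rintro h0
      apply hne
      simp [h0]
    · rintro h0
      apply hne
      simp [h0]
  · rintro ⟨h4, h6⟩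
    apply mul_ne_zero h2
    apply div_ne_zero _ h
    exact neg_ne_zero.mpr (mul_ne_zero (pow_ne_zero 2 h4) h6)

theorem jFun_eq_zero_iff (z : ℍ) : jFun z = 0 ↔ E₄ z = 0 := by
  rw [jFun, div_eq_zero_iff]
  simp [discriminant_ne_zero z]

theorem jFun_eq_1728_iff (z : ℍ) : jFun z = 1728 ↔ E₆ z = 0 := by
  rw [← sub_eq_zero, jFun_sub_1728, div_eq_zero_iff]
  simp [discriminant_ne_zero z]

/-- `E₄` and `E₆` have no common zero. -/
theorem E4_ne_zero_or_E6_ne_zero (z : ℍ) : E₄ z ≠ 0 ∨ E₆ z ≠ 0 := by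
  by_contra hcon
  rw [not_or, not_not, not_not] at hcon
  have := discriminant_eq_E₄_cube_sub_E₆_sq z
  rw [hcon.1, hcon.2] at this
  exact discriminant_ne_zero z (by simpa using this)

/-! ### The elliptic points -/

/-- The transformation rule of a level one modular form. -/
lemma levelOne_smul_eq {k : ℤ} (F : ModularForm 𝒮ℒ k) (γ : SL(2, ℤ)) (z : ℍ) :
    F (γ • z) = denom γ z ^ k * F z := by
  have hk : SlashInvariantFormClass (ModularForm 𝒮ℒ k) Γ(1) k :=
    Gamma_one_coe_eq_SL ▸ inferInstance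
  exact slash_action_eqn_SL'' F (mem_Gamma_one γ) z

open ModularGroup in
lemma coe_sq_of_S_smul_eq {z : ℍ} (h : S • z = z) : (z : ℂ) ^ 2 = -1 := by
  have h1 := congrArg (fun w : ℍ => (w : ℂ)) h
  rw [modular_S_smul] at h1
  simp only at h1
  have hz0 : (z : ℂ) ≠ 0 := ne_zero z
  have h2 : (-(z : ℂ))⁻¹ * (-(z : ℂ)) = 1 := inv_mul_cancel₀ (neg_ne_zero.mpr hz0)
  rw [h1] at h2
  linear_combination -h2

open ModularGroup in
theorem E6_eq_zero_of_S_smul_eq {z : ℍ} (h : S • z = z) : E₆ z = 0 := by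
  have e := levelOne_smul_eq E₆ S z
  rw [h, denom_S] at e
  have hz := coe_sq_of_S_smul_eq h
  have h6 : (z : ℂ) ^ (6 : ℤ) = -1 := by
    have : (z : ℂ) ^ (6 : ℤ) = ((z : ℂ) ^ 2) ^ 3 := by
      rw [← pow_mul]
      norm_cast
    rw [this, hz]
    norm_num
  rw [h6] at e
  linear_combination e / 2

open ModularGroup in
lemma denom_ST (z : ℍ) : denom ((S * T : SL(2, ℤ)) : GL (Fin 2) ℝ) z = z + 1 := by
  rw [denom_apply]
  have h10 : (S * T : SL(2, ℤ)) 1 0 = 1 := by decide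
  have h11 : (S * T : SL(2, ℤ)) 1 1 = 1 := by decide
  rw [h10, h11]
  simp

open ModularGroup in
lemma coe_of_ST_smul_eq {z : ℍ} (h : (S * T) • z = z) : (z : ℂ) ^ 2 + z + 1 = 0 := by
  have h1 := congrArg (fun w : ℍ => (w : ℂ)) h
  rw [mul_smul, modular_T_smul, modular_S_smul] at h1
  simp only [coe_vadd] at h1
  have hz0 : (-(((1 : ℝ) : ℂ) + (z : ℂ))) ≠ 0 := by
    have := ne_zero ((1 : ℝ) +ᵥ z)
    rw [coe_vadd] at this
    exact neg_ne_zero.mpr this
  have h2 : (-(((1 : ℝ) : ℂ) + (z : ℂ)))⁻¹ * (-(((1 : ℝ) : ℂ) + (z : ℂ))) = 1 :=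
    inv_mul_cancel₀ hz0
  rw [h1] at h2
  push_cast at h2
  linear_combination -h2

open ModularGroup in
theorem E4_eq_zero_of_ST_smul_eq {z : ℍ} (h : (S * T) • z = z) : E₄ z = 0 := by
  have e := levelOne_smul_eq E₄ (S * T) z
  rw [h, denom_ST] at e
  have hz := coe_of_ST_smul_eq h
  have h4 : ((z : ℂ) + 1) ^ (4 : ℤ) = z ^ 2 := by
    have : ((z : ℂ) + 1) ^ (4 : ℤ) = ((z : ℂ) + 1) ^ 4 := by norm_cast
    rw [this]
    linear_combination ((z : ℂ) ^ 2 + 3 * z + 1) * hz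
  rw [h4] at e
  -- `(1 - z²) E₄ z = 0` and `z² ≠ 1`
  have hne : (1 : ℂ) - (z : ℂ) ^ 2 ≠ 0 := by
    intro h0
    have h3 : (z : ℂ) = -2 := by linear_combination hz + h0
    have := z.im_pos
    have him : (z : ℂ).im = 0 := by rw [h3]; simp
    rw [coe_im] at him
    linarith
  have : (1 - (z : ℂ) ^ 2) * E₄ z = 0 := by linear_combination e
  exact (mul_eq_zero.mp this).resolve_left hne

/-! ### Local orders of `j` -/

lemma analyticAt_comp_ofComplex {F : ℍ → ℂ} (hF : MDiff F) (z : ℍ) :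
    AnalyticAt ℂ (F ∘ ofComplex) z :=
  (UpperHalfPlane.mdifferentiable_iff.mp hF).analyticAt
    (isOpen_upperHalfPlaneSet.mem_nhds z.im_pos)

lemma analyticAt_jFun (z : ℍ) : AnalyticAt ℂ (jFun ∘ ofComplex) z :=
  differentiableOn_jFun_comp_ofComplex.analyticAt (isOpen_upperHalfPlaneSet.mem_nhds z.im_pos)

lemma analyticAt_discriminant (z : ℍ) : AnalyticAt ℂ (ModularForm.discriminant ∘ ofComplex) z :=
  analyticAt_comp_ofComplex (CuspFormClass.holo CuspForm.discriminant) z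

lemma analyticOrderAt_inv_discriminant (z : ℍ) :
    analyticOrderAt (ModularForm.discriminant ∘ ofComplex)⁻¹ z = 0 := by
  have hne : (ModularForm.discriminant ∘ ofComplex) (z : ℂ) ≠ 0 := by
    simpa using discriminant_ne_zero z
  have han : AnalyticAt ℂ (ModularForm.discriminant ∘ ofComplex)⁻¹ z :=
    (analyticAt_discriminant z).inv hne
  rw [han.analyticOrderAt_eq_zero]
  simpa using discriminant_ne_zero z

/-- At a simple zero `z0` of `F`, the function `F ^ n / Δ` has order `n`. -/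
lemma analyticOrderAt_pow_div_discriminant {F : ℍ → ℂ} (hF : MDiff F) {z0 : ℍ}
    (h0 : F z0 = 0) (hD : D F z0 ≠ 0) (n : ℕ) :
    analyticOrderAt (fun w : ℂ => F (ofComplex w) ^ n / ModularForm.discriminant (ofComplex w))
      z0 = n := by
  have han := analyticAt_comp_ofComplex hF z0
  have h1 : analyticOrderAt (F ∘ ofComplex) z0 = 1 := by
    refine han.analyticOrderAt_eq_one_of_zero_deriv_ne_zero (by simpa using h0) ?_
    rw [(hasDerivAt_comp_ofComplex hF z0).deriv]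
    exact mul_ne_zero two_pi_I_ne_zero hD
  have hfun : (fun w : ℂ => F (ofComplex w) ^ n / ModularForm.discriminant (ofComplex w)) =
      (F ∘ ofComplex) ^ n * (ModularForm.discriminant ∘ ofComplex)⁻¹ := by
    funext w
    simp [div_eq_mul_inv]
  have hne : (ModularForm.discriminant ∘ ofComplex) (z0 : ℂ) ≠ 0 := by
    simpa using discriminant_ne_zero z0
  rw [hfun, analyticOrderAt_mul (han.pow n) ((analyticAt_discriminant z0).inv hne),
    analyticOrderAt_pow han, h1, analyticOrderAt_inv_discriminant]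
  simp

/-- `j` vanishes to order exactly `3` at every zero of `E₄`. -/
theorem analyticOrderAt_jFun_of_E4_eq_zero {z0 : ℍ} (h : E₄ z0 = 0) :
    analyticOrderAt (fun w : ℂ => jFun (ofComplex w) - 0) z0 = 3 := by
  have h6 : E₆ z0 ≠ 0 := (E4_ne_zero_or_E6_ne_zero z0).resolve_left (not_not.mpr h)
  have hD : D (E₄ : ℍ → ℂ) z0 ≠ 0 := by
    rw [D_E4, h]
    simpa using h6
  have := analyticOrderAt_pow_div_discriminant (holo E₄) h hD 3
  simpa [jFun] using this

/-- `j - 1728` vanishes to order exactly `2` at every zero of `E₆`. -/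
theorem analyticOrderAt_jFun_sub_1728_of_E6_eq_zero {z0 : ℍ} (h : E₆ z0 = 0) :
    analyticOrderAt (fun w : ℂ => jFun (ofComplex w) - 1728) z0 = 2 := by
  have h4 : E₄ z0 ≠ 0 := (E4_ne_zero_or_E6_ne_zero z0).resolve_right (not_not.mpr h)
  have hD : D (E₆ : ℍ → ℂ) z0 ≠ 0 := by
    rw [D_E6, h]
    simpa using h4
  have := analyticOrderAt_pow_div_discriminant (holo E₆) h hD 2
  simpa [jFun_sub_1728] using this

/-- `j - j z0` vanishes to order exactly `1` at `z0` if `E₄ z0 ≠ 0` and `E₆ z0 ≠ 0`. -/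
theorem analyticOrderAt_jFun_sub_of_ne {z0 : ℍ} (h4 : E₄ z0 ≠ 0) (h6 : E₆ z0 ≠ 0) :
    analyticOrderAt (fun w : ℂ => jFun (ofComplex w) - jFun z0) z0 = 1 := by
  have h := (analyticAt_jFun z0).analyticOrderAt_sub_eq_one_of_deriv_ne_zero
    ((deriv_jFun_ne_zero_iff z0).mpr ⟨h4, h6⟩)
  simpa using h

/-! ### Final statements at `ρ`, `i` and generic points -/

open ModularGroup in
theorem jFun_eq_zero_of_ST_smul_eq {z0 : ℍ} (h : (S * T) • z0 = z0) : jFun z0 = 0 :=
  (jFun_eq_zero_iff z0).mpr (E4_eq_zero_of_ST_smul_eq h)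

open ModularGroup in
theorem jFun_eq_1728_of_S_smul_eq {z0 : ℍ} (h : S • z0 = z0) : jFun z0 = 1728 :=
  (jFun_eq_1728_iff z0).mpr (E6_eq_zero_of_S_smul_eq h)

open ModularGroup in
/-- Local order `3` of `j` at the fixed point `ρ` of `S * T` (value `0`). -/
theorem analyticOrderAt_jFun_of_ST_smul_eq {z0 : ℍ} (h : (S * T) • z0 = z0) :
    analyticOrderAt (fun w : ℂ => jFun (ofComplex w) - 0) z0 = 3 :=
  analyticOrderAt_jFun_of_E4_eq_zero (E4_eq_zero_of_ST_smul_eq h)

open ModularGroup in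
/-- Local order `2` of `j - 1728` at the fixed point `i` of `S` (value `1728`). -/
theorem analyticOrderAt_jFun_of_S_smul_eq {z0 : ℍ} (h : S • z0 = z0) :
    analyticOrderAt (fun w : ℂ => jFun (ofComplex w) - 1728) z0 = 2 :=
  analyticOrderAt_jFun_sub_1728_of_E6_eq_zero (E6_eq_zero_of_S_smul_eq h)

/-- Local order `1` of `j - a` at any `z0` with `j z0 = a ∉ {0, 1728}`. -/
theorem analyticOrderAt_jFun_sub_generic {z0 : ℍ} {a : ℂ} (ha : jFun z0 = a) (h0 : a ≠ 0)
    (h1728 : a ≠ 1728) :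
    analyticOrderAt (fun w : ℂ => jFun (ofComplex w) - a) z0 = 1 := by
  subst ha
  exact analyticOrderAt_jFun_sub_of_ne (fun h => h0 ((jFun_eq_zero_iff z0).mpr h))
    (fun h => h1728 ((jFun_eq_1728_iff z0).mpr h))

/-- All three cases at once. -/
theorem analyticOrderAt_jFun_sub (z0 : ℍ) :
    analyticOrderAt (fun w : ℂ => jFun (ofComplex w) - jFun z0) z0 =
      if jFun z0 = 0 then 3 else if jFun z0 = 1728 then 2 else 1 := by
  split_ifs with h0 h1
  · rw [h0]
    exact analyticOrderAt_jFun_of_E4_eq_zero ((jFun_eq_zero_iff z0).mp h0)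
  · rw [h1]
    exact analyticOrderAt_jFun_sub_1728_of_E6_eq_zero ((jFun_eq_1728_iff z0).mp h1)
  · exact analyticOrderAt_jFun_sub_generic rfl h0 h1

/-- The point `ρ = (-1 + i√3)/2` of the upper half plane. -/
noncomputable def rho : ℍ :=
  ⟨-1 / 2 + ((Real.sqrt 3 / 2 : ℝ) : ℂ) * I, by simp⟩

lemma coe_rho : (rho : ℂ) = -1 / 2 + ((Real.sqrt 3 / 2 : ℝ) : ℂ) * I := rfl

lemma rho_sq_add : (rho : ℂ) ^ 2 + rho + 1 = 0 := by
  have hs : ((Real.sqrt 3 : ℝ) : ℂ) ^ 2 = 3 := by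
    rw [← ofReal_pow, Real.sq_sqrt (by norm_num)]
    norm_num
  rw [coe_rho]
  push_cast
  linear_combination (-(1 : ℂ) / 4) * hs + ((Real.sqrt 3 : ℝ) : ℂ) ^ 2 / 4 * I_sq

open ModularGroup in
theorem ST_smul_rho : (S * T) • rho = rho := by
  ext
  rw [mul_smul, modular_T_smul, modular_S_smul]
  simp only [coe_vadd]
  have h := rho_sq_add
  show (-(((1 : ℝ) : ℂ) + (rho : ℂ)))⁻¹ = rho
  symm
  apply eq_inv_of_mul_eq_one_left
  push_cast
  linear_combination -h

open ModularGroup in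
theorem S_smul_I : S • UpperHalfPlane.I = UpperHalfPlane.I := by
  ext
  rw [modular_S_smul]
  simp

theorem jFun_rho : jFun rho = 0 := jFun_eq_zero_of_ST_smul_eq ST_smul_rho

theorem jFun_I : jFun UpperHalfPlane.I = 1728 := jFun_eq_1728_of_S_smul_eq S_smul_I

end Fermat.Agent.S24.JLocalOrder
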