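import Mathlib
import Fermat.Prelude.Def_ModularCurve_X0

/-
S24 piece B0 (helper9): the analytic `j = E₄³/Δ` has the q-expansion given by the Prelude's
formal series `jq` (`Fermat.Prelude.Def_ModularCurve_X0`).

Main exports (namespace `Fermat.Agent.S24.JQExpansion`):
* `qExpansion_E4 : qExpansion 1 E₄ = eisenstein4.map (Int.castRingHom ℂ)`
* `qExpansion_discriminant : qExpansion 1 Δ = X * dedekindEtaUnit.map (Int.castRingHom ℂ)`
* `jNum_mul_qExpansion_discriminant :
    jNum.map (Int.castRingHom ℂ) * qExpansion 1 Δ = X * qExpansion 1 E₄ ^ 3`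
* `hasSum_jNum (z : ℍ) : HasSum (fun m ↦ (jNum.coeff m : ℂ) * 𝕢 1 z ^ m) (𝕢 1 z * (E₄ z ^ 3 / Δ z))`
* `coeff_jq_natCast_sub_one`, `coeff_jqN_mul`, `hasSum_jNum_scaled`, `hasSum_jNum_scaled'`
* disc-level tools: `tps` (Taylor power series at 0), `tps_mul`, `tps_pow`, `hasSum_tps`,
  `tps_eq_of_hasSum`, `tendsto_coeff_tps`, `eulerFun`, `tps_eulerFun`, `jNumFun`, `tps_jNumFun`.
-/

namespace Fermat.Agent.S24.JQExpansion

open Complex Filter Topology Metric Function
open scoped Nat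

/-- Taylor power series at `0` of a function `ℂ → ℂ`. -/
noncomputable def tps (G : ℂ → ℂ) : PowerSeries ℂ :=
  .mk fun m ↦ ((m ! : ℕ) : ℂ)⁻¹ * iteratedDeriv m G 0

lemma coeff_tps (G : ℂ → ℂ) (m : ℕ) :
    (tps G).coeff m = ((m ! : ℕ) : ℂ)⁻¹ * iteratedDeriv m G 0 := by
  simp [tps]

lemma tps_congr {G H : ℂ → ℂ} (h : G =ᶠ[𝓝 0] H) : tps G = tps H := by
  ext m
  simp [coeff_tps, (h.iteratedDeriv_eq m)]

lemma tps_mul {G H : ℂ → ℂ} (hG : AnalyticAt ℂ G 0) (hH : AnalyticAt ℂ H 0) :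
    tps (G * H) = tps G * tps H := by
  ext
  simp only [coeff_tps, iteratedDeriv_mul hG.contDiffAt hH.contDiffAt, Finset.mul_sum,
    PowerSeries.coeff_mul, Finset.Nat.sum_antidiagonal_eq_sum_range_succ_mk, Nat.succ_eq_add_one]
  refine Finset.sum_congr rfl fun i hi ↦ ?_
  rw [Nat.cast_choose _ (by grind)]
  field_simp [Nat.factorial_ne_zero]

lemma hasSum_tps {G : ℂ → ℂ} (hG : DifferentiableOn ℂ G (ball 0 1)) {q : ℂ} (hq : ‖q‖ < 1) :
    HasSum (fun m : ℕ ↦ (tps G).coeff m * q ^ m) (G q) := by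
  have := hasSum_taylorSeries_on_ball hG (z := q) (by simpa using hq)
  have he : (fun m : ℕ ↦ (tps G).coeff m * q ^ m) =
      fun n : ℕ ↦ ((n ! : ℕ) : ℂ)⁻¹ • (q - 0) ^ n • iteratedDeriv n G 0 := by
    funext m
    rw [coeff_tps, sub_zero, smul_eq_mul, smul_eq_mul]
    ring
  rw [he]
  exact this

lemma tps_eq_of_hasSum {G : ℂ → ℂ} {c : ℕ → ℂ} {r : ℝ} (hr : 0 < r)
    (h : ∀ q : ℂ, ‖q‖ < r → HasSum (fun m ↦ c m * q ^ m) (G q)) :
    tps G = PowerSeries.mk c := by
  have H1 : HasFPowerSeriesOnBall G (.ofScalars ℂ c) 0 (ENNReal.ofReal r) := by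
    constructor
    · refine le_of_forall_lt_imp_le_of_dense fun s hs ↦ ?_
      lift s to NNReal using hs.ne_top
      apply FormalMultilinearSeries.le_radius_of_summable
      have hs' : (s : ℝ) < r := ENNReal.coe_lt_ofReal.mp hs
      have := (h (s : ℂ) (by simpa using hs')).summable.norm
      simpa [smul_eq_mul, norm_mul, mul_comm, mul_left_comm, mul_assoc] using this
    · simpa using hr
    · intro y hy
      have hy' : ‖y‖ < r := by
        rw [Metric.eball_ofReal] at hy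
        simpa using hy
      simpa [mul_comm] using h y hy'
  have hGa : AnalyticAt ℂ G 0 := H1.analyticAt
  have h2 := hGa.hasFPowerSeriesAt
  have h3 := H1.hasFPowerSeriesAt.eq_formalMultilinearSeries h2
  ext m
  have := congr_arg (FormalMultilinearSeries.coeff · m) h3
  simp [FormalMultilinearSeries.coeff_ofScalars] at this
  simp [coeff_tps, this, div_eq_inv_mul]

lemma tendstoLocallyUniformlyOn_iteratedDeriv {ι : Type*} {l : Filter ι} [l.NeBot]
    {F : ι → ℂ → ℂ} {G : ℂ → ℂ} {U : Set ℂ} (hU : IsOpen U)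
    (hF : ∀ i, DifferentiableOn ℂ (F i) U) (h : TendstoLocallyUniformlyOn F G l U) (m : ℕ) :
    TendstoLocallyUniformlyOn (fun i ↦ iteratedDeriv m (F i)) (iteratedDeriv m G) l U ∧
      ∀ i, DifferentiableOn ℂ (iteratedDeriv m (F i)) U := by
  induction m with
  | zero => simpa [iteratedDeriv_zero] using ⟨h, hF⟩
  | succ m ih =>
    obtain ⟨h1, h2⟩ := ih
    refine ⟨?_, fun i ↦ ?_⟩
    · simp only [iteratedDeriv_succ]
      exact h1.deriv (.of_forall h2) hU
    · rw [iteratedDeriv_succ]; exact (h2 i).deriv hU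

lemma tendsto_coeff_tps {ι : Type*} {l : Filter ι} [l.NeBot]
    {F : ι → ℂ → ℂ} {G : ℂ → ℂ}
    (hF : ∀ i, DifferentiableOn ℂ (F i) (ball 0 1))
    (h : TendstoLocallyUniformlyOn F G l (ball 0 1)) (m : ℕ) :
    Tendsto (fun i ↦ (tps (F i)).coeff m) l (𝓝 ((tps G).coeff m)) := by
  have := ((tendstoLocallyUniformlyOn_iteratedDeriv isOpen_ball hF h m).1).tendsto_at
    (mem_ball_self one_pos)
  simp only [coeff_tps]
  exact this.const_mul _


open scoped PowerSeries.WithPiTopology in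
lemma tps_polynomial (p : Polynomial ℂ) : tps (fun q ↦ p.eval q) = (p : PowerSeries ℂ) := by
  rw [tps_eq_of_hasSum (c := fun k ↦ p.coeff k) one_pos]
  · ext m; simp
  · intro q _
    rw [Polynomial.eval_eq_sum_range]
    apply hasSum_sum_of_ne_finset_zero
    intro k hk
    have : p.coeff k = 0 := by
      apply Polynomial.coeff_eq_zero_of_natDegree_lt
      simp at hk; omega
    simp [this]

/-- The Euler function `∏ (1 - q^(n+1))` on the unit disc. -/
noncomputable def eulerFun (q : ℂ) : ℂ := ∏' n : ℕ, (1 - q ^ (n + 1))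

lemma differentiableOn_eulerFun : DifferentiableOn ℂ eulerFun (ball 0 1) :=
  ModularForm.differentiableOn_tprod_one_sub_pow

open scoped PowerSeries.WithPiTopology in
lemma tps_eulerFun : tps eulerFun = ModularCurve.etaProd.map (Int.castRingHom ℂ) := by
  ext m
  have hlu := ModularForm.multipliableLocallyUniformlyOn_one_sub_pow.hasProdLocallyUniformlyOn
  rw [hasProdLocallyUniformlyOn_iff_tendstoLocallyUniformlyOn] at hlu
  have hF : ∀ t : Finset ℕ, DifferentiableOn ℂ (fun q : ℂ ↦ ∏ i ∈ t, (1 - q ^ (i + 1))) (ball 0 1) := by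
    intro t
    refine (DifferentiableOn.finsetProd (u := t) (f := fun i (q : ℂ) ↦ 1 - q ^ (i + 1))
      (fun i _ ↦ by fun_prop)).congr ?_
    intro q _
    simp [Finset.prod_apply]
  have hlu' : TendstoLocallyUniformlyOn (fun (t : Finset ℕ) (q : ℂ) ↦ ∏ i ∈ t, (1 - q ^ (i + 1)))
      eulerFun atTop (ball 0 1) := by
    exact hlu
  have T1 := tendsto_coeff_tps hF hlu' m
  have T2 : ∀ t : Finset ℕ, tps (fun q : ℂ ↦ ∏ i ∈ t, (1 - q ^ (i + 1))) =
      (∏ i ∈ t, (1 - PowerSeries.X ^ (i + 1) : PowerSeries ℤ)).map (Int.castRingHom ℂ) := by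
    intro t
    have : (fun q : ℂ ↦ ∏ i ∈ t, (1 - q ^ (i + 1))) =
        fun q ↦ (∏ i ∈ t, (1 - Polynomial.X ^ (i + 1) : Polynomial ℂ)).eval q := by
      funext q; simp [Polynomial.eval_prod]
    rw [this, tps_polynomial]
    have h1 : ((∏ i ∈ t, (1 - Polynomial.X ^ (i + 1) : Polynomial ℂ) : Polynomial ℂ) :
        PowerSeries ℂ) = ∏ i ∈ t, (1 - PowerSeries.X ^ (i + 1) : PowerSeries ℂ) := by
      rw [← Polynomial.coeToPowerSeries.ringHom_apply, map_prod]
      simp
    rw [h1, map_prod]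
    simp
  have T3 : Tendsto (fun t : Finset ℕ ↦
      (((∏ i ∈ t, (1 - PowerSeries.X ^ (i + 1) : PowerSeries ℤ)).coeff m : ℤ) : ℂ)) atTop
      (𝓝 ((ModularCurve.etaProd.coeff m : ℤ) : ℂ)) := by
    have h1 := (PowerSeries.WithPiTopology.multipliable_one_sub_X_pow ℤ).hasProd
    have h2 := ((PowerSeries.WithPiTopology.continuous_coeff ℤ m).tendsto _).comp h1
    exact ((continuous_of_discreteTopology (f := fun n : ℤ ↦ (n : ℂ))).tendsto _).comp h2
  simp_rw [T2] at T1
  simp only [PowerSeries.coeff_map, eq_intCast] at T1 ⊢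
  exact tendsto_nhds_unique T1 T3

lemma tps_one : tps (1 : ℂ → ℂ) = 1 := by
  have : (1 : ℂ → ℂ) = fun q ↦ (1 : Polynomial ℂ).eval q := by funext q; simp
  rw [this, tps_polynomial]; simp

lemma tps_pow {G : ℂ → ℂ} (hG : AnalyticAt ℂ G 0) (n : ℕ) : tps (G ^ n) = tps G ^ n := by
  induction n with
  | zero => simpa using tps_one
  | succ n ih => rw [pow_succ, tps_mul (hG.pow n) hG, ih, pow_succ]

lemma eulerFun_ne_zero {q : ℂ} (hq : ‖q‖ < 1) : eulerFun q ≠ 0 := by
  have hs : Summable fun n : ℕ ↦ ‖-q ^ (n + 1)‖ := by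
    simpa [summable_nat_add_iff] using summable_geometric_of_lt_one (norm_nonneg _) hq
  have := tprod_one_add_ne_zero_of_summable (f := fun n : ℕ ↦ -q ^ (n + 1)) ?_ hs
  · simpa [eulerFun, sub_eq_add_neg] using this
  · intro i h
    have h1 : q ^ (i + 1) = 1 := by linear_combination -h
    have h2 : ‖q‖ ^ (i + 1) = 1 := by rw [← norm_pow, h1, norm_one]
    have h3 : ‖q‖ ^ (i + 1) < 1 := pow_lt_one₀ (norm_nonneg _) hq (by omega)
    linarith

open UpperHalfPlane ModularForm EisensteinSeries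

local notation "𝕢" => Periodic.qParam

/-- `E₄` as a function of `q` on the unit disc. -/
noncomputable def e4Fun : ℂ → ℂ := cuspFunction 1 E₄

lemma differentiableOn_e4Fun : DifferentiableOn ℂ e4Fun (ball 0 1) := fun _ hq ↦
  (ModularFormClass.differentiableAt_cuspFunction E₄ one_pos one_mem_strictPeriods_SL
    (mem_ball_zero_iff.mp hq)).differentiableWithinAt

lemma e4Fun_qParam (z : ℍ) : e4Fun (𝕢 1 z) = E₄ z :=
  SlashInvariantFormClass.eq_cuspFunction E₄ z one_mem_strictPeriods_SL one_ne_zero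

theorem qExpansion_E4 :
    qExpansion 1 E₄ = ModularCurve.eisenstein4.map (Int.castRingHom ℂ) := by
  ext m
  rw [EisensteinSeries.E_qExpansion_coeff (by norm_num) (by decide) m]
  simp only [ModularCurve.eisenstein4, PowerSeries.coeff_map, PowerSeries.coeff_mk]
  split_ifs with h
  · simp
  · have hb : bernoulli 4 = -1/30 := by
      rw [bernoulli_eq_bernoulli'_of_ne_one (by norm_num), bernoulli'_four]
    rw [hb]
    simp [ArithmeticFunction.sigma_apply]
    norm_num

lemma tps_e4Fun : tps e4Fun = ModularCurve.eisenstein4.map (Int.castRingHom ℂ) :=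
  qExpansion_E4

/-- `q · j(q) = E₄³ / ∏ (1 - qⁿ)²⁴` as a function on the unit disc. -/
noncomputable def jNumFun (q : ℂ) : ℂ := e4Fun q ^ 3 / eulerFun q ^ 24

lemma differentiableOn_jNumFun : DifferentiableOn ℂ jNumFun (ball 0 1) := by
  refine DifferentiableOn.div (differentiableOn_e4Fun.pow 3) (differentiableOn_eulerFun.pow 24) ?_
  intro q hq
  exact pow_ne_zero _ (eulerFun_ne_zero (mem_ball_zero_iff.mp hq))

lemma analyticAt_of_differentiableOn_ball {G : ℂ → ℂ} (hG : DifferentiableOn ℂ G (ball 0 1)) :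
    AnalyticAt ℂ G 0 :=
  hG.analyticAt (ball_mem_nhds 0 one_pos)

lemma tps_jNumFun : tps jNumFun = ModularCurve.jNum.map (Int.castRingHom ℂ) := by
  have h1 : jNumFun * eulerFun ^ 24 =ᶠ[𝓝 0] e4Fun ^ 3 := by
    filter_upwards [ball_mem_nhds (0 : ℂ) one_pos] with q hq
    have hne := eulerFun_ne_zero (mem_ball_zero_iff.mp hq)
    simp only [Pi.mul_apply, Pi.pow_apply, jNumFun]
    field_simp
  have h2 := tps_congr h1
  rw [tps_mul (analyticAt_of_differentiableOn_ball differentiableOn_jNumFun)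
    ((analyticAt_of_differentiableOn_ball differentiableOn_eulerFun).pow 24),
    tps_pow (analyticAt_of_differentiableOn_ball differentiableOn_eulerFun),
    tps_pow (analyticAt_of_differentiableOn_ball differentiableOn_e4Fun),
    tps_eulerFun, tps_e4Fun] at h2
  have h3 : (ModularCurve.dedekindEtaUnit.map (Int.castRingHom ℂ)) *
      (ModularCurve.dedekindEtaUnitInv.map (Int.castRingHom ℂ)) = 1 := by
    rw [← map_mul, ModularCurve.dedekindEtaUnit_mul_inv, map_one]
  calc tps jNumFun = tps jNumFun * ((ModularCurve.dedekindEtaUnit.map (Int.castRingHom ℂ)) *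
      (ModularCurve.dedekindEtaUnitInv.map (Int.castRingHom ℂ))) := by rw [h3, mul_one]
    _ = (tps jNumFun * (ModularCurve.etaProd.map (Int.castRingHom ℂ)) ^ 24) *
      (ModularCurve.dedekindEtaUnitInv.map (Int.castRingHom ℂ)) := by
        rw [ModularCurve.dedekindEtaUnit, map_pow]; ring
    _ = _ := by
        rw [h2, ModularCurve.jNum, map_mul, map_pow]

theorem hasSum_jNumFun {q : ℂ} (hq : ‖q‖ < 1) :
    HasSum (fun m : ℕ ↦ ((ModularCurve.jNum.coeff m : ℤ) : ℂ) * q ^ m) (jNumFun q) := by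
  have := hasSum_tps differentiableOn_jNumFun hq
  simpa [tps_jNumFun] using this

lemma tps_id : tps (fun q : ℂ ↦ q) = PowerSeries.X := by
  have : (fun q : ℂ ↦ q) = fun q ↦ (Polynomial.X : Polynomial ℂ).eval q := by funext q; simp
  rw [this, tps_polynomial]; simp

lemma tprod_pow_eq_eulerFun_pow {q : ℂ} (hq : ‖q‖ < 1) (k : ℕ) :
    ∏' n : ℕ, (1 - q ^ (n + 1)) ^ k = eulerFun q ^ k :=
  (ModularForm.multipliable_one_sub_pow hq).tprod_pow k

lemma discriminant_eq_eulerFun (z : ℍ) :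
    ModularForm.discriminant z = 𝕢 1 z * eulerFun (𝕢 1 z) ^ 24 := by
  rw [ModularForm.discriminant_eq_q_prod,
    ← tprod_pow_eq_eulerFun_pow (by exact_mod_cast UpperHalfPlane.norm_qParam_lt_one 1 z) 24]

theorem qExpansion_discriminant :
    qExpansion 1 ModularForm.discriminant =
      PowerSeries.X * ModularCurve.dedekindEtaUnit.map (Int.castRingHom ℂ) := by
  have h1 : cuspFunction 1 ModularForm.discriminant =ᶠ[𝓝 0]
      (fun q : ℂ ↦ q) * eulerFun ^ 24 := by
    filter_upwards [ball_mem_nhds (0 : ℂ) one_pos] with q hq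
    rw [ModularForm.discriminant_cuspFunction_eqOn hq]
    simp only [Pi.mul_apply, Pi.pow_apply]
    rw [tprod_pow_eq_eulerFun_pow (mem_ball_zero_iff.mp hq)]
  have h2 : qExpansion 1 ModularForm.discriminant =
      tps (cuspFunction 1 ModularForm.discriminant) := rfl
  rw [h2, tps_congr h1, tps_mul (by fun_prop)
    ((analyticAt_of_differentiableOn_ball differentiableOn_eulerFun).pow 24), tps_id,
    tps_pow (analyticAt_of_differentiableOn_ball differentiableOn_eulerFun), tps_eulerFun,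
    ModularCurve.dedekindEtaUnit, map_pow]

/-- The key identity relating the Prelude's formal `j`-numerator to Mathlib's `E₄` and `Δ`. -/
theorem jNum_mul_qExpansion_discriminant :
    ModularCurve.jNum.map (Int.castRingHom ℂ) * qExpansion 1 ModularForm.discriminant =
      PowerSeries.X * qExpansion 1 E₄ ^ 3 := by
  rw [qExpansion_discriminant, qExpansion_E4, ModularCurve.jNum, map_mul, map_pow]
  have h3 : (ModularCurve.dedekindEtaUnitInv.map (Int.castRingHom ℂ)) *
      (ModularCurve.dedekindEtaUnit.map (Int.castRingHom ℂ)) = 1 := by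
    rw [← map_mul, mul_comm, ModularCurve.dedekindEtaUnit_mul_inv, map_one]
  linear_combination (PowerSeries.X * (ModularCurve.eisenstein4.map (Int.castRingHom ℂ)) ^ 3) * h3

theorem jNumFun_qParam (z : ℍ) :
    jNumFun (𝕢 1 z) = 𝕢 1 z * (E₄ z ^ 3 / ModularForm.discriminant z) := by
  have hq : ‖𝕢 1 (z : ℂ)‖ < 1 := by exact_mod_cast UpperHalfPlane.norm_qParam_lt_one 1 z
  have h1 := eulerFun_ne_zero hq
  have h2 : 𝕢 1 (z : ℂ) ≠ 0 := Periodic.qParam_ne_zero _
  rw [jNumFun, discriminant_eq_eulerFun, e4Fun_qParam]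
  field_simp

/-- `q · j(z) = ∑ c(n) qⁿ` with `c(n)` the coefficients of the Prelude's `jNum`. -/
theorem hasSum_jNum (z : ℍ) :
    HasSum (fun m : ℕ ↦ ((ModularCurve.jNum.coeff m : ℤ) : ℂ) * 𝕢 1 z ^ m)
      (𝕢 1 z * (E₄ z ^ 3 / ModularForm.discriminant z)) := by
  rw [← jNumFun_qParam]
  exact hasSum_jNumFun (by exact_mod_cast UpperHalfPlane.norm_qParam_lt_one 1 z)

/-! ### Laurent coefficients of the Prelude's `jq`, `jqN d` -/

lemma coeff_jq_natCast_sub_one (m : ℕ) :
    ModularCurve.jq.coeff ((m : ℤ) - 1) = ((ModularCurve.jNum.coeff m : ℤ) : ℚ) := by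
  rw [ModularCurve.jq, sub_eq_add_neg, HahnSeries.coeff_single_mul_add, one_mul,
    HahnSeries.ofPowerSeries_apply_coeff, ModularCurve.jNumQ, PowerSeries.coeff_map]
  simp

lemma coeff_jq_of_lt_neg_one {k : ℤ} (hk : k < -1) : ModularCurve.jq.coeff k = 0 :=
  ModularCurve.coeff_jq_of_lt hk

lemma coeff_jqN_mul (d : ℕ) [NeZero d] (m : ℕ) :
    (ModularCurve.jqN d).coeff ((d : ℤ) * ((m : ℤ) - 1)) = ((ModularCurve.jNum.coeff m : ℤ) : ℚ) := by
  rw [ModularCurve.jqN, ModularCurve.qExpand_coeff_mul, coeff_jq_natCast_sub_one]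

/-! ### Scaled versions: `z ↦ d z` -/

lemma qParam_natCast_mul (d : ℕ) (z : ℂ) : 𝕢 1 ((d : ℂ) * z) = 𝕢 1 z ^ d := by
  simp only [Periodic.qParam, ofReal_one, div_one]
  rw [← Complex.exp_nat_mul]
  ring_nf

theorem hasSum_jNum_scaled {d : ℕ} {z w : ℍ} (h : (w : ℂ) = d * z) :
    HasSum (fun m : ℕ ↦ ((ModularCurve.jNum.coeff m : ℤ) : ℂ) * (𝕢 1 z ^ d) ^ m)
      (𝕢 1 z ^ d * (E₄ w ^ 3 / ModularForm.discriminant w)) := by
  have := hasSum_jNum w
  rwa [h, qParam_natCast_mul] at this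

/-- The same with the series indexed by the exponent of `q`. -/
theorem hasSum_jNum_scaled' {d : ℕ} (hd : 0 < d) {z w : ℍ} (h : (w : ℂ) = d * z) :
    HasSum (fun n : ℕ ↦ (if d ∣ n then ((ModularCurve.jNum.coeff (n / d) : ℤ) : ℂ) else 0) *
      𝕢 1 z ^ n) (𝕢 1 z ^ d * (E₄ w ^ 3 / ModularForm.discriminant w)) := by
  have h1 := hasSum_jNum_scaled h
  have hinj : Function.Injective (fun m : ℕ ↦ d * m) := fun a b hab ↦
    Nat.eq_of_mul_eq_mul_left hd hab
  rw [← hinj.hasSum_iff]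
  · convert h1 using 2 with m
    simp [Nat.mul_div_cancel_left _ hd, pow_mul]
  · intro n hn
    have : ¬ d ∣ n := by
      rintro ⟨m, rfl⟩
      exact hn ⟨m, rfl⟩
    simp [this]

end Fermat.Agent.S24.JQExpansion
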