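import Mathlib

/-!
# S24, piece B4.b: Hermite normal form for `diag(d,1) * γ`, `γ ∈ SL(2,ℤ)`

For `d ≥ 1` and `γ ∈ SL(2,ℤ)` there are `γ' ∈ SL(2,ℤ)` and integers `a, b, e` with `a * e = d`,
`0 < a`, `0 ≤ b < e` and `diag(d,1) * γ = γ' * !![a, b; 0, e]`.  On the upper half plane this reads
`d * (γ • z) = γ' • ((a * z + b) / e)`.
-/

set_option autoImplicit false

open Matrix UpperHalfPlane
open scoped MatrixGroups

namespace Fermat.Agent.S24.Hermite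

/-- Integer version: any integer `2 × 2` matrix `!![x, p; y, q]` with positive determinant can be
brought to upper triangular form `!![a, b; 0, e]`, `a * e = det`, `0 < a`, `0 ≤ b < e`, by left
multiplication with an element of `SL(2,ℤ)`. -/
theorem exists_SL2_mul_eq_upper (x p y q : ℤ) (hD : 0 < x * q - p * y) :
    ∃ (γ' : SL(2, ℤ)) (a b e : ℤ), a * e = x * q - p * y ∧ 0 < a ∧ 0 ≤ b ∧ b < e ∧
      !![x, p; y, q] = (γ' : Matrix (Fin 2) (Fin 2) ℤ) * !![a, b; 0, e] := by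
  have hxy : ¬ (x = 0 ∧ y = 0) := by
    rintro ⟨rfl, rfl⟩
    simp at hD
  obtain ⟨g, hg⟩ : ∃ g : ℤ, g = (Int.gcd x y : ℤ) := ⟨_, rfl⟩
  have hgpos : 0 < g := by
    have h0 : Int.gcd x y ≠ 0 := by
      rw [Ne, Int.gcd_eq_zero_iff]
      exact hxy
    have : 0 < Int.gcd x y := Nat.pos_of_ne_zero h0
    rw [hg]
    exact_mod_cast this
  obtain ⟨x', hx'⟩ : g ∣ x := hg ▸ Int.gcd_dvd_left x y
  obtain ⟨y', hy'⟩ : g ∣ y := hg ▸ Int.gcd_dvd_right x y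
  obtain ⟨u, hu⟩ : ∃ u : ℤ, u = Int.gcdA x y := ⟨_, rfl⟩
  obtain ⟨v, hv⟩ : ∃ v : ℤ, v = Int.gcdB x y := ⟨_, rfl⟩
  have hbez : g = x * u + y * v := by rw [hg, hu, hv]; exact Int.gcd_eq_gcd_ab x y
  -- `x' u + y' v = 1`
  have h1 : x' * u + y' * v = 1 := by
    have : g * (x' * u + y' * v) = g * 1 := by
      linear_combination (-1) * hbez - u * hx' - v * hy'
    exact mul_left_cancel₀ hgpos.ne' this
  -- the determinant factorises
  obtain ⟨e, he⟩ : ∃ e : ℤ, e = x' * q - p * y' := ⟨_, rfl⟩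
  have hge : g * e = x * q - p * y := by rw [he, hx', hy']; ring
  have hepos : 0 < e := by
    by_contra h
    have h' : e ≤ 0 := not_lt.mp h
    have := mul_nonpos_of_nonneg_of_nonpos hgpos.le h'
    rw [hge] at this
    linarith
  -- the unreduced upper right entry
  obtain ⟨b₀, hb₀⟩ : ∃ b₀ : ℤ, b₀ = u * p + v * q := ⟨_, rfl⟩
  -- reduce `b₀` modulo `e`
  obtain ⟨k, hk⟩ : ∃ k : ℤ, k = b₀ / e := ⟨_, rfl⟩
  obtain ⟨b, hb⟩ : ∃ b : ℤ, b = b₀ % e := ⟨_, rfl⟩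
  have hb0 : 0 ≤ b := hb ▸ Int.emod_nonneg _ hepos.ne'
  have hbe : b < e := hb ▸ Int.emod_lt_of_pos _ hepos
  have hbk : b₀ = e * k + b := by rw [hk, hb]; exact (Int.mul_ediv_add_emod b₀ e).symm
  have hb' : b = u * p + v * q - e * k := by rw [← hb₀, hbk]; ring
  refine ⟨⟨!![x', -v + x' * k; y', u + y' * k], ?_⟩, g, b, e, hge, hgpos, hb0, hbe, ?_⟩
  · rw [Matrix.det_fin_two_of]
    linear_combination h1
  · have hp : p = x' * b + (-v + x' * k) * e := by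
      rw [hb', he]
      linear_combination (-p) * h1
    have hq : q = y' * b + (u + y' * k) * e := by
      rw [hb', he]
      linear_combination (-q) * h1
    ext i j
    fin_cases i <;> fin_cases j
    · simp [Matrix.mul_apply, Fin.sum_univ_two, hx', mul_comm]
    · simpa [Matrix.mul_apply, Fin.sum_univ_two] using hp
    · simp [Matrix.mul_apply, Fin.sum_univ_two, hy', mul_comm]
    · simpa [Matrix.mul_apply, Fin.sum_univ_two] using hq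

/-- **B4.b (matrix form).** For `d ≥ 1` and `γ ∈ SL(2,ℤ)`: `diag(d,1) * γ = γ' * !![a, b; 0, e]` with
`γ' ∈ SL(2,ℤ)`, `a * e = d`, `0 < a`, `0 ≤ b < e`. -/
theorem exists_SL2_diag_mul (d : ℕ) (hd : 0 < d) (γ : SL(2, ℤ)) :
    ∃ (γ' : SL(2, ℤ)) (a b e : ℤ), a * e = d ∧ 0 < a ∧ 0 ≤ b ∧ b < e ∧
      !![(d : ℤ), 0; 0, 1] * (γ : Matrix (Fin 2) (Fin 2) ℤ)
        = (γ' : Matrix (Fin 2) (Fin 2) ℤ) * !![a, b; 0, e] := by
  have hdet : (γ 0 0 : ℤ) * γ 1 1 - γ 0 1 * γ 1 0 = 1 := by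
    have := γ.det_coe
    rwa [Matrix.det_fin_two] at this
  have hD : (d : ℤ) * γ 0 0 * γ 1 1 - (d : ℤ) * γ 0 1 * γ 1 0 = d := by
    linear_combination (d : ℤ) * hdet
  have hpos : 0 < (d : ℤ) * γ 0 0 * γ 1 1 - (d : ℤ) * γ 0 1 * γ 1 0 := by
    rw [hD]; exact_mod_cast hd
  obtain ⟨γ', a, b, e, hae, ha, hb0, hbe, hmat⟩ :=
    exists_SL2_mul_eq_upper ((d : ℤ) * γ 0 0) ((d : ℤ) * γ 0 1) (γ 1 0) (γ 1 1) hpos
  refine ⟨γ', a, b, e, hae.trans hD, ha, hb0, hbe, ?_⟩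
  rw [← hmat]
  ext i j
  fin_cases i <;> fin_cases j <;> simp [Matrix.mul_apply, Fin.sum_univ_two]

/-- **B4.b (upper half plane form).** If `diag(d,1) * γ = γ' * !![a, b; 0, e]` and
`w = (a z + b) / e`, then `d * (γ • z) = γ' • w`. -/
theorem coe_smul_eq_of_diag_mul {d : ℕ} {γ γ' : SL(2, ℤ)} {a b e : ℤ} (he : e ≠ 0)
    (hmat : !![(d : ℤ), 0; 0, 1] * (γ : Matrix (Fin 2) (Fin 2) ℤ)
        = (γ' : Matrix (Fin 2) (Fin 2) ℤ) * !![a, b; 0, e])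
    (z w : ℍ) (hw : (w : ℂ) = ((a : ℂ) * z + b) / e) :
    (d : ℂ) * ((γ • z : ℍ) : ℂ) = ((γ' • w : ℍ) : ℂ) := by
  -- entries
  have h00 : (d : ℤ) * γ 0 0 = γ' 0 0 * a := by
    have := congrFun (congrFun hmat 0) 0
    simpa [Matrix.mul_apply, Fin.sum_univ_two] using this
  have h01 : (d : ℤ) * γ 0 1 = γ' 0 0 * b + γ' 0 1 * e := by
    have := congrFun (congrFun hmat 0) 1
    simpa [Matrix.mul_apply, Fin.sum_univ_two] using this
  have h10 : (γ 1 0 : ℤ) = γ' 1 0 * a := by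
    have := congrFun (congrFun hmat 1) 0
    simpa [Matrix.mul_apply, Fin.sum_univ_two] using this
  have h11 : (γ 1 1 : ℤ) = γ' 1 0 * b + γ' 1 1 * e := by
    have := congrFun (congrFun hmat 1) 1
    simpa [Matrix.mul_apply, Fin.sum_univ_two] using this
  have h00c : (d : ℂ) * (γ 0 0 : ℂ) = (γ' 0 0 : ℂ) * a := by exact_mod_cast congrArg (Int.cast : ℤ → ℂ) h00
  have h01c : (d : ℂ) * (γ 0 1 : ℂ) = (γ' 0 0 : ℂ) * b + (γ' 0 1 : ℂ) * e := by
    exact_mod_cast congrArg (Int.cast : ℤ → ℂ) h01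
  have h10c : ((γ 1 0 : ℤ) : ℂ) = (γ' 1 0 : ℂ) * a := by exact_mod_cast congrArg (Int.cast : ℤ → ℂ) h10
  have h11c : ((γ 1 1 : ℤ) : ℂ) = (γ' 1 0 : ℂ) * b + (γ' 1 1 : ℂ) * e := by
    exact_mod_cast congrArg (Int.cast : ℤ → ℂ) h11
  have hec : (e : ℂ) ≠ 0 := by exact_mod_cast he
  have hden : ((γ 1 0 : ℤ) : ℂ) * z + ((γ 1 1 : ℤ) : ℂ) ≠ 0 := by
    have := UpperHalfPlane.denom_ne_zero (γ : GL (Fin 2) ℝ) z
    simpa [UpperHalfPlane.denom] using this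
  have hden' : ((γ' 1 0 : ℤ) : ℂ) * w + ((γ' 1 1 : ℤ) : ℂ) ≠ 0 := by
    have := UpperHalfPlane.denom_ne_zero (γ' : GL (Fin 2) ℝ) w
    simpa [UpperHalfPlane.denom] using this
  rw [UpperHalfPlane.coe_specialLinearGroup_apply, UpperHalfPlane.coe_specialLinearGroup_apply]
  simp only [algebraMap_int_eq, Int.coe_castRingHom, Complex.ofReal_intCast]
  rw [mul_div_assoc', div_eq_div_iff hden hden', hw]
  rw [hw] at hden'
  field_simp
  rw [h10c, h11c]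
  have e1 : (d : ℂ) * ((γ 0 0 : ℂ) * z + (γ 0 1 : ℂ)) = (γ' 0 0 : ℂ) * a * z + ((γ' 0 0 : ℂ) * b + (γ' 0 1 : ℂ) * e) := by
    rw [← h00c, ← h01c]; ring
  linear_combination (((γ' 1 0 : ℂ)) * (a * z + b) + (γ' 1 1 : ℂ) * e) * e1

/-- The point `(a z + b) / e` of the upper half plane, for integers `a, e > 0`. -/
noncomputable def affinePoint (a b e : ℤ) (ha : 0 < a) (he : 0 < e) (z : ℍ) : ℍ :=
  ⟨((a : ℂ) * z + b) / e, by
    have hae : (0 : ℝ) < (a : ℝ) / e := div_pos (by exact_mod_cast ha) (by exact_mod_cast he)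
    have him : (((a : ℂ) * z + b) / e).im = (a : ℝ) / e * z.im := by
      have h1 : ((a : ℂ) * z + b) / e = (((a : ℝ) / (e : ℝ) : ℝ) : ℂ) * z + (((b : ℝ) / (e : ℝ) : ℝ) : ℂ) := by
        have hec : (e : ℂ) ≠ 0 := by exact_mod_cast he.ne'
        push_cast
        field_simp
      rw [h1, Complex.add_im, Complex.im_ofReal_mul, Complex.ofReal_im, add_zero]
      rfl
    rw [him]
    exact mul_pos hae z.im_pos⟩

@[simp]
theorem coe_affinePoint (a b e : ℤ) (ha : 0 < a) (he : 0 < e) (z : ℍ) :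
    ((affinePoint a b e ha he z : ℍ) : ℂ) = ((a : ℂ) * z + b) / e := rfl

/-- **B4.b (combined).** For `d ≥ 1` and `γ ∈ SL(2,ℤ)` there are `γ' ∈ SL(2,ℤ)` and integers
`a, b, e` with `a * e = d`, `0 < a`, `0 < e`, `0 ≤ b < e` such that for every `z ∈ ℍ`:
`d * (γ • z) = γ' • ((a z + b) / e)`. -/
theorem exists_smul_eq (d : ℕ) (hd : 0 < d) (γ : SL(2, ℤ)) :
    ∃ (γ' : SL(2, ℤ)) (a b e : ℤ) (ha : 0 < a) (he : 0 < e), a * e = d ∧ 0 ≤ b ∧ b < e ∧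
      ∀ z : ℍ, (d : ℂ) * ((γ • z : ℍ) : ℂ) = ((γ' • affinePoint a b e ha he z : ℍ) : ℂ) := by
  obtain ⟨γ', a, b, e, hae, ha, hb0, hbe, hmat⟩ := exists_SL2_diag_mul d hd γ
  have he : 0 < e := lt_of_le_of_lt hb0 hbe
  exact ⟨γ', a, b, e, ha, he, hae, hb0, hbe, fun z =>
    coe_smul_eq_of_diag_mul he.ne' hmat z _ (coe_affinePoint a b e ha he z)⟩

end Fermat.Agent.S24.Hermite
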