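import Mathlib
import Fermat.Prelude.Def_ModularCurve_ArithmeticGalois
import Fermat.Prelude.Def_ModularCurve_GenusNumerics
import Fermat.Prelude.Def_AlgebraicCurve_CanonicalDivisor

/-!
# S24: shared definitions

`K` is an algebraically closed field of characteristic zero, `F / K` a function field of one
variable, `x : F` a non-constant element.  For `a : K` we consider the set `zerosOver x a` of places
of `F` at which `x - a` vanishes ("places over `a`") and the set `polesOf x` of places at which
`x` has a pole ("places over `∞`").
-/

set_option autoImplicit false

open AlgebraicCurve KaehlerDifferential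

namespace Fermat.Agent.S24

section General

variable {K F : Type*} [Field K] [Field F] [Algebra K F]

/-- The places of `F` at which `x - a` has a zero (the places "over `x = a`"). -/
def zerosOver (x : F) (a : K) : Set (Place K F) :=
  {v | 0 < v.ord (x - algebraMap K F a)}

variable (K) in
/-- The places of `F` at which `x` has a pole (the places "over `x = ∞`"). -/
def polesOf (x : F) : Set (Place K F) :=
  {v | v.ord x < 0}

theorem mem_zerosOver {x : F} {a : K} {v : Place K F} :
    v ∈ zerosOver x a ↔ 0 < v.ord (x - algebraMap K F a) := Iff.rfl

theorem mem_polesOf {x : F} {v : Place K F} : v ∈ polesOf K x ↔ v.ord x < 0 := Iff.rfl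

/-- `F / K` is a function field of one variable: there is a transcendental `x : F` such that
`F` is finite over `K(x)`. -/
def IsFunctionField1 (K F : Type*) [Field K] [Field F] [Algebra K F] : Prop :=
  ∃ x : F, Transcendental K x ∧ FiniteDimensional (IntermediateField.adjoin K ({x} : Set F)) F

/-- The differential `v.dCoord` of the Prelude is `d π` for some uniformizer `π` at `v`
(the Prelude's choice of uniformizer is a private definition; this lemma is the only access
to it that is ever needed). -/
theorem exists_uniformizer_dCoord (v : Place K F) :
    ∃ π : F, v.ord π = 1 ∧ v.dCoord = KaehlerDifferential.D K F π := by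
  refine ⟨_, ?_, rfl⟩
  have hirr := (IsDiscreteValuationRing.exists_irreducible v.toValuationSubring).choose_spec
  exact v.ord_coe_irreducible hirr

end General

section Modular

open ModularCurve

/-- The base field `ℚ̄`. -/
abbrev Kbar : Type := AlgebraicClosure ℚ

/-- The function field of `X₀(N)` over `ℚ̄`, as a type. -/
abbrev FBar (N : ℕ) : Type := ↥(ModularCurve.modularFunctionFieldBar N)

theorem coeffEmb_jq_mem (N : ℕ) [NeZero N] :
    ModularCurve.coeffEmb Kbar ModularCurve.jq ∈ ModularCurve.modularFunctionFieldBar N := by
  refine ModularCurve.coeffEmb_mem_laurentBaseChange Kbar ?_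
  have h := ModularCurve.jqd_mem_full N (one_dvd N)
  rwa [ModularCurve.qExpand_one_apply] at h

/-- The `j`-function, as an element of the function field of `X₀(N)` over `ℚ̄`. -/
noncomputable def jBar (N : ℕ) [NeZero N] : FBar N :=
  ⟨ModularCurve.coeffEmb Kbar ModularCurve.jq, coeffEmb_jq_mem N⟩

end Modular

end Fermat.Agent.S24
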