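/-
S24, Part A, piece A2: over an algebraically closed constant field `K`, every place of a
function field of one variable `F/K` has residue field `K`; in particular `Place.deg v = 1` and
`O_v = K + m_v`.
-/
import Mathlib
import Fermat.Prelude.Def_AlgebraicCurve_DivisorClassGroup

set_option autoImplicit false

namespace Fermat.Agent.S24

open AlgebraicCurve IntermediateField Polynomial

universe u v

variable {K : Type u} {F : Type v} [Field K] [Field F] [Algebra K F]

/-- `F/K` is a function field of one variable: `F` is algebraic over `K(f)` for every `f ∈ F`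
transcendental over `K`. -/
def OneVariable (K F : Type*) [Field K] [Field F] [Algebra K F] : Prop :=
  ∀ f : F, Transcendental K f → Algebra.IsAlgebraic K⟮f⟯ F

open scoped IntermediateField.algebraAdjoinAdjoin in
/-- A finite-type criterion: if `F` is algebraic over `K(x)` for ONE transcendental `x`, then
`F/K` is a function field of one variable. -/
theorem oneVariable_of_exists (x : F) (hx : Transcendental K x)
    [halg : Algebra.IsAlgebraic K⟮x⟯ F] : OneVariable K F := by
  -- `x` is a transcendence basis
  have halg' : Algebra.IsAlgebraic (Algebra.adjoin K ({x} : Set F)) F :=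
    (IsFractionRing.comap_isAlgebraic_iff (A := Algebra.adjoin K ({x} : Set F))
      (K := K⟮x⟯) (C := F)).mpr halg
  have hind : AlgebraicIndependent K (fun _ : PUnit.{v+1} => x) :=
    algebraicIndependent_unique_type_iff.mpr hx
  have hrange : Set.range (fun _ : PUnit.{v+1} => x) = {x} := by
    ext y; simp [eq_comm]
  have hbasis : IsTranscendenceBasis K (fun _ : PUnit.{v+1} => x) := by
    rw [hind.isTranscendenceBasis_iff_isAlgebraic, hrange]
    exact halg'
  have htr : Algebra.trdeg K F = Cardinal.mk PUnit.{v+1} := hbasis.cardinalMk_eq_trdeg.symm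
  intro f hf
  have hindf : AlgebraicIndependent K (fun _ : PUnit.{v+1} => f) :=
    algebraicIndependent_unique_type_iff.mpr hf
  have hbf : IsTranscendenceBasis K (fun _ : PUnit.{v+1} => f) :=
    hindf.isTranscendenceBasis_of_trdeg_le_of_finite htr.le
  have hrangef : Set.range (fun _ : PUnit.{v+1} => f) = {f} := by
    ext y; simp [eq_comm]
  have := hbf.isAlgebraic_field
  rwa [hrangef] at this

section residue

variable (v : Place K F)

/-- The residue map `O_v → k_v` as a `K`-algebra homomorphism. -/
noncomputable def residueAlgHom : v.toValuationSubring →ₐ[K] v.ResidueField :=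
  IsScalarTower.toAlgHom K v.toValuationSubring v.ResidueField

@[simp]
theorem residueAlgHom_apply (f : v.toValuationSubring) :
    residueAlgHom v f = IsLocalRing.residue v.toValuationSubring f := rfl

theorem coe_aeval (f : v.toValuationSubring) (p : K[X]) :
    ((aeval f p : v.toValuationSubring) : F) = aeval (f : F) p := by
  have := Polynomial.aeval_algHom_apply
    (IsScalarTower.toAlgHom K v.toValuationSubring F) f p
  simpa using this.symm

/-- If the residue class of `f ∈ O_v` is transcendental over `K` then `K(f) ⊆ O_v`. -/
theorem adjoin_le_of_transcendental_residue (f : v.toValuationSubring)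
    (hf : Transcendental K (IsLocalRing.residue v.toValuationSubring f)) :
    ∀ y ∈ K⟮(f : F)⟯, y ∈ v.toValuationSubring := by
  intro y hy
  rw [IntermediateField.mem_adjoin_simple_iff] at hy
  obtain ⟨r, s, rfl⟩ := hy
  by_cases hs : s = 0
  · simp [hs, v.toValuationSubring.zero_mem]
  -- `aeval f s` is a unit of `O_v`
  have hsres : IsLocalRing.residue v.toValuationSubring (aeval f s) ≠ 0 := by
    have h1 : IsLocalRing.residue v.toValuationSubring (aeval f s)
        = aeval (IsLocalRing.residue v.toValuationSubring f) s := by
      have := Polynomial.aeval_algHom_apply (residueAlgHom v) f s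
      simpa using this.symm
    rw [h1]
    exact fun h0 => hs (transcendental_iff.mp hf s h0)
  have hunit : IsUnit (aeval f s : v.toValuationSubring) :=
    (IsLocalRing.residue_ne_zero_iff_isUnit _).mp hsres
  obtain ⟨u, hu⟩ := hunit
  have hinv : ((aeval (f : F) s)⁻¹ : F) = ((u⁻¹ : (v.toValuationSubring)ˣ) : v.toValuationSubring) := by
    have h2 : ((u : v.toValuationSubring) : F) = aeval (f : F) s := by
      rw [hu, coe_aeval]
    have h3 : ((u : v.toValuationSubring) : F) * (((u⁻¹ : (v.toValuationSubring)ˣ) :
        v.toValuationSubring) : F) = 1 := by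
      have h4 : (u : v.toValuationSubring) * ((u⁻¹ : (v.toValuationSubring)ˣ) :
          v.toValuationSubring) = 1 := Units.mul_inv u
      have := congrArg (Subtype.val) h4
      rwa [MulMemClass.coe_mul, OneMemClass.coe_one] at this
    rw [← h2]
    exact inv_eq_of_mul_eq_one_right h3
  rw [div_eq_mul_inv, hinv, ← coe_aeval]
  exact (aeval f r * ((u⁻¹ : (v.toValuationSubring)ˣ) : v.toValuationSubring)).2


/-- A valuation subring of `F` containing a subfield `E` over which `F` is algebraic is all
of `F`. -/
theorem valuationSubring_eq_top_of_le (A : ValuationSubring F) (E : IntermediateField K F)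
    [Algebra.IsAlgebraic E F] (hE : ∀ y ∈ E, y ∈ A) : A = ⊤ := by
  refine top_unique fun y _ => ?_
  -- `y` is integral over `E`, hence over `A`
  let ι : E →+* A := (algebraMap E F).codRestrict A.toSubring fun e => hE e e.2
  let _ : Algebra E A := ι.toAlgebra
  have : IsScalarTower E A F := IsScalarTower.of_algebraMap_eq fun _ => rfl
  have hy : IsIntegral E y := (Algebra.IsAlgebraic.isAlgebraic (R := E) y).isIntegral
  have hy' : IsIntegral A y := hy.tower_top
  obtain ⟨a, ha⟩ := (IsIntegrallyClosed.isIntegral_iff (R := A) (K := F)).mp hy'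
  rw [← ha]
  exact a.2

/-- The residue class of any `f ∈ O_v` is algebraic over `K`. -/
theorem isAlgebraic_residue (hF : OneVariable K F) (f : v.toValuationSubring) :
    IsAlgebraic K (IsLocalRing.residue v.toValuationSubring f) := by
  by_contra hf
  have hf' : Transcendental K (IsLocalRing.residue v.toValuationSubring f) := hf
  -- `f` itself is transcendental
  have hftr : Transcendental K (f : F) := by
    rw [transcendental_iff]
    intro p hp
    have h1 : aeval (IsLocalRing.residue v.toValuationSubring f) p = 0 := by
      have h2 := Polynomial.aeval_algHom_apply (residueAlgHom v) f p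
      have h3 : (aeval f p : v.toValuationSubring) = 0 := by
        apply Subtype.ext
        rw [coe_aeval, hp]
        rfl
      rw [residueAlgHom_apply] at h2
      rw [h2, h3, map_zero]
    exact transcendental_iff.mp hf' p h1
  have := hF (f : F) hftr
  exact v.ne_top' (valuationSubring_eq_top_of_le v.toValuationSubring K⟮(f : F)⟯
    (adjoin_le_of_transcendental_residue v f hf'))

theorem isIntegral_residueField (hF : OneVariable K F) : Algebra.IsIntegral K v.ResidueField :=
  ⟨fun x => by
    obtain ⟨f, rfl⟩ := IsLocalRing.residue_surjective x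
    exact (isAlgebraic_residue v hF f).isIntegral⟩

/-- Over an algebraically closed constant field the residue field of every place is `K`. -/
theorem residue_algebraMap_bijective [IsAlgClosed K] (hF : OneVariable K F) :
    Function.Bijective (algebraMap K v.ResidueField) := by
  have := isIntegral_residueField v hF
  exact IsAlgClosed.algebraMap_bijective_of_isIntegral

/-- Every place has degree one. -/
theorem deg_eq_one [IsAlgClosed K] (hF : OneVariable K F) : v.deg = 1 := by
  have hb := residue_algebraMap_bijective v hF
  let e : K ≃ₗ[K] v.ResidueField :=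
    LinearEquiv.ofBijective (Algebra.linearMap K v.ResidueField) hb
  rw [Place.deg, ← e.finrank_eq, Module.finrank_self]

/-- `O_v = K + m_v`. -/
theorem exists_sub_mem_maximalIdeal [IsAlgClosed K] (hF : OneVariable K F)
    (f : v.toValuationSubring) :
    ∃ c : K, f - algebraMap K v.toValuationSubring c ∈
      IsLocalRing.maximalIdeal v.toValuationSubring := by
  obtain ⟨c, hc⟩ := (residue_algebraMap_bijective v hF).2
    (IsLocalRing.residue v.toValuationSubring f)
  refine ⟨c, ?_⟩
  rw [← IsLocalRing.residue_eq_zero_iff, map_sub, sub_eq_zero, ← hc]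
  rfl


end residue

section ord

variable (v : Place K F)

/-- For `f ≠ 0`: `f ∈ O_v ↔ 0 ≤ ord_v f`. -/
theorem mem_valuationSubring_iff_ord_nonneg {f : F} (hf : f ≠ 0) :
    f ∈ v.toValuationSubring ↔ 0 ≤ v.ord f := by
  obtain ⟨π, hπ⟩ := IsDiscreteValuationRing.exists_irreducible v.toValuationSubring
  obtain ⟨u, hu⟩ := v.exists_unit_mul_zpow hf hπ
  have hπF : (π : F) ≠ 0 := by
    simpa [ne_eq, ZeroMemClass.coe_eq_zero] using hπ.ne_zero
  constructor
  · intro hmem
    by_contra hneg
    push Not at hneg
    -- `f * π ^ k = u` with `k = -ord f ≥ 1`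
    obtain ⟨k, hk⟩ : ∃ k : ℕ, v.ord f = -((k : ℤ) + 1) := ⟨(-(v.ord f) - 1).toNat, by omega⟩
    have h1 : (⟨f, hmem⟩ : v.toValuationSubring) * π ^ (k + 1) = u := by
      apply Subtype.ext
      rw [MulMemClass.coe_mul, SubmonoidClass.coe_pow]
      show f * (π : F) ^ (k + 1) = _
      conv_lhs => rw [hu, hk]
      rw [mul_assoc, ← zpow_natCast, ← zpow_add₀ hπF]
      have : -((k : ℤ) + 1) + ((k + 1 : ℕ) : ℤ) = 0 := by push_cast; ring
      rw [this, zpow_zero, mul_one]
    have h2 : IsUnit (π ^ (k + 1)) := isUnit_of_mul_isUnit_right (h1 ▸ u.isUnit)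
    exact hπ.not_isUnit ((isUnit_pow_iff (Nat.succ_ne_zero k)).mp h2)
  · intro hnn
    obtain ⟨k, hk⟩ : ∃ k : ℕ, v.ord f = (k : ℤ) := ⟨(v.ord f).toNat, by omega⟩
    rw [hu, hk, zpow_natCast]
    exact ((u : v.toValuationSubring) * π ^ k).2

/-- For `f ∈ O_v`, `f ≠ 0`: `f ∈ m_v ↔ 0 < ord_v f`. -/
theorem mem_maximalIdeal_iff_ord_pos {f : v.toValuationSubring} (hf : f ≠ 0) :
    f ∈ IsLocalRing.maximalIdeal v.toValuationSubring ↔ 0 < v.ord (f : F) := by
  have hfF : (f : F) ≠ 0 := by simpa [ne_eq, ZeroMemClass.coe_eq_zero] using hf
  have hnn : 0 ≤ v.ord (f : F) := (mem_valuationSubring_iff_ord_nonneg v hfF).mp f.2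
  rw [IsLocalRing.mem_maximalIdeal, mem_nonunits_iff]
  constructor
  · intro hnu
    rcases hnn.lt_or_eq with h | h
    · exact h
    · exfalso
      apply hnu
      -- ord = 0 means adic valuation 1
      have : v.adicValuation (f : F) = 1 := by
        have h0 : WithZero.log (v.adicValuation (f : F)) = 0 := by
          have := h.symm
          simp only [Place.ord, neg_eq_zero] at this
          exact this
        have hne := v.adicValuation_ne_zero hfF
        rw [← WithZero.exp_log hne, h0]
        rfl
      exact (v.adicValuation_coe_eq_one_iff f).mp this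
  · intro hpos hu
    have : v.ord (f : F) = 0 := by
      obtain ⟨u, rfl⟩ := hu
      exact v.ord_coe_unit u
    omega

/-- Over an algebraically closed constant field: every `f ∈ O_v` is a constant or differs from
a constant by an element of positive order. -/
theorem exists_const_ord_sub_pos [IsAlgClosed K] (hF : OneVariable K F) {f : F}
    (hf : f ∈ v.toValuationSubring) :
    ∃ c : K, f = algebraMap K F c ∨ 0 < v.ord (f - algebraMap K F c) := by
  obtain ⟨c, hc⟩ := exists_sub_mem_maximalIdeal v hF ⟨f, hf⟩
  refine ⟨c, ?_⟩
  by_cases h0 : (⟨f, hf⟩ : v.toValuationSubring) - algebraMap K v.toValuationSubring c = 0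
  · left
    have := congrArg Subtype.val h0
    simpa [sub_eq_zero] using this
  · right
    have := (mem_maximalIdeal_iff_ord_pos v h0).mp hc
    simpa using this

end ord

end Fermat.Agent.S24
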