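/-
S24 piece A3: for a field extension `F/K` in characteristic zero such that `F` is algebraic over
`K⟮x⟯`, the module of Kähler differentials `Ω[F⁄K]` is spanned by `D x`; if moreover `x` is
transcendental over `K` then `D x ≠ 0` and `Ω[F⁄K]` is one dimensional.
Owner: helper26.
-/
import Mathlib
import Fermat.Prelude.Def_ModularCurve_CanonicalDivisor
import Fermat.Agent.S24.Defs
import Fermat.Agent.S24.PlaceDeg

set_option autoImplicit false
set_option linter.style.haveILetI false
set_option linter.unusedSectionVars false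

open KaehlerDifferential IntermediateField Polynomial

namespace Fermat.Agent.S24.KaehlerGen

section Kernel

variable {K F M : Type*} [Field K] [Field F] [Algebra K F] [AddCommGroup M] [Module K M]
  [Module F M] [IsScalarTower K F M]

/-- The elements of `F` killed by a derivation form an intermediate field. -/
def kerField (d : Derivation K F M) : IntermediateField K F where
  carrier := {f | d f = 0}
  mul_mem' := by
    intro a b ha hb
    simp only [Set.mem_ofPred_eq] at ha hb ⊢
    rw [Derivation.leibniz, ha, hb, smul_zero, smul_zero, add_zero]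
  one_mem' := by simp
  add_mem' := by
    intro a b ha hb
    simp only [Set.mem_ofPred_eq] at ha hb ⊢
    rw [map_add, ha, hb, add_zero]
  zero_mem' := by simp
  algebraMap_mem' := by
    intro a
    simp
  inv_mem' := by
    intro a ha
    simp only [Set.mem_ofPred_eq] at ha ⊢
    rw [Derivation.leibniz_inv, ha, smul_zero]

omit [IsScalarTower K F M] in
@[simp] lemma mem_kerField {d : Derivation K F M} {f : F} : f ∈ kerField d ↔ d f = 0 := Iff.rfl

/-- A derivation vanishing on an intermediate field `E` satisfies the chain rule for polynomials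
with coefficients in `E`. -/
lemma map_aeval_of_le_kerField (d : Derivation K F M) (E : IntermediateField K F)
    (hE : E ≤ kerField d) (p : E[X]) (f : F) :
    d (Polynomial.aeval f p) = Polynomial.aeval f (Polynomial.derivative p) • d f := by
  induction p using Polynomial.induction_on' with
  | add p q hp hq => rw [map_add, map_add, hp, hq, map_add, map_add, add_smul]
  | monomial n a =>
    have ha : d (algebraMap E F a) = 0 := hE a.2
    rw [Polynomial.aeval_monomial, Derivation.leibniz, ha, smul_zero, add_zero,
      Derivation.leibniz_pow, Polynomial.derivative_monomial, Polynomial.aeval_monomial,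
      map_mul, map_natCast]
    rw [← Nat.cast_smul_eq_nsmul F, smul_smul, smul_smul]

/-- In characteristic zero, a derivation vanishing on `E` vanishes on everything algebraic over
`E`. -/
lemma eq_zero_of_le_kerField [CharZero K] (d : Derivation K F M) (E : IntermediateField K F)
    (hE : E ≤ kerField d) {f : F} (hf : IsAlgebraic E f) : d f = 0 := by
  have : CharZero E := charZero_of_injective_algebraMap (algebraMap K E).injective
  have hint : IsIntegral E f := hf.isIntegral
  have hsep : (minpoly E f).Separable := (minpoly.irreducible hint).separable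
  have h1 := map_aeval_of_le_kerField d E hE (minpoly E f) f
  rw [minpoly.aeval, map_zero] at h1
  have h2 : Polynomial.aeval f (Polynomial.derivative (minpoly E f)) ≠ 0 :=
    hsep.aeval_derivative_ne_zero (minpoly.aeval E f)
  exact (smul_eq_zero.mp h1.symm).resolve_left h2

/-- In characteristic zero, if `F` is algebraic over `K⟮x⟯` then a `K`-derivation of `F` killing
`x` is zero. -/
theorem derivation_eq_zero_of_apply_eq_zero [CharZero K] (x : F) [Algebra.IsAlgebraic K⟮x⟯ F]
    (d : Derivation K F M) (hx : d x = 0) : d = 0 := by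
  have hE : K⟮x⟯ ≤ kerField d := by
    rw [adjoin_le_iff]
    rintro y rfl
    exact hx
  ext f
  exact eq_zero_of_le_kerField d K⟮x⟯ hE (Algebra.IsAlgebraic.isAlgebraic f)

/-- In characteristic zero, if `F` is algebraic over `K⟮x⟯` then two `K`-derivations of `F` which
agree on `x` are equal. -/
theorem derivation_ext_of_apply_eq [CharZero K] (x : F) [Algebra.IsAlgebraic K⟮x⟯ F]
    (d d' : Derivation K F M) (hx : d x = d' x) : d = d' := by
  rw [← sub_eq_zero]
  apply derivation_eq_zero_of_apply_eq_zero x
  rw [Derivation.sub_apply, hx, sub_self]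

end Kernel

section Span

variable {K F : Type*} [Field K] [Field F] [Algebra K F]

/-- **A3 (a)**. In characteristic zero, if `F` is algebraic over `K⟮x⟯` then `D x` spans
`Ω[F⁄K]`. -/
theorem span_D_eq_top [CharZero K] (x : F) [Algebra.IsAlgebraic K⟮x⟯ F] :
    Submodule.span F {D K F x} = ⊤ := by
  set W : Submodule F Ω[F⁄K] := Submodule.span F {D K F x} with hW
  have happ : ∀ f : F, (W.mkQ.compDer (D K F) : Derivation K F (Ω[F⁄K] ⧸ W)) f =
      Submodule.Quotient.mk (D K F f) := fun f => rfl
  have hd : (W.mkQ.compDer (D K F) : Derivation K F (Ω[F⁄K] ⧸ W)) = 0 := by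
    apply derivation_eq_zero_of_apply_eq_zero x
    rw [happ, Submodule.Quotient.mk_eq_zero]
    exact Submodule.subset_span rfl
  rw [eq_top_iff, ← KaehlerDifferential.span_range_derivation K F, Submodule.span_le]
  rintro _ ⟨f, rfl⟩
  have := congrArg (fun d : Derivation K F (Ω[F⁄K] ⧸ W) => d f) hd
  simp only [happ, Derivation.zero_apply, Submodule.Quotient.mk_eq_zero] at this
  exact this

/-- Every differential is a multiple of `D x`. -/
theorem exists_eq_smul_D [CharZero K] (x : F) [Algebra.IsAlgebraic K⟮x⟯ F] (ω : Ω[F⁄K]) :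
    ∃ c : F, ω = c • D K F x := by
  have hω : ω ∈ (⊤ : Submodule F Ω[F⁄K]) := Submodule.mem_top
  rw [← span_D_eq_top x, Submodule.mem_span_singleton] at hω
  exact hω.imp fun _ h => h.symm

/-- **A3 (c)**. If `D t ≠ 0` then `D t` spans `Ω[F⁄K]` as well. -/
theorem span_D_eq_top_of_ne_zero [CharZero K] (x : F) [Algebra.IsAlgebraic K⟮x⟯ F] {t : F}
    (ht : D K F t ≠ 0) : Submodule.span F {D K F t} = ⊤ := by
  obtain ⟨c, hc⟩ := exists_eq_smul_D x (D K F t)
  have hc0 : c ≠ 0 := by
    rintro rfl
    exact ht (by rw [hc, zero_smul])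
  rw [eq_top_iff, ← span_D_eq_top x, Submodule.span_le, Set.singleton_subset_iff]
  have : D K F x = c⁻¹ • D K F t := by rw [hc, smul_smul, inv_mul_cancel₀ hc0, one_smul]
  rw [this]
  exact Submodule.smul_mem _ _ (Submodule.subset_span rfl)

/-- **A3 (d)**, chain rule: if `D f = c • D t` in `Ω[F⁄K]` then `d f = c • d t` for every
`K`-derivation `d` of `F`. -/
theorem derivation_apply_eq_smul {M : Type*} [AddCommGroup M] [Module K M] [Module F M]
    [IsScalarTower K F M] (d : Derivation K F M) {f t c : F} (h : D K F f = c • D K F t) :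
    d f = c • d t := by
  have := congrArg d.liftKaehlerDifferential h
  rwa [map_smul, Derivation.liftKaehlerDifferential_comp_D,
    Derivation.liftKaehlerDifferential_comp_D] at this

/-- **A3 (b)**. In characteristic zero, if `x` is transcendental over `K` and `F` is algebraic
over `K⟮x⟯`, then `D x ≠ 0` in `Ω[F⁄K]`. -/
theorem D_ne_zero_of_transcendental [CharZero K] {x : F} (hx : Transcendental K x)
    [Algebra.IsAlgebraic K⟮x⟯ F] : D K F x ≠ 0 := by
  classical
  let g : K⟮x⟯ := AdjoinSimple.gen K x
  letI algPE : Algebra K[X] K⟮x⟯ := (Polynomial.aeval g : K[X] →ₐ[K] K⟮x⟯).toRingHom.toAlgebra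
  letI algPF : Algebra K[X] F := (Polynomial.aeval x : K[X] →ₐ[K] F).toRingHom.toAlgebra
  have hPE : ∀ p : K[X], algebraMap K[X] K⟮x⟯ p = Polynomial.aeval g p := fun _ => rfl
  have hPF : ∀ p : K[X], algebraMap K[X] F p = Polynomial.aeval x p := fun _ => rfl
  haveI : IsScalarTower K K[X] K⟮x⟯ := IsScalarTower.of_algebraMap_eq fun a => by
    rw [hPE, Polynomial.algebraMap_apply, Polynomial.aeval_C, Algebra.algebraMap_self_apply]
  haveI : IsScalarTower K K[X] F := IsScalarTower.of_algebraMap_eq fun a => by
    rw [hPF, Polynomial.algebraMap_apply, Polynomial.aeval_C, Algebra.algebraMap_self_apply]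
  haveI : IsScalarTower K[X] K⟮x⟯ F := IsScalarTower.of_algebraMap_eq fun p => by
    rw [hPF, hPE, ← Polynomial.aeval_algebraMap_apply]
    rfl
  have hinjF : Function.Injective (algebraMap K[X] F) :=
    transcendental_iff_injective.mp hx
  have hinj : Function.Injective (algebraMap K[X] K⟮x⟯) := by
    intro p q hpq
    apply hinjF
    rw [IsScalarTower.algebraMap_apply K[X] K⟮x⟯ F, hpq, ← IsScalarTower.algebraMap_apply]
  haveI : FaithfulSMul K[X] K⟮x⟯ := (faithfulSMul_iff_algebraMap_injective _ _).mpr hinj
  haveI : IsFractionRing K[X] K⟮x⟯ := IsFractionRing.of_field _ _ (fun z => by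
    obtain ⟨r, s, hrs⟩ := (mem_adjoin_simple_iff K (z : F)).mp z.2
    refine ⟨r, s, Subtype.ext ?_⟩
    rw [hrs, hPE, hPE]
    simp [g])
  haveI : Algebra.FormallyEtale K[X] K⟮x⟯ :=
    Algebra.FormallyEtale.of_isLocalization (nonZeroDivisors K[X])
  haveI : CharZero K⟮x⟯ := charZero_of_injective_algebraMap (algebraMap K K⟮x⟯).injective
  haveI : Algebra.FormallyEtale K⟮x⟯ F := Algebra.FormallyEtale.of_isSeparable K⟮x⟯ F
  haveI : Algebra.FormallyEtale K[X] F := Algebra.FormallyEtale.comp K[X] K⟮x⟯ F
  intro h0
  have h1 := tensorKaehlerEquivOfFormallyEtale_symm_D_algebraMap K K[X] F Polynomial.X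
  have hX : algebraMap K[X] F Polynomial.X = x := by rw [hPF, Polynomial.aeval_X]
  rw [hX, h0, map_zero] at h1
  have h2 := congrArg (fun t => TensorProduct.rid K[X] F
    (LinearMap.lTensor F (KaehlerDifferential.polynomialEquiv K).toLinearMap t)) h1
  simp at h2

/-- `Ω[F⁄K]` is nontrivial for a function field of one variable in characteristic zero. -/
theorem nontrivial_kaehler [CharZero K] {x : F} (hx : Transcendental K x)
    [Algebra.IsAlgebraic K⟮x⟯ F] : Nontrivial Ω[F⁄K] :=
  ⟨⟨D K F x, 0, D_ne_zero_of_transcendental hx⟩⟩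

/-- `Ω[F⁄K]` is one dimensional for a function field of one variable in characteristic zero. -/
theorem finrank_kaehler_eq_one [CharZero K] {x : F} (hx : Transcendental K x)
    [Algebra.IsAlgebraic K⟮x⟯ F] : Module.finrank F Ω[F⁄K] = 1 := by
  rw [finrank_eq_one_iff_of_nonzero (D K F x) (D_ne_zero_of_transcendental hx)]
  exact span_D_eq_top x

end Span

section Place

open AlgebraicCurve

variable {K F : Type*} [Field K] [Field F] [Algebra K F]

/-- The valuation ring of a place, as a `K`-subalgebra of `F`. -/
def placeSubalgebra (v : Place K F) : Subalgebra K F :=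
  { v.toValuationSubring.toSubring with
    algebraMap_mem' := v.algebraMap_mem' }

lemma mem_placeSubalgebra (v : Place K F) (f : F) :
    f ∈ placeSubalgebra v ↔ f ∈ v.toValuationSubring := Iff.rfl

/-- A nonzero element of `O_v` which is algebraic over `K` is a unit of `O_v`:
its inverse lies in `O_v`. -/
theorem inv_mem_of_isAlgebraic (v : Place K F) {f : F} (hf : f ∈ v.toValuationSubring)
    (halg : IsAlgebraic K f) : f⁻¹ ∈ v.toValuationSubring :=
  Subalgebra.inv_mem_of_algebraic (A := placeSubalgebra v) (x := ⟨f, hf⟩) halg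

/-- A uniformizer of a place is transcendental over the constant field. -/
theorem transcendental_of_irreducible (v : Place K F) {π : v.toValuationSubring}
    (hπ : Irreducible π) : Transcendental K (π : F) := by
  intro halg
  have hinv : (π : F)⁻¹ ∈ v.toValuationSubring := inv_mem_of_isAlgebraic v π.2 halg
  apply hπ.not_isUnit
  have hne : (π : F) ≠ 0 := by
    simpa [ne_eq, ZeroMemClass.coe_eq_zero] using hπ.ne_zero
  refine ⟨⟨π, ⟨(π : F)⁻¹, hinv⟩, ?_, ?_⟩, rfl⟩
  · exact Subtype.ext (mul_inv_cancel₀ hne)
  · exact Subtype.ext (inv_mul_cancel₀ hne)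

/-- More generally: an element with nonzero order at some place is transcendental. -/
theorem transcendental_of_ord_ne_zero (v : Place K F) {f : F} (hf : v.ord f ≠ 0) :
    Transcendental K f := by
  intro halg
  have hf0 : f ≠ 0 := by
    rintro rfl
    exact hf v.ord_zero
  -- either `f` or `f⁻¹` lies in `O_v`; in both cases `f` is a unit of `O_v`
  have key : ∀ g : F, g ≠ 0 → g ∈ v.toValuationSubring → IsAlgebraic K g → v.ord g = 0 := by
    intro g hg0 hg hgalg
    have hinv := inv_mem_of_isAlgebraic v hg hgalg
    let u : v.toValuationSubringˣ :=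
      ⟨⟨g, hg⟩, ⟨g⁻¹, hinv⟩, Subtype.ext (mul_inv_cancel₀ hg0), Subtype.ext (inv_mul_cancel₀ hg0)⟩
    exact v.ord_coe_unit u
  rcases v.toValuationSubring.mem_or_inv_mem f with h | h
  · exact hf (key f hf0 h halg)
  · have := key f⁻¹ (inv_ne_zero hf0) h halg.inv
    rw [v.ord_inv, neg_eq_zero] at this
    exact hf this

/-- The coordinate differential of a place is `D π` for some uniformizer `π`. -/
theorem exists_irreducible_dCoord_eq (v : Place K F) :
    ∃ π : v.toValuationSubring, Irreducible π ∧ v.dCoord = D K F (π : F) :=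
  ⟨_, (IsDiscreteValuationRing.exists_irreducible v.toValuationSubring).choose_spec, rfl⟩

/-- **`DCoordGenerates` for function fields of one variable in characteristic zero.** -/
theorem dCoordGenerates [CharZero K]
    (hF : ∀ f : F, Transcendental K f → Algebra.IsAlgebraic K⟮f⟯ F) (v : Place K F) :
    v.DCoordGenerates := by
  obtain ⟨π, hπ, hd⟩ := exists_irreducible_dCoord_eq v
  have htr := transcendental_of_irreducible v hπ
  haveI := hF _ htr
  refine ⟨?_⟩
  rw [hd]
  exact span_D_eq_top (π : F)

/-- The coordinate differential of a place is nonzero. -/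
theorem dCoord_ne_zero [CharZero K]
    (hF : ∀ f : F, Transcendental K f → Algebra.IsAlgebraic K⟮f⟯ F) (v : Place K F) :
    v.dCoord ≠ 0 := by
  obtain ⟨π, hπ, hd⟩ := exists_irreducible_dCoord_eq v
  have htr := transcendental_of_irreducible v hπ
  haveI := hF _ htr
  rw [hd]
  exact D_ne_zero_of_transcendental htr

/-- `Ω[F⁄K]` is nontrivial as soon as there is a place. -/
theorem nontrivial_kaehler_of_place [CharZero K]
    (hF : ∀ f : F, Transcendental K f → Algebra.IsAlgebraic K⟮f⟯ F) (v : Place K F) :
    Nontrivial Ω[F⁄K] :=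
  ⟨⟨v.dCoord, 0, dCoord_ne_zero hF v⟩⟩

end Place

/-! ### Final shapes for function fields of one variable (`IsFunctionField1`, `OneVariable`) -/

namespace FF

open AlgebraicCurve Fermat.Agent.S24

variable {K F : Type*} [Field K] [Field F] [Algebra K F]

/-- `IsFunctionField1` implies helper96's `OneVariable`. -/
theorem oneVariable (hF : IsFunctionField1 K F) : OneVariable K F := by
  obtain ⟨x, hx, hfin⟩ := hF
  haveI := hfin
  haveI : Algebra.IsAlgebraic K⟮x⟯ F := Algebra.IsAlgebraic.of_finite _ _
  exact oneVariable_of_exists x hx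

theorem isAlgebraic_adjoin (hF : IsFunctionField1 K F) {t : F} (ht : Transcendental K t) :
    Algebra.IsAlgebraic K⟮t⟯ F :=
  oneVariable hF t ht

theorem span_D_eq_top [CharZero K] (hF : IsFunctionField1 K F) {t : F}
    (ht : Transcendental K t) : Submodule.span F {D K F t} = ⊤ := by
  haveI := isAlgebraic_adjoin hF ht
  exact KaehlerGen.span_D_eq_top t

theorem D_ne_zero [CharZero K] (hF : IsFunctionField1 K F) {t : F}
    (ht : Transcendental K t) : D K F t ≠ 0 := by
  haveI := isAlgebraic_adjoin hF ht
  exact D_ne_zero_of_transcendental ht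

theorem exists_ne_zero [CharZero K] (hF : IsFunctionField1 K F) : ∃ ω : Ω[F⁄K], ω ≠ 0 := by
  obtain ⟨x, hx, -⟩ := id hF
  exact ⟨D K F x, D_ne_zero hF hx⟩

theorem nontrivial [CharZero K] (hF : IsFunctionField1 K F) : Nontrivial Ω[F⁄K] := by
  obtain ⟨ω, hω⟩ := exists_ne_zero hF
  exact ⟨⟨ω, 0, hω⟩⟩

theorem finrank_eq_one [CharZero K] (hF : IsFunctionField1 K F) :
    Module.finrank F Ω[F⁄K] = 1 := by
  obtain ⟨x, hx, -⟩ := id hF
  haveI := isAlgebraic_adjoin hF hx
  exact finrank_kaehler_eq_one hx

theorem derivation_ext [CharZero K] (hF : IsFunctionField1 K F) {M : Type*} [AddCommGroup M]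
    [Module K M] [Module F M] [IsScalarTower K F M] (d₁ d₂ : Derivation K F M) {t : F}
    (ht : Transcendental K t) (h : d₁ t = d₂ t) : d₁ = d₂ := by
  haveI := isAlgebraic_adjoin hF ht
  exact derivation_ext_of_apply_eq t d₁ d₂ h

/-- For `t` transcendental, every `f` has a unique "derivative" `c = df/dt`. -/
theorem existsUnique_D_eq_smul [CharZero K] (hF : IsFunctionField1 K F) {t : F}
    (ht : Transcendental K t) (f : F) : ∃! c : F, D K F f = c • D K F t := by
  haveI := isAlgebraic_adjoin hF ht
  obtain ⟨c, hc⟩ := exists_eq_smul_D t (D K F f)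
  refine ⟨c, hc, fun c' hc' => ?_⟩
  have h0 : (c' - c) • D K F t = 0 := by rw [sub_smul, ← hc, ← hc', sub_self]
  rcases smul_eq_zero.mp h0 with h | h
  · exact sub_eq_zero.mp h
  · exact absurd h (D_ne_zero hF ht)

/-- The derivative `df/dt` of `f` with respect to a transcendental `t`. -/
noncomputable def deriv [CharZero K] (hF : IsFunctionField1 K F) {t : F}
    (ht : Transcendental K t) (f : F) : F :=
  (existsUnique_D_eq_smul hF ht f).choose

theorem D_eq_deriv_smul [CharZero K] (hF : IsFunctionField1 K F) {t : F}
    (ht : Transcendental K t) (f : F) : D K F f = deriv hF ht f • D K F t :=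
  (existsUnique_D_eq_smul hF ht f).choose_spec.1

theorem deriv_unique [CharZero K] (hF : IsFunctionField1 K F) {t : F}
    (ht : Transcendental K t) {f c : F} (h : D K F f = c • D K F t) : deriv hF ht f = c :=
  ((existsUnique_D_eq_smul hF ht f).choose_spec.2 c h).symm

/-- Chain rule for an arbitrary `K`-derivation `d : F → M`. -/
theorem derivation_apply [CharZero K] (hF : IsFunctionField1 K F) {M : Type*} [AddCommGroup M]
    [Module K M] [Module F M] [IsScalarTower K F M] (d : Derivation K F M) {t : F}
    (ht : Transcendental K t) (f : F) : d f = deriv hF ht f • d t :=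
  derivation_apply_eq_smul d (D_eq_deriv_smul hF ht f)

theorem dCoordGenerates [CharZero K] (hF : IsFunctionField1 K F) (v : Place K F) :
    v.DCoordGenerates :=
  KaehlerGen.dCoordGenerates (oneVariable hF) v

theorem dCoord_ne_zero [CharZero K] (hF : IsFunctionField1 K F) (v : Place K F) :
    v.dCoord ≠ 0 :=
  KaehlerGen.dCoord_ne_zero (oneVariable hF) v

end FF

end Fermat.Agent.S24.KaehlerGen
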