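/-
S24, row CUSPGEN: cusp membership of the translated generators `jD d ∘ g`.
Owner: helper69.
-/
import Fermat.Agent.S24.JD
import Fermat.Agent.S24.Hermite
import Fermat.Agent.S24.JQExpansion
import Fermat.Agent.S24.CuspExpansion
import Fermat.Prelude.Def_ModularCurve_LaurentCoeff

set_option autoImplicit false

open UpperHalfPlane Complex Function
open scoped MatrixGroups Manifold

noncomputable section

namespace Fermat.Agent.S24.CuspGen

open Fermat.Agent.S24 Fermat.Agent.S24.Hermite Fermat.Agent.S24.JQExpansion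
open Fermat.Agent.S24.CuspExpansion ModularCurve

/-- Function-level form of Hermite reduction: `j(d (g τ)) = j((a τ + b) / e)` with `a e = d`,
`0 ≤ b < e`. -/
theorem exists_jD_smul_eq (d : ℕ) (hd : 0 < d) (g : SL(2, ℤ)) :
    ∃ (a b e : ℤ) (ha : 0 < a) (he : 0 < e), a * e = d ∧ 0 ≤ b ∧ b < e ∧
      ∀ τ : ℍ, jD d (g • τ) = jFun (affinePoint a b e ha he τ) := by
  obtain ⟨γ', a, b, e, ha, he, hae, hb0, hbe, h⟩ := exists_smul_eq d hd g
  refine ⟨a, b, e, ha, he, hae, hb0, hbe, fun τ => ?_⟩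
  rw [jD_eq hd (h τ).symm, jFun_smul]

/-! ### Periodicity -/

/-- A function on `ℍ` invariant under `τ ↦ h + τ` gives an `h`-periodic function on `ℂ`. -/
theorem periodic_comp_ofComplex_of_vadd {f : ℍ → ℂ} {h : ℝ}
    (hf : ∀ τ : ℍ, f (h +ᵥ τ) = f τ) : Periodic (f ∘ ofComplex) (h : ℂ) := by
  intro w
  by_cases hw : 0 < im w
  · have hw' : 0 < im (w + h) := by simpa using hw
    simp only [comp_apply, ofComplex_apply_of_im_pos hw', ofComplex_apply_of_im_pos hw]
    rw [← hf ⟨w, hw⟩]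
    congr 1
    ext
    simp [add_comm]
  · have hw0 : im w ≤ 0 := not_lt.mp hw
    have hw' : im (w + h) ≤ 0 := by simpa using hw0
    simp [ofComplex_apply_of_im_nonpos hw', ofComplex_apply_of_im_nonpos hw0]

/-- `jFun` is invariant under integer translations. -/
theorem jFun_vadd_int (m : ℤ) (τ : ℍ) : jFun ((m : ℝ) +ᵥ τ) = jFun τ := by
  have h : ((m : ℝ) +ᵥ τ) = (ModularGroup.T ^ m) • τ := by
    rw [UpperHalfPlane.modular_T_zpow_smul]
  rw [h, jFun_smul]

theorem jFun_vadd_one (τ : ℍ) : jFun ((1 : ℝ) +ᵥ τ) = jFun τ := by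
  have := jFun_vadd_int 1 τ
  simpa using this

/-- Translating `τ` by `n` translates `(a τ + b) / e` by `a n / e`. -/
theorem affinePoint_vadd (a b e : ℤ) (ha : 0 < a) (he : 0 < e) (n m : ℤ) (hm : a * n = m * e)
    (τ : ℍ) : affinePoint a b e ha he ((n : ℝ) +ᵥ τ) = (m : ℝ) +ᵥ affinePoint a b e ha he τ := by
  apply UpperHalfPlane.ext
  rw [coe_affinePoint, coe_vadd, coe_vadd, coe_affinePoint]
  have hec : (e : ℂ) ≠ 0 := by exact_mod_cast he.ne'
  have hmc : (a : ℂ) * n = m * e := by exact_mod_cast congrArg (Int.cast : ℤ → ℂ) hm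
  push_cast
  field_simp
  linear_combination hmc

theorem jFun_affinePoint_vadd (a b e : ℤ) (ha : 0 < a) (he : 0 < e) (n m : ℤ)
    (hm : a * n = m * e) (τ : ℍ) :
    jFun (affinePoint a b e ha he ((n : ℝ) +ᵥ τ)) = jFun (affinePoint a b e ha he τ) := by
  rw [affinePoint_vadd a b e ha he n m hm, jFun_vadd_int]

/-! ### Holomorphy -/

theorem mdiff_jFun : MDiff jFun := by
  rw [UpperHalfPlane.mdifferentiable_iff]
  exact differentiableOn_jFun_comp_ofComplex

theorem mdiff_jFun_affinePoint (a b e : ℤ) (ha : 0 < a) (he : 0 < e) :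
    MDiff (fun τ : ℍ => jFun (affinePoint a b e ha he τ)) := by
  rw [UpperHalfPlane.mdifferentiable_iff]
  have hec : (e : ℂ) ≠ 0 := by exact_mod_cast he.ne'
  have hmaps : Set.MapsTo (fun z : ℂ => ((a : ℂ) * z + b) / e) {z | 0 < z.im} {z | 0 < z.im} := by
    intro z hz
    exact (affinePoint a b e ha he ⟨z, hz⟩).im_pos
  have h1 : DifferentiableOn ℂ (fun z : ℂ => ((a : ℂ) * z + b) / e) {z | 0 < z.im} := by
    intro z _
    exact (((differentiableAt_id.const_mul _).add_const _).div_const _).differentiableWithinAt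
  have h2 := differentiableOn_jFun_comp_ofComplex.comp h1 hmaps
  refine h2.congr ?_
  intro z hz
  simp only [comp_apply]
  rw [ofComplex_apply_of_im_pos hz]
  congr 1
  apply UpperHalfPlane.ext
  rw [coe_affinePoint]
  have := hmaps hz
  rw [ofComplex_apply_of_im_pos this]

/-! ### The expansion of `j((a τ + b) / e)` in the parameter `u = exp(2πiτ/N)` -/

/-- The root of unity `exp(2πi b / e)`. -/
def rootOf (b e : ℤ) : ℂ := Complex.exp (2 * Real.pi * Complex.I * b / e)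

theorem rootOf_ne_zero (b e : ℤ) : rootOf b e ≠ 0 := Complex.exp_ne_zero _

theorem rootOf_zero (e : ℤ) : rootOf 0 e = 1 := by simp [rootOf]

/-- `q((a τ + b)/e) = ω · u ^ m` where `u = exp(2πiτ/N)`, `a N = m e`, `ω = exp(2πi b/e)`. -/
theorem qParam_affinePoint (N : ℕ) (hN : 0 < N) (a b e : ℤ) (ha : 0 < a) (he : 0 < e) (m : ℕ)
    (hm : a * N = m * e) (τ : ℍ) :
    Periodic.qParam 1 (affinePoint a b e ha he τ : ℂ) =
      rootOf b e * Periodic.qParam (N : ℝ) (τ : ℂ) ^ m := by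
  have hec : (e : ℂ) ≠ 0 := by exact_mod_cast he.ne'
  have hNc : (N : ℂ) ≠ 0 := by exact_mod_cast hN.ne'
  have hmc : (a : ℂ) * N = m * e := by exact_mod_cast congrArg (Int.cast : ℤ → ℂ) hm
  rw [coe_affinePoint, rootOf, Periodic.qParam, Periodic.qParam, ← Complex.exp_nat_mul,
    ← Complex.exp_add]
  congr 1
  push_cast
  field_simp
  linear_combination (τ : ℂ) * hmc

/-- The coefficients of the expansion of `j((aτ+b)/e)` in `u = exp(2πiτ/N)` (after multiplying
by `u ^ m`). -/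
def affCoeff (b e : ℤ) (m : ℕ) (n : ℕ) : ℂ :=
  if m ∣ n then (rootOf b e)⁻¹ * rootOf b e ^ (n / m) * ((ModularCurve.jNum.coeff (n / m) : ℤ) : ℂ)
  else 0

theorem hasSum_jFun_affinePoint (N : ℕ) (hN : 0 < N) (a b e : ℤ) (ha : 0 < a) (he : 0 < e)
    (m : ℕ) (hm : a * N = m * e) (τ : ℍ) :
    HasSum (fun n : ℕ => affCoeff b e m n * Periodic.qParam (N : ℝ) (τ : ℂ) ^ n)
      (Periodic.qParam (N : ℝ) (τ : ℂ) ^ m * jFun (affinePoint a b e ha he τ)) := by
  have hmpos : 0 < m := by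
    rcases Nat.eq_zero_or_pos m with h0 | h0
    · subst h0
      have : (a : ℤ) * N = 0 := by simpa using hm
      have hpos : 0 < (a : ℤ) * N := mul_pos ha (by exact_mod_cast hN)
      omega
    · exact h0
  set u := Periodic.qParam (N : ℝ) (τ : ℂ) with hu
  set ω := rootOf b e with hω
  have hω0 : ω ≠ 0 := rootOf_ne_zero b e
  have h1 := hasSum_jNum (affinePoint a b e ha he τ)
  rw [qParam_affinePoint N hN a b e ha he m hm τ, ← jFun_def] at h1
  have h2 := h1.mul_left ω⁻¹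
  have h3 : ω⁻¹ * (ω * u ^ m * jFun (affinePoint a b e ha he τ)) =
      u ^ m * jFun (affinePoint a b e ha he τ) := by
    field_simp
  rw [h3] at h2
  have hinj : Function.Injective (fun k : ℕ => m * k) := fun x y hxy =>
    Nat.eq_of_mul_eq_mul_left hmpos hxy
  rw [← hinj.hasSum_iff]
  · have hfun : ((fun n : ℕ => affCoeff b e m n * u ^ n) ∘ fun k : ℕ => m * k) =
        fun k : ℕ => ω⁻¹ * (((ModularCurve.jNum.coeff k : ℤ) : ℂ) * (ω * u ^ m) ^ k) := by
      funext k
      simp only [comp_apply, affCoeff, if_pos (Dvd.intro k rfl), Nat.mul_div_cancel_left _ hmpos]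
      rw [mul_pow, pow_mul]
      ring
    rw [hfun]
    exact h2
  · intro n hn
    have hnd : ¬ m ∣ n := by
      rintro ⟨k, rfl⟩
      exact hn ⟨k, rfl⟩
    simp [affCoeff, hnd]

/-! ### Membership in `merCuspAlg` and the Laurent expansions -/

/-- `j((aτ+b)/e)` is meromorphic at the cusp `i∞` of width `N` whenever `e ∣ a N`, with explicit
Laurent expansion. -/
theorem merAtCusp_jFun_affinePoint (N : ℕ) [NeZero N] (a b e : ℤ) (ha : 0 < a) (he : 0 < e)
    (m : ℕ) (hm : a * N = m * e) :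
    MerAtCusp N (fun τ : ℍ => jFun (affinePoint a b e ha he τ)) ∧
      cuspLaurent N (fun τ : ℍ => jFun (affinePoint a b e ha he τ)) =
        HahnSeries.single (-(m : ℤ)) (1 : ℂ) *
          HahnSeries.ofPowerSeries ℤ ℂ (PowerSeries.mk (affCoeff b e m)) := by
  have hN : 0 < N := Nat.pos_of_ne_zero (NeZero.ne N)
  refine MerAtCusp.of_hasSum (h := N) (m := m) ?_ (mdiff_jFun_affinePoint a b e ha he) ?_
  · have h1 := periodic_comp_ofComplex_of_vadd
      (f := fun τ : ℍ => jFun (affinePoint a b e ha he τ)) (h := ((N : ℤ) : ℝ))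
      (fun τ => jFun_affinePoint_vadd a b e ha he (N : ℤ) (m : ℤ) hm τ)
    simpa using h1
  · intro τ
    exact hasSum_jFun_affinePoint N hN a b e ha he m hm τ

/-- **CUSPGEN (1).** The translated generators `τ ↦ j(d (g τ))` are meromorphic at the cusp `i∞`
of width `N`. -/
theorem jD_comp_mem (N d : ℕ) [NeZero N] (hd : d ∣ N) (g : SL(2, ℤ)) :
    (fun τ => jD d (g • τ)) ∈ merCuspAlg N := by
  have hN : 0 < N := Nat.pos_of_ne_zero (NeZero.ne N)
  have hd0 : 0 < d := Nat.pos_of_dvd_of_pos hd hN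
  obtain ⟨a, b, e, ha, he, hae, -, -, h⟩ := exists_jD_smul_eq d hd0 g
  obtain ⟨k, rfl⟩ := hd
  have hfun : (fun τ => jD d (g • τ)) = fun τ : ℍ => jFun (affinePoint a b e ha he τ) :=
    funext h
  rw [hfun, mem_merCuspAlg]
  have hm : a * ((d * k : ℕ) : ℤ) = ((a.toNat * a.toNat * k : ℕ) : ℤ) * e := by
    have hat : ((a.toNat : ℕ) : ℤ) = a := Int.toNat_of_nonneg ha.le
    push_cast
    rw [hat, ← hae]
    ring
  exact (merAtCusp_jFun_affinePoint (d * k) a b e ha he _ hm).1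

/-- `jFun = jFun ∘ affinePoint 1 0 1`. -/
theorem jFun_eq_affinePoint : jFun = fun τ : ℍ => jFun (affinePoint 1 0 1 one_pos one_pos τ) := by
  funext τ
  congr 1
  apply UpperHalfPlane.ext
  rw [coe_affinePoint]
  simp

theorem affCoeff_zero_one (n : ℕ) :
    affCoeff 0 1 1 n = ((ModularCurve.jNum.coeff n : ℤ) : ℂ) := by
  simp [affCoeff, rootOf_zero]

/-- `jFun` is meromorphic at the cusp of width `1`, with the expansion given by the Prelude's
formal `jq`. -/
theorem merAtCusp_jFun : MerAtCusp 1 jFun ∧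
    cuspLaurent 1 jFun = coeffMap (algebraMap ℚ ℂ) jq := by
  have h := merAtCusp_jFun_affinePoint 1 1 0 1 one_pos one_pos 1 (by norm_num)
  rw [← jFun_eq_affinePoint] at h
  refine ⟨h.1, ?_⟩
  rw [h.2]
  ext k
  rw [coeff_single_neg_mul_ofPowerSeries, coeffMap_coeff, PowerSeries.coeff_mk]
  split_ifs with hk
  · have hk' : k = (((k + ((1 : ℕ) : ℤ)).toNat : ℕ) : ℤ) - 1 := by
      rw [Int.toNat_of_nonneg hk]; push_cast; ring
    rw [affCoeff_zero_one]
    conv_rhs => rw [hk', coeff_jq_natCast_sub_one]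
    simp
  · have hk' : k < -1 := by push_cast at hk; omega
    rw [coeff_jq_of_lt_neg_one hk', map_zero]

/-- **CUSPGEN (2a).** The expansion of `j` at the cusp of width `N`. -/
theorem cuspLaurent_jFun (N : ℕ) [NeZero N] :
    cuspLaurent N jFun = qExpand ℂ N (coeffMap (algebraMap ℚ ℂ) jq) := by
  ext k
  rw [(MerAtCusp.of_width_one (h := N) merAtCusp_jFun.1).2 k, merAtCusp_jFun.2]
  by_cases hk : (N : ℤ) ∣ k
  · obtain ⟨j, rfl⟩ := hk
    have hN : (N : ℤ) ≠ 0 := by exact_mod_cast NeZero.ne N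
    rw [if_pos (dvd_mul_right _ _), Int.mul_ediv_cancel_left _ hN, qExpand_coeff_mul]
  · rw [if_neg hk, qExpand_coeff_of_not_dvd N _ hk]

theorem merAtCusp_jFun_width (N : ℕ) [NeZero N] : MerAtCusp N jFun :=
  (MerAtCusp.of_width_one (h := N) merAtCusp_jFun.1).1

theorem jD_one_comp_affine (d : ℕ) [NeZero d] :
    MerAtCusp 1 (jD d) ∧ ∀ k : ℤ, (cuspLaurent 1 (jD d)).coeff k =
      if (d : ℤ) ∣ k then (cuspLaurent 1 jFun).coeff (k / d) else 0 := by
  have hd : 0 < d := Nat.pos_of_ne_zero (NeZero.ne d)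
  have hφ : ∀ τ : ℍ, ((scaleH d τ : ℍ) : ℂ) = ((d : ℂ) * (τ : ℂ) + ((0 : ℤ) : ℂ)) / ((1 : ℕ) : ℂ) := by
    intro τ
    rw [coe_scaleH hd]
    simp
  have key := MerAtCusp.comp_affine (h₁ := 1) (h := 1) (a := d) (d := 1) (e := d) (b := 0)
    (φ := scaleH d) merAtCusp_jFun.1 one_pos hd (by ring) hφ
  have hω : omega 0 1 1 = 1 := by simp [omega]
  have hfun : jFun ∘ scaleH d = jD d := rfl
  rw [hfun] at key
  refine ⟨key.1, fun k => ?_⟩
  rw [key.2 k, hω, one_zpow, one_mul]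

theorem merAtCusp_jD_one (d : ℕ) [NeZero d] : MerAtCusp 1 (jD d) := (jD_one_comp_affine d).1

/-- **CUSPGEN (2b).** The expansion of `j_d = j(d τ)` at the cusp of width `1`. -/
theorem cuspLaurent_jD_one (d : ℕ) [NeZero d] :
    cuspLaurent 1 (jD d) = coeffMap (algebraMap ℚ ℂ) (qExpand ℚ d jq) := by
  ext k
  rw [(jD_one_comp_affine d).2 k, coeffMap_coeff, merAtCusp_jFun.2]
  by_cases hk : (d : ℤ) ∣ k
  · obtain ⟨j, rfl⟩ := hk
    have hd' : (d : ℤ) ≠ 0 := by exact_mod_cast NeZero.ne d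
    rw [if_pos (dvd_mul_right _ _), Int.mul_ediv_cancel_left _ hd', qExpand_coeff_mul,
      coeffMap_coeff]
  · rw [if_neg hk, qExpand_coeff_of_not_dvd d _ hk, map_zero]

/-! ### Explicit expansion of the translated generators (for the degree computation) -/

theorem rootOf_pow_eq_one (b e : ℤ) (he : 0 < e) : rootOf b e ^ e.toNat = 1 := by
  have hec : (e : ℂ) ≠ 0 := by exact_mod_cast he.ne'
  have hcast : ((e.toNat : ℕ) : ℂ) = (e : ℂ) := by
    have : ((e.toNat : ℕ) : ℤ) = e := Int.toNat_of_nonneg he.le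
    exact_mod_cast congrArg (Int.cast : ℤ → ℂ) this
  rw [rootOf, ← Complex.exp_nat_mul, hcast]
  have : (e : ℂ) * (2 * Real.pi * Complex.I * b / e) = b * (2 * Real.pi * Complex.I) := by
    field_simp
  rw [this]
  exact Complex.exp_int_mul_two_pi_mul_I b

/-- **CUSPGEN (3), explicit form.** The expansion of `τ ↦ j(d (g τ))` at the cusp of width `N` is
`u ^ (-m) * ∑ ω⁻¹ ω ^ n c(n) u ^ (m n)` with `ω = exp(2πi b / e)` an `e`-th root of unity and
`c(n)` the (integer) coefficients of `q · j`. -/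
theorem exists_cuspLaurent_jD_comp (N d : ℕ) [NeZero N] (hd : d ∣ N) (g : SL(2, ℤ)) :
    ∃ (b e : ℤ) (m : ℕ), 0 < e ∧ 0 < m ∧ rootOf b e ^ e.toNat = 1 ∧
      cuspLaurent N (fun τ => jD d (g • τ)) =
        HahnSeries.single (-(m : ℤ)) (1 : ℂ) *
          HahnSeries.ofPowerSeries ℤ ℂ (PowerSeries.mk (affCoeff b e m)) := by
  have hN : 0 < N := Nat.pos_of_ne_zero (NeZero.ne N)
  have hd0 : 0 < d := Nat.pos_of_dvd_of_pos hd hN
  obtain ⟨a, b, e, ha, he, hae, -, -, h⟩ := exists_jD_smul_eq d hd0 g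
  obtain ⟨k, rfl⟩ := hd
  have hk : 0 < k := Nat.pos_of_mul_pos_left hN
  have hfun : (fun τ => jD d (g • τ)) = fun τ : ℍ => jFun (affinePoint a b e ha he τ) :=
    funext h
  have hat : ((a.toNat : ℕ) : ℤ) = a := Int.toNat_of_nonneg ha.le
  have hm : a * ((d * k : ℕ) : ℤ) = ((a.toNat * a.toNat * k : ℕ) : ℤ) * e := by
    push_cast
    rw [hat, ← hae]
    ring
  have hapos : 0 < a.toNat := by
    have : (0 : ℤ) < (a.toNat : ℤ) := by rw [hat]; exact ha
    exact_mod_cast this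
  refine ⟨b, e, a.toNat * a.toNat * k, he, Nat.mul_pos (Nat.mul_pos hapos hapos) hk,
    rootOf_pow_eq_one b e he, ?_⟩
  rw [hfun]
  exact (merAtCusp_jFun_affinePoint (d * k) a b e ha he _ hm).2

end Fermat.Agent.S24.CuspGen
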