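-- S24 / C0 (lemmas-queue row 54): auxiliary facts on `LaurentSeries ℂ = HahnSeries ℤ ℂ`:
-- the rotation `u ↦ ζ u`, the derivation `d/du`, and order lemmas.  Owner: helper55.
import Mathlib

set_option autoImplicit false

open HahnSeries

namespace Fermat.Agent.S24

namespace LaurentAux

/-- Coefficient of a product of Hahn series, computed over arbitrary partially well-ordered
supersets of the two supports. -/
theorem coeff_mul_of_subset {x y : LaurentSeries ℂ} {s t : Set ℤ} (hs : s.IsPWO) (ht : t.IsPWO)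
    (hxs : x.support ⊆ s) (hyt : y.support ⊆ t) (a : ℤ) :
    (x * y).coeff a
      = ∑ ij ∈ Finset.antidiagonal hs ht a, x.coeff ij.1 * y.coeff ij.2 := by
  rw [HahnSeries.coeff_mul]
  refine Finset.sum_subset (fun ij hij => ?_) (fun ij hij hnot => ?_)
  · rw [Finset.mem_antidiagonal] at hij ⊢
    exact ⟨hxs hij.1, hyt hij.2.1, hij.2.2⟩
  · rw [Finset.mem_antidiagonal] at hij hnot
    by_cases h1 : ij.1 ∈ x.support
    · by_cases h2 : ij.2 ∈ y.support
      · exact absurd ⟨h1, h2, hij.2.2⟩ hnot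
      · rw [HahnSeries.mem_support, not_not] at h2
        rw [h2, mul_zero]
    · rw [HahnSeries.mem_support, not_not] at h1
      rw [h1, zero_mul]

/-- The shifted set `{i | i + 1 ∈ s}` is partially well-ordered if `s` is. -/
theorem isPWO_shift {s : Set ℤ} (hs : s.IsPWO) : {i : ℤ | i + 1 ∈ s}.IsPWO := by
  have h : {i : ℤ | i + 1 ∈ s} = (fun i : ℤ => i - 1) '' s := by
    ext i
    simp only [Set.mem_image]
    constructor
    · intro hi
      exact ⟨i + 1, hi, by ring⟩
    · rintro ⟨j, hj, rfl⟩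
      simpa using hj
  rw [h]
  exact hs.image_of_monotone (fun a b hab => by simpa using hab)

/-! ### The `ℂ`-algebra structure

The `Algebra ℂ (LaurentSeries ℂ)` instance found by instance search is
`HahnSeries.powerSeriesAlgebra` (it factors through power series); its `algebraMap` and scalar
multiplication are only propositionally equal to `HahnSeries.C` and to the coefficientwise
scalar multiplication. -/

theorem algebraMap_eq_C' {K : Type*} [Field K] [Algebra K ℂ] (c : K) :
    algebraMap K (LaurentSeries ℂ) c = HahnSeries.C (algebraMap K ℂ c) := by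
  rw [HahnSeries.algebraMap_apply', ← HahnSeries.ofPowerSeries_C]
  congr 1
  ext n
  simp [PowerSeries.algebraMap_apply, PowerSeries.coeff_C]

theorem algebraMap_eq_C (c : ℂ) : algebraMap ℂ (LaurentSeries ℂ) c = HahnSeries.C c := by
  rw [algebraMap_eq_C', Algebra.algebraMap_self, RingHom.id_apply]

/-- The scalar multiplication coming from the algebra structure is coefficientwise. -/
theorem coeff_algebra_smul (c : ℂ) (f : LaurentSeries ℂ) (k : ℤ) :
    (algebraMap ℂ (LaurentSeries ℂ) c * f).coeff k = c * f.coeff k := by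
  rw [algebraMap_eq_C, HahnSeries.C_mul_eq_smul, HahnSeries.coeff_smul, smul_eq_mul]

/-! ### The rotation `u ↦ ζ u` -/

/-- The underlying function of `rot`: multiply the `k`-th coefficient by `ζ ^ k`. -/
noncomputable def rotFun (ζ : ℂˣ) (f : LaurentSeries ℂ) : LaurentSeries ℂ :=
  HahnSeries.ofSuppBddBelow (fun k : ℤ => ((ζ ^ k : ℂˣ) : ℂ) * f.coeff k) (by
    refine ⟨f.order, fun k hk => ?_⟩
    by_contra hlt
    rw [not_le] at hlt
    apply hk
    show ((ζ ^ k : ℂˣ) : ℂ) * f.coeff k = 0
    rw [HahnSeries.coeff_eq_zero_of_lt_order hlt, mul_zero])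

theorem coeff_rotFun (ζ : ℂˣ) (f : LaurentSeries ℂ) (k : ℤ) :
    (rotFun ζ f).coeff k = ((ζ ^ k : ℂˣ) : ℂ) * f.coeff k := rfl

theorem support_rotFun (ζ : ℂˣ) (f : LaurentSeries ℂ) : (rotFun ζ f).support = f.support := by
  ext k
  simp only [HahnSeries.mem_support, coeff_rotFun, ne_eq, mul_eq_zero, Units.ne_zero, false_or]

theorem rotFun_one (ζ : ℂˣ) : rotFun ζ (1 : LaurentSeries ℂ) = 1 := by
  ext k
  rw [coeff_rotFun, HahnSeries.coeff_one]
  split_ifs with h
  · subst h; simp
  · simp

theorem rotFun_mul (ζ : ℂˣ) (f g : LaurentSeries ℂ) :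
    rotFun ζ (f * g) = rotFun ζ f * rotFun ζ g := by
  ext k
  rw [coeff_rotFun, HahnSeries.coeff_mul,
    coeff_mul_of_subset f.isPWO_support g.isPWO_support (support_rotFun ζ f).le
      (support_rotFun ζ g).le, Finset.mul_sum]
  refine Finset.sum_congr rfl (fun ij hij => ?_)
  rw [Finset.mem_antidiagonal] at hij
  rw [coeff_rotFun, coeff_rotFun, ← hij.2.2, zpow_add, Units.val_mul]
  ring

theorem rotFun_add (ζ : ℂˣ) (f g : LaurentSeries ℂ) :
    rotFun ζ (f + g) = rotFun ζ f + rotFun ζ g := by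
  ext k
  simp only [coeff_rotFun, HahnSeries.coeff_add, mul_add]

theorem rotFun_rotFun (ζ ξ : ℂˣ) (f : LaurentSeries ℂ) :
    rotFun ζ (rotFun ξ f) = rotFun (ζ * ξ) f := by
  ext k
  simp only [coeff_rotFun, mul_zpow, Units.val_mul, mul_assoc]

theorem rotFun_one_left (f : LaurentSeries ℂ) : rotFun 1 f = f := by
  ext k
  simp [coeff_rotFun]

theorem rotFun_C (ζ : ℂˣ) (c : ℂ) : rotFun ζ (HahnSeries.C c) = HahnSeries.C c := by
  ext k
  rw [coeff_rotFun, HahnSeries.C_apply, HahnSeries.coeff_single]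
  split_ifs with h
  · subst h; simp
  · simp

end LaurentAux

open LaurentAux

/-- The rotation `u ↦ ζ u` of Laurent series: `a_k ↦ ζ ^ k a_k`. -/
noncomputable def rot (ζ : ℂˣ) : LaurentSeries ℂ ≃ₐ[ℂ] LaurentSeries ℂ :=
  AlgEquiv.ofRingEquiv
    (f := { toFun := rotFun ζ
            invFun := rotFun ζ⁻¹
            left_inv := fun f => by rw [rotFun_rotFun, inv_mul_cancel, rotFun_one_left]
            right_inv := fun f => by rw [rotFun_rotFun, mul_inv_cancel, rotFun_one_left]
            map_mul' := rotFun_mul ζ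
            map_add' := rotFun_add ζ })
    (fun c => by
      show rotFun ζ (algebraMap ℂ (LaurentSeries ℂ) c) = algebraMap ℂ (LaurentSeries ℂ) c
      rw [algebraMap_eq_C]
      exact rotFun_C ζ c)

theorem LaurentAux.rot_apply (ζ : ℂˣ) (f : LaurentSeries ℂ) : rot ζ f = rotFun ζ f := rfl

theorem coeff_rot (ζ : ℂˣ) (f : LaurentSeries ℂ) (k : ℤ) :
    (rot ζ f).coeff k = (ζ : ℂ) ^ k * f.coeff k := by
  rw [rot_apply, coeff_rotFun, Units.val_zpow_eq_zpow_val]

theorem LaurentAux.support_rot (ζ : ℂˣ) (f : LaurentSeries ℂ) : (rot ζ f).support = f.support :=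
  support_rotFun ζ f

theorem LaurentAux.rot_eq_zero_iff (ζ : ℂˣ) (f : LaurentSeries ℂ) : rot ζ f = 0 ↔ f = 0 :=
  (rot ζ).map_eq_zero_iff

theorem order_rot (ζ : ℂˣ) (f : LaurentSeries ℂ) : (rot ζ f).order = f.order := by
  by_cases hf : f = 0
  · subst hf; simp
  · have hf' : rot ζ f ≠ 0 := fun h => hf ((rot_eq_zero_iff ζ f).1 h)
    rw [HahnSeries.order_of_ne hf, HahnSeries.order_of_ne hf']
    congr 1
    exact support_rot ζ f

theorem rot_C (ζ : ℂˣ) (c : ℂ) : rot ζ (HahnSeries.C c) = HahnSeries.C c := rotFun_C ζ c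

theorem LaurentAux.rot_rot (ζ ξ : ℂˣ) (f : LaurentSeries ℂ) : rot ζ (rot ξ f) = rot (ζ * ξ) f :=
  rotFun_rotFun ζ ξ f

theorem rot_mul_rot (ζ ξ : ℂˣ) : (rot ζ).trans (rot ξ) = rot (ξ * ζ) := by
  ext f : 1
  exact rot_rot ξ ζ f

theorem LaurentAux.rot_one : rot 1 = AlgEquiv.refl := by
  ext f : 1
  exact rotFun_one_left f

theorem rot_pow (ζ : ℂˣ) (k : ℕ) : (⇑(rot ζ))^[k] = ⇑(rot (ζ ^ k)) := by
  induction k with
  | zero =>
    funext f
    simp [rot_one]
  | succ k ih =>
    funext f
    rw [Function.iterate_succ_apply', ih, rot_rot, pow_succ']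

theorem dvd_order_of_rot_eq_self {d : ℕ} {ζ : ℂˣ} (hζ : IsPrimitiveRoot (ζ : ℂ) d)
    {f : LaurentSeries ℂ} (hf : f ≠ 0) (h : rot ζ f = f) : (d : ℤ) ∣ f.order := by
  have h1 := coeff_rot ζ f f.order
  rw [h] at h1
  have hne : f.coeff f.order ≠ 0 := fun h0 => hf (HahnSeries.coeff_order_eq_zero.1 h0)
  have h2 : (ζ : ℂ) ^ f.order = 1 := by
    have : ((ζ : ℂ) ^ f.order - 1) * f.coeff f.order = 0 := by
      rw [sub_mul, one_mul, ← h1, sub_self]
    rcases mul_eq_zero.1 this with h3 | h3
    · exact sub_eq_zero.1 h3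
    · exact absurd h3 hne
  exact (hζ.zpow_eq_one_iff_dvd f.order).1 h2

/-! ### The derivation `d/du` -/

/-- The underlying linear map of `lderiv`. -/
noncomputable def LaurentAux.lderivLin : LaurentSeries ℂ →ₗ[ℂ] LaurentSeries ℂ where
  toFun f := HahnSeries.ofSuppBddBelow (fun k : ℤ => ((k : ℂ) + 1) * f.coeff (k + 1)) (by
    refine ⟨f.order - 1, fun k hk => ?_⟩
    by_contra hlt
    rw [not_le] at hlt
    apply hk
    show ((k : ℂ) + 1) * f.coeff (k + 1) = 0
    rw [HahnSeries.coeff_eq_zero_of_lt_order (by omega), mul_zero])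
  map_add' f g := by
    ext k
    simp only [HahnSeries.ofSuppBddBelow, HahnSeries.coeff_add, mul_add]
  map_smul' c f := by
    ext k
    simp only [HahnSeries.ofSuppBddBelow, HahnSeries.coeff_smul, RingHom.id_apply, smul_eq_mul]
    ring

theorem LaurentAux.coeff_lderivLin (f : LaurentSeries ℂ) (k : ℤ) :
    (lderivLin f).coeff k = ((k : ℂ) + 1) * f.coeff (k + 1) := rfl

theorem LaurentAux.support_lderivLin_subset (f : LaurentSeries ℂ) :
    (lderivLin f).support ⊆ {i : ℤ | i + 1 ∈ f.support} := by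
  intro k hk
  rw [HahnSeries.mem_support, coeff_lderivLin] at hk
  exact fun h0 => hk (by rw [h0, mul_zero])

theorem LaurentAux.lderivLin_mul (f g : LaurentSeries ℂ) :
    lderivLin (f * g) = f * lderivLin g + g * lderivLin f := by
  ext k
  rw [HahnSeries.coeff_add, coeff_lderivLin, HahnSeries.coeff_mul,
    coeff_mul_of_subset f.isPWO_support (isPWO_shift g.isPWO_support) subset_rfl
      (support_lderivLin_subset g) k,
    coeff_mul_of_subset g.isPWO_support (isPWO_shift f.isPWO_support) subset_rfl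
      (support_lderivLin_subset f) k]
  -- reindex both sums over the antidiagonal of `k + 1`
  have e1 : ∑ ij ∈ Finset.antidiagonal f.isPWO_support (isPWO_shift g.isPWO_support) k,
        f.coeff ij.1 * (lderivLin g).coeff ij.2
      = ∑ ij ∈ Finset.antidiagonal f.isPWO_support g.isPWO_support (k + 1),
        (ij.2 : ℂ) * (f.coeff ij.1 * g.coeff ij.2) := by
    refine Finset.sum_nbij' (fun ij => (ij.1, ij.2 + 1)) (fun ij => (ij.1, ij.2 - 1))
      ?_ ?_ ?_ ?_ ?_
    · intro ij hij
      rw [Finset.mem_antidiagonal] at hij ⊢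
      exact ⟨hij.1, hij.2.1, by simp only; omega⟩
    · intro ij hij
      rw [Finset.mem_antidiagonal] at hij ⊢
      refine ⟨hij.1, ?_, by simp only; omega⟩
      show ij.2 - 1 + 1 ∈ g.support
      rw [sub_add_cancel]; exact hij.2.1
    · intro ij _; simp
    · intro ij _; simp
    · intro ij _
      rw [coeff_lderivLin]
      push_cast
      ring
  have e2 : ∑ ij ∈ Finset.antidiagonal g.isPWO_support (isPWO_shift f.isPWO_support) k,
        g.coeff ij.1 * (lderivLin f).coeff ij.2
      = ∑ ij ∈ Finset.antidiagonal f.isPWO_support g.isPWO_support (k + 1),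
        (ij.1 : ℂ) * (f.coeff ij.1 * g.coeff ij.2) := by
    refine Finset.sum_nbij' (fun ij => (ij.2 + 1, ij.1)) (fun ij => (ij.2, ij.1 - 1))
      ?_ ?_ ?_ ?_ ?_
    · intro ij hij
      rw [Finset.mem_antidiagonal] at hij ⊢
      exact ⟨hij.2.1, hij.1, by simp only; omega⟩
    · intro ij hij
      rw [Finset.mem_antidiagonal] at hij ⊢
      refine ⟨hij.2.1, ?_, by simp only; omega⟩
      show ij.1 - 1 + 1 ∈ f.support
      rw [sub_add_cancel]; exact hij.1
    · intro ij _; simp
    · intro ij _; simp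
    · intro ij _
      rw [coeff_lderivLin]
      push_cast
      ring
  rw [e1, e2, ← Finset.sum_add_distrib, Finset.mul_sum]
  refine Finset.sum_congr rfl (fun ij hij => ?_)
  rw [Finset.mem_antidiagonal] at hij
  have h3 : ((k : ℂ) + 1) = (ij.1 : ℂ) + (ij.2 : ℂ) := by
    have := hij.2.2
    have h4 : ((ij.1 + ij.2 : ℤ) : ℂ) = ((k + 1 : ℤ) : ℂ) := by rw [this]
    push_cast at h4
    rw [h4]
  rw [h3]
  ring

/-- The derivation `d/du` on `LaurentSeries ℂ`. -/
noncomputable def lderiv : Derivation ℂ (LaurentSeries ℂ) (LaurentSeries ℂ) :=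
  Derivation.mk'
    (@LinearMap.mk ℂ ℂ _ _ (RingHom.id ℂ) (LaurentSeries ℂ) (LaurentSeries ℂ) _ _
      (Algebra.toModule : Module ℂ (LaurentSeries ℂ)) HahnSeries.instModule
      { toFun := fun f => lderivLin f
        map_add' := fun f g => lderivLin.map_add f g }
      (fun c f => by
        show lderivLin (algebraMap ℂ (LaurentSeries ℂ) c * f) = c • lderivLin f
        ext k
        rw [coeff_lderivLin, coeff_algebra_smul, HahnSeries.coeff_smul, coeff_lderivLin,
          smul_eq_mul]
        ring))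
    (fun f g => by
      show lderivLin (f * g) = f • lderivLin g + g • lderivLin f
      rw [smul_eq_mul, smul_eq_mul]
      exact lderivLin_mul f g)

theorem LaurentAux.lderiv_apply (f : LaurentSeries ℂ) : lderiv f = lderivLin f := rfl

theorem coeff_lderiv (f : LaurentSeries ℂ) (k : ℤ) :
    (lderiv f).coeff k = ((k : ℂ) + 1) * f.coeff (k + 1) := by
  rw [lderiv_apply, coeff_lderivLin]

theorem LaurentAux.coeff_lderiv_order_sub_one (f : LaurentSeries ℂ) :
    (lderiv f).coeff (f.order - 1) = (f.order : ℂ) * f.coeff f.order := by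
  rw [coeff_lderiv, sub_add_cancel]
  push_cast
  ring_nf

theorem lderiv_ne_zero {f : LaurentSeries ℂ} (hf : f ≠ 0) (ho : f.order ≠ 0) : lderiv f ≠ 0 := by
  intro h
  have h1 := coeff_lderiv_order_sub_one f
  rw [h, HahnSeries.coeff_zero] at h1
  have hne : f.coeff f.order ≠ 0 := fun h0 => hf (HahnSeries.coeff_order_eq_zero.1 h0)
  have ho' : (f.order : ℂ) ≠ 0 := by exact_mod_cast ho
  exact (mul_ne_zero ho' hne) h1.symm

theorem order_lderiv {f : LaurentSeries ℂ} (hf : f ≠ 0) (ho : f.order ≠ 0) :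
    (lderiv f).order = f.order - 1 := by
  have hd := lderiv_ne_zero hf ho
  apply le_antisymm
  · apply HahnSeries.order_le_of_coeff_ne_zero
    rw [coeff_lderiv_order_sub_one]
    have hne : f.coeff f.order ≠ 0 := fun h0 => hf (HahnSeries.coeff_order_eq_zero.1 h0)
    have ho' : (f.order : ℂ) ≠ 0 := by exact_mod_cast ho
    exact mul_ne_zero ho' hne
  · by_contra hlt
    rw [not_le] at hlt
    have h1 : (lderiv f).coeff (lderiv f).order ≠ 0 :=
      fun h0 => hd (HahnSeries.coeff_order_eq_zero.1 h0)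
    apply h1
    rw [coeff_lderiv, HahnSeries.coeff_eq_zero_of_lt_order (by omega), mul_zero]

theorem order_lderiv_ge {f : LaurentSeries ℂ} (h0 : 0 ≤ f.order) (hd : lderiv f ≠ 0) :
    0 ≤ (lderiv f).order := by
  by_contra hlt
  rw [not_le] at hlt
  have h1 : (lderiv f).coeff (lderiv f).order ≠ 0 :=
    fun h => hd (HahnSeries.coeff_order_eq_zero.1 h)
  apply h1
  rw [coeff_lderiv]
  by_cases hm : (lderiv f).order = -1
  · rw [hm]; norm_num
  · rw [HahnSeries.coeff_eq_zero_of_lt_order (by omega), mul_zero]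

/-! ### Order lemmas -/

theorem order_mul {x y : LaurentSeries ℂ} (hx : x ≠ 0) (hy : y ≠ 0) :
    (x * y).order = x.order + y.order :=
  HahnSeries.order_mul hx hy

theorem order_inv (x : LaurentSeries ℂ) : (x⁻¹).order = -x.order := by
  by_cases hx : x = 0
  · subst hx; simp
  · have h := order_mul hx (inv_ne_zero hx)
    rw [mul_inv_cancel₀ hx, HahnSeries.order_one] at h
    omega

theorem order_pow (x : LaurentSeries ℂ) (n : ℕ) : (x ^ n).order = n * x.order := by
  by_cases hx : x = 0
  · subst hx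
    rcases Nat.eq_zero_or_pos n with rfl | hn
    · simp
    · rw [zero_pow hn.ne']; simp
  · induction n with
    | zero => simp
    | succ n ih =>
      rw [pow_succ, order_mul (pow_ne_zero n hx) hx, ih]
      push_cast
      ring

theorem order_zpow (x : LaurentSeries ℂ) (n : ℤ) : (x ^ n).order = n * x.order := by
  cases n with
  | ofNat n => simpa using order_pow x n
  | negSucc n =>
    rw [zpow_negSucc, order_inv, order_pow, Int.negSucc_eq]
    push_cast
    ring

theorem order_add_ge_min {x y : LaurentSeries ℂ} (_hx : x ≠ 0) (_hy : y ≠ 0) (hxy : x + y ≠ 0) :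
    min x.order y.order ≤ (x + y).order := by
  by_contra hlt
  rw [not_le, lt_min_iff] at hlt
  have h1 : (x + y).coeff (x + y).order ≠ 0 :=
    fun h => hxy (HahnSeries.coeff_order_eq_zero.1 h)
  apply h1
  rw [HahnSeries.coeff_add, HahnSeries.coeff_eq_zero_of_lt_order hlt.1,
    HahnSeries.coeff_eq_zero_of_lt_order hlt.2, add_zero]

theorem order_C {c : ℂ} (_hc : c ≠ 0) : (HahnSeries.C c : LaurentSeries ℂ).order = 0 :=
  HahnSeries.order_C

theorem order_algebraMap {K : Type*} [Field K] [Algebra K ℂ] {c : K} (_hc : c ≠ 0) :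
    (algebraMap K (LaurentSeries ℂ) c).order = 0 := by
  rw [algebraMap_eq_C']
  exact HahnSeries.order_C

theorem coeff_mul_order_add_order (x y : LaurentSeries ℂ) :
    (x * y).coeff (x.order + y.order) = x.coeff x.order * y.coeff y.order := by
  have := HahnSeries.coeff_mul_order_add_order x y
  rwa [HahnSeries.leadingCoeff_eq, HahnSeries.leadingCoeff_eq] at this

theorem eq_of_forall_order_sub_ge {f g : LaurentSeries ℂ}
    (h : ∀ M : ℤ, f = g ∨ M ≤ (f - g).order) : f = g := by
  rcases h ((f - g).order + 1) with h1 | h1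
  · exact h1
  · omega

end Fermat.Agent.S24
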