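import Fermat.Agent.S24.FieldGen
import Fermat.Agent.S24.LaurentAux

/-!
# S24 (block II): the family of embeddings `σ_c : FBar N →ₐ[ℚ̄] ℂ((u))`, `c ∈ SL(2,ℤ) ⧸ Γ₀(N)`

Generic glue.  Inputs:

* an injective evaluation hom `ev : genAlg N →ₐ[ℚ̄] (ℍ → ℂ)` (the analytic realisation of the
  generators `J_d ↦ j(d τ)`), invariant under `Γ₀(N)` and with `Γ₀(N)` as exact stabiliser;
* a *local expansion datum*: a subalgebra `R` of functions on `ℍ` with an injective `ℂ`-algebra hom
  `L : R → ℂ((u))`, containing all translates `ev a ∘ g⁻¹`, and equivariant for an element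
  `ε : SL(2,ℤ)` acting by the rotation `rot ζ` on expansions.

Output: `σ_{gΓ₀}(f) = L (ev f ∘ g⁻¹)`, an injective family with `σ (ε • c) f = rot ζ (σ c f)`.
-/

set_option autoImplicit false

open ModularCurve UpperHalfPlane
open scoped MatrixGroups

noncomputable section

namespace Fermat.Agent.S24.EmbFamily

open Fermat.Agent.S24.FieldGen Fermat.Agent.S24.LaurentAux

variable [Algebra Kbar ℂ]

section Family

variable (N : ℕ) [NeZero N]
  (ev : genAlg N →ₐ[Kbar] (ℍ → ℂ))
  (R : Subalgebra ℂ (ℍ → ℂ)) (L : R →ₐ[ℂ] LaurentSeries ℂ)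
  (hmem : ∀ a (g : SL(2, ℤ)), (fun τ => ev a (g⁻¹ • τ)) ∈ R)

/-- The expansion hom on the algebra of generators attached to `g : SL(2,ℤ)`. -/
def phi (g : SL(2, ℤ)) : genAlg N →ₐ[Kbar] LaurentSeries ℂ where
  toFun a := L ⟨fun τ => ev a (g⁻¹ • τ), hmem a g⟩
  map_one' := by
    rw [← map_one L]
    congr 1
    apply Subtype.ext
    funext τ
    simp
  map_mul' a b := by
    rw [← map_mul L]
    congr 1
    apply Subtype.ext
    funext τ
    simp
  map_zero' := by
    rw [← map_zero L]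
    congr 1
    apply Subtype.ext
    funext τ
    simp
  map_add' a b := by
    rw [← map_add L]
    congr 1
    apply Subtype.ext
    funext τ
    simp
  commutes' c := by
    have h1 : (⟨fun τ => ev (algebraMap Kbar (genAlg N) c) (g⁻¹ • τ), hmem _ g⟩ : R)
        = algebraMap ℂ R (algebraMap Kbar ℂ c) := by
      apply Subtype.ext
      funext τ
      simp [AlgHom.commutes, Pi.algebraMap_apply]
    show L _ = _
    rw [h1, AlgHom.commutes, algebraMap_eq_C, algebraMap_eq_C' (K := Kbar)]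

omit [NeZero N] in
theorem phi_apply (g : SL(2, ℤ)) (a : genAlg N) :
    phi N ev R L hmem g a = L ⟨fun τ => ev a (g⁻¹ • τ), hmem a g⟩ := rfl

omit [NeZero N] in
theorem phi_injective (ev_inj : Function.Injective ev) (L_inj : Function.Injective L)
    (g : SL(2, ℤ)) : Function.Injective (phi N ev R L hmem g) := by
  intro a b hab
  rw [phi_apply, phi_apply] at hab
  have h1 := L_inj hab
  apply ev_inj
  funext τ
  have h2 := congrFun (congrArg Subtype.val h1) (g • τ)
  simpa using h2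

/-- The embedding attached to `g : SL(2,ℤ)`. -/
def sigmaOf (ev_inj : Function.Injective ev) (L_inj : Function.Injective L)
    (g : SL(2, ℤ)) : FBar N →ₐ[Kbar] LaurentSeries ℂ :=
  (exists_unique_lift N (phi N ev R L hmem g) (phi_injective N ev R L hmem ev_inj L_inj g)).choose

theorem sigmaOf_incl (ev_inj : Function.Injective ev) (L_inj : Function.Injective L)
    (g : SL(2, ℤ)) (a : genAlg N) :
    sigmaOf N ev R L hmem ev_inj L_inj g (incl N a) = L ⟨fun τ => ev a (g⁻¹ • τ), hmem a g⟩ :=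
  (exists_unique_lift N (phi N ev R L hmem g)
    (phi_injective N ev R L hmem ev_inj L_inj g)).choose_spec.1 a

end Family

theorem exists_family (N : ℕ) [NeZero N]
    (ev : genAlg N →ₐ[Kbar] (ℍ → ℂ)) (ev_inj : Function.Injective ev)
    (ev_inv : ∀ a (γ : SL(2, ℤ)), γ ∈ CongruenceSubgroup.Gamma0 N → ∀ τ, ev a (γ • τ) = ev a τ)
    (ev_dist : ∀ γ : SL(2, ℤ), (∀ a τ, ev a (γ • τ) = ev a τ) → γ ∈ CongruenceSubgroup.Gamma0 N)
    (R : Subalgebra ℂ (ℍ → ℂ)) (L : R →ₐ[ℂ] LaurentSeries ℂ) (L_inj : Function.Injective L)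
    (hmem : ∀ a (g : SL(2, ℤ)), (fun τ => ev a (g⁻¹ • τ)) ∈ R)
    (ε : SL(2, ℤ)) (ζ : ℂˣ)
    (hε : ∀ (f : ℍ → ℂ) (hf : f ∈ R) (hf' : (fun τ => f (ε⁻¹ • τ)) ∈ R),
      L ⟨_, hf'⟩ = rot ζ (L ⟨f, hf⟩)) :
    ∃ σ : (SL(2, ℤ) ⧸ CongruenceSubgroup.Gamma0 N) → (FBar N →ₐ[Kbar] LaurentSeries ℂ),
      Function.Injective σ ∧ (∀ c f, σ (ε • c) f = rot ζ (σ c f)) ∧
      ∀ (g : SL(2, ℤ)) (a : genAlg N),
        σ (g : SL(2, ℤ) ⧸ CongruenceSubgroup.Gamma0 N) (incl N a)
          = L ⟨fun τ => ev a (g⁻¹ • τ), hmem a g⟩ := by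
  classical
  set Γ := CongruenceSubgroup.Gamma0 N with hΓ
  -- the embedding attached to a representative
  let s : SL(2, ℤ) → (FBar N →ₐ[Kbar] LaurentSeries ℂ) :=
    sigmaOf N ev R L hmem ev_inj L_inj
  have hs : ∀ g a, s g (incl N a) = L ⟨fun τ => ev a (g⁻¹ • τ), hmem a g⟩ :=
    sigmaOf_incl N ev R L hmem ev_inj L_inj
  -- independence of the representative
  have hs_mul : ∀ (g : SL(2, ℤ)) (γ : SL(2, ℤ)), γ ∈ Γ → s (g * γ) = s g := by
    intro g γ hγ
    apply algHom_ext_incl N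
    intro a
    rw [hs, hs]
    congr 1
    apply Subtype.ext
    funext τ
    show ev a ((g * γ)⁻¹ • τ) = ev a (g⁻¹ • τ)
    rw [mul_inv_rev, mul_smul]
    exact ev_inv a γ⁻¹ (inv_mem hγ) _
  have hs_out : ∀ g : SL(2, ℤ), s (QuotientGroup.mk (s := Γ) g).out = s g := by
    intro g
    obtain ⟨h, hh⟩ := QuotientGroup.mk_out_eq_mul Γ g
    rw [hh]
    exact hs_mul g h h.2
  refine ⟨fun c => s c.out, ?_, ?_, ?_⟩
  · -- injectivity
    intro c c' hcc
    have h1 : ∀ a τ, ev a (c.out⁻¹ • τ) = ev a (c'.out⁻¹ • τ) := by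
      intro a τ
      have h2 : s c.out (incl N a) = s c'.out (incl N a) := by
        have := congrArg (fun σ : FBar N →ₐ[Kbar] LaurentSeries ℂ => σ (incl N a)) hcc
        exact this
      rw [hs, hs] at h2
      exact congrFun (congrArg Subtype.val (L_inj h2)) τ
    have h3 : c'.out⁻¹ * c.out ∈ Γ := by
      apply ev_dist
      intro a τ
      have := h1 a (c.out • τ)
      rw [inv_smul_smul] at this
      rw [mul_smul, ← this]
    have h4 : (QuotientGroup.mk (s := Γ) c'.out) = QuotientGroup.mk (s := Γ) c.out :=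
      QuotientGroup.eq.mpr h3
    rw [QuotientGroup.out_eq', QuotientGroup.out_eq'] at h4
    exact h4.symm
  · -- equivariance
    intro c f
    obtain ⟨g, rfl⟩ := QuotientGroup.mk_surjective c
    have hsm : ε • (QuotientGroup.mk (s := Γ) g) = QuotientGroup.mk (s := Γ) (ε * g) := rfl
    show s (ε • (QuotientGroup.mk (s := Γ) g)).out f = rot ζ (s (QuotientGroup.mk (s := Γ) g).out f)
    rw [hsm, hs_out, hs_out]
    have key : ∀ a, s (ε * g) (incl N a) = rot ζ (s g (incl N a)) := by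
      intro a
      rw [hs, hs]
      have hf' : (fun τ => (fun τ => ev a (g⁻¹ • τ)) (ε⁻¹ • τ)) ∈ R := by
        have := hmem a (ε * g)
        simpa [mul_inv_rev, mul_smul] using this
      rw [← hε _ (hmem a g) hf']
      congr 1
      apply Subtype.ext
      funext τ
      show ev a ((ε * g)⁻¹ • τ) = ev a (g⁻¹ • (ε⁻¹ • τ))
      rw [mul_inv_rev, mul_smul]
    obtain ⟨a, b, -, rfl⟩ := exists_div N f
    rw [map_div₀, map_div₀, map_div₀, key, key]
  · intro g a
    show s (QuotientGroup.mk (s := Γ) g).out (incl N a) = _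
    rw [hs_out, hs]

end Fermat.Agent.S24.EmbFamily
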