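/-
S24, piece C1 (lemma 55): a `K`-algebra embedding `σ : F →ₐ[K] ℂ((u))` whose order function is
nontrivial on `F` induces a Prelude `Place K F`, and the `u`-adic order is a positive multiple of
the order at that place.  Plus a few general lemmas on `Place` (sub-namespace `PlaceAux`).
-/
import Mathlib
import Fermat.Prelude.Def_AlgebraicCurve_DivisorClassGroup

set_option autoImplicit false

noncomputable section

namespace Fermat.Agent.S24

open AlgebraicCurve

/-! ### (a) General lemmas on places -/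

namespace PlaceAux

variable {K F : Type*} [Field K] [Field F] [Algebra K F]

/-- Membership in the valuation ring of a place is nonnegativity of `ord`. -/
theorem mem_iff_ord_nonneg (w : Place K F) {f : F} (hf : f ≠ 0) :
    f ∈ w.toValuationSubring ↔ 0 ≤ w.ord f := by
  obtain ⟨π, hπ⟩ := IsDiscreteValuationRing.exists_irreducible w.toValuationSubring
  obtain ⟨u, hu⟩ := w.exists_unit_mul_zpow hf hπ
  have hπ0 : (π : F) ≠ 0 := by
    simpa [ne_eq, ZeroMemClass.coe_eq_zero] using hπ.ne_zero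
  constructor
  · intro hfm
    by_contra hneg
    rw [not_le] at hneg
    -- then `π ^ (-ord f) * f = u`, so `π⁻¹`-ish: derive that `π` is a unit
    obtain ⟨n, hn⟩ : ∃ n : ℕ, w.ord f = -((n : ℤ) + 1) := by
      refine ⟨(-(w.ord f) - 1).toNat, ?_⟩
      have : 0 ≤ -(w.ord f) - 1 := by omega
      rw [Int.toNat_of_nonneg this]; ring
    -- `f * π ^ (n+1) = u`
    have h1 : f * (π : F) ^ (n + 1) = ((u : w.toValuationSubring) : F) := by
      conv_lhs => rw [hu, hn]
      rw [mul_assoc, zpow_neg, ← zpow_natCast (π : F) (n + 1)]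
      push_cast
      rw [inv_mul_cancel₀ (zpow_ne_zero _ hπ0), mul_one]
    have h2 : (⟨f, hfm⟩ : w.toValuationSubring) * π ^ (n + 1) = (u : w.toValuationSubring) := by
      apply Subtype.ext
      simpa using h1
    have h3 : IsUnit (π ^ (n + 1)) := by
      have : IsUnit ((⟨f, hfm⟩ : w.toValuationSubring) * π ^ (n + 1)) := h2 ▸ u.isUnit
      exact isUnit_of_mul_isUnit_right this
    exact hπ.not_isUnit (isUnit_pow_succ_iff.mp h3)
  · intro hnn
    obtain ⟨n, hn⟩ : ∃ n : ℕ, w.ord f = (n : ℤ) := ⟨(w.ord f).toNat, (Int.toNat_of_nonneg hnn).symm⟩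
    rw [hu, hn, zpow_natCast]
    exact w.toValuationSubring.mul_mem _ _ (u : w.toValuationSubring).2
      (w.toValuationSubring.pow_mem π.2 n)

theorem ord_nonneg_of_mem (w : Place K F) {f : F} (hfm : f ∈ w.toValuationSubring) :
    0 ≤ w.ord f := by
  rcases eq_or_ne f 0 with rfl | hf
  · simp
  · exact (mem_iff_ord_nonneg w hf).mp hfm

/-- A field element lies in the valuation ring of `w` iff it is zero or has nonnegative order. -/
theorem mem_iff (w : Place K F) (f : F) :
    f ∈ w.toValuationSubring ↔ f = 0 ∨ 0 ≤ w.ord f := by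
  rcases eq_or_ne f 0 with rfl | hf
  · simp [w.toValuationSubring.zero_mem]
  · simp [hf, mem_iff_ord_nonneg w hf]

/-- The ultrametric inequality for `ord`. -/
theorem ord_add (w : Place K F) {f g : F} (hf : f ≠ 0) (hg : g ≠ 0) (hfg : f + g ≠ 0) :
    min (w.ord f) (w.ord g) ≤ w.ord (f + g) := by
  -- wlog ord f ≤ ord g
  have key : ∀ {a b : F}, a ≠ 0 → b ≠ 0 → a + b ≠ 0 → w.ord a ≤ w.ord b →
      w.ord a ≤ w.ord (a + b) := by
    intro a b ha hb hab hle
    have h1 : b * a⁻¹ ∈ w.toValuationSubring := by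
      rw [mem_iff_ord_nonneg w (mul_ne_zero hb (inv_ne_zero ha)),
        w.ord_mul hb (inv_ne_zero ha), w.ord_inv]
      omega
    have h2 : (a + b) * a⁻¹ ∈ w.toValuationSubring := by
      have : (a + b) * a⁻¹ = 1 + b * a⁻¹ := by field_simp
      rw [this]
      exact w.toValuationSubring.add_mem _ _ w.toValuationSubring.one_mem h1
    rw [mem_iff_ord_nonneg w (mul_ne_zero hab (inv_ne_zero ha)),
      w.ord_mul hab (inv_ne_zero ha), w.ord_inv] at h2
    omega
  rcases le_total (w.ord f) (w.ord g) with h | h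
  · rw [min_eq_left h]; exact key hf hg hfg h
  · rw [min_eq_right h, add_comm]; exact key hg hf (by rwa [add_comm]) h

/-- Nonzero constants have order `0`. -/
theorem ord_algebraMap (w : Place K F) {c : K} (hc : c ≠ 0) :
    w.ord (algebraMap K F c) = 0 := by
  have hc' : algebraMap K F c ≠ 0 := by
    simpa using (map_ne_zero (algebraMap K F)).mpr hc
  have h1 : 0 ≤ w.ord (algebraMap K F c) := ord_nonneg_of_mem w (w.algebraMap_mem' c)
  have h2 : 0 ≤ w.ord (algebraMap K F c⁻¹) := ord_nonneg_of_mem w (w.algebraMap_mem' c⁻¹)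
  rw [map_inv₀, w.ord_inv] at h2
  omega

/-- There are no inclusions between distinct places (a discrete valuation ring is a maximal
proper subring of its fraction field). -/
theorem eq_of_le {w w' : Place K F}
    (h : ∀ f, f ∈ w.toValuationSubring → f ∈ w'.toValuationSubring) : w = w' := by
  apply Place.ext
  apply le_antisymm (fun f hf => h f hf)
  intro f hf'
  by_contra hf
  -- `f ∈ V' \ V`; then `ord_w f < 0`.
  have hf0 : f ≠ 0 := fun h0 => hf (h0 ▸ w.toValuationSubring.zero_mem)
  have hneg : w.ord f < 0 := by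
    by_contra hh
    rw [not_lt] at hh
    exact hf ((mem_iff_ord_nonneg w hf0).mpr hh)
  apply w'.ne_top'
  refine SetLike.ext fun g => ⟨fun _ => ValuationSubring.mem_top g, fun _ => ?_⟩
  rcases eq_or_ne g 0 with rfl | hg0
  · exact w'.toValuationSubring.zero_mem
  -- choose `n` with `ord g + n * (-ord f) ≥ 0`
  obtain ⟨n, hn⟩ : ∃ n : ℕ, 0 ≤ w.ord g + (n : ℤ) * (-(w.ord f)) := by
    refine ⟨(-(w.ord g)).toNat, ?_⟩
    have h1 : (1 : ℤ) ≤ -(w.ord f) := by omega
    have h2 : (-(w.ord g)) ≤ ((-(w.ord g)).toNat : ℤ) := Int.self_le_toNat _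
    have h3 : (0 : ℤ) ≤ ((-(w.ord g)).toNat : ℤ) := Int.natCast_nonneg _
    nlinarith
  have hmem : g * (f⁻¹) ^ n ∈ w.toValuationSubring := by
    have hne : g * (f⁻¹) ^ n ≠ 0 := mul_ne_zero hg0 (pow_ne_zero _ (inv_ne_zero hf0))
    rw [mem_iff_ord_nonneg w hne, w.ord_mul hg0 (pow_ne_zero _ (inv_ne_zero hf0)),
      ← zpow_natCast, w.ord_zpow, w.ord_inv]
    exact hn
  have hmem' := h _ hmem
  have : g = g * (f⁻¹) ^ n * f ^ n := by
    rw [mul_assoc, ← mul_pow, inv_mul_cancel₀ hf0, one_pow, mul_one]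
  rw [this]
  exact w'.toValuationSubring.mul_mem _ _ hmem' (w'.toValuationSubring.pow_mem hf' n)

end PlaceAux

/-! ### Order lemmas in `ℂ((u))` -/

namespace LaurentOrd

variable {R : Type*} [Field R]

theorem order_inv (x : LaurentSeries R) : (x⁻¹).order = -x.order := by
  rcases eq_or_ne x 0 with rfl | hx
  · simp
  · have h := HahnSeries.order_mul hx (inv_ne_zero hx)
    rw [mul_inv_cancel₀ hx, HahnSeries.order_one] at h
    omega

theorem order_zpow (x : LaurentSeries R) (n : ℤ) : (x ^ n).order = n * x.order := by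
  cases n with
  | ofNat k =>
    simp [HahnSeries.order_pow]
  | negSucc k =>
    rw [zpow_negSucc, order_inv, HahnSeries.order_pow]
    simp only [Int.negSucc_eq, nsmul_eq_mul]
    push_cast
    ring

theorem order_div {x y : LaurentSeries R} (hx : x ≠ 0) (hy : y ≠ 0) :
    (x / y).order = x.order - y.order := by
  rw [div_eq_mul_inv, HahnSeries.order_mul hx (inv_ne_zero hy), order_inv]; ring

end LaurentOrd

/-! ### (b) The place induced by an embedding into `ℂ((u))` -/

section Emb

variable {K F : Type*} [Field K] [Field F] [Algebra K F] [Algebra K ℂ]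

theorem emb_ne_zero (σ : F →ₐ[K] LaurentSeries ℂ) {f : F} (hf : f ≠ 0) : σ f ≠ 0 :=
  (map_ne_zero σ.toRingHom).mpr hf

theorem order_emb_mul (σ : F →ₐ[K] LaurentSeries ℂ) {f g : F} (hf : f ≠ 0) (hg : g ≠ 0) :
    (σ (f * g)).order = (σ f).order + (σ g).order := by
  rw [map_mul]; exact HahnSeries.order_mul (emb_ne_zero σ hf) (emb_ne_zero σ hg)

theorem order_emb_inv (σ : F →ₐ[K] LaurentSeries ℂ) (f : F) :
    (σ f⁻¹).order = -(σ f).order := by
  rw [map_inv₀]; exact LaurentOrd.order_inv _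

theorem order_emb_zpow (σ : F →ₐ[K] LaurentSeries ℂ) (f : F) (n : ℤ) :
    (σ (f ^ n)).order = n * (σ f).order := by
  rw [map_zpow₀]; exact LaurentOrd.order_zpow _ _

/-- The (synthesized) `K`-algebra structure on `ℂ((u))` sends `c` to the constant series. -/
theorem algebraMap_laurentSeries_eq_C (c : K) :
    algebraMap K (LaurentSeries ℂ) c = HahnSeries.C (algebraMap K ℂ c) := by
  rw [HahnSeries.algebraMap_apply', PowerSeries.algebraMap_apply, HahnSeries.ofPowerSeries_C]

theorem order_emb_algebraMap (σ : F →ₐ[K] LaurentSeries ℂ) (c : K) :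
    (σ (algebraMap K F c)).order = 0 := by
  rw [AlgHom.commutes, algebraMap_laurentSeries_eq_C]
  exact HahnSeries.order_C

/-- The valuation subring `{f | 0 ≤ ord_u (σ f)}` of `F` attached to an embedding into `ℂ((u))`. -/
def embValuationSubring (σ : F →ₐ[K] LaurentSeries ℂ) : ValuationSubring F where
  carrier := {f | 0 ≤ (σ f).order}
  mul_mem' := by
    intro a b ha hb
    simp only [Set.mem_ofPred_eq] at ha hb ⊢
    rcases eq_or_ne a 0 with rfl | ha0
    · simp
    rcases eq_or_ne b 0 with rfl | hb0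
    · simp
    rw [order_emb_mul σ ha0 hb0]; omega
  one_mem' := by simp
  add_mem' := by
    intro a b ha hb
    simp only [Set.mem_ofPred_eq] at ha hb ⊢
    rcases eq_or_ne (a + b) 0 with h0 | h0
    · rw [h0]; simp
    have := HahnSeries.min_order_le_order_add (x := σ a) (y := σ b)
      (by rw [← map_add]; exact emb_ne_zero σ h0)
    rw [map_add]
    exact le_trans (le_min ha hb) this
  zero_mem' := by simp
  neg_mem' := by
    intro a ha
    simp only [Set.mem_ofPred_eq] at ha ⊢
    rw [map_neg, HahnSeries.order_neg]; exact ha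
  mem_or_inv_mem' := by
    intro a
    simp only [Set.mem_ofPred_eq]
    rw [order_emb_inv]
    omega

theorem mem_embValuationSubring (σ : F →ₐ[K] LaurentSeries ℂ) (f : F) :
    f ∈ embValuationSubring σ ↔ 0 ≤ (σ f).order := Iff.rfl

theorem embValuationSubring_ne_top (σ : F →ₐ[K] LaurentSeries ℂ)
    (h : ∃ y : F, y ≠ 0 ∧ (σ y).order ≠ 0) : embValuationSubring σ ≠ ⊤ := by
  obtain ⟨y, hy0, hy⟩ := h
  intro htop
  have h1 : y ∈ embValuationSubring σ := htop ▸ ValuationSubring.mem_top y
  have h2 : y⁻¹ ∈ embValuationSubring σ := htop ▸ ValuationSubring.mem_top y⁻¹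
  rw [mem_embValuationSubring] at h1 h2
  rw [order_emb_inv] at h2
  omega

theorem isPrincipalIdealRing_embValuationSubring (σ : F →ₐ[K] LaurentSeries ℂ) :
    IsPrincipalIdealRing (embValuationSubring σ) := by
  refine ⟨fun I => ?_⟩
  by_cases hI : I = ⊥
  · subst hI; exact bot_isPrincipal
  obtain ⟨f₁, hf₁I, hf₁0⟩ := Submodule.exists_mem_ne_zero_of_ne_bot hI
  have hex : ∃ n : ℕ, ∃ f : embValuationSubring σ, f ∈ I ∧ f ≠ 0 ∧ (σ (f : F)).order = (n : ℤ) :=
    ⟨(σ (f₁ : F)).order.toNat, f₁, hf₁I, hf₁0, (Int.toNat_of_nonneg f₁.2).symm⟩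
  classical
  obtain ⟨f₀, hf₀I, hf₀0, hf₀⟩ := Nat.find_spec hex
  have hf₀F : (f₀ : F) ≠ 0 := by simpa [ne_eq, ZeroMemClass.coe_eq_zero] using hf₀0
  refine ⟨⟨f₀, le_antisymm ?_ ?_⟩⟩
  · intro g hg
    rw [Submodule.mem_span_singleton]
    rcases eq_or_ne g 0 with rfl | hg0
    · exact ⟨0, by simp⟩
    have hgF : (g : F) ≠ 0 := by simpa [ne_eq, ZeroMemClass.coe_eq_zero] using hg0
    have hmin : Nat.find hex ≤ (σ (g : F)).order.toNat :=
      Nat.find_min' hex ⟨g, hg, hg0, (Int.toNat_of_nonneg g.2).symm⟩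
    have hle : (σ (f₀ : F)).order ≤ (σ (g : F)).order := by
      rw [hf₀]
      have : ((Nat.find hex : ℕ) : ℤ) ≤ ((σ (g : F)).order.toNat : ℤ) := by exact_mod_cast hmin
      rwa [Int.toNat_of_nonneg g.2] at this
    have hq : (g : F) * (f₀ : F)⁻¹ ∈ embValuationSubring σ := by
      rw [mem_embValuationSubring, order_emb_mul σ hgF (inv_ne_zero hf₀F), order_emb_inv]
      omega
    refine ⟨⟨_, hq⟩, ?_⟩
    apply Subtype.ext
    simp only [smul_eq_mul, MulMemClass.coe_mul]
    rw [mul_assoc, inv_mul_cancel₀ hf₀F, mul_one]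
  · rw [Submodule.span_le]
    intro g hg
    rw [Set.mem_singleton_iff] at hg
    subst hg
    exact hf₀I

/-- The place of `F/K` induced by a `K`-embedding `σ : F → ℂ((u))` with nontrivial order. -/
def placeOfEmb (σ : F →ₐ[K] LaurentSeries ℂ) (h : ∃ y : F, y ≠ 0 ∧ (σ y).order ≠ 0) :
    Place K F where
  toValuationSubring := embValuationSubring σ
  algebraMap_mem' := fun c => by
    rw [mem_embValuationSubring, order_emb_algebraMap]
  ne_top' := embValuationSubring_ne_top σ h
  isPrincipalIdealRing' := isPrincipalIdealRing_embValuationSubring σ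

variable (σ : F →ₐ[K] LaurentSeries ℂ) (h : ∃ y : F, y ≠ 0 ∧ (σ y).order ≠ 0)

theorem mem_placeOfEmb_iff' (f : F) :
    f ∈ (placeOfEmb σ h).toValuationSubring ↔ 0 ≤ (σ f).order := Iff.rfl

theorem mem_placeOfEmb_iff (f : F) :
    f ∈ (placeOfEmb σ h).toValuationSubring ↔ f = 0 ∨ 0 ≤ (σ f).order := by
  rw [mem_placeOfEmb_iff']
  constructor
  · exact fun h => Or.inr h
  · rintro (rfl | h)
    · simp
    · exact h

/-- Units of the valuation ring of `placeOfEmb σ h` have `u`-adic order `0`. -/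
theorem order_emb_unit (u : ((placeOfEmb σ h).toValuationSubring)ˣ) :
    (σ ((u : (placeOfEmb σ h).toValuationSubring) : F)).order = 0 := by
  have h1 : 0 ≤ (σ ((u : (placeOfEmb σ h).toValuationSubring) : F)).order :=
    (u : (placeOfEmb σ h).toValuationSubring).2
  have h2 : 0 ≤ (σ (((u⁻¹ : ((placeOfEmb σ h).toValuationSubring)ˣ) :
      (placeOfEmb σ h).toValuationSubring) : F)).order :=
    ((u⁻¹ : ((placeOfEmb σ h).toValuationSubring)ˣ) : (placeOfEmb σ h).toValuationSubring).2
  have h3 : (((u⁻¹ : ((placeOfEmb σ h).toValuationSubring)ˣ) :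
      (placeOfEmb σ h).toValuationSubring) : F)
      = (((u : (placeOfEmb σ h).toValuationSubring) : F))⁻¹ := by
    have hmul : ((u : (placeOfEmb σ h).toValuationSubring) : F) *
        (((u⁻¹ : ((placeOfEmb σ h).toValuationSubring)ˣ) :
          (placeOfEmb σ h).toValuationSubring) : F) = 1 := by
      have := congrArg (Subtype.val) (u.mul_inv)
      rwa [MulMemClass.coe_mul, OneMemClass.coe_one] at this
    exact eq_inv_of_mul_eq_one_right hmul
  rw [h3, order_emb_inv] at h2
  omega

/-- The `u`-adic order of `σ f` is a fixed positive multiple of the order at `placeOfEmb σ h`. -/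
theorem exists_order_eq_mul_ord :
    ∃ m : ℤ, 0 < m ∧ ∀ f : F, f ≠ 0 → (σ f).order = m * (placeOfEmb σ h).ord f := by
  obtain ⟨π, hπ⟩ :=
    IsDiscreteValuationRing.exists_irreducible (placeOfEmb σ h).toValuationSubring
  have hπ0 : (π : F) ≠ 0 := by
    simpa [ne_eq, ZeroMemClass.coe_eq_zero] using hπ.ne_zero
  refine ⟨(σ (π : F)).order, ?_, ?_⟩
  · -- positivity: otherwise `π⁻¹` lies in the valuation ring and `π` is a unit
    have h0 : 0 ≤ (σ (π : F)).order := π.2
    rcases h0.lt_or_eq with hlt | heq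
    · exact hlt
    · exfalso
      have hinv : (π : F)⁻¹ ∈ (placeOfEmb σ h).toValuationSubring := by
        rw [mem_placeOfEmb_iff', order_emb_inv]; omega
      apply hπ.not_isUnit
      refine IsUnit.of_mul_eq_one (⟨_, hinv⟩ : (placeOfEmb σ h).toValuationSubring) ?_
      apply Subtype.ext
      simp [mul_inv_cancel₀ hπ0]
  · intro f hf
    obtain ⟨u, hu⟩ := (placeOfEmb σ h).exists_unit_mul_zpow hf hπ
    have hu0 : ((u : (placeOfEmb σ h).toValuationSubring) : F) ≠ 0 := by
      simp [ne_eq, ZeroMemClass.coe_eq_zero]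
    conv_lhs => rw [hu]
    rw [order_emb_mul σ hu0 (zpow_ne_zero _ hπ0), order_emb_unit, order_emb_zpow]
    ring

theorem placeOfEmb_eq_of_le (w : Place K F)
    (hw : ∀ f : F, f ≠ 0 → 0 ≤ w.ord f → 0 ≤ (σ f).order) : placeOfEmb σ h = w := by
  symm
  apply PlaceAux.eq_of_le
  intro f hf
  rw [mem_placeOfEmb_iff']
  rcases eq_or_ne f 0 with rfl | hf0
  · simp
  · exact hw f hf0 (PlaceAux.ord_nonneg_of_mem w hf)

theorem placeOfEmb_eq_of_order (w : Place K F) (m : ℤ) (hm : 0 < m)
    (hw : ∀ f : F, f ≠ 0 → (σ f).order = m * w.ord f) : placeOfEmb σ h = w := by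
  apply placeOfEmb_eq_of_le
  intro f hf0 hf
  rw [hw f hf0]
  positivity

theorem placeOfEmb_eq_iff (w : Place K F) :
    placeOfEmb σ h = w ↔ ∀ f : F, f ≠ 0 → 0 ≤ w.ord f → 0 ≤ (σ f).order := by
  constructor
  · rintro rfl f hf0 hf
    exact (mem_placeOfEmb_iff' σ h f).mp ((PlaceAux.mem_iff_ord_nonneg _ hf0).mpr hf)
  · exact placeOfEmb_eq_of_le σ h w

end Emb

end Fermat.Agent.S24
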