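import Mathlib
import Fermat.Prelude.Def_AlgebraicCurve_DivisorClassGroup

/-!
# S24, piece C2: rigidity of Laurent-series embeddings

Two `K`-algebra embeddings `σ σ' : F → ℂ((u))` which induce the same place `w` of `F` (with the
same ramification `m`), agree on one element `x` vanishing at `w`, and give the same leading
coefficient to one uniformizer `t` at `w`, coincide.
-/

set_option autoImplicit false

open AlgebraicCurve HahnSeries

namespace Fermat.Agent.S24

namespace RigidityAux

/-- `IntGE k z` : the Laurent series `z` has `u`-adic order at least `k` (with `0` allowed). -/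
abbrev IntGE (k : ℤ) (z : LaurentSeries ℂ) : Prop := (k : WithTop ℤ) ≤ z.orderTop

theorem intGE_zero (k : ℤ) : IntGE k 0 := by
  simp [IntGE]

theorem IntGE.mono {k l : ℤ} {z : LaurentSeries ℂ} (h : IntGE k z) (hl : l ≤ k) : IntGE l z :=
  le_trans (WithTop.coe_le_coe.mpr hl) h

theorem IntGE.add {k : ℤ} {z z' : LaurentSeries ℂ} (h : IntGE k z) (h' : IntGE k z') :
    IntGE k (z + z') :=
  le_trans (le_min h h') min_orderTop_le_orderTop_add

theorem IntGE.sub {k : ℤ} {z z' : LaurentSeries ℂ} (h : IntGE k z) (h' : IntGE k z') :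
    IntGE k (z - z') :=
  le_trans (le_min h h') min_orderTop_le_orderTop_sub

theorem IntGE.mul {k l : ℤ} {z z' : LaurentSeries ℂ} (h : IntGE k z) (h' : IntGE l z') :
    IntGE (k + l) (z * z') := by
  have := add_le_add h h'
  refine le_trans ?_ (le_trans this orderTop_add_le_mul)
  rw [WithTop.coe_add]

theorem intGE_of_forall {z : LaurentSeries ℂ} (h : ∀ k : ℤ, IntGE k z) : z = 0 := by
  by_contra hz
  have h1 := h (z.order + 1)
  rw [IntGE, orderTop_of_ne_zero hz, ← order_of_ne hz, WithTop.coe_le_coe] at h1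
  omega


theorem leadingCoeff_pow' (z : LaurentSeries ℂ) (n : ℕ) :
    (z ^ n).leadingCoeff = z.leadingCoeff ^ n := by
  induction n with
  | zero => simp
  | succ n ih => rw [pow_succ, leadingCoeff_mul, ih, pow_succ]

/-- The geometric sum `∑ A^i B^(e-1-i)` of two series of the same order `m` and the same leading
coefficient has order exactly `(e-1) m` (characteristic zero). -/
theorem orderTop_geom_sum₂ {A B : LaurentSeries ℂ} {m : ℤ} (hA : A ≠ 0) (hB : B ≠ 0)
    (hAm : A.order = m) (hBm : B.order = m) (hlc : A.coeff m = B.coeff m) (e : ℕ) (he : 0 < e) :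
    (∑ i ∈ Finset.range e, A ^ i * B ^ (e - 1 - i)).orderTop = (((e : ℤ) - 1) * m : ℤ) := by
  set c := A.coeff m with hc
  have hcA : A.leadingCoeff = c := by rw [leadingCoeff_eq, hAm]
  have hcB : B.leadingCoeff = c := by rw [leadingCoeff_eq, hBm, ← hlc]
  have hc0 : c ≠ 0 := by
    rw [← hcA]; exact leadingCoeff_ne_zero.mpr hA
  have hT : ∀ i ∈ Finset.range e, (A ^ i * B ^ (e - 1 - i)).order = ((e : ℤ) - 1) * m ∧
      (A ^ i * B ^ (e - 1 - i)).leadingCoeff = c ^ (e - 1) := by
    intro i hi
    have hi' : i < e := Finset.mem_range.mp hi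
    constructor
    · rw [order_mul (pow_ne_zero _ hA) (pow_ne_zero _ hB), order_pow, order_pow, hAm, hBm]
      simp only [nsmul_eq_mul]
      have : ((e - 1 - i : ℕ) : ℤ) = (e : ℤ) - 1 - i := by omega
      rw [this]; ring
    · rw [leadingCoeff_mul, leadingCoeff_pow', leadingCoeff_pow', hcA, hcB, ← _root_.pow_add]
      congr 1; omega
  set S := ∑ i ∈ Finset.range e, A ^ i * B ^ (e - 1 - i) with hS
  have hcoeff : S.coeff (((e : ℤ) - 1) * m) = (e : ℂ) * c ^ (e - 1) := by
    rw [hS, coeff_sum]
    rw [Finset.sum_congr rfl (fun i hi => by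
      rw [← (hT i hi).1, ← leadingCoeff_eq, (hT i hi).2])]
    simp
  have hcoeff0 : S.coeff (((e : ℤ) - 1) * m) ≠ 0 := by
    rw [hcoeff]
    have : (e : ℂ) ≠ 0 := by exact_mod_cast he.ne'
    exact mul_ne_zero this (pow_ne_zero _ hc0)
  have hlow : ∀ n : ℤ, n < ((e : ℤ) - 1) * m → S.coeff n = 0 := by
    intro n hn
    rw [hS, coeff_sum]
    refine Finset.sum_eq_zero fun i hi => ?_
    refine coeff_eq_zero_of_lt_order ?_
    rw [(hT i hi).1]; exact hn
  refine le_antisymm (orderTop_le_of_coeff_ne_zero hcoeff0) ?_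
  rw [le_orderTop_iff_forall]
  intro n hn
  exact hlow n (by exact_mod_cast hn)

end RigidityAux

open RigidityAux

variable {K F : Type*} [Field K] [Field F] [Algebra K F] [Algebra K ℂ]

theorem rigidity (w : AlgebraicCurve.Place K F)
    (hres : ∀ f : F, f ≠ 0 → 0 ≤ w.ord f →
      ∃ c : K, f = algebraMap K F c ∨ 0 < w.ord (f - algebraMap K F c))
    (σ σ' : F →ₐ[K] LaurentSeries ℂ) (m : ℤ) (hm : 0 < m)
    (hσ : ∀ f : F, f ≠ 0 → (σ f).order = m * w.ord f)
    (hσ' : ∀ f : F, f ≠ 0 → (σ' f).order = m * w.ord f)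
    (x : F) (hx : 0 < w.ord x) (hxx : σ x = σ' x)
    (t : F) (ht : w.ord t = 1) (hlc : (σ t).coeff m = (σ' t).coeff m) : σ = σ' := by
  classical
  -- basic nonvanishing
  have hinj : ∀ f : F, f ≠ 0 → σ f ≠ 0 := fun f hf => (map_ne_zero σ).mpr hf
  have hinj' : ∀ f : F, f ≠ 0 → σ' f ≠ 0 := fun f hf => (map_ne_zero σ').mpr hf
  have hordT : ∀ f : F, f ≠ 0 → (σ f).orderTop = ((m * w.ord f : ℤ) : WithTop ℤ) := by
    intro f hf
    rw [← hσ f hf]
    exact (order_eq_orderTop_of_ne_zero (hinj f hf)).symm
  have hordT' : ∀ f : F, f ≠ 0 → (σ' f).orderTop = ((m * w.ord f : ℤ) : WithTop ℤ) := by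
    intro f hf
    rw [← hσ' f hf]
    exact (order_eq_orderTop_of_ne_zero (hinj' f hf)).symm
  have ht0 : t ≠ 0 := by
    rintro rfl
    simp at ht
  -- elements of the valuation ring have nonnegative order
  have hO : ∀ f : F, 0 ≤ w.ord f → IntGE 0 (σ f) := by
    intro f hf
    rcases eq_or_ne f 0 with rfl | hf0
    · simp
    · rw [IntGE, hordT f hf0, WithTop.coe_le_coe]
      positivity
  have hO' : ∀ f : F, 0 ≤ w.ord f → IntGE 0 (σ' f) := by
    intro f hf
    rcases eq_or_ne f 0 with rfl | hf0
    · simp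
    · rw [IntGE, hordT' f hf0, WithTop.coe_le_coe]
      positivity
  have hAt : IntGE m (σ t) := by
    rw [IntGE, hordT t ht0, ht, mul_one]
  have hBt : IntGE m (σ' t) := by
    rw [IntGE, hordT' t ht0, ht, mul_one]
  -- step (A)
  have stepA : ∀ j : ℕ, IntGE (m + j) (σ t - σ' t) →
      ∀ f : F, 0 ≤ w.ord f → IntGE (m + j) (σ f - σ' f) := by
    intro j hj
    have key : ∀ n : ℕ, ∀ f : F, 0 ≤ w.ord f → IntGE (min (m + j) (n * m)) (σ f - σ' f) := by
      intro n
      induction n with
      | zero =>
        intro f hf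
        refine ((hO f hf).sub (hO' f hf)).mono ?_
        simp
      | succ n ih =>
        intro f hf
        rcases eq_or_ne f 0 with rfl | hf0
        · simp
        obtain ⟨c, hc | hc⟩ := hres f hf0 hf
        · rw [hc, AlgHom.commutes, AlgHom.commutes, sub_self]
          exact intGE_zero _
        · set g := f - algebraMap K F c with hg
          have hg0 : g ≠ 0 := by
            intro h
            rw [h] at hc
            simp at hc
          set f₁ := g * t⁻¹ with hf₁
          have hf₁ord : 0 ≤ w.ord f₁ := by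
            rw [hf₁, w.ord_mul hg0 (inv_ne_zero ht0), w.ord_inv, ht]
            omega
          have hgt : g = t * f₁ := by
            rw [hf₁]
            field_simp
          have hD : σ f - σ' f = (σ t - σ' t) * σ f₁ + σ' t * (σ f₁ - σ' f₁) := by
            have hf : f = algebraMap K F c + t * f₁ := by
              rw [← hgt, hg]; ring
            rw [hf]
            simp only [map_add, map_mul, AlgHom.commutes]
            ring
          rw [hD]
          refine IntGE.add ?_ ?_
          · refine (hj.mul (hO f₁ hf₁ord)).mono ?_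
            simp
          · refine (hBt.mul (ih f₁ hf₁ord)).mono ?_
            push_cast
            rcases le_total (m + j) (n * m) with h | h
            · rw [min_eq_left h]
              exact le_trans (min_le_left _ _) (by omega)
            · rw [min_eq_right h]
              exact le_trans (min_le_right _ _) (by nlinarith)
    intro f hf
    refine (key (j + 1) f hf).mono ?_
    push_cast
    refine le_min le_rfl ?_
    nlinarith
  -- the data for step (B)
  obtain ⟨e, he⟩ : ∃ e : ℕ, (e : ℤ) = w.ord x := ⟨(w.ord x).toNat, by omega⟩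
  have he0 : 0 < e := by omega
  have hx0 : x ≠ 0 := by
    rintro rfl
    simp at hx
  set v := x * (t ^ e)⁻¹ with hv
  have hte0 : t ^ e ≠ 0 := pow_ne_zero _ ht0
  have hordte : w.ord (t ^ e) = e := by
    have := w.ord_zpow t (e : ℤ)
    rw [zpow_natCast, ht, mul_one] at this
    exact this
  have hv0 : v ≠ 0 := mul_ne_zero hx0 (inv_ne_zero hte0)
  have hvord : w.ord v = 0 := by
    rw [hv, w.ord_mul hx0 (inv_ne_zero hte0), w.ord_inv, hordte]
    omega
  have hxv : x = v * t ^ e := by
    rw [hv]; field_simp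
  set A := σ t with hA
  set B := σ' t with hB
  have hA0 : A ≠ 0 := hinj t ht0
  have hB0 : B ≠ 0 := hinj' t ht0
  have hAm : A.order = m := by rw [hA, hσ t ht0, ht, mul_one]
  have hBm : B.order = m := by rw [hB, hσ' t ht0, ht, mul_one]
  set S := ∑ i ∈ Finset.range e, A ^ i * B ^ (e - 1 - i) with hS
  have hSord : S.orderTop = (((e : ℤ) - 1) * m : ℤ) :=
    orderTop_geom_sum₂ hA0 hB0 hAm hBm hlc e he0
  have hgeom : S * (A - B) = A ^ e - B ^ e := geom_sum₂_mul A B e
  have hmain : σ v * (S * (A - B)) = -((σ v - σ' v) * B ^ e) := by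
    have h1 : σ v * A ^ e = σ' v * B ^ e := by
      rw [hA, hB, ← map_pow, ← map_pow, ← map_mul, ← map_mul, ← hxv]
      exact hxx
    rw [hgeom]
    linear_combination h1
  have hσv : (σ v).orderTop = ((0 : ℤ) : WithTop ℤ) := by
    rw [hordT v hv0, hvord, mul_zero]
  have hBe : (B ^ e).orderTop = (((e : ℤ) * m : ℤ) : WithTop ℤ) := by
    rw [orderTop_of_ne_zero (pow_ne_zero _ hB0), ← order_of_ne (pow_ne_zero _ hB0), order_pow, hBm]
    simp
  -- step (B)
  have stepB : ∀ j : ℕ, IntGE (m + j) (A - B) → IntGE (m + (j + 1 : ℕ)) (A - B) := by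
    intro j hj
    rcases eq_or_ne (A - B) 0 with h0 | h0
    · rw [h0]; exact intGE_zero _
    have hDv : IntGE (m + j) (σ v - σ' v) := stepA j hj v (by omega)
    have hR : IntGE ((m + j) + e * m) (-((σ v - σ' v) * B ^ e)) := by
      rw [IntGE, orderTop_neg]
      exact hDv.mul (le_of_eq hBe.symm)
    rw [← hmain, IntGE, orderTop_mul, orderTop_mul, hσv, hSord,
      orderTop_of_ne_zero h0, ← order_of_ne h0] at hR
    rw [← WithTop.coe_add, ← WithTop.coe_add, WithTop.coe_le_coe] at hR
    rw [IntGE, orderTop_of_ne_zero h0, ← order_of_ne h0, WithTop.coe_le_coe]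
    push_cast
    nlinarith
  -- conclusion: `σ t = σ' t`
  have hall : ∀ j : ℕ, IntGE (m + j) (A - B) := by
    intro j
    induction j with
    | zero =>
      refine (hAt.sub hBt).mono ?_
      simp
    | succ j ih => exact stepB j ih
  have hAB : A - B = 0 := by
    apply intGE_of_forall
    intro k
    refine (hall (k - m).toNat).mono ?_
    omega
  -- all elements of the valuation ring
  have hOeq : ∀ f : F, 0 ≤ w.ord f → σ f = σ' f := by
    intro f hf
    rw [← sub_eq_zero]
    apply intGE_of_forall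
    intro k
    refine (stepA (k - m).toNat (by rw [hAB]; exact intGE_zero _) f hf).mono ?_
    omega
  -- all elements
  apply AlgHom.ext
  intro f
  rcases le_total 0 (w.ord f) with hf | hf
  · exact hOeq f hf
  · rcases eq_or_ne f 0 with rfl | hf0
    · simp
    have hinv : σ f⁻¹ = σ' f⁻¹ := hOeq f⁻¹ (by rw [w.ord_inv]; omega)
    rw [map_inv₀, map_inv₀] at hinv
    exact inv_injective hinv


end Fermat.Agent.S24
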