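import Mathlib
import Fermat.Prelude.Def_AlgebraicCurve_DivisorClassGroup
import Fermat.Agent.S24.LaurentAux
import Fermat.Agent.S24.PlaceOfEmb
import Fermat.Agent.S24.Rigidity

/-!
# S24, piece C3: the criterion "places over a point ↔ orbits of the rotation"
-/

set_option autoImplicit false

namespace Fermat.Agent.S24

open AlgebraicCurve

namespace Criterion

/-! ### Facts about `rot` derived from `coeff_rot` only -/

theorem coeff_rot_iterate (ζ : ℂˣ) (f : LaurentSeries ℂ) (r : ℕ) (k : ℤ) :
    ((rot ζ)^[r] f).coeff k = ((ζ : ℂ) ^ k) ^ r * f.coeff k := by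
  induction r with
  | zero => simp
  | succ r ih =>
    rw [Function.iterate_succ_apply', coeff_rot, ih, pow_succ]
    ring

theorem rot_ne_zero (ζ : ℂˣ) {f : LaurentSeries ℂ} (hf : f ≠ 0) : rot ζ f ≠ 0 := by
  intro h
  apply hf
  have := (rot ζ).injective (h.trans (map_zero (rot ζ)).symm)
  exact this

theorem coeff_order_ne_zero' {f : LaurentSeries ℂ} (hf : f ≠ 0) : f.coeff f.order ≠ 0 :=
  fun h => hf (HahnSeries.coeff_order_eq_zero.mp h)

theorem order_rot' (ζ : ℂˣ) (f : LaurentSeries ℂ) : (rot ζ f).order = f.order := by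
  rcases eq_or_ne f 0 with rfl | hf
  · simp
  have hz : ∀ k : ℤ, ((ζ : ℂ) ^ k) ≠ 0 := fun k => zpow_ne_zero k (Units.ne_zero ζ)
  apply le_antisymm
  · apply HahnSeries.order_le_of_coeff_ne_zero
    rw [coeff_rot]
    exact mul_ne_zero (hz _) (coeff_order_ne_zero' hf)
  · apply HahnSeries.order_le_of_coeff_ne_zero
    have h := coeff_order_ne_zero' (rot_ne_zero ζ hf)
    rw [coeff_rot] at h
    exact right_ne_zero_of_mul h

theorem leadingCoeff_pow' (f : LaurentSeries ℂ) (n : ℕ) :
    (f ^ n).leadingCoeff = f.leadingCoeff ^ n := by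
  induction n with
  | zero => simp
  | succ n ih => rw [pow_succ, HahnSeries.leadingCoeff_mul, ih, pow_succ]

variable {K F : Type*} [Field K] [Field F] [Algebra K F] [Algebra K ℂ]

/-- The structure map `K → ℂ((u))` (whatever instance path is chosen) is `C ∘ algebraMap K ℂ`. -/
theorem algebraMap_laurent (c : K) :
    (algebraMap K (LaurentSeries ℂ)) c = HahnSeries.C (algebraMap K ℂ c) := by
  rw [HahnSeries.algebraMap_apply', PowerSeries.algebraMap_apply, HahnSeries.ofPowerSeries_C]

/-- The constant coefficient of `σ v` when `v ≡ c` modulo the maximal ideal of `w`. -/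
theorem coeff_zero_of_residue (w : Place K F) (σ : F →ₐ[K] LaurentSeries ℂ) (m : ℤ) (hm : 0 < m)
    (hσ : ∀ f : F, f ≠ 0 → (σ f).order = m * w.ord f)
    (v : F) (c : K) (hc : v = algebraMap K F c ∨ 0 < w.ord (v - algebraMap K F c)) :
    (σ v).coeff 0 = algebraMap K ℂ c := by
  have hconst : (σ (algebraMap K F c)).coeff 0 = algebraMap K ℂ c := by
    rw [AlgHom.commutes, algebraMap_laurent]
    simp
  rcases hc with rfl | hpos
  · exact hconst
  · have hne : v - algebraMap K F c ≠ 0 := by
      intro h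
      rw [h, Place.ord_zero] at hpos
      exact lt_irrefl _ hpos
    have hord : 0 < (σ (v - algebraMap K F c)).order := by
      rw [hσ _ hne]
      exact mul_pos hm hpos
    have h0 := HahnSeries.coeff_eq_zero_of_lt_order hord
    rw [map_sub, HahnSeries.coeff_sub, sub_eq_zero] at h0
    rw [h0, hconst]

theorem coeff_eq_of_factor (w : Place K F) (σ : F →ₐ[K] LaurentSeries ℂ) (m : ℤ) (hm : 0 < m)
    (hσ : ∀ f : F, f ≠ 0 → (σ f).order = m * w.ord f)
    (t : F) (ht : w.ord t = 1) (v : F) (hv0 : v ≠ 0) (hv : w.ord v = 0) (c : K)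
    (hc : v = algebraMap K F c ∨ 0 < w.ord (v - algebraMap K F c)) (E : ℕ) :
    (σ (v * t ^ E)).coeff (m * E) = algebraMap K ℂ c * ((σ t).coeff m) ^ E := by
  have ht0 : t ≠ 0 := by
    intro h
    rw [h, Place.ord_zero] at ht
    exact zero_ne_one ht
  have hσv : (σ v).order = 0 := by rw [hσ v hv0, hv, mul_zero]
  have hσt : (σ t).order = m := by rw [hσ t ht0, ht, mul_one]
  have hlc : (σ (v * t ^ E)).leadingCoeff = (σ v).leadingCoeff * (σ t).leadingCoeff ^ E := by
    rw [map_mul, map_pow, HahnSeries.leadingCoeff_mul, leadingCoeff_pow']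
  have hord : (σ (v * t ^ E)).order = m * E := by
    rw [hσ _ (mul_ne_zero hv0 (pow_ne_zero E ht0)), Place.ord_mul _ hv0 (pow_ne_zero E ht0), hv,
      zero_add, ← zpow_natCast, Place.ord_zpow, ht, mul_one]
  rw [HahnSeries.leadingCoeff_eq, HahnSeries.leadingCoeff_eq, HahnSeries.leadingCoeff_eq, hord,
    hσv, hσt] at hlc
  rw [hlc, coeff_zero_of_residue w σ m hm hσ v c hc]

end Criterion

variable {K F : Type*} [Field K] [Field F] [Algebra K F] [Algebra K ℂ]

theorem criterion (x : F) (n : ℕ)
    (Z : Finset (Place K F)) (hZ : ∀ w : Place K F, w ∈ Z ↔ 0 < w.ord x)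
    (hsum : ∑ w ∈ Z, w.ord x = n)
    (hres : ∀ w ∈ Z, ∀ f : F, f ≠ 0 → 0 ≤ w.ord f →
      ∃ c : K, f = algebraMap K F c ∨ 0 < w.ord (f - algebraMap K F c))
    {ι : Type*} [Fintype ι] (σ : ι → F →ₐ[K] LaurentSeries ℂ) (hσ : Function.Injective σ)
    (hcard : Fintype.card ι = n)
    (e : ℕ) (he : 0 < e) (ζ : ℂˣ) (hζ : IsPrimitiveRoot (ζ : ℂ) e)
    (π : Equiv.Perm ι) (hπ : ∀ i f, σ (π i) f = rot ζ (σ i f))
    (ξ : LaurentSeries ℂ) (hξ : ∀ i, σ i x = ξ) (hξ0 : ξ ≠ 0) (hξord : ξ.order = e) :
    Nat.card (MulAction.orbitRel.Quotient (Subgroup.zpowers π) ι) = Z.card ∧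
    ∀ w ∈ Z, ∃ i : ι, ∃ m : ℤ, 0 < m ∧ ∀ f : F, f ≠ 0 → (σ i f).order = m * w.ord f := by
  classical
  have hx0 : ∀ _i : ι, x ≠ 0 := fun i hx => hξ0 (by rw [← hξ i, hx, map_zero])
  have hex : ∀ i : ι, ∃ y : F, y ≠ 0 ∧ (σ i y).order ≠ 0 := fun i =>
    ⟨x, hx0 i, by rw [hξ i, hξord]; exact_mod_cast he.ne'⟩
  -- the place induced by the `i`-th embedding
  set p : ι → Place K F := fun i => placeOfEmb (σ i) (hex i) with hp
  have hm : ∀ i, ∃ m : ℤ, 0 < m ∧ ∀ f : F, f ≠ 0 → (σ i f).order = m * (p i).ord f :=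
    fun i => exists_order_eq_mul_ord (σ i) (hex i)
  choose m hm0 hmord using hm
  have hme : ∀ i, (e : ℤ) = m i * (p i).ord x := fun i => by
    rw [← hmord i x (hx0 i), hξ i, hξord]
  have hpZ : ∀ i, p i ∈ Z := fun i => by
    rw [hZ]
    have h1 := hme i
    have h2 := hm0 i
    by_contra hcon
    rw [not_lt] at hcon
    have h3 : m i * (p i).ord x ≤ 0 := mul_nonpos_of_nonneg_of_nonpos h2.le hcon
    have h4 : (0 : ℤ) < e := by exact_mod_cast he
    omega
  -- Step 1: each fibre has at most `ord_w x` elements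
  have hfib : ∀ w ∈ Z, (Finset.univ.filter (fun i => p i = w)).card ≤ (w.ord x).toNat := by
    intro w hw
    have hwpos : 0 < w.ord x := (hZ w).mp hw
    obtain ⟨ϖ, hϖ⟩ := IsDiscreteValuationRing.exists_irreducible w.toValuationSubring
    have ht : w.ord (ϖ : F) = 1 := w.ord_coe_irreducible hϖ
    have ht0 : (ϖ : F) ≠ 0 := fun h => by
      rw [h, Place.ord_zero] at ht
      exact zero_ne_one ht
    generalize (ϖ : F) = t at ht ht0
    set E := (w.ord x).toNat with hE
    have hEcast : (E : ℤ) = w.ord x := Int.toNat_of_nonneg hwpos.le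
    have hEpos : 0 < E := by omega
    have hxw : x ≠ 0 := fun h => by
      rw [h, Place.ord_zero] at hwpos
      exact lt_irrefl _ hwpos
    set v : F := x * (t ^ E)⁻¹ with hv_def
    have hv0 : v ≠ 0 := mul_ne_zero hxw (inv_ne_zero (pow_ne_zero E ht0))
    have hxv : x = v * t ^ E := by
      rw [hv_def, mul_assoc, inv_mul_cancel₀ (pow_ne_zero E ht0), mul_one]
    have hv : w.ord v = 0 := by
      have h1 : w.ord x = w.ord v + w.ord (t ^ E) := by
        conv_lhs => rw [hxv]
        exact w.ord_mul hv0 (pow_ne_zero E ht0)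
      have h2 : w.ord (t ^ E) = E := by
        rw [← zpow_natCast, w.ord_zpow, ht, mul_one]
      omega
    obtain ⟨c, hc⟩ := hres w hw v hv0 hv.ge
    have hc0 : c ≠ 0 := by
      rintro rfl
      rcases hc with hc | hc
      · exact hv0 (by simpa using hc)
      · simp [hv] at hc
    have hc' : algebraMap K ℂ c ≠ 0 := by
      rwa [Ne, map_eq_zero]
    have hkey : ∀ i, p i = w →
        ((σ i t).coeff (m i)) ^ E = ξ.coeff e / algebraMap K ℂ c := by
      intro i hi
      have hord_i : ∀ f : F, f ≠ 0 → (σ i f).order = m i * w.ord f := by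
        intro f hf
        rw [hmord i f hf, hi]
      have h1 := Criterion.coeff_eq_of_factor w (σ i) (m i) (hm0 i) hord_i t ht v hv0 hv c hc E
      rw [← hxv, hξ i] at h1
      have hmE : m i * (E : ℤ) = e := by rw [hEcast, hme i, hi]
      rw [hmE] at h1
      rw [h1]
      field_simp
    have hmw : ∀ i j, p i = w → p j = w → m i = m j := by
      intro i j hi hj
      have h1 := hme i
      have h2 := hme j
      rw [hi] at h1
      rw [hj] at h2
      have h3 : m i * w.ord x = m j * w.ord x := by rw [← h1, ← h2]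
      exact mul_right_cancel₀ hwpos.ne' h3
    calc (Finset.univ.filter (fun i => p i = w)).card
        ≤ (Polynomial.nthRoots E (ξ.coeff e / algebraMap K ℂ c)).toFinset.card := by
          apply Finset.card_le_card_of_injOn (fun i => (σ i t).coeff (m i))
          · intro i hi
            simp only [Finset.coe_filter, Finset.mem_univ, true_and, Set.mem_ofPred_eq] at hi
            simp only [Finset.mem_coe, Multiset.mem_toFinset]
            rw [Polynomial.mem_nthRoots hEpos]
            exact hkey i hi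
          · intro i hi j hj hij
            simp only [Finset.coe_filter, Finset.mem_univ, true_and, Set.mem_ofPred_eq] at hi hj
            apply hσ
            have hmij := hmw i j hi hj
            refine rigidity w (hres w hw) (σ i) (σ j) (m i) (hm0 i) ?_ ?_ x hwpos ?_ t ht ?_
            · intro f hf
              rw [hmord i f hf, hi]
            · intro f hf
              rw [hmij, hmord j f hf, hj]
            · rw [hξ i, hξ j]
            · simp only at hij
              rw [hij, hmij]
      _ ≤ (Polynomial.nthRoots E (ξ.coeff e / algebraMap K ℂ c)).card :=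
          Multiset.toFinset_card_le _
      _ ≤ E := Polynomial.card_nthRoots E _
  -- Step 2: counting
  have hcount : ∀ w ∈ Z, (Finset.univ.filter (fun i => p i = w)).card = (w.ord x).toNat := by
    have h1 : (Finset.univ : Finset ι).card =
        ∑ w ∈ Z, (Finset.univ.filter (fun i => p i = w)).card :=
      Finset.card_eq_sum_card_fiberwise (fun i _ => hpZ i)
    have h2 : ∑ w ∈ Z, (w.ord x).toNat = n := by
      have h : ((∑ w ∈ Z, (w.ord x).toNat : ℕ) : ℤ) = n := by
        rw [← hsum, Nat.cast_sum]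
        apply Finset.sum_congr rfl
        intro w hw
        exact Int.toNat_of_nonneg ((hZ w).mp hw).le
      exact_mod_cast h
    have h3 : ∑ w ∈ Z, (Finset.univ.filter (fun i => p i = w)).card =
        ∑ w ∈ Z, (w.ord x).toNat := by
      rw [← h1, h2, Finset.card_univ, hcard]
    exact (Finset.sum_eq_sum_iff_of_le hfib).mp h3
  have hsecond : ∀ w ∈ Z, ∃ i : ι, p i = w := by
    intro w hw
    have hpos : 0 < (Finset.univ.filter (fun i => p i = w)).card := by
      rw [hcount w hw]
      have := (hZ w).mp hw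
      omega
    obtain ⟨i, hi⟩ := Finset.card_pos.mp hpos
    exact ⟨i, (Finset.mem_filter.mp hi).2⟩
  -- Step 3: orbits
  have hpπ : ∀ i, p (π i) = p i := by
    intro i
    apply placeOfEmb_eq_of_order (σ (π i)) (hex (π i)) (p i) (m i) (hm0 i)
    intro f hf
    rw [hπ i f, Criterion.order_rot', hmord i f hf]
  have hpπk : ∀ (k : ℕ) i, p ((π ^ k) i) = p i := by
    intro k
    induction k with
    | zero => intro i; simp
    | succ k ih =>
      intro i
      rw [pow_succ', Equiv.Perm.mul_apply, hpπ, ih]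
  have hpπz : ∀ (k : ℤ) i, p ((π ^ k) i) = p i := by
    intro k i
    cases k with
    | ofNat k => simpa using hpπk k i
    | negSucc k =>
      have h := hpπk (k + 1) ((π ^ (k + 1))⁻¹ i)
      have hfix : (π ^ (k + 1)) ((π ^ (k + 1))⁻¹ i) = i := Equiv.Perm.eq_inv_iff_eq.mp rfl
      rw [hfix] at h
      rw [zpow_negSucc]
      exact h.symm
  have hσk : ∀ (k : ℕ) i f, σ ((π ^ k) i) f = (rot ζ)^[k] (σ i f) := by
    intro k
    induction k with
    | zero => intro i f; simp
    | succ k ih =>
      intro i f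
      rw [pow_succ', Equiv.Perm.mul_apply, hπ, ih, Function.iterate_succ_apply']
  have hdvd : ∀ i (r : ℕ), (π ^ r) i = i → ((p i).ord x).toNat ∣ r := by
    intro i r hr
    obtain ⟨ϖ, hϖ⟩ := IsDiscreteValuationRing.exists_irreducible (p i).toValuationSubring
    have ht : (p i).ord (ϖ : F) = 1 := (p i).ord_coe_irreducible hϖ
    have ht0 : (ϖ : F) ≠ 0 := fun h => by
      rw [h, Place.ord_zero] at ht
      exact zero_ne_one ht
    generalize (ϖ : F) = t at ht ht0
    have hord : (σ i t).order = m i := by rw [hmord i _ ht0, ht, mul_one]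
    have hne : σ i t ≠ 0 := by
      intro h
      exact ht0 ((map_eq_zero (σ i)).mp h)
    have ha : (σ i t).coeff (m i) ≠ 0 := by
      rw [← hord]
      exact Criterion.coeff_order_ne_zero' hne
    have h1 := hσk r i t
    rw [hr] at h1
    have h2 := congrArg (fun g => HahnSeries.coeff g (m i)) h1
    simp only [Criterion.coeff_rot_iterate] at h2
    have h3 : ((ζ : ℂ) ^ (m i)) ^ r = 1 := by
      have h : (1 : ℂ) * (σ i t).coeff (m i) = ((ζ : ℂ) ^ (m i)) ^ r * (σ i t).coeff (m i) := by
        rw [one_mul]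
        exact h2
      exact (mul_right_cancel₀ ha h).symm
    have h4 : (ζ : ℂ) ^ (m i * (r : ℤ)) = 1 := by
      rw [zpow_mul, zpow_natCast]
      exact h3
    have h5 : (e : ℤ) ∣ m i * r := (hζ.zpow_eq_one_iff_dvd _).mp h4
    have hwpos : 0 < (p i).ord x := (hZ _).mp (hpZ i)
    have hE : (((p i).ord x).toNat : ℤ) = (p i).ord x := Int.toNat_of_nonneg hwpos.le
    rw [hme i, ← hE] at h5
    have h6 : (((p i).ord x).toNat : ℤ) ∣ (r : ℤ) := (mul_dvd_mul_iff_left (hm0 i).ne').mp h5
    exact_mod_cast h6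
  have hcover : ∀ i j, p j = p i → ∃ k : ℕ, (π ^ k) i = j := by
    intro i j hij
    have hinj : Set.InjOn (fun k : ℕ => (π ^ k) i) (Finset.range ((p i).ord x).toNat) := by
      have key : ∀ a b : ℕ, a < b → b < ((p i).ord x).toNat → (π ^ a) i ≠ (π ^ b) i := by
        intro a b hab hb h
        have hb' : b = (b - a) + a := by omega
        rw [hb', pow_add, Equiv.Perm.mul_apply] at h
        have hd := hdvd ((π ^ a) i) (b - a) h.symm
        rw [hpπk a i] at hd
        have := Nat.le_of_dvd (by omega) hd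
        omega
      intro a ha b hb hab
      simp only [Finset.coe_range, Set.mem_Iio] at ha hb
      by_contra hne
      rcases lt_or_gt_of_ne hne with hlt | hlt
      · exact key a b hlt hb hab
      · exact key b a hlt ha hab.symm
    have hsub : (Finset.range ((p i).ord x).toNat).image (fun k : ℕ => (π ^ k) i) ⊆
        Finset.univ.filter (fun i' => p i' = p i) := by
      intro j' hj'
      obtain ⟨k, -, rfl⟩ := Finset.mem_image.mp hj'
      exact Finset.mem_filter.mpr ⟨Finset.mem_univ _, hpπk k i⟩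
    have hcard' : (Finset.univ.filter (fun i' => p i' = p i)).card ≤
        ((Finset.range ((p i).ord x).toNat).image (fun k : ℕ => (π ^ k) i)).card := by
      rw [Finset.card_image_of_injOn hinj, Finset.card_range, hcount (p i) (hpZ i)]
    have heq := Finset.eq_of_subset_of_card_le hsub hcard'
    have hj : j ∈ Finset.univ.filter (fun i' => p i' = p i) :=
      Finset.mem_filter.mpr ⟨Finset.mem_univ _, hij⟩
    rw [← heq] at hj
    obtain ⟨k, -, hk⟩ := Finset.mem_image.mp hj
    exact ⟨k, hk⟩
  refine ⟨?_, fun w hw => ?_⟩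
  · have hrel : ∀ i j : ι, (MulAction.orbitRel (Subgroup.zpowers π) ι) i j → p i = p j := by
      intro i j h
      rw [MulAction.orbitRel_apply] at h
      obtain ⟨⟨g, hg⟩, rfl⟩ := h
      obtain ⟨k, rfl⟩ := Subgroup.mem_zpowers_iff.mp hg
      exact hpπz k j
    let pbar : MulAction.orbitRel.Quotient (Subgroup.zpowers π) ι → {w // w ∈ Z} :=
      Quotient.lift (fun i => (⟨p i, hpZ i⟩ : {w // w ∈ Z}))
        (fun i j h => Subtype.ext (hrel i j h))
    have hbij : Function.Bijective pbar := by
      constructor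
      · intro a b hab
        induction a using Quotient.inductionOn with
        | _ i =>
        induction b using Quotient.inductionOn with
        | _ j =>
        have hij : p i = p j := congrArg Subtype.val hab
        obtain ⟨k, hk⟩ := hcover j i hij
        apply Quotient.sound
        show (MulAction.orbitRel (Subgroup.zpowers π) ι) i j
        rw [MulAction.orbitRel_apply]
        exact ⟨⟨π ^ k, Subgroup.npow_mem_zpowers π k⟩, hk⟩
      · rintro ⟨w, hw⟩
        obtain ⟨i, hi⟩ := hsecond w hw
        exact ⟨Quotient.mk'' i, Subtype.ext hi⟩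
    rw [Nat.card_congr (Equiv.ofBijective pbar hbij), Nat.card_eq_fintype_card, Fintype.card_coe]
  · obtain ⟨i, hi⟩ := hsecond w hw
    exact ⟨i, m i, hm0 i, fun f hf => by rw [hmord i f hf, hi]⟩

end Fermat.Agent.S24
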