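import Fermat.Agent.S24.Defs

/-!
# S24, A0: exchange / degrees for `K(x - a)`, `K(1/x)`
-/

set_option autoImplicit false

namespace Fermat.Agent.S24.Exchange

open Fermat.Agent.S24 IntermediateField Cardinal

universe u v

variable {K : Type u} {F : Type v} [Field K] [Field F] [Algebra K F]

/-- In a function field of one variable, `F` is finite over `K(y)` for every transcendental `y`. -/
theorem finiteDimensional_adjoin_of_transcendental (hF : IsFunctionField1 K F) {y : F}
    (hy : Transcendental K y) :
    FiniteDimensional (IntermediateField.adjoin K ({y} : Set F)) F := by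
  obtain ⟨x, hx, hfin⟩ := hF
  -- `{x}` is a transcendence basis
  have hxi : AlgebraicIndependent K (fun _ : PUnit.{v+1} => x) :=
    algebraicIndependent_unique_type_iff.mpr hx
  have hrx : Set.range (fun _ : PUnit.{v+1} => x) = {x} := by
    ext z; simp [eq_comm]
  have hry : Set.range (fun _ : PUnit.{v+1} => y) = {y} := by
    ext z; simp [eq_comm]
  have halgx : Algebra.IsAlgebraic (Algebra.adjoin K (Set.range fun _ : PUnit.{v+1} => x)) F := by
    rw [hrx, ← IntermediateField.isAlgebraic_adjoin_iff_top]
    exact Algebra.IsAlgebraic.of_finite _ _
  have hxb : IsTranscendenceBasis K (fun _ : PUnit.{v+1} => x) :=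
    hxi.isTranscendenceBasis_iff_isAlgebraic.mpr halgx
  have htr : Algebra.trdeg K F = #PUnit.{v+1} := hxb.cardinalMk_eq_trdeg.symm
  -- `{y}` is algebraically independent of the same size, hence a transcendence basis
  have hyi : AlgebraicIndependent K (fun _ : PUnit.{v+1} => y) :=
    algebraicIndependent_unique_type_iff.mpr hy
  have hyb : IsTranscendenceBasis K (fun _ : PUnit.{v+1} => y) :=
    hyi.isTranscendenceBasis_of_trdeg_le_of_finite htr.le
  have halgy : Algebra.IsAlgebraic (IntermediateField.adjoin K ({y} : Set F)) F := by
    have := hyb.isAlgebraic_field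
    rwa [hry] at this
  -- `F` is essentially of finite type over `K`, hence over `K(y)`
  have h1 : Algebra.EssFiniteType K (IntermediateField.adjoin K ({x} : Set F)) :=
    IntermediateField.essFiniteType_iff.mpr
      (IntermediateField.fg_adjoin_of_finite (Set.finite_singleton x))
  have h2 : Algebra.EssFiniteType K F :=
    Algebra.EssFiniteType.comp K (IntermediateField.adjoin K ({x} : Set F)) F
  have h3 : Algebra.EssFiniteType (IntermediateField.adjoin K ({y} : Set F)) F :=
    Algebra.EssFiniteType.of_comp K (IntermediateField.adjoin K ({y} : Set F)) F
  exact Algebra.finite_of_essFiniteType_of_isAlgebraic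

/-- Over an algebraically closed field, the transcendental elements are exactly the
non-constants. -/
theorem transcendental_iff_not_mem_range [IsAlgClosed K] (y : F) :
    Transcendental K y ↔ y ∉ Set.range (algebraMap K F) := by
  constructor
  · rintro hy ⟨a, rfl⟩
    exact hy (isAlgebraic_algebraMap a)
  · intro hy halg
    apply hy
    have hint : IsIntegral K y := halg.isIntegral
    have h := hint.mem_range_algebraMap_of_minpoly_splits (K := K) (L := F)
      (IsAlgClosed.splits _)
    exact RingHom.mem_range.mp h

theorem adjoin_sub_algebraMap (x : F) (a : K) :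
    IntermediateField.adjoin K ({x - algebraMap K F a} : Set F) =
      IntermediateField.adjoin K {x} := by
  apply le_antisymm
  · rw [IntermediateField.adjoin_simple_le_iff]
    exact sub_mem (IntermediateField.mem_adjoin_simple_self K x) (IntermediateField.algebraMap_mem _ a)
  · rw [IntermediateField.adjoin_simple_le_iff]
    have h1 : x - algebraMap K F a ∈ IntermediateField.adjoin K ({x - algebraMap K F a} : Set F) :=
      IntermediateField.mem_adjoin_simple_self K _
    have h2 := add_mem h1 (IntermediateField.algebraMap_mem (IntermediateField.adjoin K
      ({x - algebraMap K F a} : Set F)) a)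
    simpa using h2

theorem adjoin_inv (x : F) :
    IntermediateField.adjoin K ({x⁻¹} : Set F) = IntermediateField.adjoin K {x} := by
  apply le_antisymm
  · rw [IntermediateField.adjoin_simple_le_iff]
    exact inv_mem (IntermediateField.mem_adjoin_simple_self K x)
  · rw [IntermediateField.adjoin_simple_le_iff]
    have h1 : x⁻¹ ∈ IntermediateField.adjoin K ({x⁻¹} : Set F) :=
      IntermediateField.mem_adjoin_simple_self K _
    simpa using inv_mem h1

theorem finrank_adjoin_sub_algebraMap (x : F) (a : K) :
    Module.finrank (IntermediateField.adjoin K ({x - algebraMap K F a} : Set F)) F =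
      Module.finrank (IntermediateField.adjoin K ({x} : Set F)) F := by
  rw [adjoin_sub_algebraMap]

theorem finrank_adjoin_inv (x : F) :
    Module.finrank (IntermediateField.adjoin K ({x⁻¹} : Set F)) F =
      Module.finrank (IntermediateField.adjoin K ({x} : Set F)) F := by
  rw [adjoin_inv]

theorem finiteDimensional_adjoin_sub_algebraMap_iff (x : F) (a : K) :
    FiniteDimensional (IntermediateField.adjoin K ({x - algebraMap K F a} : Set F)) F ↔
      FiniteDimensional (IntermediateField.adjoin K ({x} : Set F)) F := by
  rw [adjoin_sub_algebraMap]

theorem finiteDimensional_adjoin_inv_iff (x : F) :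
    FiniteDimensional (IntermediateField.adjoin K ({x⁻¹} : Set F)) F ↔
      FiniteDimensional (IntermediateField.adjoin K ({x} : Set F)) F := by
  rw [adjoin_inv]

theorem finiteDimensional_adjoin_sub_algebraMap (x : F) (a : K)
    [h : FiniteDimensional (IntermediateField.adjoin K ({x} : Set F)) F] :
    FiniteDimensional (IntermediateField.adjoin K ({x - algebraMap K F a} : Set F)) F :=
  (finiteDimensional_adjoin_sub_algebraMap_iff x a).mpr h

theorem finiteDimensional_adjoin_inv (x : F)
    [h : FiniteDimensional (IntermediateField.adjoin K ({x} : Set F)) F] :
    FiniteDimensional (IntermediateField.adjoin K ({x⁻¹} : Set F)) F :=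
  (finiteDimensional_adjoin_inv_iff x).mpr h

theorem transcendental_sub_algebraMap {x : F} (hx : Transcendental K x) (a : K) :
    Transcendental K (x - algebraMap K F a) := by
  intro h
  apply hx
  have := h.add (isAlgebraic_algebraMap (R := K) (A := F) a)
  simpa using this

theorem transcendental_inv {x : F} (hx : Transcendental K x) : Transcendental K x⁻¹ := by
  intro h
  apply hx
  simpa using h.inv

theorem transcendental_sub_algebraMap_iff {x : F} (a : K) :
    Transcendental K (x - algebraMap K F a) ↔ Transcendental K x := by
  refine ⟨fun h => ?_, fun h => transcendental_sub_algebraMap h a⟩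
  have := transcendental_sub_algebraMap h (-a)
  simpa using this

theorem transcendental_inv_iff {x : F} : Transcendental K x⁻¹ ↔ Transcendental K x :=
  ⟨fun h => by simpa using transcendental_inv h, transcendental_inv⟩

end Fermat.Agent.S24.Exchange
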