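import Fermat.Agent.S24.Defs

/-!
# S24: reduction of the frozen statement to three blocks

* `HurwitzFormula K F` (Block A, pure algebra of function fields): the Riemann–Hurwitz formula
  for the degree of the divisor of an arbitrary nonzero differential, in terms of the numbers of
  places over the finitely many branch values of a non-constant function `x`.
* `ModularRamificationData N` (Block B, modular input): degree and fibre cardinalities of
  `j : X₀(N) → ℙ¹`.
* `GenusFormulaIsNat N` (Block C, arithmetic): the classical genus formula is a natural number.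
-/

set_option autoImplicit false

open AlgebraicCurve KaehlerDifferential IntermediateField ModularCurve

namespace Fermat.Agent.S24

/-- **Block A.** Riemann–Hurwitz for a function field `F / K` with respect to any non-constant
`x : F` such that `F / K(x)` is finite of degree `n` and unramified outside the finite set `S`
of finite branch values (i.e. there are exactly `n` places over every `a ∉ S`). -/
def HurwitzFormula (K F : Type*) [Field K] [Field F] [Algebra K F]
    [HasCanonicalDivisor (K := K) (F := F)] : Prop :=
  ∀ (x : F) (n : ℕ), Transcendental K x → FiniteDimensional (IntermediateField.adjoin K ({x} : Set F)) F →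
    Module.finrank (IntermediateField.adjoin K ({x} : Set F)) F = n →
    ∀ S : Finset K, (∀ a ∉ S, Nat.card (zerosOver x a) = n) →
      (∃ ω : Ω[F⁄K], ω ≠ 0) ∧
      ∀ (ω : Ω[F⁄K]) (hω : ω ≠ 0),
        Divisor.degree (canonicalDivisorOf hω) =
          (∑ a ∈ S, ((n : ℤ) - (Nat.card (zerosOver x a) : ℤ)))
            + ((n : ℤ) - (Nat.card (polesOf K x) : ℤ)) - 2 * (n : ℤ)

/-- **Block B.** The ramification data of `j` on the function field of `X₀(N)` over `ℚ̄`. -/
structure ModularRamificationData (N : ℕ) [NeZero N] : Prop where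
  transcendental : Transcendental Kbar (jBar N)
  finite : FiniteDimensional (IntermediateField.adjoin Kbar ({jBar N} : Set (FBar N))) (FBar N)
  degree : Module.finrank (IntermediateField.adjoin Kbar ({jBar N} : Set (FBar N))) (FBar N)
    = dedekindPsi N
  card_generic : ∀ a : Kbar, a ≠ 0 → a ≠ 1728 →
    Nat.card (zerosOver (jBar N) a) = dedekindPsi N
  card_zero : 3 * Nat.card (zerosOver (jBar N) (0 : Kbar)) = dedekindPsi N + 2 * nuThree N
  card_1728 : 2 * Nat.card (zerosOver (jBar N) (1728 : Kbar)) = dedekindPsi N + nuTwo N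
  card_infty : Nat.card (polesOf Kbar (jBar N)) = cuspCount N

/-- **Block C.** The classical genus formula takes natural number values. -/
def GenusFormulaIsNat (N : ℕ) : Prop := ∃ g : ℕ, (g : ℚ) = genusFormula N

/-- The frozen statement S24 follows from Blocks A, B and C. -/
theorem genus_eq_genusFormula_of_blocks (N : ℕ) [NeZero N]
    [HasCanonicalDivisor (K := Kbar) (F := FBar N)]
    (hA : HurwitzFormula Kbar (FBar N)) (hB : ModularRamificationData N)
    (hC : GenusFormulaIsNat N) :
    (AlgebraicCurve.genus Kbar (FBar N) : ℚ) = genusFormula N := by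
  classical
  obtain ⟨g, hg⟩ := hC
  have h1728 : (1728 : Kbar) ≠ 0 := by norm_num
  set S : Finset Kbar := {0, 1728} with hS
  have hS' : ∀ a ∉ S, Nat.card (zerosOver (jBar N) a) = dedekindPsi N := by
    intro a ha
    have h0 : a ≠ 0 := fun h => ha (by simp [hS, h])
    have h1 : a ≠ 1728 := fun h => ha (by simp [hS, h])
    exact hB.card_generic a h0 h1
  obtain ⟨hex, hdeg⟩ := hA (jBar N) (dedekindPsi N) hB.transcendental hB.finite hB.degree S hS'
  -- the degree of the canonical divisor
  have hsum : (∑ a ∈ S, (((dedekindPsi N : ℕ) : ℤ) - (Nat.card (zerosOver (jBar N) a) : ℤ)))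
      = (((dedekindPsi N : ℕ) : ℤ) - (Nat.card (zerosOver (jBar N) (0 : Kbar)) : ℤ))
        + (((dedekindPsi N : ℕ) : ℤ) - (Nat.card (zerosOver (jBar N) (1728 : Kbar)) : ℤ)) := by
    rw [hS, Finset.sum_insert (by simp [h1728.symm]), Finset.sum_singleton]
  have key : ∀ (ω : Ω[FBar N⁄Kbar]) (hω : ω ≠ 0),
      Divisor.degree (canonicalDivisorOf hω) = 2 * (g : ℤ) - 2 := by
    intro ω hω
    have h := hdeg ω hω
    rw [hsum, hB.card_infty] at h
    have h0 := hB.card_zero
    have h1 := hB.card_1728
    -- compare in ℚ
    have hq : ((Divisor.degree (canonicalDivisorOf hω) : ℤ) : ℚ) = 2 * (g : ℚ) - 2 := by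
      rw [hg, h]
      have h0q : (3 : ℚ) * (Nat.card (zerosOver (jBar N) (0 : Kbar)) : ℚ)
          = (dedekindPsi N : ℚ) + 2 * (nuThree N : ℚ) := by exact_mod_cast h0
      have h1q : (2 : ℚ) * (Nat.card (zerosOver (jBar N) (1728 : Kbar)) : ℚ)
          = (dedekindPsi N : ℚ) + (nuTwo N : ℚ) := by exact_mod_cast h1
      unfold genusFormula
      push_cast
      linarith
    have : ((Divisor.degree (canonicalDivisorOf hω) : ℤ) : ℚ) = ((2 * (g : ℤ) - 2 : ℤ) : ℚ) := by
      rw [hq]; push_cast; ring
    exact_mod_cast this
  -- unfold the genus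
  have hgenus : AlgebraicCurve.genus Kbar (FBar N) = g := by
    unfold AlgebraicCurve.genus
    rw [dif_pos hex, key _ hex.choose_spec]
    have : (2 * (g : ℤ) - 2 + 2).toNat = 2 * g := by
      rw [show (2 * (g : ℤ) - 2 + 2) = ((2 * g : ℕ) : ℤ) by push_cast; ring]
      exact Int.toNat_natCast _
    rw [this]
    omega
  rw [hgenus, hg]

end Fermat.Agent.S24
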