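import Fermat.Agent.S24.Defs
import Fermat.Agent.S24.Reduction
import Fermat.Agent.S24.PlaceDeg
import Fermat.Agent.S24.Exchange
import Fermat.Agent.S24.Criterion

/-!
# S24, piece B8.glue: from the criterion to fibre cardinalities

Generic glue: for a function field `F / K` (`K` algebraically closed) and a non-constant `y : F`
whose zeros are finite with `∑ ord = n`, a family of `n` distinct embeddings
`F → ℂ((u))`, stable under the rotation `u ↦ ζ u` and all sending `y` to one series of order `e`,
computes the number of zeros of `y` as the number of rotation orbits.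
-/

set_option autoImplicit false

open AlgebraicCurve

namespace Fermat.Agent.S24.RamGlue

variable {K F : Type*} [Field K] [Field F] [Algebra K F] [Algebra K ℂ]

/-- **Generic glue.**  Number of zeros of `y` = number of orbits of the rotation on the family of
embeddings. -/
theorem card_zeros_eq_card_orbits [IsAlgClosed K] (hF : OneVariable K F)
    (y : F) (n : ℕ)
    (hfin : {v : Place K F | 0 < v.ord y}.Finite)
    (hsum : ∑ᶠ v ∈ {v : Place K F | 0 < v.ord y}, v.ord y = (n : ℤ))
    {ι : Type*} [Fintype ι] (σ : ι → F →ₐ[K] LaurentSeries ℂ) (hσ : Function.Injective σ)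
    (hcard : Fintype.card ι = n)
    (e : ℕ) (he : 0 < e) (ζ : ℂˣ) (hζ : IsPrimitiveRoot (ζ : ℂ) e)
    (π : Equiv.Perm ι) (hπ : ∀ i f, σ (π i) f = rot ζ (σ i f))
    (ξ : LaurentSeries ℂ) (hξ : ∀ i, σ i y = ξ) (hξ0 : ξ ≠ 0) (hξord : ξ.order = e) :
    Nat.card {v : Place K F | 0 < v.ord y} =
      Nat.card (MulAction.orbitRel.Quotient (Subgroup.zpowers π) ι) := by
  classical
  set Z : Finset (Place K F) := hfin.toFinset with hZdef
  have hZ : ∀ w : Place K F, w ∈ Z ↔ 0 < w.ord y := by
    intro w
    simp [hZdef]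
  have hsum' : ∑ w ∈ Z, w.ord y = n := by
    rw [← hsum, finsum_mem_eq_finite_toFinset_sum _ hfin]
  have hres : ∀ w ∈ Z, ∀ f : F, f ≠ 0 → 0 ≤ w.ord f →
      ∃ c : K, f = algebraMap K F c ∨ 0 < w.ord (f - algebraMap K F c) := by
    intro w _ f hf hord
    exact exists_const_ord_sub_pos w hF ((mem_valuationSubring_iff_ord_nonneg w hf).mpr hord)
  obtain ⟨h1, -⟩ := criterion y n Z hZ hsum' hres σ hσ hcard e he ζ hζ π hπ ξ hξ hξ0 hξord
  rw [h1, Nat.card_coe_set_eq, Set.ncard_eq_toFinset_card _ hfin]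

/-- The orbits of the cyclic group generated by the permutation `toPerm g` are the orbits of the
cyclic group generated by `g`. -/
theorem card_orbits_toPerm {G X : Type*} [Group G] [MulAction G X] (g : G) :
    Nat.card (MulAction.orbitRel.Quotient
        (Subgroup.zpowers (MulAction.toPerm g : Equiv.Perm X)) X)
      = Nat.card (MulAction.orbitRel.Quotient (Subgroup.zpowers g) X) := by
  apply Nat.card_congr
  refine Quotient.congrRight ?_
  intro x y
  have key : ∀ k : ℤ, ((MulAction.toPerm g : Equiv.Perm X) ^ k) y = (g ^ k) • y := by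
    intro k
    have h : (MulAction.toPerm g : Equiv.Perm X) ^ k = MulAction.toPerm (g ^ k) := by
      rw [← MulAction.toPermHom_apply, ← map_zpow]
      rfl
    rw [h]
    rfl
  constructor
  · rintro ⟨⟨p, hp⟩, rfl⟩
    obtain ⟨k, rfl⟩ := Subgroup.mem_zpowers_iff.mp hp
    exact ⟨⟨g ^ k, Subgroup.zpow_mem_zpowers g k⟩, (key k).symm⟩
  · rintro ⟨⟨p, hp⟩, rfl⟩
    obtain ⟨k, rfl⟩ := Subgroup.mem_zpowers_iff.mp hp
    exact ⟨⟨_, Subgroup.zpow_mem_zpowers (MulAction.toPerm g : Equiv.Perm X) k⟩, key k⟩

/-- Orbit counts only depend on the cyclic subgroup. -/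
theorem card_orbits_congr {G X : Type*} [Group G] [MulAction G X] {g g' : G}
    (h : Subgroup.zpowers g = Subgroup.zpowers g') :
    Nat.card (MulAction.orbitRel.Quotient (Subgroup.zpowers g) X)
      = Nat.card (MulAction.orbitRel.Quotient (Subgroup.zpowers g') X) := by
  apply Nat.card_congr
  refine Quotient.congrRight ?_
  intro x y
  constructor
  · rintro ⟨⟨p, hp⟩, rfl⟩
    exact ⟨⟨p, h ▸ hp⟩, rfl⟩
  · rintro ⟨⟨p, hp⟩, rfl⟩
    exact ⟨⟨p, h ▸ hp⟩, rfl⟩

/-- The trivial cyclic group has singleton orbits. -/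
theorem card_orbits_one {G X : Type*} [Group G] [MulAction G X] :
    Nat.card (MulAction.orbitRel.Quotient (Subgroup.zpowers (1 : G)) X) = Nat.card X := by
  have e : MulAction.orbitRel.Quotient (Subgroup.zpowers (1 : G)) X ≃ X :=
    { toFun := Quotient.lift (fun x : X => x) (by
        rintro x y ⟨⟨p, hp⟩, rfl⟩
        obtain ⟨k, rfl⟩ := Subgroup.mem_zpowers_iff.mp hp
        simp [Subgroup.smul_def])
      invFun := fun x => Quotient.mk'' x
      left_inv := by
        intro q
        induction q using Quotient.inductionOn'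
        rfl
      right_inv := fun x => rfl }
  exact Nat.card_congr e

section Modular

open ModularCurve IntermediateField
open scoped MatrixGroups

variable (N : ℕ) [NeZero N] [Algebra Kbar ℂ]

/-- The index set of the embeddings: left cosets of `Γ₀(N)` in `SL(2, ℤ)`. -/
abbrev Cosets : Type := SL(2, ℤ) ⧸ CongruenceSubgroup.Gamma0 N

instance : Finite (Cosets N) := Subgroup.finite_quotient_of_finiteIndex

noncomputable instance : Fintype (Cosets N) := Fintype.ofFinite _

/-- **Abstract analytic input at one branch value.**  A family of embeddings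
`FBar N → ℂ((u))` indexed by the cosets `SL(2, ℤ) ⧸ Γ₀(N)`, pairwise distinct, on which the
element `g` (a generator of the stabiliser of the chosen base point) acts through the rotation
`u ↦ ζ u` with `ζ` a primitive `e`-th root of unity, and all sending `y` to one series of
order `e`. -/
def HasEmbeddings (y : FBar N) (g : SL(2, ℤ)) (e : ℕ) : Prop :=
  ∃ (σ : Cosets N → FBar N →ₐ[Kbar] LaurentSeries ℂ) (ζ : ℂˣ) (ξ : LaurentSeries ℂ),
    Function.Injective σ ∧ IsPrimitiveRoot (ζ : ℂ) e ∧
    (∀ x f, σ (g • x) f = rot ζ (σ x f)) ∧ (∀ x, σ x y = ξ) ∧ ξ ≠ 0 ∧ ξ.order = e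

/-- The orbit count of an element of `SL(2, ℤ)` on the cosets. -/
noncomputable def orb (g : SL(2, ℤ)) : ℕ :=
  Nat.card (MulAction.orbitRel.Quotient (Subgroup.zpowers g) (Cosets N))

variable {N}

/-- Zeros of `y` from an embedding package. -/
theorem card_zeros_of_hasEmbeddings (hF : OneVariable Kbar (FBar N))
    (y : FBar N)
    (hfin : {v : Place Kbar (FBar N) | 0 < v.ord y}.Finite)
    (hsum : ∑ᶠ v ∈ {v : Place Kbar (FBar N) | 0 < v.ord y}, v.ord y =
      (Nat.card (Cosets N) : ℤ))
    (g : SL(2, ℤ)) (e : ℕ) (he : 0 < e) (h : HasEmbeddings N y g e) :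
    Nat.card {v : Place Kbar (FBar N) | 0 < v.ord y} = orb N g := by
  obtain ⟨σ, ζ, ξ, hσ, hζ, hrot, hξ, hξ0, hξord⟩ := h
  have := card_zeros_eq_card_orbits hF y (Nat.card (Cosets N)) hfin hsum σ hσ
    (by rw [Nat.card_eq_fintype_card]) e he ζ hζ (MulAction.toPerm g)
    (fun x f => by simpa using hrot x f) ξ hξ hξ0 hξord
  rw [this, card_orbits_toPerm]
  rfl

/-- **Assembly of Block B** from: degree data (B4), the zeros theorem (A1), the orbit numerics
(B7) and the four embedding packages (analytic block). -/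
theorem modularRamificationData
    (htr : Transcendental Kbar (jBar N))
    (hfd : FiniteDimensional Kbar⟮jBar N⟯ (FBar N))
    (hdeg : Module.finrank Kbar⟮jBar N⟯ (FBar N) = dedekindPsi N)
    (hzeros : ∀ y : FBar N, Transcendental Kbar y → FiniteDimensional Kbar⟮y⟯ (FBar N) →
      {v : Place Kbar (FBar N) | 0 < v.ord y}.Finite ∧
      ∑ᶠ v ∈ {v : Place Kbar (FBar N) | 0 < v.ord y}, v.ord y =
        (Module.finrank Kbar⟮y⟯ (FBar N) : ℤ))
    (hcard : Nat.card (Cosets N) = dedekindPsi N)
    (h3 : 3 * orb N (ModularGroup.S * ModularGroup.T) = dedekindPsi N + 2 * nuThree N)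
    (h2 : 2 * orb N ModularGroup.S = dedekindPsi N + nuTwo N)
    (hT : orb N ModularGroup.T = cuspCount N)
    (hgen : ∀ a : Kbar, a ≠ 0 → a ≠ 1728 →
      HasEmbeddings N (jBar N - algebraMap Kbar (FBar N) a) 1 1)
    (h0 : ∃ g : SL(2, ℤ), Subgroup.zpowers g = Subgroup.zpowers (ModularGroup.S * ModularGroup.T) ∧
      HasEmbeddings N (jBar N - algebraMap Kbar (FBar N) 0) g 3)
    (h1728 : ∃ g : SL(2, ℤ), Subgroup.zpowers g = Subgroup.zpowers ModularGroup.S ∧
      HasEmbeddings N (jBar N - algebraMap Kbar (FBar N) 1728) g 2)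
    (hinf : ∃ g : SL(2, ℤ), Subgroup.zpowers g = Subgroup.zpowers ModularGroup.T ∧
      HasEmbeddings N (jBar N)⁻¹ g N) :
    ModularRamificationData N := by
  have := hfd
  have halg : Algebra.IsAlgebraic Kbar⟮jBar N⟯ (FBar N) := Algebra.IsAlgebraic.of_finite _ _
  have hF : OneVariable Kbar (FBar N) := oneVariable_of_exists (jBar N) htr
  -- zeros of `j - a`
  have hza : ∀ (a : Kbar) (g : SL(2, ℤ)) (e : ℕ), 0 < e →
      HasEmbeddings N (jBar N - algebraMap Kbar (FBar N) a) g e →
      Nat.card (zerosOver (jBar N) a) = orb N g := by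
    intro a g e he h
    have htr' := Exchange.transcendental_sub_algebraMap htr a
    have hfd' := Exchange.finiteDimensional_adjoin_sub_algebraMap (jBar N) a
    obtain ⟨hfin, hsum⟩ := hzeros _ htr' hfd'
    rw [Exchange.finrank_adjoin_sub_algebraMap, hdeg, ← hcard] at hsum
    exact card_zeros_of_hasEmbeddings hF _ hfin hsum g e he h
  refine ⟨htr, hfd, hdeg, ?_, ?_, ?_, ?_⟩
  · intro a ha0 ha1
    rw [hza a 1 1 one_pos (hgen a ha0 ha1)]
    exact (card_orbits_one (G := SL(2, ℤ)) (X := Cosets N)).trans hcard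
  · obtain ⟨g, hg, h⟩ := h0
    rw [hza 0 g 3 (by norm_num) h]
    have hc : orb N g = orb N (ModularGroup.S * ModularGroup.T) :=
      card_orbits_congr (X := Cosets N) hg
    rw [hc]
    exact h3
  · obtain ⟨g, hg, h⟩ := h1728
    rw [hza 1728 g 2 (by norm_num) h]
    have hc : orb N g = orb N ModularGroup.S := card_orbits_congr (X := Cosets N) hg
    rw [hc]
    exact h2
  · obtain ⟨g, hg, h⟩ := hinf
    have htr' := Exchange.transcendental_inv htr
    have hfd' := Exchange.finiteDimensional_adjoin_inv (K := Kbar) (jBar N)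
    obtain ⟨hfin, hsum⟩ := hzeros _ htr' hfd'
    rw [Exchange.finrank_adjoin_inv, hdeg, ← hcard] at hsum
    have hset : polesOf Kbar (jBar N) =
        {v : Place Kbar (FBar N) | 0 < v.ord (jBar N)⁻¹} := by
      ext v
      simp only [mem_polesOf, Set.mem_ofPred_eq, Place.ord_inv]
      omega
    rw [hset, card_zeros_of_hasEmbeddings hF _ hfin hsum g N (NeZero.pos N) h]
    have hc : orb N g = orb N ModularGroup.T := card_orbits_congr (X := Cosets N) hg
    rw [hc]
    exact hT

end Modular

end Fermat.Agent.S24.RamGlue
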