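/-
S24, Block B, piece P2 (abstract part): the embedding package at the cusp,
`∃ g, zpowers g = zpowers T ∧ RamGlue.HasEmbeddings N (jBar N)⁻¹ g N`,
from an evaluation `ev : genAlg N →ₐ[Kbar] (ℍ → ℂ)` and a local expansion datum `(R, L)` at `i∞`
(`R` = functions of period `N` meromorphic at the cusp, `L` = expansion in `u = q^{1/N}`),
via `EmbFamily.exists_family`.
-/
import Mathlib
import Fermat.Agent.S24.EmbFamily
import Fermat.Agent.S24.RamGlue
import Fermat.Agent.S24.JD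

set_option autoImplicit false

open UpperHalfPlane
open scoped MatrixGroups

noncomputable section

namespace Fermat.Agent.S24.CuspPackage

open Fermat.Agent.S24 Fermat.Agent.S24.FieldGen Fermat.Agent.S24.RamGlue

variable {N : ℕ} [Algebra Kbar ℂ]

/-- Membership of all translates `ev a ∘ g` in a subalgebra `R` of functions follows from the
membership of the translates of the generators. -/
theorem translate_mem (ev : genAlg N →ₐ[Kbar] (ℍ → ℂ)) (R : Subalgebra ℂ (ℍ → ℂ))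
    (hgen : ∀ d (hd : d ∣ N) (g : SL(2, ℤ)),
      (fun τ : ℍ => ev ⟨genJ d, genJ_mem_genAlg hd⟩ (g • τ)) ∈ R)
    (a : genAlg N) (g : SL(2, ℤ)) : (fun τ : ℍ => ev a (g • τ)) ∈ R := by
  obtain ⟨x, hx⟩ := a
  induction hx using Algebra.adjoin_induction with
  | mem x hx =>
    obtain ⟨d, hd, rfl⟩ := hx
    exact hgen d hd g
  | algebraMap c =>
    have : (fun τ : ℍ => ev ⟨algebraMap Kbar (LaurentSeries Kbar) c,
        Subalgebra.algebraMap_mem _ c⟩ (g • τ)) = algebraMap ℂ (ℍ → ℂ) (algebraMap Kbar ℂ c) := by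
      funext τ
      have h1 : (⟨algebraMap Kbar (LaurentSeries Kbar) c, Subalgebra.algebraMap_mem _ c⟩ :
          genAlg N) = algebraMap Kbar (genAlg N) c := rfl
      rw [h1, AlgHom.commutes]
      rfl
    rw [this]
    exact R.algebraMap_mem _
  | add x y hx hy ihx ihy =>
    have : (fun τ : ℍ => ev ⟨x + y, Subalgebra.add_mem _ hx hy⟩ (g • τ))
        = (fun τ : ℍ => ev ⟨x, hx⟩ (g • τ)) + fun τ : ℍ => ev ⟨y, hy⟩ (g • τ) := by
      funext τ
      have h1 : (⟨x + y, Subalgebra.add_mem _ hx hy⟩ : genAlg N) = ⟨x, hx⟩ + ⟨y, hy⟩ := rfl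
      rw [h1, map_add]
      rfl
    rw [this]
    exact R.add_mem ihx ihy
  | mul x y hx hy ihx ihy =>
    have : (fun τ : ℍ => ev ⟨x * y, Subalgebra.mul_mem _ hx hy⟩ (g • τ))
        = (fun τ : ℍ => ev ⟨x, hx⟩ (g • τ)) * fun τ : ℍ => ev ⟨y, hy⟩ (g • τ) := by
      funext τ
      have h1 : (⟨x * y, Subalgebra.mul_mem _ hx hy⟩ : genAlg N) = ⟨x, hx⟩ * ⟨y, hy⟩ := rfl
      rw [h1, map_mul]
      rfl
    rw [this]
    exact R.mul_mem ihx ihy

variable [NeZero N]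

/-- **Abstract cusp package.**  `ε` is a generator of `⟨T⟩` (in practice `T⁻¹`, so that
`f ∘ ε⁻¹ = f (· + 1)`), `ζ` a primitive `N`-th root of unity, and the expansion of `j` has
order `-N` in the local parameter `u = q^{1/N}`. -/
theorem hasEmbeddings_cusp_of
    (ev : genAlg N →ₐ[Kbar] (ℍ → ℂ)) (ev_inj : Function.Injective ev)
    (ev_inv : ∀ a (γ : SL(2, ℤ)), γ ∈ CongruenceSubgroup.Gamma0 N → ∀ τ, ev a (γ • τ) = ev a τ)
    (ev_dist : ∀ γ : SL(2, ℤ), (∀ a τ, ev a (γ • τ) = ev a τ) → γ ∈ CongruenceSubgroup.Gamma0 N)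
    (ev_gen : ∀ d (hd : d ∣ N), ev ⟨genJ d, genJ_mem_genAlg hd⟩ = jD d)
    (R : Subalgebra ℂ (ℍ → ℂ)) (L : R →ₐ[ℂ] LaurentSeries ℂ) (L_inj : Function.Injective L)
    (hgen : ∀ d, d ∣ N → ∀ g : SL(2, ℤ), (fun τ : ℍ => jD d (g • τ)) ∈ R)
    (ε : SL(2, ℤ)) (hεT : Subgroup.zpowers ε = Subgroup.zpowers ModularGroup.T)
    (ζ : ℂˣ) (hζ : IsPrimitiveRoot (ζ : ℂ) N)
    (hε : ∀ (f : ℍ → ℂ) (hf : f ∈ R) (hf' : (fun τ => f (ε⁻¹ • τ)) ∈ R),
      L ⟨_, hf'⟩ = rot ζ (L ⟨f, hf⟩))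
    (hjR : jFun ∈ R) (hord : (L ⟨jFun, hjR⟩).order = -(N : ℤ)) :
    ∃ g : SL(2, ℤ), Subgroup.zpowers g = Subgroup.zpowers ModularGroup.T ∧
      HasEmbeddings N (jBar N)⁻¹ g N := by
  have hgen' : ∀ d (hd : d ∣ N) (g : SL(2, ℤ)),
      (fun τ : ℍ => ev ⟨genJ d, genJ_mem_genAlg hd⟩ (g • τ)) ∈ R := by
    intro d hd g
    rw [ev_gen d hd]
    exact hgen d hd g
  have hmem : ∀ a (g : SL(2, ℤ)), (fun τ => ev a (g⁻¹ • τ)) ∈ R :=
    fun a g => translate_mem ev R hgen' a g⁻¹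
  obtain ⟨σ, hσinj, hσrot, hσincl⟩ :=
    EmbFamily.exists_family N ev ev_inj ev_inv ev_dist R L L_inj hmem ε ζ hε
  refine ⟨ε, hεT, σ, ζ, (L ⟨jFun, hjR⟩)⁻¹, hσinj, hζ, hσrot, ?_, ?_, ?_⟩
  · intro x
    induction x using QuotientGroup.induction_on with
    | H g =>
      rw [map_inv₀, jBar_eq N, hσincl g]
      congr 2
      apply Subtype.ext
      funext τ
      show ev ⟨genJ 1, genJ_mem_genAlg (one_dvd N)⟩ (g⁻¹ • τ) = jFun τ
      rw [ev_gen 1 (one_dvd N), jD_one, jFun_smul]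
  · apply inv_ne_zero
    intro h0
    rw [h0, HahnSeries.order_zero] at hord
    have : (N : ℤ) ≠ 0 := by exact_mod_cast NeZero.ne N
    omega
  · rw [Fermat.Agent.S24.order_inv, hord, neg_neg]

end Fermat.Agent.S24.CuspPackage
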