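import Fermat.Agent.S24.JD
import Fermat.Agent.S24.JQExpansion

/-!
# S24 (block II): q-expansion of `jD d τ = j(d τ)` in terms of the Prelude's `jq`, `qExpand d jq`

Bridge between `Fermat.Agent.S24.JQExpansion` (B0) and the shared definition `Fermat.Agent.S24.jD`.
-/

set_option autoImplicit false

namespace Fermat.Agent.S24.JDExpansion

open Complex UpperHalfPlane ModularForm EisensteinSeries Fermat.Agent.S24.JQExpansion

local notation "𝕢" => Function.Periodic.qParam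

theorem jFun_eq (τ : ℍ) : jFun τ = E₄ τ ^ 3 / ModularForm.discriminant τ := rfl

/-- `q^d · j(dτ) = ∑ c(m) (q^d)^m`, `c = jNum` coefficients. -/
theorem hasSum_jD {d : ℕ} (hd : 0 < d) (τ : ℍ) :
    HasSum (fun m : ℕ ↦ ((ModularCurve.jNum.coeff m : ℤ) : ℂ) * (𝕢 1 τ ^ d) ^ m)
      (𝕢 1 τ ^ d * jD d τ) := by
  have h := hasSum_jNum_scaled (d := d) (z := τ) (w := scaleH d τ) (coe_scaleH hd τ)
  rwa [← jFun_eq] at h

/-- The same series indexed by the exponent of `q`. -/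
theorem hasSum_jD' {d : ℕ} (hd : 0 < d) (τ : ℍ) :
    HasSum (fun n : ℕ ↦ (if d ∣ n then ((ModularCurve.jNum.coeff (n / d) : ℤ) : ℂ) else 0) *
      𝕢 1 τ ^ n) (𝕢 1 τ ^ d * jD d τ) := by
  have h := hasSum_jNum_scaled' hd (z := τ) (w := scaleH d τ) (coe_scaleH hd τ)
  rwa [← jFun_eq] at h

/-- Laurent coefficients of the Prelude's `qExpand ℚ d jq` (= `jqN d`), shifted by `d`. -/
theorem coeff_qExpand_jq_sub (d : ℕ) [NeZero d] (n : ℕ) :
    (ModularCurve.qExpand ℚ d ModularCurve.jq).coeff ((n : ℤ) - d) =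
      if d ∣ n then ((ModularCurve.jNum.coeff (n / d) : ℤ) : ℚ) else 0 := by
  split_ifs with h
  · obtain ⟨m, rfl⟩ := h
    have hd : 0 < d := Nat.pos_of_ne_zero (NeZero.ne d)
    rw [Nat.mul_div_cancel_left _ hd]
    have : ((d * m : ℕ) : ℤ) - d = (d : ℤ) * ((m : ℤ) - 1) := by push_cast; ring
    rw [this, ModularCurve.qExpand_coeff_mul, coeff_jq_natCast_sub_one]
  · apply ModularCurve.qExpand_coeff_of_not_dvd
    intro hdvd
    apply h
    have h2 : (d : ℤ) ∣ (n : ℤ) := by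
      have := dvd_add hdvd (dvd_refl (d : ℤ))
      simpa using this
    exact_mod_cast h2

/-- `q^d · j(dτ) = ∑ₙ a(n - d) qⁿ` with `a` the Laurent coefficients of the Prelude's
`qExpand ℚ d jq`. -/
theorem hasSum_jD_coeff (d : ℕ) [NeZero d] (τ : ℍ) :
    HasSum (fun n : ℕ ↦
      (((ModularCurve.qExpand ℚ d ModularCurve.jq).coeff ((n : ℤ) - d) : ℚ) : ℂ) * 𝕢 1 τ ^ n)
      (𝕢 1 τ ^ d * jD d τ) := by
  have hd : 0 < d := Nat.pos_of_ne_zero (NeZero.ne d)
  have h := hasSum_jD' hd τ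
  convert h using 2 with n
  rw [coeff_qExpand_jq_sub]
  split_ifs <;> simp

end Fermat.Agent.S24.JDExpansion
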