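import Mathlib
import Fermat.Agent.S24.JD
import Fermat.Agent.S24.Hermite

/-!
# S24, pieces INV + DIST: invariance of `j_d` under `Γ₀(N)`, and the converse for `d = N`

* `jD_smul_of_mem_Gamma0`: for `d ∣ N`, `j_d` is invariant under `Γ₀(N)`;
* `mem_Gamma0_of_jD_smul`: if `j_N ∘ γ = j_N` then `γ ∈ Γ₀(N)`;
* `jD_periodic`: `j_d ∘ g` is `N`-periodic for every `g ∈ SL(2,ℤ)`.
-/

set_option autoImplicit false

open UpperHalfPlane ModularForm Filter Topology Complex CongruenceSubgroup Matrix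
open scoped MatrixGroups

noncomputable section

namespace Fermat.Agent.S24.JdInv

open Fermat.Agent.S24

/-! ### INV -/

theorem jD_smul_of_mem_Gamma0 {N d : ℕ} (hd : d ∣ N) (hN : 0 < N) (γ : SL(2, ℤ))
    (hγ : γ ∈ CongruenceSubgroup.Gamma0 N) (τ : ℍ) : jD d (γ • τ) = jD d τ := by
  have hdpos : 0 < d := Nat.pos_of_dvd_of_pos hd hN
  -- `d ∣ γ 1 0`
  have hNc : (N : ℤ) ∣ γ 1 0 := by
    rw [Gamma0_mem] at hγ
    exact (ZMod.intCast_zmod_eq_zero_iff_dvd _ _).mp hγ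
  have hdc : (d : ℤ) ∣ γ 1 0 := dvd_trans (Int.natCast_dvd_natCast.mpr hd) hNc
  obtain ⟨c', hc'⟩ := hdc
  have hdet : (γ 0 0 : ℤ) * γ 1 1 - γ 0 1 * γ 1 0 = 1 := by
    have := γ.det_coe
    rwa [Matrix.det_fin_two] at this
  let γ' : SL(2, ℤ) := ⟨!![γ 0 0, γ 0 1 * d; c', γ 1 1], by
    rw [Matrix.det_fin_two_of]
    rw [hc'] at hdet
    linear_combination hdet⟩
  have hmat : !![(d : ℤ), 0; 0, 1] * (γ : Matrix (Fin 2) (Fin 2) ℤ)
      = (γ' : Matrix (Fin 2) (Fin 2) ℤ) * !![(d : ℤ), 0; 0, 1] := by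
    ext i j
    fin_cases i <;> fin_cases j
    · simp [γ', Matrix.mul_apply, Fin.sum_univ_two, mul_comm]
    · simp [γ', Matrix.mul_apply, Fin.sum_univ_two, mul_comm]
    · simp [γ', Matrix.mul_apply, Fin.sum_univ_two, hc', mul_comm]
    · simp [γ', Matrix.mul_apply, Fin.sum_univ_two]
  have hw : ((scaleH d τ : ℍ) : ℂ) = (((d : ℤ) : ℂ) * τ + ((0 : ℤ) : ℂ)) / ((1 : ℤ) : ℂ) := by
    rw [coe_scaleH hdpos]
    push_cast
    ring
  have key := Hermite.coe_smul_eq_of_diag_mul (d := d) (γ := γ) (γ' := γ') (a := d) (b := 0)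
    (e := 1) one_ne_zero hmat τ (scaleH d τ) hw
  have hscale : scaleH d (γ • τ) = γ' • scaleH d τ := scaleH_eq hdpos key.symm
  rw [jD_def, jD_def, hscale, jFun_smul]

/-! ### Asymptotics of `jFun` at `i∞` -/

local notation "𝕢" => Function.Periodic.qParam

theorem tendsto_jFun_mul_qParam :
    Tendsto (fun z : ℍ => jFun z * 𝕢 1 z) atImInfty (𝓝 1) := by
  have h1 : Tendsto (fun z : ℍ => E₄ z ^ 3 / ∏' n, (1 - eta_q n z) ^ 24) atImInfty (𝓝 1) := by
    have h := (tendsto_E₄_atImInfty.pow 3).div tendsto_atImInfty_tprod_one_sub_eta_q_pow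
      one_ne_zero
    rw [one_pow, div_one] at h
    exact h
  refine h1.congr fun z => ?_
  have hq : 𝕢 1 (z : ℂ) ≠ 0 := Function.Periodic.qParam_ne_zero _
  rw [jFun_def, discriminant_eq_q_prod]
  field_simp

theorem norm_qParam_one (z : ℍ) : ‖𝕢 1 (z : ℂ)‖ = Real.exp (-2 * Real.pi * z.im) := by
  simp [Function.Periodic.qParam, Complex.norm_exp]

theorem tendsto_atImInfty_of_im {f : ℍ → ℍ} {c : ℝ} (hc : 0 < c)
    (hf : ∀ z, (f z).im = c * z.im) : Tendsto f atImInfty atImInfty := by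
  rw [atImInfty, tendsto_comap_iff]
  have : (UpperHalfPlane.im ∘ f) = fun z : ℍ => c * z.im := funext hf
  rw [this]
  exact Tendsto.const_mul_atTop hc tendsto_comap

/-! ### DIST -/

theorem mem_Gamma0_of_jD_smul {N : ℕ} (hN : 0 < N) (γ : SL(2, ℤ))
    (h : ∀ τ : ℍ, jD N (γ • τ) = jD N τ) : γ ∈ CongruenceSubgroup.Gamma0 N := by
  obtain ⟨γ', a, b, e, hae, ha, hb0, hbe, hmat⟩ := Hermite.exists_SL2_diag_mul N hN γ
  have he : 0 < e := lt_of_le_of_lt hb0 hbe
  -- `jFun ((a τ + b)/e) = jFun (N τ)` for all `τ`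
  have hj : ∀ τ : ℍ, jFun (Hermite.affinePoint a b e ha he τ) = jFun (scaleH N τ) := by
    intro τ
    have key := Hermite.coe_smul_eq_of_diag_mul he.ne' hmat τ _
      (Hermite.coe_affinePoint a b e ha he τ)
    have hscale : scaleH N (γ • τ) = γ' • Hermite.affinePoint a b e ha he τ :=
      scaleH_eq hN key.symm
    have := h τ
    rw [jD_def, jD_def, hscale, jFun_smul] at this
    exact this
  -- imaginary parts
  have him1 : ∀ z : ℍ, (Hermite.affinePoint a b e ha he z).im = ((a : ℝ) / e) * z.im := by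
    intro z
    have hec : (e : ℂ) ≠ 0 := by exact_mod_cast he.ne'
    have h1 : ((a : ℂ) * z + b) / e
        = (((a : ℝ) / (e : ℝ) : ℝ) : ℂ) * z + (((b : ℝ) / (e : ℝ) : ℝ) : ℂ) := by
      push_cast
      field_simp
    show (((a : ℂ) * z + b) / e).im = _
    rw [h1, Complex.add_im, Complex.im_ofReal_mul, Complex.ofReal_im, add_zero]
    rfl
  have him2 : ∀ z : ℍ, (scaleH N z).im = (N : ℝ) * z.im := by
    intro z
    show ((scaleH N z : ℍ) : ℂ).im = _
    rw [coe_scaleH hN]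
    simp
  have hae_pos : (0 : ℝ) < (a : ℝ) / e := div_pos (by exact_mod_cast ha) (by exact_mod_cast he)
  have hNpos : (0 : ℝ) < N := by exact_mod_cast hN
  have ht1 := tendsto_atImInfty_of_im hae_pos him1
  have ht2 := tendsto_atImInfty_of_im hNpos him2
  have hg1 := (tendsto_jFun_mul_qParam.comp ht1).norm
  have hg2 := (tendsto_jFun_mul_qParam.comp ht2).norm
  simp only [norm_one] at hg1 hg2
  -- the key identity of norms
  have hid : ∀ z : ℍ,
      ‖(fun z : ℍ => jFun z * 𝕢 1 z) (Hermite.affinePoint a b e ha he z)‖ =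
      ‖(fun z : ℍ => jFun z * 𝕢 1 z) (scaleH N z)‖ *
        Real.exp (2 * Real.pi * ((N : ℝ) - (a : ℝ) / e) * z.im) := by
    intro z
    have hexp : Real.exp (-2 * Real.pi * ((a : ℝ) / e * z.im)) =
        Real.exp (-2 * Real.pi * ((N : ℝ) * z.im)) *
          Real.exp (2 * Real.pi * ((N : ℝ) - (a : ℝ) / e) * z.im) := by
      rw [← Real.exp_add]
      congr 1
      ring
    show ‖jFun (Hermite.affinePoint a b e ha he z) *
        𝕢 1 ((Hermite.affinePoint a b e ha he z : ℍ) : ℂ)‖ =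
      ‖jFun (scaleH N z) * 𝕢 1 ((scaleH N z : ℍ) : ℂ)‖ * _
    rw [norm_mul, norm_mul, norm_qParam_one, norm_qParam_one, hj z, him1 z, him2 z, hexp]
    ring
  -- hence `N ≤ a / e`
  have hle : (N : ℝ) ≤ (a : ℝ) / e := by
    by_contra hlt
    have hlt : 0 < 2 * Real.pi * ((N : ℝ) - (a : ℝ) / e) := by
      have : 0 < (N : ℝ) - (a : ℝ) / e := by linarith [not_le.mp hlt]
      positivity
    have hexp : Tendsto (fun z : ℍ => Real.exp (2 * Real.pi * ((N : ℝ) - (a : ℝ) / e) * z.im))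
        atImInfty atTop :=
      Real.tendsto_exp_atTop.comp (Tendsto.const_mul_atTop hlt tendsto_comap)
    have hprod := hg2.pos_mul_atTop one_pos hexp
    have hcongr : Tendsto (fun z : ℍ =>
        ‖(fun z : ℍ => jFun z * 𝕢 1 z) (Hermite.affinePoint a b e ha he z)‖) atImInfty atTop :=
      hprod.congr fun z => (hid z).symm
    exact not_tendsto_nhds_of_tendsto_atTop hcongr 1 hg1
  -- so `e = 1`
  have he1 : e = 1 := by
    have heR : (0 : ℝ) < e := by exact_mod_cast he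
    have h1 : (N : ℝ) * e ≤ a := by rwa [le_div_iff₀ heR] at hle
    have h2 : (N : ℤ) * e ≤ a := by exact_mod_cast h1
    rw [← hae] at h2
    -- a * e * e ≤ a, with a > 0, e > 0
    nlinarith
  subst he1
  have hb : b = 0 := by omega
  subst hb
  -- read off the lower left entry
  have h10 := congrFun (congrFun hmat 1) 0
  simp [Matrix.mul_apply, Fin.sum_univ_two] at h10
  rw [Gamma0_mem, ZMod.intCast_zmod_eq_zero_iff_dvd]
  rw [mul_one] at hae
  rw [h10, hae]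
  exact Dvd.intro_left _ rfl

/-! ### Periodicity -/

theorem jD_periodic {N d : ℕ} (hd : d ∣ N) (hN : 0 < N) (g : SL(2, ℤ)) (τ : ℍ) :
    jD d (g • ((N : ℝ) +ᵥ τ)) = jD d (g • τ) := by
  have h1 : ((N : ℝ) +ᵥ τ) = ModularGroup.T ^ (N : ℤ) • τ := by
    rw [UpperHalfPlane.modular_T_zpow_smul]
    push_cast
    rfl
  have h2 : g • (ModularGroup.T ^ (N : ℤ) • τ)
      = (g * ModularGroup.T ^ (N : ℤ) * g⁻¹) • (g • τ) := by
    rw [← mul_smul, ← mul_smul, inv_mul_cancel_right]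
  rw [h1, h2]
  apply jD_smul_of_mem_Gamma0 hd hN
  rw [Gamma0_mem]
  have hT : ((ModularGroup.T ^ (N : ℤ) : SL(2, ℤ)) : Matrix (Fin 2) (Fin 2) ℤ)
      = !![1, (N : ℤ); 0, 1] := ModularGroup.coe_T_zpow _
  have hinv : ((g⁻¹ : SL(2, ℤ)) : Matrix (Fin 2) (Fin 2) ℤ)
      = !![g 1 1, -g 0 1; -g 1 0, g 0 0] := by
    rw [Matrix.SpecialLinearGroup.SL2_inv_expl g]
    rfl
  have hentry : ((g * ModularGroup.T ^ (N : ℤ) * g⁻¹ : SL(2, ℤ)) 1 0 : ℤ)
      = -(g 1 0 * g 1 0) * N := by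
    rw [Matrix.SpecialLinearGroup.coe_mul, Matrix.SpecialLinearGroup.coe_mul, hT, hinv]
    simp [Matrix.mul_apply, Fin.sum_univ_two]
    ring
  rw [hentry]
  push_cast
  simp

end Fermat.Agent.S24.JdInv
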