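import Fermat.Agent.S24.FinitePackage
import Fermat.Agent.S24.CuspExpansion
import Fermat.Agent.S24.JDExpansion
import Fermat.Agent.S24.JdInv

/-!
# S24 (block II, piece P1): the analytic realisation `evData N : EvData N`

The `ℚ̄`-algebra `genAlg N` generated by the `q`-series `J_d = j(q^d)` (`d ∣ N`) is realised as an
algebra of holomorphic functions on `ℍ`, `J_d ↦ j(d τ)`: the Laurent expansion at `i∞`
(`CuspExpansion.cuspLaurentHom 1`) is injective and maps `j(d τ)` to the base change of `J_d`.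
-/

set_option autoImplicit false
set_option linter.unusedSectionVars false
set_option linter.style.haveILetI false

open ModularCurve UpperHalfPlane Complex
open scoped MatrixGroups Manifold

noncomputable section

namespace Fermat.Agent.S24.EvDataInst

open Fermat.Agent.S24.FieldGen Fermat.Agent.S24.FiniteDatum Fermat.Agent.S24.LaurentAux
  Fermat.Agent.S24.CuspExpansion Fermat.Agent.S24.FinitePackage

/-! ### The functions `jD d` at the cusp -/

theorem T_mem_Gamma0 (d : ℕ) : ModularGroup.T ∈ CongruenceSubgroup.Gamma0 d := by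
  rw [CongruenceSubgroup.Gamma0_mem]
  simp [ModularGroup.T]

theorem jD_T_smul {d : ℕ} (hd : 0 < d) (τ : ℍ) : jD d (ModularGroup.T • τ) = jD d τ :=
  JdInv.jD_smul_of_mem_Gamma0 (dvd_refl d) hd ModularGroup.T (T_mem_Gamma0 d) τ

theorem jD_periodic_one {d : ℕ} (hd : 0 < d) :
    Function.Periodic (jD d ∘ ofComplex) ((1 : ℕ) : ℝ) := by
  intro z
  simp only [Function.comp_apply, Nat.cast_one]
  by_cases hz : 0 < z.im
  · have hz' : 0 < (z + ((1 : ℝ) : ℂ)).im := by simpa using hz
    rw [ofComplex_apply_of_im_pos hz, ofComplex_apply_of_im_pos hz']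
    have : (⟨z + ((1 : ℝ) : ℂ), hz'⟩ : ℍ) = ModularGroup.T • (⟨z, hz⟩ : ℍ) := by
      apply UpperHalfPlane.ext
      rw [coe_T_smul]
      simp
    rw [this, jD_T_smul hd]
  · have hz' : ¬ 0 < (z + ((1 : ℝ) : ℂ)).im := by simpa using hz
    rw [ofComplex_apply_of_im_nonpos (not_lt.mp hz), ofComplex_apply_of_im_nonpos (not_lt.mp hz')]

theorem mdiff_jD {d : ℕ} (hd : 0 < d) : MDiff (jD d) := by
  rw [UpperHalfPlane.mdifferentiable_iff]
  have h1 : DifferentiableOn ℂ (jFun ∘ ofComplex) upperHalfPlaneSet :=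
    differentiableOn_jFun_comp_ofComplex
  have hd' : (0 : ℝ) < d := by exact_mod_cast hd
  have hmaps : Set.MapsTo (fun z : ℂ => (d : ℂ) * z) upperHalfPlaneSet upperHalfPlaneSet := by
    intro z hz
    show 0 < ((d : ℂ) * z).im
    have : ((d : ℂ) * z).im = (d : ℝ) * z.im := by simp
    rw [this]
    exact mul_pos hd' hz
  have h2 : DifferentiableOn ℂ ((jFun ∘ ofComplex) ∘ fun z : ℂ => (d : ℂ) * z) upperHalfPlaneSet :=
    h1.comp (differentiableOn_id.const_mul (d : ℂ)) hmaps
  refine h2.congr fun z hz => ?_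
  have hz' : 0 < z.im := hz
  have hz'' : 0 < ((d : ℂ) * z).im := hmaps hz
  simp only [Function.comp_apply]
  rw [ofComplex_apply_of_im_pos hz', ofComplex_apply_of_im_pos hz'']
  exact jD_eq hd rfl

/-- `j(d τ)` is meromorphic at the cusp and its expansion is the base change of the Prelude's
`qExpand ℚ d jq`. -/
theorem merAtCusp_jD (d : ℕ) [NeZero d] :
    MerAtCusp 1 (jD d) ∧ cuspLaurent 1 (jD d) = coeffMap (algebraMap ℚ ℂ) (qExpand ℚ d jq) := by
  have hd : 0 < d := Nat.pos_of_ne_zero (NeZero.ne d)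
  have hs : ∀ τ : ℍ, HasSum (fun n : ℕ =>
      (((qExpand ℚ d jq).coeff ((n : ℤ) - d) : ℚ) : ℂ) * qh 1 τ ^ n) (qh 1 τ ^ d * jD d τ) := by
    intro τ
    have := JDExpansion.hasSum_jD_coeff d τ
    simpa [qh] using this
  obtain ⟨h1, h2⟩ := MerAtCusp.of_hasSum (h := 1) (jD_periodic_one hd) (mdiff_jD hd) hs
  refine ⟨h1, ?_⟩
  rw [h2]
  ext k
  rw [coeff_single_neg_mul_ofPowerSeries, coeffMap_coeff]
  split_ifs with hk
  · rw [PowerSeries.coeff_mk]
    have : (((k + (d : ℤ)).toNat : ℕ) : ℤ) - d = k := by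
      rw [Int.toNat_of_nonneg hk]; ring
    rw [this]
    rfl
  · -- coefficient below `-d` vanishes
    have hlt : k < -(d : ℤ) := by omega
    have h0 : (qExpand ℚ d jq).coeff k = 0 := by
      by_cases hdk : (d : ℤ) ∣ k
      · obtain ⟨m, rfl⟩ := hdk
        rw [qExpand_coeff_mul]
        apply coeff_jq_of_lt
        have hd' : (0 : ℤ) < d := by exact_mod_cast hd
        nlinarith
      · exact qExpand_coeff_of_not_dvd d jq hdk
    rw [h0, map_zero]

/-! ### Base change of coefficients `ℚ̄((q)) → ℂ((q))` -/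

variable [Algebra Kbar ℂ]

/-- Coefficientwise base change as a `ℚ̄`-algebra hom. -/
def coeffMapAlg : LaurentSeries Kbar →ₐ[Kbar] LaurentSeries ℂ :=
  { coeffMap (algebraMap Kbar ℂ) with
    commutes' := fun c => by
      show coeffMap (algebraMap Kbar ℂ) (algebraMap Kbar (LaurentSeries Kbar) c)
        = algebraMap Kbar (LaurentSeries ℂ) c
      rw [algebraMap_laurentSeries_eq_single, coeffMap_single, algebraMap_eq_C' (K := Kbar)]
      rfl }

theorem coeffMapAlg_apply (x : LaurentSeries Kbar) :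
    coeffMapAlg x = coeffMap (algebraMap Kbar ℂ) x := rfl

theorem coeffMapAlg_injective : Function.Injective coeffMapAlg := by
  intro x y h
  ext k
  have := congrArg (fun z : LaurentSeries ℂ => z.coeff k) h
  simp only [coeffMapAlg_apply, coeffMap_coeff] at this
  exact (algebraMap Kbar ℂ).injective this

theorem coeffMapAlg_genJ (d : ℕ) [NeZero d] :
    coeffMapAlg (genJ d) = coeffMap (algebraMap ℚ ℂ) (qExpand ℚ d jq) := by
  rw [coeffMapAlg_apply, genJ_eq, coeffEmb, coeffMap_coeffMap]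
  exact coeffMap_congr (Subsingleton.elim _ _) _

/-! ### The expansion at the cusp as a `ℚ̄`-algebra hom -/

/-- The Laurent expansion at `i∞` (width `1`) as a `ℚ̄`-algebra hom. -/
def cuspHomK : merCuspAlg 1 →ₐ[Kbar] LaurentSeries ℂ :=
  { (cuspLaurentHom 1).toRingHom with
    commutes' := fun c => by
      show cuspLaurentHom 1 (algebraMap Kbar (merCuspAlg 1) c) = algebraMap Kbar (LaurentSeries ℂ) c
      rw [IsScalarTower.algebraMap_apply Kbar ℂ (merCuspAlg 1), AlgHom.commutes,
        algebraMap_eq_C, algebraMap_eq_C' (K := Kbar)] }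

theorem cuspHomK_apply (f : merCuspAlg 1) : cuspHomK f = cuspLaurent 1 (f : ℍ → ℂ) := rfl

theorem cuspHomK_injective : Function.Injective cuspHomK := fun _ _ h =>
  cuspLaurentHom_injective 1 h

/-- `j(d τ)` as an element of the cusp algebra. -/
def jDc (d : ℕ) : merCuspAlg 1 :=
  if h : d = 0 then 0 else haveI : NeZero d := ⟨h⟩; ⟨jD d, (merAtCusp_jD d).1⟩

theorem coe_jDc (d : ℕ) [hd : NeZero d] : ((jDc d : merCuspAlg 1) : ℍ → ℂ) = jD d := by
  rw [jDc, dif_neg hd.out]

theorem cuspHomK_jDc (d : ℕ) [NeZero d] : cuspHomK (jDc d) = coeffMapAlg (genJ d) := by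
  rw [cuspHomK_apply, coe_jDc, (merAtCusp_jD d).2, coeffMapAlg_genJ]

/-! ### The evaluation hom -/

section Ev

variable (N : ℕ) [NeZero N]

theorem neZero_of_dvd {d : ℕ} (hd : d ∣ N) : NeZero d :=
  ⟨fun h => NeZero.ne N (by rw [h] at hd; exact Nat.eq_zero_of_zero_dvd hd)⟩

/-- base change restricted to the algebra of generators -/
def phi1 : genAlg N →ₐ[Kbar] LaurentSeries ℂ := coeffMapAlg.comp (genAlg N).val

theorem phi1_apply (a : genAlg N) : phi1 N a = coeffMapAlg (a : LaurentSeries Kbar) := rfl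

theorem phi1_injective : Function.Injective (phi1 N) := fun _ _ h =>
  Subtype.ext (coeffMapAlg_injective h)

theorem phi1_mem_range (a : genAlg N) : phi1 N a ∈ cuspHomK.range := by
  have h1 : (phi1 N).range ≤ cuspHomK.range := by
    have : (phi1 N).range = (genAlg N).map coeffMapAlg := by
      ext x
      constructor
      · rintro ⟨a, rfl⟩
        exact ⟨a, a.2, rfl⟩
      · rintro ⟨y, hy, rfl⟩
        exact ⟨⟨y, hy⟩, rfl⟩
    rw [this, genAlg, AlgHom.map_adjoin, Algebra.adjoin_le_iff]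
    rintro _ ⟨_, ⟨d, hd, rfl⟩, rfl⟩
    haveI := neZero_of_dvd N hd
    exact ⟨jDc d, cuspHomK_jDc d⟩
  exact h1 ⟨a, rfl⟩

/-- The evaluation hom into the cusp algebra. -/
def evR : genAlg N →ₐ[Kbar] merCuspAlg 1 :=
  ((AlgEquiv.ofInjective cuspHomK cuspHomK_injective).symm : cuspHomK.range →ₐ[Kbar] merCuspAlg 1).comp
    ((phi1 N).codRestrict cuspHomK.range (phi1_mem_range N))

theorem cuspHomK_evR (a : genAlg N) : cuspHomK (evR N a) = coeffMapAlg (a : LaurentSeries Kbar) := by
  have h := (AlgEquiv.ofInjective cuspHomK cuspHomK_injective).apply_symm_apply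
    ((phi1 N).codRestrict cuspHomK.range (phi1_mem_range N) a)
  have h2 := congrArg Subtype.val h
  exact h2

theorem evR_injective : Function.Injective (evR N) := by
  intro a b hab
  apply phi1_injective N
  rw [phi1_apply, phi1_apply, ← cuspHomK_evR, ← cuspHomK_evR, hab]

theorem evR_genJ {d : ℕ} (hd : d ∣ N) : evR N ⟨genJ d, genJ_mem_genAlg hd⟩ = jDc d := by
  haveI := neZero_of_dvd N hd
  apply cuspHomK_injective
  rw [cuspHomK_evR, cuspHomK_jDc]

/-- The evaluation hom into functions on `ℍ`. -/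
def evFun : genAlg N →ₐ[Kbar] (ℍ → ℂ) where
  toFun a := (evR N a : ℍ → ℂ)
  map_one' := by rw [map_one]; rfl
  map_mul' a b := by rw [map_mul]; rfl
  map_zero' := by rw [map_zero]; rfl
  map_add' a b := by rw [map_add]; rfl
  commutes' c := by rw [AlgHom.commutes]; rfl

theorem evFun_apply (a : genAlg N) : evFun N a = (evR N a : ℍ → ℂ) := rfl

theorem evFun_injective : Function.Injective (evFun N) := fun _ _ h =>
  evR_injective N (Subtype.ext h)

theorem evFun_genJ {d : ℕ} (hd : d ∣ N) : evFun N ⟨genJ d, genJ_mem_genAlg hd⟩ = jD d := by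
  haveI := neZero_of_dvd N hd
  rw [evFun_apply, evR_genJ N hd, coe_jDc]

theorem evFun_merAtCusp (a : genAlg N) : MerAtCusp 1 (evFun N a) := (evR N a).2

/-- Induction principle for the algebra of generators. -/
theorem genAlg_induction {P : genAlg N → Prop}
    (hgen : ∀ d (hd : d ∣ N), P ⟨genJ d, genJ_mem_genAlg hd⟩)
    (halg : ∀ c : Kbar, P (algebraMap Kbar (genAlg N) c))
    (hadd : ∀ a b, P a → P b → P (a + b)) (hmul : ∀ a b, P a → P b → P (a * b))
    (a : genAlg N) : P a := by
  obtain ⟨x, hx⟩ := a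
  induction hx using Algebra.adjoin_induction with
  | mem x hx =>
    obtain ⟨d, hd, rfl⟩ := hx
    exact hgen d hd
  | algebraMap c => exact halg c
  | add x y hx hy ihx ihy => exact hadd ⟨x, hx⟩ ⟨y, hy⟩ ihx ihy
  | mul x y hx hy ihx ihy => exact hmul ⟨x, hx⟩ ⟨y, hy⟩ ihx ihy

theorem evFun_smul_of_mem_Gamma0 (a : genAlg N) (γ : SL(2, ℤ))
    (hγ : γ ∈ CongruenceSubgroup.Gamma0 N) (τ : ℍ) : evFun N a (γ • τ) = evFun N a τ := by
  have hN : 0 < N := Nat.pos_of_ne_zero (NeZero.ne N)
  induction a using genAlg_induction N with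
  | hgen d hd => rw [evFun_genJ N hd, JdInv.jD_smul_of_mem_Gamma0 hd hN γ hγ τ]
  | halg c => rw [AlgHom.commutes]; rfl
  | hadd a b iha ihb => rw [map_add, Pi.add_apply, Pi.add_apply, iha, ihb]
  | hmul a b iha ihb => rw [map_mul, Pi.mul_apply, Pi.mul_apply, iha, ihb]

/-- **P1**: the analytic realisation of the generators of `FBar N`. -/
def evData : EvData N where
  ev := evFun N
  inj := evFun_injective N
  inv := evFun_smul_of_mem_Gamma0 N
  dist := fun γ h => by
    have hN : 0 < N := Nat.pos_of_ne_zero (NeZero.ne N)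
    apply JdInv.mem_Gamma0_of_jD_smul hN γ
    intro τ
    have := h ⟨genJ N, genJ_mem_genAlg (dvd_refl N)⟩ τ
    rwa [evFun_genJ N (dvd_refl N)] at this
  hol := fun a => mem_holAlg_iff_mdiff.mpr (evFun_merAtCusp N a).hol
  ev_j := by rw [evFun_genJ N (one_dvd N), jD_one]

end Ev

end Fermat.Agent.S24.EvDataInst
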