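import Mathlib

/-!
# S24 (block II, piece B1): the domain of holomorphic functions on `ℍ`, its fraction field `Mer`,
and the action of `SL(2, ℤ)`.
-/

set_option autoImplicit false

open UpperHalfPlane Complex
open scoped MatrixGroups Manifold Topology

noncomputable section

namespace Fermat.Agent.S24.HolRing

/-- The ring of holomorphic functions on the upper half plane. -/
def holRing : Subring (ℍ → ℂ) where
  carrier := {f | MDiff f}
  mul_mem' hf hg := hf.mul hg
  one_mem' := mdifferentiable_const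
  add_mem' hf hg := hf.add hg
  zero_mem' := mdifferentiable_const
  neg_mem' hf := hf.neg

theorem mem_holRing {f : ℍ → ℂ} : f ∈ holRing ↔ MDiff f := Iff.rfl

theorem mul_eq_zero_of_mdiff {f g : ℍ → ℂ} (hf : MDiff f) (hg : MDiff g) (h : f * g = 0) :
    f = 0 ∨ g = 0 := by
  have hf' := (UpperHalfPlane.mdifferentiable_iff.mp hf).analyticOnNhd isOpen_upperHalfPlaneSet
  have hg' := (UpperHalfPlane.mdifferentiable_iff.mp hg).analyticOnNhd isOpen_upperHalfPlaneSet
  have hU : IsPreconnected {z : ℂ | 0 < z.im} :=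
    (Complex.isConnected_of_upperHalfPlane subset_rfl (by grind)).isPreconnected
  have hfg : ∀ z ∈ {z : ℂ | 0 < z.im}, (f ∘ ofComplex) z * (g ∘ ofComplex) z = 0 := by
    intro z _
    exact congrFun h (ofComplex z)
  rcases hf'.eq_zero_or_eq_zero_of_mul_eq_zero hg' hfg hU with h0 | h0
  · left
    funext τ
    have := h0 (τ : ℂ) τ.im_pos
    simpa [ofComplex_apply] using this
  · right
    funext τ
    have := h0 (τ : ℂ) τ.im_pos
    simpa [ofComplex_apply] using this

instance : IsDomain holRing := by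
  have : Nontrivial holRing := ⟨⟨0, 1, fun h => by
    have := congrArg (fun f : holRing => (f : ℍ → ℂ) I) h
    simp at this⟩⟩
  have : NoZeroDivisors holRing := ⟨fun {a b} h => by
    have h' : (a : ℍ → ℂ) * (b : ℍ → ℂ) = 0 := by
      have := congrArg (fun f : holRing => (f : ℍ → ℂ)) h
      simpa using this
    rcases mul_eq_zero_of_mdiff a.2 b.2 h' with h0 | h0
    · exact Or.inl (Subtype.ext h0)
    · exact Or.inr (Subtype.ext h0)⟩
  exact NoZeroDivisors.to_isDomain _

/-- Constants as holomorphic functions: `holRing` is a `ℂ`-algebra. -/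
def constHom : ℂ →+* holRing where
  toFun c := ⟨fun _ => c, mdifferentiable_const⟩
  map_one' := rfl
  map_mul' _ _ := rfl
  map_zero' := rfl
  map_add' _ _ := rfl

instance : Algebra ℂ holRing := constHom.toAlgebra

theorem algebraMap_apply (c : ℂ) (τ : ℍ) : ((algebraMap ℂ holRing c : holRing) : ℍ → ℂ) τ = c := rfl

/-- The field of meromorphic functions on `ℍ`, as the fraction field of `holRing`. -/
abbrev Mer : Type := FractionRing holRing

/-! ### The action of `SL(2, ℤ)` -/

theorem mdiff_comp_smul (γ : SL(2, ℤ)) {f : ℍ → ℂ} (hf : MDiff f) :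
    MDiff (fun τ : ℍ => f (γ • τ)) := by
  have h1 : MDiff (fun τ : ℍ => (γ • τ : ℍ)) := by
    have : (fun τ : ℍ => (γ • τ : ℍ)) = fun τ : ℍ => ((γ : GL (Fin 2) ℝ) • τ : ℍ) := rfl
    rw [this]
    exact mdifferentiable_smul (by simp)
  exact hf.comp h1

/-- Precomposition with `γ ∈ SL(2, ℤ)` as a ring endomorphism of `holRing`. -/
def actHolHom (γ : SL(2, ℤ)) : holRing →+* holRing where
  toFun f := ⟨fun τ => (f : ℍ → ℂ) (γ • τ), mdiff_comp_smul γ f.2⟩
  map_one' := rfl
  map_mul' _ _ := rfl
  map_zero' := rfl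
  map_add' _ _ := rfl

@[simp] theorem actHolHom_apply (γ : SL(2, ℤ)) (f : holRing) (τ : ℍ) :
    ((actHolHom γ f : holRing) : ℍ → ℂ) τ = (f : ℍ → ℂ) (γ • τ) := rfl

theorem actHolHom_one (f : holRing) : actHolHom 1 f = f := by
  apply Subtype.ext; funext τ; simp

theorem actHolHom_mul (γ γ' : SL(2, ℤ)) (f : holRing) :
    actHolHom (γ * γ') f = actHolHom γ' (actHolHom γ f) := by
  apply Subtype.ext; funext τ; simp [mul_smul]

/-- Precomposition with `γ` as a ring automorphism of `holRing`. -/
def actHol (γ : SL(2, ℤ)) : holRing ≃+* holRing :=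
  RingEquiv.ofRingHom (actHolHom γ) (actHolHom γ⁻¹)
    (RingHom.ext fun f => by
      show actHolHom γ (actHolHom γ⁻¹ f) = f
      rw [← actHolHom_mul, inv_mul_cancel, actHolHom_one])
    (RingHom.ext fun f => by
      show actHolHom γ⁻¹ (actHolHom γ f) = f
      rw [← actHolHom_mul, mul_inv_cancel, actHolHom_one])

@[simp] theorem actHol_apply (γ : SL(2, ℤ)) (f : holRing) (τ : ℍ) :
    ((actHol γ f : holRing) : ℍ → ℂ) τ = (f : ℍ → ℂ) (γ • τ) := rfl

/-- Precomposition with `γ` as a field automorphism of `Mer`. -/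
def actMer (γ : SL(2, ℤ)) : Mer ≃+* Mer :=
  IsFractionRing.ringEquivOfRingEquiv (actHol γ)

@[simp] theorem actMer_algebraMap (γ : SL(2, ℤ)) (f : holRing) :
    actMer γ (algebraMap holRing Mer f) = algebraMap holRing Mer (actHol γ f) := by
  simp [actMer]

theorem actMer_one (x : Mer) : actMer 1 x = x := by
  obtain ⟨a, b, hb, rfl⟩ := IsFractionRing.div_surjective (A := holRing) x
  have h1 : ∀ f : holRing, actHol 1 f = f := fun f => actHolHom_one f
  simp [map_div₀, h1]

theorem actMer_mul (γ γ' : SL(2, ℤ)) (x : Mer) :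
    actMer (γ * γ') x = actMer γ' (actMer γ x) := by
  obtain ⟨a, b, hb, rfl⟩ := IsFractionRing.div_surjective (A := holRing) x
  have h1 : ∀ f : holRing, actHol (γ * γ') f = actHol γ' (actHol γ f) :=
    fun f => actHolHom_mul γ γ' f
  simp [map_div₀, h1]

end Fermat.Agent.S24.HolRing
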