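import Fermat.Agent.S24.DiscExpansion
import Fermat.Agent.S24.LaurentAux
import Fermat.Agent.S24.HolRing

/-!
# S24 (block II): the local expansion datum at a point `z0 ∈ ℍ`

Bundles helper28's `DiscExpansion` into the shape consumed by `EmbFamily.exists_family`:
the `ℂ`-algebra `holAlg` of holomorphic functions on `ℍ`, the injective expansion hom
`discHom z0 : holAlg →ₐ[ℂ] ℂ((u))`, its equivariance under the stabiliser of `z0` and the
computation of orders.
-/

set_option autoImplicit false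

open UpperHalfPlane Complex
open scoped MatrixGroups Manifold

noncomputable section

namespace Fermat.Agent.S24.FiniteDatum

open Fermat.Agent.S24.DiscExpansion Fermat.Agent.S24.LaurentAux

/-- Holomorphic functions on `ℍ`, as a `ℂ`-subalgebra of all functions. -/
def holAlg : Subalgebra ℂ (ℍ → ℂ) where
  carrier := {f | DifferentiableOn ℂ (f ∘ ofComplex) upperHalfPlaneSet}
  mul_mem' hf hg := DifferentiableOn.mul hf hg
  one_mem' := differentiableOn_const (c := (1 : ℂ))
  add_mem' hf hg := DifferentiableOn.add hf hg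
  zero_mem' := differentiableOn_const (c := (0 : ℂ))
  algebraMap_mem' c := differentiableOn_const (c := c)

theorem mem_holAlg {f : ℍ → ℂ} :
    f ∈ holAlg ↔ DifferentiableOn ℂ (f ∘ ofComplex) upperHalfPlaneSet := Iff.rfl

theorem mem_holAlg_iff_mdiff {f : ℍ → ℂ} : f ∈ holAlg ↔ MDiff f :=
  UpperHalfPlane.mdifferentiable_iff.symm

theorem comp_smul_mem_holAlg (γ : SL(2, ℤ)) {f : ℍ → ℂ} (hf : f ∈ holAlg) :
    (fun τ : ℍ => f (γ • τ)) ∈ holAlg :=
  mem_holAlg_iff_mdiff.mpr (HolRing.mdiff_comp_smul γ (mem_holAlg_iff_mdiff.mp hf))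

/-- The expansion of holomorphic functions at `z0` in the disc coordinate, as a `ℂ`-algebra hom
into Laurent series. -/
def discHom (z0 : ℍ) : holAlg →ₐ[ℂ] LaurentSeries ℂ where
  toFun f := HahnSeries.ofPowerSeries ℤ ℂ (discExp z0 (f : ℍ → ℂ))
  map_one' := by
    show HahnSeries.ofPowerSeries ℤ ℂ (discExp z0 (1 : ℍ → ℂ)) = 1
    rw [discExp_one, map_one]
  map_mul' f g := by
    show HahnSeries.ofPowerSeries ℤ ℂ (discExp z0 ((f : ℍ → ℂ) * (g : ℍ → ℂ))) = _
    rw [discExp_mul z0 f.2 g.2, map_mul]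
  map_zero' := by
    show HahnSeries.ofPowerSeries ℤ ℂ (discExp z0 (0 : ℍ → ℂ)) = 0
    rw [discExp_zero, map_zero]
  map_add' f g := by
    show HahnSeries.ofPowerSeries ℤ ℂ (discExp z0 ((f : ℍ → ℂ) + (g : ℍ → ℂ))) = _
    rw [discExp_add z0 f.2 g.2, map_add]
  commutes' c := by
    show HahnSeries.ofPowerSeries ℤ ℂ (discExp z0 (fun _ => c)) = _
    rw [discExp_const, HahnSeries.ofPowerSeries_C, algebraMap_eq_C]

theorem discHom_apply (z0 : ℍ) (f : holAlg) :
    discHom z0 f = HahnSeries.ofPowerSeries ℤ ℂ (discExp z0 (f : ℍ → ℂ)) := rfl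

theorem discHom_injective (z0 : ℍ) : Function.Injective (discHom z0) := by
  intro f g h
  rw [discHom_apply, discHom_apply] at h
  exact Subtype.ext (discExp_injective z0 f.2 g.2 (HahnSeries.ofPowerSeries_injective h))

/-- `rot` on power series is `rescale`. -/
theorem rot_ofPowerSeries (ζ : ℂˣ) (p : PowerSeries ℂ) :
    rot ζ (HahnSeries.ofPowerSeries ℤ ℂ p)
      = HahnSeries.ofPowerSeries ℤ ℂ (PowerSeries.rescale (ζ : ℂ) p) := by
  ext k
  rw [coeff_rot]
  rcases lt_or_ge k 0 with hk | hk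
  · have h1 : ∀ q : PowerSeries ℂ, (HahnSeries.ofPowerSeries ℤ ℂ q).coeff k = 0 := fun q => by
      rw [HahnSeries.ofPowerSeries_apply]
      refine HahnSeries.embDomain_of_notMem_range ?_
      rintro ⟨m, rfl⟩
      exact absurd hk (not_lt.mpr (Int.natCast_nonneg m))
    rw [h1, h1, mul_zero]
  · obtain ⟨n, rfl⟩ := Int.eq_ofNat_of_zero_le hk
    rw [HahnSeries.ofPowerSeries_apply_coeff, HahnSeries.ofPowerSeries_apply_coeff,
      PowerSeries.coeff_rescale, zpow_natCast]

/-- The rotation factor of `γ` at `z0` as a unit. -/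
def rotUnit (γ : SL(2, ℤ)) (z0 : ℍ) : ℂˣ := Units.mk0 (rotFactor γ z0) (rotFactor_ne_zero γ z0)

theorem coe_rotUnit (γ : SL(2, ℤ)) (z0 : ℍ) : ((rotUnit γ z0 : ℂˣ) : ℂ) = rotFactor γ z0 := rfl

/-- Equivariance of the expansion under the stabiliser of `z0`. -/
theorem discHom_comp_smul (γ : SL(2, ℤ)) (z0 : ℍ) (h : γ • z0 = z0) (f : ℍ → ℂ)
    (hf : f ∈ holAlg) (hf' : (fun τ : ℍ => f (γ • τ)) ∈ holAlg) :
    discHom z0 ⟨_, hf'⟩ = rot (rotUnit γ z0) (discHom z0 ⟨f, hf⟩) := by
  rw [discHom_apply, discHom_apply, rot_ofPowerSeries, coe_rotUnit]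
  congr 1
  exact discExp_comp_smul γ z0 h f

/-- Order of `ofPowerSeries`. -/
theorem order_ofPowerSeries {p : PowerSeries ℂ} {n : ℕ} (hp : p.order = n) :
    (HahnSeries.ofPowerSeries ℤ ℂ p).order = n := by
  have hp0 : p ≠ 0 := by
    intro h0
    rw [h0, PowerSeries.order_zero] at hp
    exact ENat.top_ne_natCast n hp
  have hx0 : HahnSeries.ofPowerSeries ℤ ℂ p ≠ 0 := fun h0 =>
    hp0 (HahnSeries.ofPowerSeries_injective (by rw [h0, map_zero]))
  have hcn : (HahnSeries.ofPowerSeries ℤ ℂ p).coeff (n : ℤ) ≠ 0 := by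
    rw [HahnSeries.ofPowerSeries_apply_coeff]
    have := PowerSeries.coeff_order hp0
    rwa [hp, ENat.toNat_natCast] at this
  apply le_antisymm (HahnSeries.order_le_of_coeff_ne_zero hcn)
  by_contra hlt
  rw [not_le] at hlt
  apply (not_iff_not.mpr HahnSeries.coeff_order_eq_zero).mpr hx0
  set o := (HahnSeries.ofPowerSeries ℤ ℂ p).order with ho
  rcases lt_or_ge o 0 with hk | hk
  · rw [HahnSeries.ofPowerSeries_apply]
    refine HahnSeries.embDomain_of_notMem_range ?_
    rintro ⟨m, hm⟩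
    have : (0 : ℤ) ≤ o := by rw [← hm]; exact Int.natCast_nonneg m
    omega
  · obtain ⟨m, hm⟩ := Int.eq_ofNat_of_zero_le hk
    rw [hm, HahnSeries.ofPowerSeries_apply_coeff]
    apply PowerSeries.coeff_of_lt_order
    rw [hp]
    have : m < n := by omega
    exact_mod_cast this

/-- The order of the expansion of `f` at `z0` is the analytic order of `f` at `z0`. -/
theorem order_discHom (z0 : ℍ) (f : holAlg) {n : ℕ}
    (hn : analyticOrderAt ((f : ℍ → ℂ) ∘ ofComplex) (z0 : ℂ) = n) :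
    (discHom z0 f).order = n := by
  rw [discHom_apply]
  apply order_ofPowerSeries
  rw [order_discExp z0 f.2, hn]

end Fermat.Agent.S24.FiniteDatum
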