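import Fermat.Agent.S24.EmbFamily
import Fermat.Agent.S24.FiniteDatum
import Fermat.Agent.S24.RamGlue
import Fermat.Agent.S24.JD

/-!
# S24 (block B): the embedding packages at finite base points

From an analytic realisation `EvData N` of the generators (`J_d ↦ j(d τ)`) we produce, at a point
`z0 ∈ ℍ` with a stabilising element `γ`, the package `RamGlue.HasEmbeddings` for `jBar N - a`
where `a` is the value of `j` at `z0`.
-/

set_option autoImplicit false

open ModularCurve UpperHalfPlane Complex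
open scoped MatrixGroups

noncomputable section

namespace Fermat.Agent.S24.FinitePackage

open Fermat.Agent.S24.FieldGen Fermat.Agent.S24.FiniteDatum Fermat.Agent.S24.DiscExpansion
  Fermat.Agent.S24.LaurentAux Fermat.Agent.S24.RamGlue

theorem jFun_mem_holAlg : jFun ∈ holAlg := differentiableOn_jFun_comp_ofComplex

/-- The function `j - c` is holomorphic. -/
theorem jFun_sub_mem_holAlg (c : ℂ) : (fun τ => jFun τ - c) ∈ holAlg := by
  have h1 : (fun _ : ℍ => c) ∈ holAlg := holAlg.algebraMap_mem c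
  exact holAlg.sub_mem jFun_mem_holAlg h1

theorem rotFactor_one (z0 : ℍ) : rotFactor 1 z0 = 1 := by
  have h : ∀ z : ℂ, cd 1 z = 1 := fun z => by simp [cd]
  rw [rotFactor, h, h, div_one]

variable [Algebra Kbar ℂ]

/-- The analytic realisation of the algebra of generators of `FBar N`. -/
structure EvData (N : ℕ) [NeZero N] where
  ev : genAlg N →ₐ[Kbar] (ℍ → ℂ)
  inj : Function.Injective ev
  inv : ∀ a (γ : SL(2, ℤ)), γ ∈ CongruenceSubgroup.Gamma0 N → ∀ τ, ev a (γ • τ) = ev a τ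
  dist : ∀ γ : SL(2, ℤ), (∀ a τ, ev a (γ • τ) = ev a τ) → γ ∈ CongruenceSubgroup.Gamma0 N
  hol : ∀ a, ev a ∈ holAlg
  ev_j : ev ⟨genJ 1, genJ_mem_genAlg (one_dvd N)⟩ = jFun

variable {N : ℕ} [NeZero N]

theorem hasEmbeddings_finite (D : EvData N) (z0 : ℍ) (γ : SL(2, ℤ)) (hγ : γ • z0 = z0)
    (e : ℕ) (he : 0 < e) (hζ : IsPrimitiveRoot (rotFactor γ z0) e) (a : Kbar)
    (hord : analyticOrderAt ((fun τ => jFun τ - algebraMap Kbar ℂ a) ∘ ofComplex) (z0 : ℂ) = e) :
    HasEmbeddings N (jBar N - algebraMap Kbar (FBar N) a) γ⁻¹ e := by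
  have hmem : ∀ a (g : SL(2, ℤ)), (fun τ => D.ev a (g⁻¹ • τ)) ∈ holAlg :=
    fun a g => comp_smul_mem_holAlg g⁻¹ (D.hol a)
  obtain ⟨σ, hσ, hrot, hval⟩ := EmbFamily.exists_family N D.ev D.inj D.inv D.dist holAlg
    (discHom z0) (discHom_injective z0) hmem γ⁻¹ (rotUnit γ z0)
    (fun f hf hf' => by
      have hf'' : (fun τ : ℍ => f (γ • τ)) ∈ holAlg := by simpa using hf'
      have := discHom_comp_smul γ z0 hγ f hf hf''
      rw [← this]
      congr 1
      apply Subtype.ext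
      funext τ
      simp)
  set ξ : LaurentSeries ℂ := discHom z0 ⟨_, jFun_sub_mem_holAlg (algebraMap Kbar ℂ a)⟩ with hξ
  have hξord : ξ.order = e := order_discHom z0 _ hord
  refine ⟨σ, rotUnit γ z0, ξ, hσ, hζ, hrot, ?_, ?_, hξord⟩
  · intro c
    obtain ⟨g, rfl⟩ := QuotientGroup.mk_surjective c
    rw [map_sub, AlgHom.commutes, jBar_eq, hval]
    have h1 : (⟨fun τ => D.ev ⟨genJ 1, genJ_mem_genAlg (one_dvd N)⟩ (g⁻¹ • τ), hmem _ g⟩ : holAlg)
        = ⟨jFun, jFun_mem_holAlg⟩ := by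
      apply Subtype.ext
      funext τ
      show D.ev ⟨genJ 1, genJ_mem_genAlg (one_dvd N)⟩ (g⁻¹ • τ) = jFun τ
      rw [D.ev_j, jFun_smul]
    rw [h1, hξ]
    have h2 : (⟨_, jFun_sub_mem_holAlg (algebraMap Kbar ℂ a)⟩ : holAlg)
        = ⟨jFun, jFun_mem_holAlg⟩ - algebraMap ℂ holAlg (algebraMap Kbar ℂ a) := by
      apply Subtype.ext
      funext τ
      rfl
    rw [h2, map_sub, AlgHom.commutes, algebraMap_eq_C, algebraMap_eq_C' (K := Kbar)]
  · intro h0
    rw [h0, HahnSeries.order_zero] at hξord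
    have : (0 : ℤ) < e := by exact_mod_cast he
    omega

/-- The package over a generic value `a ∉ {0, 1728}`. -/
theorem hasEmbeddings_generic (D : EvData N)
    (hS3 : ∀ z0 : ℍ, jFun z0 ≠ 0 → jFun z0 ≠ 1728 →
      analyticOrderAt (fun z : ℂ => jFun (ofComplex z) - jFun z0) (z0 : ℂ) = 1)
    (a : Kbar) (ha0 : a ≠ 0) (ha1 : a ≠ 1728) :
    HasEmbeddings N (jBar N - algebraMap Kbar (FBar N) a) 1 1 := by
  obtain ⟨z0, hz0⟩ := jFun_surjective (algebraMap Kbar ℂ a)
  have hinj : Function.Injective (algebraMap Kbar ℂ) := (algebraMap Kbar ℂ).injective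
  have h0 : jFun z0 ≠ 0 := by
    rw [hz0]
    intro h
    exact ha0 (hinj (by rw [h, map_zero]))
  have h1 : jFun z0 ≠ 1728 := by
    rw [hz0]
    intro h
    exact ha1 (hinj (by rw [h, map_ofNat]))
  have h := hasEmbeddings_finite D z0 1 (one_smul _ z0) 1 one_pos
    (by rw [rotFactor_one]; exact IsPrimitiveRoot.one) a
    (by
      have := hS3 z0 h0 h1
      rw [hz0] at this
      exact_mod_cast this)
  rwa [inv_one] at h

/-- The package over `a = 0` (base point: a fixed point of `S * T`). -/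
theorem hasEmbeddings_zero (D : EvData N)
    (hS3 : ∃ z0 : ℍ, (ModularGroup.S * ModularGroup.T) • z0 = z0 ∧
      analyticOrderAt (fun z : ℂ => jFun (ofComplex z)) (z0 : ℂ) = 3) :
    ∃ g : SL(2, ℤ), Subgroup.zpowers g = Subgroup.zpowers (ModularGroup.S * ModularGroup.T) ∧
      HasEmbeddings N (jBar N - algebraMap Kbar (FBar N) 0) g 3 := by
  obtain ⟨z0, hfix, hord⟩ := hS3
  refine ⟨(ModularGroup.S * ModularGroup.T)⁻¹, Subgroup.zpowers_inv, ?_⟩
  refine hasEmbeddings_finite D z0 _ hfix 3 (by norm_num)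
    (isPrimitiveRoot_rotFactor_ST z0 hfix) 0 ?_
  have : ((fun τ => jFun τ - algebraMap Kbar ℂ 0) ∘ ofComplex)
      = fun z : ℂ => jFun (ofComplex z) := by
    funext z
    simp
  rw [this]
  exact_mod_cast hord

/-- The package over `a = 1728` (base point: a fixed point of `S`). -/
theorem hasEmbeddings_1728 (D : EvData N)
    (hS3 : ∃ z0 : ℍ, ModularGroup.S • z0 = z0 ∧
      analyticOrderAt (fun z : ℂ => jFun (ofComplex z) - 1728) (z0 : ℂ) = 2) :
    ∃ g : SL(2, ℤ), Subgroup.zpowers g = Subgroup.zpowers ModularGroup.S ∧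
      HasEmbeddings N (jBar N - algebraMap Kbar (FBar N) 1728) g 2 := by
  obtain ⟨z0, hfix, hord⟩ := hS3
  refine ⟨ModularGroup.S⁻¹, Subgroup.zpowers_inv, ?_⟩
  refine hasEmbeddings_finite D z0 _ hfix 2 (by norm_num)
    (isPrimitiveRoot_rotFactor_S z0 hfix) 1728 ?_
  have : ((fun τ => jFun τ - algebraMap Kbar ℂ 1728) ∘ ofComplex)
      = fun z : ℂ => jFun (ofComplex z) - 1728 := by
    funext z
    simp only [Function.comp_apply, map_ofNat]
  rw [this]
  exact_mod_cast hord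

end Fermat.Agent.S24.FinitePackage
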