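import Mathlib
import Fermat.Prelude.Def_AlgebraicCurve_DivisorClassGroup

/-! # S24 (Part A glue): basic `ord` lemmas at a place

`ord_algebraMap`, `ord_neg`, `ord_add_ge` (ultrametric inequality), `ord_add_eq_of_lt`,
`ord_sub_ge`.  Imports Mathlib + Prelude only. -/

set_option autoImplicit false

open AlgebraicCurve

namespace Fermat.Agent.S24.OrdBasic

variable {K F : Type*} [Field K] [Field F] [Algebra K F] (v : Place K F)

/-- `ord_v f = -log (adicValuation f)`; restated for rewriting. -/
theorem ord_def (f : F) : v.ord f = -(WithZero.log (v.adicValuation f)) := rfl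

/-- A nonzero constant has order `0` at every place. -/
theorem ord_algebraMap {c : K} (hc : c ≠ 0) : v.ord (algebraMap K F c) = 0 := by
  have hu : IsUnit (algebraMap K v.toValuationSubring c) :=
    (isUnit_iff_ne_zero.mpr hc).map (algebraMap K v.toValuationSubring)
  obtain ⟨u, hu'⟩ := hu
  have h1 : ((u : v.toValuationSubring) : F) = algebraMap K F c := by
    rw [hu']
    exact v.coe_algebraMap c
  rw [← h1]
  exact v.ord_coe_unit u

/-- `ord_v (-f) = ord_v f`. -/
theorem ord_neg (f : F) : v.ord (-f) = v.ord f := by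
  simp only [Place.ord, Valuation.map_neg]

/-- `ord_v (f - g) = ord_v (g - f)`. -/
theorem ord_sub_comm (f g : F) : v.ord (f - g) = v.ord (g - f) := by
  rw [← ord_neg, neg_sub]

/-- For `f, g ≠ 0`: `ord f ≤ ord g ↔ adicValuation g ≤ adicValuation f`. -/
theorem ord_le_ord_iff {f g : F} (hf : f ≠ 0) (hg : g ≠ 0) :
    v.ord f ≤ v.ord g ↔ v.adicValuation g ≤ v.adicValuation f := by
  simp only [Place.ord, neg_le_neg_iff]
  exact WithZero.log_le_log (v.adicValuation_ne_zero hg) (v.adicValuation_ne_zero hf)

/-- Ultrametric inequality for `ord`. -/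
theorem ord_add_ge {f g : F} (hfg : f + g ≠ 0) (hf : f ≠ 0) (hg : g ≠ 0) :
    min (v.ord f) (v.ord g) ≤ v.ord (f + g) := by
  have h := v.adicValuation.map_add f g
  rcases le_max_iff.mp h with h1 | h1
  · exact (min_le_left _ _).trans ((ord_le_ord_iff v hf hfg).mpr h1)
  · exact (min_le_right _ _).trans ((ord_le_ord_iff v hg hfg).mpr h1)

/-- Ultrametric inequality for `ord`, subtraction form. -/
theorem ord_sub_ge {f g : F} (hfg : f - g ≠ 0) (hf : f ≠ 0) (hg : g ≠ 0) :
    min (v.ord f) (v.ord g) ≤ v.ord (f - g) := by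
  have := ord_add_ge v (f := f) (g := -g) (by rwa [← sub_eq_add_neg]) hf (neg_ne_zero.mpr hg)
  rwa [ord_neg, ← sub_eq_add_neg] at this

/-- If `ord f < ord g` (both nonzero) then `ord (f + g) = ord f`. -/
theorem ord_add_eq_of_lt {f g : F} (hf : f ≠ 0) (hg : g ≠ 0) (h : v.ord f < v.ord g) :
    v.ord (f + g) = v.ord f := by
  have hfg : f + g ≠ 0 := by
    intro h0
    have : f = -g := eq_neg_of_add_eq_zero_left h0
    rw [this, ord_neg] at h
    exact lt_irrefl _ h
  apply le_antisymm
  · -- f = (f+g) - g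
    by_contra hlt
    push Not at hlt
    have h2 := ord_sub_ge v (f := f + g) (g := g) (by simpa using hf) hfg hg
    rw [add_sub_cancel_right] at h2
    have : v.ord f < min (v.ord (f + g)) (v.ord g) := lt_min hlt h
    omega
  · have := ord_add_ge v hfg hf hg
    rwa [min_eq_left h.le] at this

/-- If `ord f < 0` then for every constant `c`, `ord (f - c) = ord f`. -/
theorem ord_sub_algebraMap_of_neg {f : F} (hf : v.ord f < 0) (c : K) :
    v.ord (f - algebraMap K F c) = v.ord f := by
  by_cases hc : c = 0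
  · simp [hc]
  have hf0 : f ≠ 0 := by
    rintro rfl
    simp [Place.ord_zero] at hf
  have hc0 : -algebraMap K F c ≠ 0 := by
    simpa using hc
  rw [sub_eq_add_neg]
  apply ord_add_eq_of_lt v hf0 hc0
  rw [ord_neg, ord_algebraMap v hc]
  exact hf

end Fermat.Agent.S24.OrdBasic
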