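/-
S24, piece A2 in the exact shapes requested by the Part-A architect (lemma row 49):
residue field `= K`, `deg = 1`, stated with `IsFunctionField1 K F` from `Defs.lean`.
-/
import Mathlib
import Fermat.Agent.S24.Defs
import Fermat.Agent.S24.PlaceDeg

set_option autoImplicit false

namespace Fermat.Agent.S24

open AlgebraicCurve IntermediateField

variable {K F : Type*} [Field K] [Field F] [Algebra K F]

/-- A function field of one variable in the sense of `Defs.lean` satisfies `OneVariable`. -/
theorem oneVariable_of_isFunctionField1 (hF : IsFunctionField1 K F) : OneVariable K F := by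
  obtain ⟨x, hx, hfin⟩ := hF
  have : FiniteDimensional (IntermediateField.adjoin K ({x} : Set F)) F := hfin
  have : Algebra.IsAlgebraic (IntermediateField.adjoin K ({x} : Set F)) F :=
    Algebra.IsAlgebraic.of_finite _ _
  exact oneVariable_of_exists x hx

/-- Every place of a function field of one variable over an algebraically closed field has
degree one. -/
theorem place_deg_eq_one [IsAlgClosed K] (hF : IsFunctionField1 K F) (v : Place K F) :
    v.deg = 1 :=
  deg_eq_one v (oneVariable_of_isFunctionField1 hF)

/-- Membership in the valuation ring is nonnegativity of `ord`. -/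
theorem mem_valuationSubring_iff (v : Place K F) (f : F) (hf : f ≠ 0) :
    f ∈ v.toValuationSubring ↔ 0 ≤ v.ord f :=
  mem_valuationSubring_iff_ord_nonneg v hf

/-- `O_v = K + m_v`: every element with nonnegative order is congruent to a constant. -/
theorem exists_ord_sub_pos [IsAlgClosed K] (hF : IsFunctionField1 K F) (v : Place K F) (f : F)
    (hf : 0 ≤ v.ord f) (hf0 : f ≠ 0) :
    ∃ c : K, f = algebraMap K F c ∨ 0 < v.ord (f - algebraMap K F c) :=
  exists_const_ord_sub_pos v (oneVariable_of_isFunctionField1 hF)
    ((mem_valuationSubring_iff v f hf0).mpr hf)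

/-- Constants have order `0` (also `c = 0`, by the convention `ord 0 = 0`). -/
theorem ord_algebraMap (v : Place K F) (c : K) : v.ord (algebraMap K F c) = 0 := by
  rcases eq_or_ne c 0 with rfl | hc
  · simp
  have hc' : algebraMap K F c ≠ 0 := (map_ne_zero (algebraMap K F)).mpr hc
  have h1 : 0 ≤ v.ord (algebraMap K F c) :=
    (mem_valuationSubring_iff v _ hc').mp (v.algebraMap_mem' c)
  have h2 : 0 ≤ v.ord (algebraMap K F c⁻¹) :=
    (mem_valuationSubring_iff v _ ((map_ne_zero (algebraMap K F)).mpr (inv_ne_zero hc))).mp
      (v.algebraMap_mem' c⁻¹)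
  rw [map_inv₀, v.ord_inv] at h2
  omega

/-- The residue field of a place is `K` itself. -/
theorem residueField_algebraMap_bijective [IsAlgClosed K] (hF : IsFunctionField1 K F)
    (v : Place K F) : Function.Bijective (algebraMap K v.ResidueField) :=
  residue_algebraMap_bijective v (oneVariable_of_isFunctionField1 hF)

end Fermat.Agent.S24
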