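import Fermat.Agent.S24.Defs
import Fermat.Agent.S24.Exchange
import Fermat.Agent.S24.PlaceDeg

/-!
# S24, piece A7 (core): principal divisors have degree zero, given the zeros theorem A1

For a function field of one variable `F / K` over an algebraically closed field `K` and
`f : F` nonzero, only finitely many places `v` have `v.ord f ≠ 0`, and `∑ᶠ v, v.ord f = 0`.
-/

set_option autoImplicit false

open AlgebraicCurve IntermediateField

namespace Fermat.Agent.S24.PrincipalDegreeCore

variable {K F : Type*} [Field K] [Field F] [Algebra K F]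

/-- Constants have order zero at every place. -/
theorem ord_algebraMap_eq_zero (v : Place K F) (c : K) : v.ord (algebraMap K F c) = 0 := by
  rcases eq_or_ne c 0 with rfl | hc
  · simp
  · have h1 : algebraMap K F c ∈ v.toValuationSubring := v.algebraMap_mem' c
    have h2 : algebraMap K F c⁻¹ ∈ v.toValuationSubring := v.algebraMap_mem' c⁻¹
    have hu : IsUnit (⟨algebraMap K F c, h1⟩ : v.toValuationSubring) := by
      refine IsUnit.of_mul_eq_one (⟨algebraMap K F c⁻¹, h2⟩ : v.toValuationSubring) ?_
      apply Subtype.ext
      show algebraMap K F c * algebraMap K F c⁻¹ = 1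
      rw [← map_mul, mul_inv_cancel₀ hc, map_one]
    have := v.ord_coe_unit hu.unit
    simpa using this

variable [IsAlgClosed K]

variable (K F) in
/-- The statement of the zeros theorem A1 (`Fermat.Agent.S24.Zeros`), as a hypothesis:
a transcendental `y` with `F / K(y)` finite has finitely many zeros, and their orders sum to
`[F : K(y)]`. -/
def ZerosTheorem : Prop :=
  ∀ y : F, Transcendental K y → FiniteDimensional (IntermediateField.adjoin K ({y} : Set F)) F →
    {v : Place K F | 0 < v.ord y}.Finite ∧
      ∑ᶠ v ∈ {v : Place K F | 0 < v.ord y}, v.ord y =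
        (Module.finrank (IntermediateField.adjoin K ({y} : Set F)) F : ℤ)

/-- The set of places where `f` has nonzero order is the union of the zero sets of `f`
and of `f⁻¹`. -/
theorem setOf_ord_ne_zero (f : F) :
    {v : Place K F | v.ord f ≠ 0} =
      {v : Place K F | 0 < v.ord f} ∪ {v : Place K F | 0 < v.ord f⁻¹} := by
  ext v
  simp only [Set.mem_ofPred_eq, Set.mem_union, Place.ord_inv]
  omega

theorem ord_support_finite (hZ : ZerosTheorem K F) (hF : IsFunctionField1 K F) (f : F)
    (hf : f ≠ 0) :
    {v : Place K F | v.ord f ≠ 0}.Finite := by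
  by_cases hc : f ∈ Set.range (algebraMap K F)
  · obtain ⟨c, rfl⟩ := hc
    have : {v : Place K F | v.ord (algebraMap K F c) ≠ 0} = ∅ := by
      ext v
      simp [ord_algebraMap_eq_zero]
    rw [this]
    exact Set.finite_empty
  · have htr : Transcendental K f := (Exchange.transcendental_iff_not_mem_range f).2 hc
    have htr' : Transcendental K f⁻¹ := Exchange.transcendental_inv htr
    haveI := Exchange.finiteDimensional_adjoin_of_transcendental hF htr
    haveI := Exchange.finiteDimensional_adjoin_of_transcendental hF htr'
    rw [setOf_ord_ne_zero]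
    exact (hZ f htr inferInstance).1.union (hZ f⁻¹ htr' inferInstance).1

theorem sum_ord_eq_zero (hZ : ZerosTheorem K F) (hF : IsFunctionField1 K F) (f : F)
    (hf : f ≠ 0) :
    ∑ᶠ v : Place K F, v.ord f = 0 := by
  by_cases hc : f ∈ Set.range (algebraMap K F)
  · obtain ⟨c, rfl⟩ := hc
    simp [ord_algebraMap_eq_zero]
  · have htr : Transcendental K f := (Exchange.transcendental_iff_not_mem_range f).2 hc
    have htr' : Transcendental K f⁻¹ := Exchange.transcendental_inv htr
    haveI := Exchange.finiteDimensional_adjoin_of_transcendental hF htr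
    haveI := Exchange.finiteDimensional_adjoin_of_transcendental hF htr'
    have hZf := (hZ f htr inferInstance).1
    have hP := (hZ f⁻¹ htr' inferInstance).1
    have hsZ := (hZ f htr inferInstance).2
    have hsP := (hZ f⁻¹ htr' inferInstance).2
    rw [Exchange.finrank_adjoin_inv] at hsP
    -- the support of `v ↦ v.ord f` is contained in `Z ∪ P`
    have hsupp : Function.support (fun v : Place K F => v.ord f) ⊆
        ({v : Place K F | 0 < v.ord f} ∪ {v : Place K F | 0 < v.ord f⁻¹}) := by
      intro v hv
      rw [← setOf_ord_ne_zero]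
      exact hv
    have hdisj : Disjoint {v : Place K F | 0 < v.ord f} {v : Place K F | 0 < v.ord f⁻¹} := by
      rw [Set.disjoint_left]
      intro v hv hv'
      simp only [Set.mem_ofPred_eq, Place.ord_inv] at hv hv'
      omega
    have hrew : ∑ᶠ v : Place K F, v.ord f =
        ∑ᶠ v ∈ ({v : Place K F | 0 < v.ord f} ∪ {v : Place K F | 0 < v.ord f⁻¹}), v.ord f := by
      rw [← finsum_mem_univ]
      refine finsum_mem_inter_support_eq' _ _ _ fun v hv => ?_
      exact ⟨fun _ => hsupp hv, fun _ => Set.mem_univ v⟩
    rw [hrew, finsum_mem_union hdisj hZf hP]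
    have hneg : ∑ᶠ v ∈ {v : Place K F | 0 < v.ord f⁻¹}, v.ord f =
        - ∑ᶠ v ∈ {v : Place K F | 0 < v.ord f⁻¹}, v.ord f⁻¹ := by
      rw [← finsum_mem_neg_distrib _ hP]
      refine finsum_mem_congr rfl fun v _ => ?_
      rw [Place.ord_inv, neg_neg]
    rw [hneg, hsZ, hsP, add_neg_cancel]

/-- `IsFunctionField1` implies helper96's `OneVariable`. -/
theorem oneVariable_of_isFunctionField1 (hF : IsFunctionField1 K F) : OneVariable K F := by
  intro f hf
  haveI := Exchange.finiteDimensional_adjoin_of_transcendental hF hf
  exact Algebra.IsAlgebraic.of_finite _ _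

/-- The degree of a divisor all of whose places have degree one is the sum of its
coefficients. -/
theorem degree_eq_finsum (hF : IsFunctionField1 K F) (D : Divisor K F) :
    Divisor.degree D = ∑ᶠ v : Place K F, D v := by
  have hdeg : ∀ v : Place K F, v.deg = 1 :=
    fun v => deg_eq_one v (oneVariable_of_isFunctionField1 hF)
  rw [finsum_eq_sum_of_support_subset (s := D.support) _ (by
    intro v hv
    simpa [Finsupp.mem_support_iff] using hv)]
  simp only [Divisor.degree, Finsupp.liftAddHom_apply, Finsupp.sum, AddMonoidHom.coe_mulRight, hdeg,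
    Nat.cast_one, mul_one]

/-- **Principal divisors have degree zero** (divisor form): if `D v = v.ord f` for all places
`v`, with `f ≠ 0`, then `deg D = 0`. -/
theorem degree_eq_zero_of_forall_eq_ord (hZ : ZerosTheorem K F) (hF : IsFunctionField1 K F)
    (f : F) (hf : f ≠ 0) (D : Divisor K F) (hD : ∀ v : Place K F, D v = v.ord f) : Divisor.degree D = 0 := by
  rw [degree_eq_finsum hF D, ← sum_ord_eq_zero hZ hF f hf]
  exact finsum_congr hD

/-- Every principal divisor (in the sense of the Prelude) has degree zero. -/
theorem degree_eq_zero_of_mem_principal (hZ : ZerosTheorem K F) (hF : IsFunctionField1 K F)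
    {D : Divisor K F}
    (hD : D ∈ Divisor.principal (K := K) (F := F)) : Divisor.degree D = 0 := by
  obtain ⟨f, hf, hDf⟩ := hD
  exact degree_eq_zero_of_forall_eq_ord hZ hF f hf D hDf

/-- For `f ≠ 0` the principal divisor `div f` exists as a finitely supported function. -/
theorem exists_divisor_eq_ord (hZ : ZerosTheorem K F) (hF : IsFunctionField1 K F) (f : F)
    (hf : f ≠ 0) :
    ∃ D : Divisor K F, ∀ v : Place K F, D v = v.ord f := by
  classical
  refine ⟨Finsupp.ofSupportFinite (fun v : Place K F => v.ord f) (ord_support_finite hZ hF f hf),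
    fun v => rfl⟩

/-- The Prelude class `HasPrincipalDivisors` holds for a function field of one variable over
an algebraically closed field. -/
theorem hasPrincipalDivisors (hZ : ZerosTheorem K F) (hF : IsFunctionField1 K F) :
    HasPrincipalDivisors K F :=
  ⟨fun f hf => by
    obtain ⟨D, hD⟩ := exists_divisor_eq_ord hZ hF f hf
    exact ⟨D, hD, degree_eq_zero_of_forall_eq_ord hZ hF f hf D hD⟩⟩

end Fermat.Agent.S24.PrincipalDegreeCore
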