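import Mathlib
import Fermat.Prelude.Def_AlgebraicCurve_CanonicalDivisor

/-!
# S24 / A5 (core): the formal derivative on Laurent series and the order of `dy` at a place

Everything here is independent of the other S24 files.
-/

set_option autoImplicit false

open HahnSeries KaehlerDifferential AlgebraicCurve

namespace Fermat.Agent.S24.DiffOrder

section Laurent

variable {K : Type*} [Field K]

/-- The formal derivative of Laurent series, as a `K`-linear map. -/
noncomputable def lsD : LaurentSeries K →ₗ[K] LaurentSeries K := LaurentSeries.derivative K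

theorem coeff_lsD (f : LaurentSeries K) (n : ℤ) :
    (lsD f).coeff n = ((n : K) + 1) * f.coeff (n + 1) := by
  rw [lsD, LaurentSeries.derivative_apply, LaurentSeries.hasseDeriv_coeff]
  simp [zsmul_eq_mul]

/-- Shift formula: `∂ (X^a g) = a X^(a-1) g + X^a ∂ g`. -/
theorem lsD_single_mul (a : ℤ) (g : LaurentSeries K) :
    lsD (single a (1 : K) * g) =
      HahnSeries.C (a : K) * (single (a - 1) (1 : K) * g) + single a (1 : K) * lsD g := by
  ext n
  rw [coeff_lsD, HahnSeries.coeff_add, coeff_single_mul, HahnSeries.C_mul_eq_smul,
    HahnSeries.coeff_smul, coeff_single_mul, coeff_single_mul, coeff_lsD]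
  have h1 : n + 1 - a = n - (a - 1) := by ring
  have h2 : n - a + 1 = n - (a - 1) := by ring
  rw [h1, h2]
  simp only [one_mul, smul_eq_mul]
  push_cast
  ring

/-- On power series the formal derivative is the usual one. -/
theorem lsD_coe (P : PowerSeries K) :
    lsD (P : LaurentSeries K) = ((PowerSeries.derivative K P : PowerSeries K) : LaurentSeries K) := by
  ext n
  rw [coeff_lsD, PowerSeries.coeff_coe, PowerSeries.coeff_coe]
  rcases lt_trichotomy n (-1) with h | h | h
  · rw [if_pos (by omega), if_pos (by omega), mul_zero]
  · subst h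
    simp
  · have hn : 0 ≤ n := by omega
    obtain ⟨j, rfl⟩ := Int.eq_ofNat_of_zero_le hn
    rw [if_neg (by omega), if_neg (by omega), PowerSeries.coeff_derivative]
    have : ((j : ℤ) + 1).natAbs = j + 1 := by omega
    rw [this, Int.natAbs_natCast]
    push_cast
    ring

theorem eq_single_mul_powerSeriesPart (f : LaurentSeries K) :
    f = single f.order (1 : K) * ((f.powerSeriesPart : PowerSeries K) : LaurentSeries K) :=
  (LaurentSeries.single_order_mul_powerSeriesPart f).symm

theorem single_add_one (a b : ℤ) :
    (single (a + b) (1 : K) : LaurentSeries K) = single a 1 * single b 1 := by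
  rw [single_mul_single, mul_one]

/-- Leibniz rule for the formal derivative of Laurent series. -/
theorem lsD_mul (f g : LaurentSeries K) : lsD (f * g) = f * lsD g + g * lsD f := by
  set a := f.order
  set b := g.order
  set P := f.powerSeriesPart
  set Q := g.powerSeriesPart
  have hf : f = single a (1 : K) * (P : LaurentSeries K) := eq_single_mul_powerSeriesPart f
  have hg : g = single b (1 : K) * (Q : LaurentSeries K) := eq_single_mul_powerSeriesPart g
  have hfg : f * g = single (a + b) (1 : K) * ((P * Q : PowerSeries K) : LaurentSeries K) := by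
    rw [hf, hg, single_add_one, PowerSeries.coe_mul]; ring
  have hPQ : ((PowerSeries.derivative K (P * Q) : PowerSeries K) : LaurentSeries K) =
      (P : LaurentSeries K) * ((PowerSeries.derivative K Q : PowerSeries K) : LaurentSeries K) +
      (Q : LaurentSeries K) * ((PowerSeries.derivative K P : PowerSeries K) : LaurentSeries K) := by
    rw [Derivation.leibniz, smul_eq_mul, smul_eq_mul, PowerSeries.coe_add, PowerSeries.coe_mul,
      PowerSeries.coe_mul]
  have e1 : (single (a + b - 1) (1 : K) : LaurentSeries K) =
      single a 1 * single b 1 * single (-1) 1 := by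
    rw [← single_add_one, ← single_add_one]; congr 1
  have e2 : (single (a - 1) (1 : K) : LaurentSeries K) = single a 1 * single (-1) 1 := by
    rw [← single_add_one]; congr 1
  have e3 : (single (b - 1) (1 : K) : LaurentSeries K) = single b 1 * single (-1) 1 := by
    rw [← single_add_one]; congr 1
  have hab : (HahnSeries.C ((a + b : ℤ) : K) : LaurentSeries K) =
      HahnSeries.C (a : K) + HahnSeries.C (b : K) := by
    rw [← map_add]; push_cast; rfl
  rw [hfg, lsD_single_mul, lsD_coe, hPQ]
  conv_rhs => rw [hf, hg, lsD_single_mul, lsD_single_mul, lsD_coe, lsD_coe]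
  rw [e1, e2, e3, single_add_one, hab, PowerSeries.coe_mul]
  ring

theorem algebraMap_laurent_eq_C (c : K) :
    algebraMap K (LaurentSeries K) c = HahnSeries.C c := by
  rw [HahnSeries.algebraMap_apply']; simp

/-- The formal derivative of Laurent series as a derivation. -/
noncomputable def lsDeriv : Derivation K (LaurentSeries K) (LaurentSeries K) where
  toFun := fun f => lsD f
  map_add' := by
    intro f g
    exact map_add lsD f g
  map_smul' := by
    intro c f
    simp only [RingHom.id_apply]
    rw [Algebra.smul_def]
    ext n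
    rw [algebraMap_laurent_eq_C, coeff_lsD, HahnSeries.coeff_smul, coeff_lsD, C_mul_eq_smul,
      HahnSeries.coeff_smul]
    simp only [smul_eq_mul]
    ring
  map_one_eq_zero' := by
    have h2 : lsD (1 * 1 : LaurentSeries K) = 1 * lsD 1 + 1 * lsD 1 := lsD_mul 1 1
    simp only [mul_one, one_mul] at h2
    show lsD 1 = 0
    simpa using h2
  leibniz' := by
    intro f g
    show lsD (f * g) = f • lsD g + g • lsD f
    rw [lsD_mul]; rfl

theorem lsDeriv_apply (f : LaurentSeries K) : lsDeriv f = lsD f := rfl

theorem coeff_lsDeriv (f : LaurentSeries K) (n : ℤ) :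
    (lsDeriv f).coeff n = ((n : K) + 1) * f.coeff (n + 1) := coeff_lsD f n

theorem lsDeriv_single_one : lsDeriv (single 1 (1 : K) : LaurentSeries K) = 1 := by
  ext n
  rw [coeff_lsDeriv, coeff_single, HahnSeries.coeff_one]
  by_cases hn : n = 0
  · subst hn; simp
  · rw [if_neg (by omega), if_neg hn, mul_zero]

/-- In characteristic zero, the derivative of a series of nonzero order `e` has order `e - 1`. -/
theorem order_lsDeriv [CharZero K] {f : LaurentSeries K} (ho : f.order ≠ 0) :
    lsDeriv f ≠ 0 ∧ (lsDeriv f).order = f.order - 1 := by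
  have hf : f ≠ 0 := by rintro rfl; exact ho order_zero
  have hlead : (lsDeriv f).coeff (f.order - 1) ≠ 0 := by
    rw [coeff_lsDeriv, sub_add_cancel]
    refine mul_ne_zero ?_ (fun h => hf (coeff_order_eq_zero.mp h))
    have : ((f.order - 1 : ℤ) : K) + 1 = ((f.order : ℤ) : K) := by push_cast; ring
    rw [this]
    exact_mod_cast ho
  have hne : lsDeriv f ≠ 0 := by
    intro h; rw [h] at hlead; exact hlead rfl
  refine ⟨hne, le_antisymm (order_le_of_coeff_ne_zero hlead) ?_⟩
  by_contra hlt
  rw [not_le] at hlt
  have h0 : (lsDeriv f).coeff (lsDeriv f).order = 0 := by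
    rw [coeff_lsDeriv, coeff_eq_zero_of_lt_order (by omega), mul_zero]
  exact hne (coeff_order_eq_zero.mp h0)

theorem lsD_C_mul (c : K) (f : LaurentSeries K) :
    lsD (HahnSeries.C c * f) = HahnSeries.C c * lsD f := by
  ext n
  rw [coeff_lsD, C_mul_eq_smul, C_mul_eq_smul, HahnSeries.coeff_smul, HahnSeries.coeff_smul,
    coeff_lsD]
  simp only [smul_eq_mul]
  ring

end Laurent

section core

variable {K F : Type*} [Field K] [Field F] [Algebra K F]

/-- Constants have order zero at every place. -/
theorem ord_algebraMap_eq_zero (v : Place K F) (c : K) : v.ord (algebraMap K F c) = 0 := by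
  rcases eq_or_ne c 0 with rfl | hc
  · simp
  · have h1 : IsUnit (⟨algebraMap K F c, v.algebraMap_mem' c⟩ : v.toValuationSubring) := by
      refine IsUnit.of_mul_eq_one ⟨algebraMap K F c⁻¹, v.algebraMap_mem' c⁻¹⟩ ?_
      ext
      show algebraMap K F c * algebraMap K F c⁻¹ = 1
      rw [← map_mul, mul_inv_cancel₀ hc, map_one]
    exact v.ord_coe_unit h1.unit

/-- An element of nonzero order at some place is transcendental over an algebraically closed
constant field. -/
theorem transcendental_of_ord_ne_zero [IsAlgClosed K] (v : Place K F) {y : F}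
    (hy : v.ord y ≠ 0) : Transcendental K y := by
  intro halg
  have hint : IsIntegral K y := halg.isIntegral
  have hdeg : (minpoly K y).degree = 1 :=
    IsAlgClosed.degree_eq_one_of_irreducible K (minpoly.irreducible hint)
  obtain ⟨c, hc⟩ := minpoly.mem_range_of_degree_eq_one K y hdeg
  exact hy (hc ▸ ord_algebraMap_eq_zero v c)

/-- **A5, core statement.** Let `v` be a place with `v.dCoord = dπ`, and let
`σ : F → K((X))` be an expansion at `v` (orders match, `σ π = X`). Then for `y` of nonzero
order `e` at `v`, the differential `dy` has order `e - 1` at `v`. -/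
theorem ordDifferential_D_core [CharZero K] (v : Place K F) [v.DCoordGenerates]
    (π : F) (hπd : v.dCoord = D K F π)
    (σ : F →ₐ[K] LaurentSeries K) (hσord : ∀ f : F, f ≠ 0 → (σ f).order = v.ord f)
    (hσπ : σ π = HahnSeries.single (1 : ℤ) (1 : K))
    (y : F) (hy : v.ord y ≠ 0) :
    v.ordDifferential (D K F y) = v.ord y - 1 := by
  classical
  have hy0 : y ≠ 0 := by rintro rfl; exact hy v.ord_zero
  -- `K((X))` as an `F`-module via `σ`
  let _ : Module F (LaurentSeries K) :=
    Module.compHom (LaurentSeries K) (σ : F →+* LaurentSeries K)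
  have hsmul : ∀ (f : F) (m : LaurentSeries K), f • m = σ f * m := fun f m => rfl
  have hσalg : ∀ k : K, σ (algebraMap K F k) = HahnSeries.C k := by
    intro k; rw [σ.commutes, algebraMap_laurent_eq_C]
  have : IsScalarTower K F (LaurentSeries K) := ⟨fun k f m => by
    rw [hsmul, hsmul, Algebra.smul_def, map_mul, hσalg, mul_assoc, C_mul_eq_smul]⟩
  -- the derivation `f ↦ ∂ (σ f)`
  let d1 : Derivation K F (LaurentSeries K) :=
    { toFun := fun f => lsDeriv (σ f)
      map_add' := fun f g => by rw [map_add, map_add]
      map_smul' := fun k f => by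
        simp only [RingHom.id_apply]
        rw [Algebra.smul_def, map_mul, hσalg, lsDeriv_apply, lsD_C_mul, C_mul_eq_smul]
        rfl
      map_one_eq_zero' := by
        show lsDeriv (σ 1) = 0
        rw [map_one, Derivation.map_one_eq_zero]
      leibniz' := fun a b => by
        show lsDeriv (σ (a * b)) = a • lsDeriv (σ b) + b • lsDeriv (σ a)
        rw [map_mul, Derivation.leibniz, hsmul, hsmul, smul_eq_mul, smul_eq_mul] }
  have hd1 : ∀ f, d1 f = lsDeriv (σ f) := fun f => rfl
  set c : F := v.differentialCoeff (D K F y) with hc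
  have hDy : D K F y = c • D K F π := by
    rw [← hπd, hc, v.differentialCoeff_smul_dCoord]
  have key : lsDeriv (σ y) = σ c := by
    have h1 : d1.liftKaehlerDifferential (D K F y) = d1 y :=
      Derivation.liftKaehlerDifferential_comp_D d1 y
    rw [hDy, map_smul, Derivation.liftKaehlerDifferential_comp_D, hd1, hd1, hσπ,
      lsDeriv_single_one, hsmul, mul_one] at h1
    exact h1.symm
  have hσy : (σ y).order ≠ 0 := by rw [hσord y hy0]; exact hy
  obtain ⟨hne, hord⟩ := order_lsDeriv hσy
  have hc0 : c ≠ 0 := by
    rintro h0
    rw [key, h0, map_zero] at hne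
    exact hne rfl
  show v.ord (v.differentialCoeff (D K F y)) = v.ord y - 1
  rw [← hc, ← hσord c hc0, ← key, hord, hσord y hy0]

/-- `ordDifferential` is additive under multiplication by a nonzero function. -/
theorem ordDifferential_smul_core (v : Place K F) [v.DCoordGenerates] [Nontrivial Ω[F⁄K]]
    (f : F) (hf : f ≠ 0) (ω : Ω[F⁄K]) (hω : ω ≠ 0) :
    v.ordDifferential (f • ω) = v.ord f + v.ordDifferential ω := by
  refine v.ordDifferential_smul hf ?_
  intro h0
  apply hω
  rw [← v.differentialCoeff_smul_dCoord ω, h0, zero_smul]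

end core

end Fermat.Agent.S24.DiffOrder
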