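import Fermat.Agent.S24.Defs
import Fermat.Agent.S24.PlaceDeg

/-!
# S24 / A4: expansion of a function field at a place

For a place `v` of `F / K` whose residue field is `K`, and an element `π` with `ord_v π = 1`, we
construct a `K`-algebra embedding `σ : F →ₐ[K] LaurentSeries K` with `σ π = X` and
`order (σ f) = ord_v f`.
-/

set_option autoImplicit false
set_option linter.unusedSimpArgs false
set_option linter.unusedVariables false

open AlgebraicCurve

namespace Fermat.Agent.S24.Expansion

section Abstract

variable {K A : Type*} [Field K] [CommRing A] [Algebra K A]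

/-- Hypotheses making `A` look like a discrete valuation ring with uniformizer `ϖ` and residue
field `K`. -/
structure ExpHyp (K : Type*) {A : Type*} [Field K] [CommRing A] [Algebra K A] (ϖ : A) : Prop where
  res : ∀ a : A, ∃ c : K, ∃ b : A, a = algebraMap K A c + ϖ * b
  reg : ∀ b : A, ϖ * b = 0 → b = 0
  nonunit : ¬ IsUnit ϖ
  sep : ∀ a : A, (∀ M : ℕ, ϖ ^ M ∣ a) → a = 0

variable {ϖ : A} (h : ExpHyp K ϖ)

include h in
theorem ExpHyp.uniq {c c' : K} {b b' : A}
    (e : algebraMap K A c + ϖ * b = algebraMap K A c' + ϖ * b') : c = c' ∧ b = b' := by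
  have e1 : algebraMap K A (c - c') = ϖ * (b' - b) := by
    rw [map_sub]; linear_combination e
  have hc : c = c' := by
    by_contra hne
    have hu : IsUnit (algebraMap K A (c - c')) := (IsUnit.mk0 _ (sub_ne_zero.mpr hne)).map _
    rw [e1] at hu
    exact h.nonunit (isUnit_of_mul_isUnit_left hu)
  refine ⟨hc, ?_⟩
  subst hc
  have h2 : ϖ * (b' - b) = 0 := by rw [← e1]; simp
  exact (sub_eq_zero.mp (h.reg _ h2)).symm

/-- residue of `a` -/
noncomputable def c0 (a : A) : K := (h.res a).choose
/-- `(a - c0 a) / ϖ` -/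
noncomputable def nx (a : A) : A := (h.res a).choose_spec.choose

theorem spec (a : A) : a = algebraMap K A (c0 h a) + ϖ * nx h a :=
  (h.res a).choose_spec.choose_spec

theorem c0_nx_eq {a : A} {c : K} {b : A} (e : a = algebraMap K A c + ϖ * b) :
    c0 h a = c ∧ nx h a = b :=
  h.uniq ((spec h a).symm.trans e)

/-- the expansion -/
noncomputable def tau (a : A) : PowerSeries K := PowerSeries.mk fun n => c0 h ((nx h)^[n] a)

theorem tau_eq {a : A} {c : K} {b : A} (e : a = algebraMap K A c + ϖ * b) :
    tau h a = PowerSeries.C c + PowerSeries.X * tau h b := by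
  ext n
  cases n with
  | zero => simp [tau, (c0_nx_eq h e).1]
  | succ n =>
    simp [tau, PowerSeries.coeff_succ_X_mul, Function.iterate_succ_apply, (c0_nx_eq h e).2,
      PowerSeries.coeff_C]

theorem tau_add (a a' : A) : tau h (a + a') = tau h a + tau h a' := by
  ext n
  induction n generalizing a a' with
  | zero =>
    have e : a + a' = algebraMap K A (c0 h a + c0 h a') + ϖ * (nx h a + nx h a') := by
      rw [map_add]; linear_combination (spec h a) + (spec h a')
    rw [tau_eq h e, tau_eq h (spec h a), tau_eq h (spec h a')]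
    simp
  | succ n ih =>
    have e : a + a' = algebraMap K A (c0 h a + c0 h a') + ϖ * (nx h a + nx h a') := by
      rw [map_add]; linear_combination (spec h a) + (spec h a')
    rw [tau_eq h e, tau_eq h (spec h a), tau_eq h (spec h a')]
    simp only [map_add, PowerSeries.coeff_succ_X_mul, PowerSeries.coeff_C]
    rw [ih]
    simp

theorem tau_algebraMap_add_mul (c : K) (b : A) :
    tau h (algebraMap K A c + ϖ * b) = PowerSeries.C c + PowerSeries.X * tau h b :=
  tau_eq h rfl

theorem tau_zero : tau h (0 : A) = 0 := by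
  have h0 : (0 : A) = algebraMap K A 0 + ϖ * 0 := by simp
  have hc := c0_nx_eq h h0
  ext n
  have : ∀ n : ℕ, (nx h)^[n] (0 : A) = 0 := by
    intro n
    induction n with
    | zero => rfl
    | succ n ih => rw [Function.iterate_succ_apply', ih, hc.2]
  simp [tau, this, hc.1]

theorem tau_algebraMap (c : K) : tau h (algebraMap K A c) = PowerSeries.C c := by
  have e : algebraMap K A c = algebraMap K A c + ϖ * 0 := by simp
  rw [tau_eq h e, tau_zero, mul_zero, add_zero]

theorem tau_varpi_mul (a : A) : tau h (ϖ * a) = PowerSeries.X * tau h a := by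
  have e : ϖ * a = algebraMap K A 0 + ϖ * a := by simp
  rw [tau_eq h e, map_zero, zero_add]

theorem tau_algebraMap_mul (k : K) (a : A) :
    tau h (algebraMap K A k * a) = PowerSeries.C k * tau h a := by
  ext n
  induction n generalizing a with
  | zero =>
    have e : algebraMap K A k * a = algebraMap K A (k * c0 h a) + ϖ * (algebraMap K A k * nx h a) := by
      rw [map_mul]; linear_combination (algebraMap K A k) * (spec h a)
    rw [tau_eq h e, tau_eq h (spec h a)]
    simp
  | succ n ih =>
    have e : algebraMap K A k * a = algebraMap K A (k * c0 h a) + ϖ * (algebraMap K A k * nx h a) := by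
      rw [map_mul]; linear_combination (algebraMap K A k) * (spec h a)
    rw [tau_eq h e, tau_eq h (spec h a)]
    rw [mul_add, ← mul_assoc, mul_comm (PowerSeries.C k) PowerSeries.X, mul_assoc]
    simp only [map_add, PowerSeries.coeff_succ_X_mul]
    rw [ih]
    simp [PowerSeries.coeff_C]

theorem tau_mul (a a' : A) : tau h (a * a') = tau h a * tau h a' := by
  ext n
  induction n using Nat.strong_induction_on generalizing a a' with
  | _ n ih =>
    have e : a * a' = algebraMap K A (c0 h a * c0 h a') +
        ϖ * (algebraMap K A (c0 h a) * nx h a' + algebraMap K A (c0 h a') * nx h a +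
          ϖ * (nx h a * nx h a')) := by
      rw [map_mul]
      linear_combination (algebraMap K A (c0 h a') + ϖ * nx h a') * (spec h a) +
        a * (spec h a')
    have lhs : tau h (a * a') = PowerSeries.C (c0 h a * c0 h a') +
        PowerSeries.X * (PowerSeries.C (c0 h a) * tau h (nx h a') +
          PowerSeries.C (c0 h a') * tau h (nx h a) +
          PowerSeries.X * tau h (nx h a * nx h a')) := by
      rw [tau_eq h e, tau_add, tau_add, tau_algebraMap_mul, tau_algebraMap_mul, tau_varpi_mul]
    have rhs : tau h a * tau h a' = PowerSeries.C (c0 h a * c0 h a') +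
        PowerSeries.X * (PowerSeries.C (c0 h a) * tau h (nx h a') +
          PowerSeries.C (c0 h a') * tau h (nx h a) +
          PowerSeries.X * (tau h (nx h a) * tau h (nx h a'))) := by
      nth_rewrite 1 [tau_eq h (spec h a)]
      nth_rewrite 1 [tau_eq h (spec h a')]
      rw [map_mul]
      ring
    rw [lhs, rhs]
    match n with
    | 0 => simp
    | 1 =>
      simp only [map_add, PowerSeries.coeff_succ_X_mul, zero_add]
      simp
    | (m + 2) =>
      simp only [map_add, PowerSeries.coeff_succ_X_mul]
      rw [ih m (by omega)]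

/-- The expansion as a `K`-algebra homomorphism. -/
noncomputable def tauAlgHom : A →ₐ[K] PowerSeries K where
  toFun := tau h
  map_one' := by rw [← map_one (algebraMap K A), tau_algebraMap, map_one]
  map_mul' := tau_mul h
  map_zero' := tau_zero h
  map_add' := tau_add h
  commutes' c := by rw [tau_algebraMap]; rfl

@[simp] theorem tauAlgHom_apply (a : A) : tauAlgHom h a = tau h a := rfl

theorem tau_varpi : tau h ϖ = PowerSeries.X := by
  have e := tau_varpi_mul h (1 : A)
  rw [mul_one, ← map_one (algebraMap K A), tau_algebraMap, map_one, mul_one] at e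
  exact e

theorem constantCoeff_tau (a : A) : PowerSeries.constantCoeff (tau h a) = c0 h a := by
  rw [tau_eq h (spec h a)]
  simp

theorem c0_eq_zero_iff (a : A) : c0 h a = 0 ↔ ϖ ∣ a := by
  constructor
  · intro h0
    have := spec h a
    rw [h0, map_zero, zero_add] at this
    exact ⟨_, this⟩
  · rintro ⟨b, rfl⟩
    have e : ϖ * b = algebraMap K A 0 + ϖ * b := by simp
    exact (c0_nx_eq h e).1

theorem pow_dvd_of_tau_eq_zero (M : ℕ) : ∀ a : A, tau h a = 0 → ϖ ^ M ∣ a := by
  induction M with
  | zero => intro a _; simp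
  | succ M ih =>
    intro a ha
    have hs := spec h a
    have h1 := tau_eq h hs
    rw [ha] at h1
    have hc : c0 h a = 0 := by
      have := congrArg PowerSeries.constantCoeff h1
      simpa using this.symm
    have hn : tau h (nx h a) = 0 := by
      ext n
      have := congrArg (PowerSeries.coeff (n + 1)) h1
      rw [map_add, PowerSeries.coeff_succ_X_mul, hc] at this
      simpa using this.symm
    obtain ⟨b, hb⟩ := ih _ hn
    refine ⟨b, ?_⟩
    rw [hs, hc, map_zero, zero_add, hb, pow_succ]
    ring

theorem tau_injective : Function.Injective (tau h) := by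
  intro a a' haa
  have h0 : tau h (a - a') = 0 := by
    have := tau_add h (a - a') a'
    rw [sub_add_cancel, haa] at this
    exact (add_eq_right.mp this.symm)
  exact sub_eq_zero.mp (h.sep _ fun M => pow_dvd_of_tau_eq_zero h M _ h0)

end Abstract

section Place

variable {K F : Type*} [Field K] [Field F] [Algebra K F]

/-- An element of order `1` lies in the valuation ring and is irreducible there. -/
theorem exists_irreducible_of_ord_eq_one (v : Place K F) (π : F) (hπ : v.ord π = 1) :
    ∃ ϖ : v.toValuationSubring, (ϖ : F) = π ∧ Irreducible ϖ := by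
  obtain ⟨ϖ₀, hϖ₀⟩ := IsDiscreteValuationRing.exists_irreducible v.toValuationSubring
  have hπ0 : π ≠ 0 := by
    rintro rfl
    simp at hπ
  obtain ⟨u, hu⟩ := v.exists_unit_mul_zpow hπ0 hϖ₀
  rw [hπ, zpow_one] at hu
  refine ⟨(u : v.toValuationSubring) * ϖ₀, ?_, (irreducible_units_mul u).mpr hϖ₀⟩
  rw [hu]
  rfl

theorem ord_nonneg_of_mem (v : Place K F) {f : F} (hf : f ∈ v.toValuationSubring) (hf0 : f ≠ 0) :
    0 ≤ v.ord f := by
  obtain ⟨ϖ₀, hϖ₀⟩ := IsDiscreteValuationRing.exists_irreducible v.toValuationSubring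
  have hne : (⟨f, hf⟩ : v.toValuationSubring) ≠ 0 := by
    intro h0
    exact hf0 (congrArg Subtype.val h0)
  obtain ⟨n, u, hu⟩ := IsDiscreteValuationRing.eq_unit_mul_pow_irreducible hne hϖ₀
  have hf' : f = ((u : v.toValuationSubring) : F) * ((ϖ₀ : F) ^ (n : ℤ)) := by
    have := congrArg Subtype.val hu
    simpa using this
  rw [hf', v.ord_unit_smul_zpow u hϖ₀]
  exact Int.natCast_nonneg n

theorem mem_of_ord_nonneg (v : Place K F) {f : F} (hf : 0 ≤ v.ord f) :
    f ∈ v.toValuationSubring := by
  rcases eq_or_ne f 0 with rfl | hf0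
  · exact zero_mem _
  obtain ⟨ϖ₀, hϖ₀⟩ := IsDiscreteValuationRing.exists_irreducible v.toValuationSubring
  obtain ⟨u, hu⟩ := v.exists_unit_mul_zpow hf0 hϖ₀
  obtain ⟨n, hn⟩ := Int.eq_ofNat_of_zero_le hf
  rw [hu, hn, zpow_natCast]
  exact mul_mem (u : v.toValuationSubring).2 (pow_mem ϖ₀.2 n)

/-- The hypotheses of the abstract construction hold for a valuation ring with residue field
`K`. -/
theorem expHyp_of_place (v : Place K F)
    (hres : ∀ f : F, f ≠ 0 → 0 ≤ v.ord f →
      ∃ c : K, f = algebraMap K F c ∨ 0 < v.ord (f - algebraMap K F c))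
    (ϖ : v.toValuationSubring) (hϖ : Irreducible ϖ) : ExpHyp K ϖ where
  res := by
    intro a
    rcases eq_or_ne a 0 with rfl | ha
    · exact ⟨0, 0, by simp⟩
    have haF : (a : F) ≠ 0 := fun h0 => ha (Subtype.ext h0)
    obtain ⟨c, hc | hc⟩ := hres a haF (ord_nonneg_of_mem v a.2 haF)
    · refine ⟨c, 0, ?_⟩
      apply Subtype.ext
      simpa using hc
    · have hϖF : (ϖ : F) ≠ 0 := fun h0 => hϖ.ne_zero (Subtype.ext h0)
      have hg0 : (a : F) - algebraMap K F c ≠ 0 := by
        intro h0
        rw [h0] at hc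
        simp at hc
      have hord : 0 ≤ v.ord (((a : F) - algebraMap K F c) * (ϖ : F)⁻¹) := by
        rw [v.ord_mul hg0 (inv_ne_zero hϖF), v.ord_inv, v.ord_coe_irreducible hϖ]
        omega
      refine ⟨c, ⟨_, mem_of_ord_nonneg v hord⟩, ?_⟩
      apply Subtype.ext
      show (a : F) = algebraMap K F c + (ϖ : F) * (((a : F) - algebraMap K F c) * (ϖ : F)⁻¹)
      field_simp
      ring
  reg := by
    intro b hb
    rcases mul_eq_zero.mp hb with h0 | h0
    · exact absurd h0 hϖ.ne_zero
    · exact h0
  nonunit := hϖ.not_isUnit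
  sep := by
    intro a ha
    by_contra ha0
    obtain ⟨n, u, hu⟩ := IsDiscreteValuationRing.eq_unit_mul_pow_irreducible ha0 hϖ
    obtain ⟨b, hb⟩ := ha (n + 1)
    rw [hu, pow_succ, mul_assoc] at hb
    have h1 : (u : v.toValuationSubring) * ϖ ^ n = ϖ ^ n * (ϖ * b) := hb
    have h2 : ϖ ^ n * (u : v.toValuationSubring) = ϖ ^ n * (ϖ * b) := by
      rw [← h1, mul_comm]
    have h3 := mul_left_cancel₀ (pow_ne_zero n hϖ.ne_zero) h2
    exact hϖ.not_isUnit (isUnit_of_mul_isUnit_left (h3 ▸ u.isUnit))

/-- order of a power series with nonzero constant coefficient, viewed as a Laurent series -/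
theorem order_ofPowerSeries_of_constantCoeff_ne_zero (s : PowerSeries K)
    (hs : PowerSeries.constantCoeff s ≠ 0) :
    (HahnSeries.ofPowerSeries ℤ K s).order = 0 := by
  have hc0 : (HahnSeries.ofPowerSeries ℤ K s).coeff 0 ≠ 0 := by
    have := PowerSeries.coeff_coe (R := K) s (0 : ℤ)
    rw [this]
    simpa using hs
  have hne : HahnSeries.ofPowerSeries ℤ K s ≠ 0 := HahnSeries.ne_zero_of_coeff_ne_zero hc0
  apply le_antisymm (HahnSeries.order_le_of_coeff_ne_zero hc0)
  rw [HahnSeries.le_order_iff_forall hne]
  intro j hj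
  have := PowerSeries.coeff_coe (R := K) s j
  rw [this, if_pos hj]

/-- **A4 (explicit residue hypothesis).**  Expansion of `F` at a place with residue field `K`. -/
theorem exists_expansion_of_res (v : Place K F)
    (hres : ∀ f : F, f ≠ 0 → 0 ≤ v.ord f →
      ∃ c : K, f = algebraMap K F c ∨ 0 < v.ord (f - algebraMap K F c))
    (π : F) (hπ : v.ord π = 1) :
    ∃ σ : F →ₐ[K] LaurentSeries K, (∀ f : F, f ≠ 0 → (σ f).order = v.ord f) ∧
      σ π = HahnSeries.single (1 : ℤ) (1 : K) := by
  classical
  obtain ⟨ϖ, hϖπ, hϖ⟩ := exists_irreducible_of_ord_eq_one v π hπ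
  have h := expHyp_of_place v hres ϖ hϖ
  let g : v.toValuationSubring →+* LaurentSeries K :=
    (HahnSeries.ofPowerSeries ℤ K).comp (tauAlgHom h).toRingHom
  have hg : Function.Injective g :=
    HahnSeries.ofPowerSeries_injective.comp (tau_injective h)
  let σ₀ : F →+* LaurentSeries K := IsFractionRing.lift hg
  have hσ₀ : ∀ a : v.toValuationSubring,
      σ₀ (a : F) = HahnSeries.ofPowerSeries ℤ K (tau h a) :=
    fun a => IsFractionRing.lift_algebraMap hg a
  let σ : F →ₐ[K] LaurentSeries K :=
    { σ₀ with
      commutes' := fun c => by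
        show σ₀ (algebraMap K F c) = algebraMap K (LaurentSeries K) c
        have e : algebraMap K F c =
            ((algebraMap K v.toValuationSubring c : v.toValuationSubring) : F) := rfl
        rw [e, hσ₀, tau_algebraMap, HahnSeries.ofPowerSeries_C]
        exact (LaurentSeries.algebraMap_apply K c).symm }
  have hσ : ∀ f : F, σ f = σ₀ f := fun f => rfl
  have hσπ : σ π = HahnSeries.single (1 : ℤ) (1 : K) := by
    rw [hσ, ← hϖπ, hσ₀, tau_varpi, HahnSeries.ofPowerSeries_X]
  refine ⟨σ, ?_, hσπ⟩
  intro f hf
  obtain ⟨u, hu⟩ := v.exists_unit_mul_zpow hf hϖ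
  have hcu : PowerSeries.constantCoeff (tau h (u : v.toValuationSubring)) ≠ 0 := by
    rw [constantCoeff_tau, Ne, c0_eq_zero_iff]
    intro hdvd
    exact hϖ.not_isUnit (isUnit_of_dvd_unit hdvd u.isUnit)
  have hxu := order_ofPowerSeries_of_constantCoeff_ne_zero (tau h (u : v.toValuationSubring)) hcu
  have hxne : HahnSeries.ofPowerSeries ℤ K (tau h (u : v.toValuationSubring)) ≠ 0 := by
    intro h0
    apply hcu
    have := HahnSeries.ofPowerSeries_injective (Γ := ℤ) (R := K)
      (h0.trans (map_zero (HahnSeries.ofPowerSeries ℤ K)).symm)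
    rw [this, map_zero]
  have hsingle : (HahnSeries.single (1 : ℤ) (1 : K)) ^ (v.ord f) =
      HahnSeries.single (v.ord f) (1 : K) := (RatFunc.single_zpow (v.ord f)).symm
  have hsne : HahnSeries.single (v.ord f) (1 : K) ≠ 0 := by
    rw [Ne, HahnSeries.single_eq_zero_iff]
    exact one_ne_zero
  have e1 : σ f = HahnSeries.ofPowerSeries ℤ K (tau h (u : v.toValuationSubring)) *
      HahnSeries.single (v.ord f) (1 : K) := by
    conv_lhs => rw [hu]
    rw [map_mul, map_zpow₀, hσ ((u : v.toValuationSubring) : F), hσ₀, hϖπ, hσπ, hsingle]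
  rw [e1, HahnSeries.order_mul hxne hsne, hxu, HahnSeries.order_single one_ne_zero, zero_add]

/-- Bridge between the two formulations of "function field of one variable". -/
theorem oneVariable_of_isFunctionField1 (hF : IsFunctionField1 K F) : OneVariable K F := by
  obtain ⟨x, hx, hfin⟩ := hF
  have := hfin
  have : Algebra.IsAlgebraic (IntermediateField.adjoin K ({x} : Set F)) F :=
    Algebra.IsAlgebraic.of_finite _ _
  exact oneVariable_of_exists x hx

/-- The residue hypothesis, from `PlaceDeg.lean`. -/
theorem residue_hyp [IsAlgClosed K] (hF : IsFunctionField1 K F) (v : Place K F) :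
    ∀ f : F, f ≠ 0 → 0 ≤ v.ord f →
      ∃ c : K, f = algebraMap K F c ∨ 0 < v.ord (f - algebraMap K F c) :=
  fun _ _ hf => exists_const_ord_sub_pos v (oneVariable_of_isFunctionField1 hF)
    (mem_of_ord_nonneg v hf)

/-- **A4.**  Expansion of `F` at a place: a `K`-embedding `σ : F → K((X))` with `σ π = X` and
`order (σ f) = ord_v f`. -/
theorem exists_expansion [IsAlgClosed K] (hF : IsFunctionField1 K F) (v : Place K F) (π : F)
    (hπ : v.ord π = 1) :
    ∃ σ : F →ₐ[K] LaurentSeries K, (∀ f : F, f ≠ 0 → (σ f).order = v.ord f) ∧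
      σ π = HahnSeries.single (1 : ℤ) (1 : K) :=
  exists_expansion_of_res v (residue_hyp hF v) π hπ

end Place

end Fermat.Agent.S24.Expansion
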