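import Fermat.Agent.S24.Defs
import Fermat.Agent.S24.KaehlerGen
import Fermat.Agent.S24.Expansion
import Fermat.Agent.S24.DiffOrderCore

/-!
# S24 / A5: order of the differential `dy` at a place

`ordDifferential (D y) = ord y - 1` for `ord y ≠ 0`, and additivity of `ordDifferential` under
multiplication by functions.
-/

set_option autoImplicit false

open KaehlerDifferential AlgebraicCurve

namespace Fermat.Agent.S24.DiffOrder

variable {K F : Type*} [Field K] [Field F] [Algebra K F] [IsAlgClosed K] [CharZero K]

theorem dCoordGenerates (hF : IsFunctionField1 K F) (v : Place K F) : v.DCoordGenerates :=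
  KaehlerGen.FF.dCoordGenerates hF v

theorem ordDifferential_D (hF : IsFunctionField1 K F) (v : Place K F) (y : F)
    (hy : v.ord y ≠ 0) :
    v.ordDifferential (KaehlerDifferential.D K F y) = v.ord y - 1 := by
  have : v.DCoordGenerates := dCoordGenerates hF v
  obtain ⟨π, hπ1, hπd⟩ := exists_uniformizer_dCoord v
  obtain ⟨σ, hσord, hσπ⟩ := Expansion.exists_expansion hF v π hπ1
  exact ordDifferential_D_core v π hπd σ hσord hσπ y hy

theorem ordDifferential_smul' (hF : IsFunctionField1 K F) (v : Place K F) (f : F) (hf : f ≠ 0)
    (ω : Ω[F⁄K]) (hω : ω ≠ 0) :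
    v.ordDifferential (f • ω) = v.ord f + v.ordDifferential ω := by
  have : v.DCoordGenerates := dCoordGenerates hF v
  have : Nontrivial Ω[F⁄K] := KaehlerGen.FF.nontrivial hF
  exact ordDifferential_smul_core v f hf ω hω

end Fermat.Agent.S24.DiffOrder
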