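import Fermat.Agent.S24.Reduction
import Fermat.Agent.S24.Exchange
import Fermat.Agent.S24.KaehlerGen
import Fermat.Agent.S24.OrdBasic
import Fermat.Agent.S24.DiffOrder
import Fermat.Agent.S24.PrincipalDegreeCore

/-!
# S24, piece A8: the Riemann–Hurwitz formula (`HurwitzFormula`) from the Part A pieces
-/

set_option autoImplicit false

open AlgebraicCurve KaehlerDifferential IntermediateField

namespace Fermat.Agent.S24.Hurwitz

open Fermat.Agent.S24.Exchange Fermat.Agent.S24.OrdBasic
open Fermat.Agent.S24.PrincipalDegreeCore (ZerosTheorem)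
open Fermat.Agent.S24.DiffOrder (ordDifferential_D ordDifferential_smul')

variable {K F : Type*} [Field K] [Field F] [Algebra K F]

/-! ### Degree of a divisor when all places have degree one -/

theorem degree_eq_finsum (hdeg : ∀ v : Place K F, v.deg = 1) (D : Divisor K F) :
    Divisor.degree D = ∑ᶠ v : Place K F, D v := by
  classical
  have h1 : Divisor.degree D = D.sum fun _ n => n := by
    unfold Divisor.degree
    rw [Finsupp.liftAddHom_apply]
    refine Finsupp.sum_congr fun v _ => ?_
    simp [hdeg v]
  rw [h1, Finsupp.sum]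
  symm
  exact finsum_eq_sum_of_support_subset _ (fun v hv => by simpa using hv)

theorem ne_zero_of_transcendental {x : F} (hx : Transcendental K x) : x ≠ 0 := by
  rintro rfl
  exact hx (isAlgebraic_zero)

theorem finrank_sub {x : F} (a : K) :
    Module.finrank (IntermediateField.adjoin K ({x - algebraMap K F a} : Set F)) F
      = Module.finrank (IntermediateField.adjoin K ({x} : Set F)) F :=
  congrArg (fun E : IntermediateField K F => Module.finrank E F) (adjoin_sub_algebraMap x a)

theorem finrank_inv {x : F} :
    Module.finrank (IntermediateField.adjoin K ({x⁻¹} : Set F)) F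
      = Module.finrank (IntermediateField.adjoin K ({x} : Set F)) F :=
  congrArg (fun E : IntermediateField K F => Module.finrank E F) (adjoin_inv x)

theorem polesOf_eq {x : F} : polesOf K x = {v : Place K F | 0 < v.ord x⁻¹} := by
  ext v
  rw [mem_polesOf]
  show v.ord x < 0 ↔ 0 < v.ord x⁻¹
  rw [Place.ord_inv]
  omega

theorem D_sub_algebraMap (x : F) (a : K) :
    D K F (x - algebraMap K F a) = D K F x := by
  rw [map_sub, Derivation.map_algebraMap, sub_zero]

section

variable [IsAlgClosed K]

theorem sub_algebraMap_ne_zero {x : F} (hx : Transcendental K x) (a : K) :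
    x - algebraMap K F a ≠ 0 := by
  intro h
  exact (transcendental_iff_not_mem_range x).mp hx ⟨a, (sub_eq_zero.mp h).symm⟩

theorem not_mem_zerosOver_of_mem_polesOf {x : F} (hx : Transcendental K x) {v : Place K F}
    (hv : v ∈ polesOf K x) (a : K) : v ∉ zerosOver x a := by
  intro hva
  rw [mem_polesOf] at hv
  rw [mem_zerosOver] at hva
  by_cases ha : a = 0
  · subst ha
    rw [map_zero, sub_zero] at hva
    omega
  · have hxa := sub_algebraMap_ne_zero hx a
    have ha' : algebraMap K F a ≠ 0 := (map_ne_zero _).mpr ha
    have hx0 : (x - algebraMap K F a) + algebraMap K F a ≠ 0 := by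
      rw [sub_add_cancel]; exact ne_zero_of_transcendental hx
    have h := ord_add_ge v hx0 hxa ha'
    rw [sub_add_cancel, ord_algebraMap v ha] at h
    have : 0 ≤ min (v.ord (x - algebraMap K F a)) 0 := by
      rw [le_min_iff]; exact ⟨hva.le, le_refl _⟩
    omega

theorem eq_of_mem_zerosOver {x : F} (hx : Transcendental K x) {v : Place K F} {a b : K}
    (ha : v ∈ zerosOver x a) (hb : v ∈ zerosOver x b) : a = b := by
  by_contra hab
  rw [mem_zerosOver] at ha hb
  have hxa := sub_algebraMap_ne_zero hx a
  have hxb := sub_algebraMap_ne_zero hx b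
  have hba : b - a ≠ 0 := sub_ne_zero.mpr (Ne.symm hab)
  have hc : algebraMap K F (b - a) ≠ 0 := (map_ne_zero _).mpr hba
  -- (x - a) + (-(x - b)) = b - a
  have hneg : -(x - algebraMap K F b) ≠ 0 := neg_ne_zero.mpr hxb
  have hsum : (x - algebraMap K F a) + -(x - algebraMap K F b) = algebraMap K F (b - a) := by
    rw [map_sub]; ring
  have hordneg : v.ord (-(x - algebraMap K F b)) = v.ord (x - algebraMap K F b) := by
    have h1 : -(x - algebraMap K F b) = algebraMap K F (-1) * (x - algebraMap K F b) := by
      rw [map_neg, map_one]; ring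
    have hm1 : algebraMap K F (-1 : K) ≠ 0 := (map_ne_zero _).mpr (by norm_num)
    rw [h1, v.ord_mul hm1 hxb, ord_algebraMap v (c := (-1 : K)) (by norm_num), zero_add]
  have h := ord_add_ge v (by rw [hsum]; exact hc) hxa hneg
  rw [hsum, ord_algebraMap v hba, hordneg] at h
  have : 0 < min (v.ord (x - algebraMap K F a)) (v.ord (x - algebraMap K F b)) :=
    lt_min ha hb
  omega

variable [CharZero K] (hZ : ZerosTheorem K F) (hF : IsFunctionField1 K F)
include hZ hF

theorem zerosOver_finite {x : F} (hx : Transcendental K x) (a : K) :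
    (zerosOver x a).Finite := by
  exact (hZ (x - algebraMap K F a) (transcendental_sub_algebraMap hx a)
    (finiteDimensional_adjoin_of_transcendental hF (transcendental_sub_algebraMap hx a))).1

theorem sum_ord_zerosOver {x : F} (hx : Transcendental K x) (a : K) :
    ∑ v ∈ (zerosOver_finite hZ hF hx a).toFinset, v.ord (x - algebraMap K F a)
      = (Module.finrank (IntermediateField.adjoin K ({x} : Set F)) F : ℤ) := by
  have h := (hZ (x - algebraMap K F a) (transcendental_sub_algebraMap hx a)
    (finiteDimensional_adjoin_of_transcendental hF (transcendental_sub_algebraMap hx a))).2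
  rw [finrank_sub] at h
  rw [← h]
  exact (finsum_mem_eq_finite_toFinset_sum _ (zerosOver_finite hZ hF hx a)).symm

theorem polesOf_finite {x : F} (hx : Transcendental K x) : (polesOf K x).Finite := by
  rw [polesOf_eq]
  exact (hZ x⁻¹ (transcendental_inv hx)
    (finiteDimensional_adjoin_of_transcendental hF (transcendental_inv hx))).1

theorem sum_ord_polesOf {x : F} (hx : Transcendental K x) :
    ∑ v ∈ (polesOf_finite hZ hF hx).toFinset, v.ord x
      = -(Module.finrank (IntermediateField.adjoin K ({x} : Set F)) F : ℤ) := by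
  have h := (hZ x⁻¹ (transcendental_inv hx)
    (finiteDimensional_adjoin_of_transcendental hF (transcendental_inv hx))).2
  rw [finrank_inv, ← polesOf_eq,
    finsum_mem_eq_finite_toFinset_sum _ (polesOf_finite hZ hF hx)] at h
  rw [← h, ← Finset.sum_neg_distrib]
  refine Finset.sum_congr rfl fun v _ => ?_
  rw [Place.ord_inv, neg_neg]

/-! ### Every place lies over exactly one point of `ℙ¹(K)` -/

theorem mem_polesOf_or_exists_mem_zerosOver {x : F} (hx : Transcendental K x) (v : Place K F) :
    v ∈ polesOf K x ∨ ∃ a : K, v ∈ zerosOver x a := by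
  by_cases h : v.ord x < 0
  · exact Or.inl h
  · right
    obtain ⟨c, hc | hc⟩ := exists_const_ord_sub_pos v (KaehlerGen.FF.oneVariable hF)
      ((mem_valuationSubring_iff_ord_nonneg v (ne_zero_of_transcendental hx)).mpr (not_lt.mp h))
    · exact absurd ⟨c, hc.symm⟩ ((transcendental_iff_not_mem_range x).mp hx)
    · exact ⟨c, hc⟩

/-! ### The divisor of `dx` -/

theorem ordDifferential_D_of_mem_zerosOver {x : F} {a : K} {v : Place K F}
    (hv : v ∈ zerosOver x a) :
    v.ordDifferential (D K F x) = v.ord (x - algebraMap K F a) - 1 := by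
  rw [← D_sub_algebraMap x a]
  exact ordDifferential_D hF v _ (ne_of_gt hv)

theorem ordDifferential_D_of_mem_polesOf {x : F} {v : Place K F} (hv : v ∈ polesOf K x) :
    v.ordDifferential (D K F x) = v.ord x - 1 :=
  ordDifferential_D hF v _ (ne_of_lt hv)

theorem natCard_eq_card_toFinset {s : Set (Place K F)} (hs : s.Finite) :
    (Nat.card s : ℤ) = (hs.toFinset.card : ℤ) := by
  rw [Nat.card_coe_set_eq, Set.ncard_eq_toFinset_card _ hs]

/-- Over an unramified value `a` (exactly `n` places), `x - a` has order `1` at all places over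
`a`. -/
theorem ord_eq_one_of_card_eq {x : F} (hx : Transcendental K x) (a : K)
    (hcard : Nat.card (zerosOver x a)
      = Module.finrank (IntermediateField.adjoin K ({x} : Set F)) F)
    {v : Place K F} (hv : v ∈ zerosOver x a) : v.ord (x - algebraMap K F a) = 1 := by
  classical
  have hfin := zerosOver_finite hZ hF hx a
  have hsum := sum_ord_zerosOver hZ hF hx a
  have hcard' : (hfin.toFinset.card : ℤ)
      = (Module.finrank (IntermediateField.adjoin K ({x} : Set F)) F : ℤ) := by
    rw [← natCard_eq_card_toFinset hZ hF hfin, hcard]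
  have hzero : ∑ w ∈ hfin.toFinset, (w.ord (x - algebraMap K F a) - 1) = 0 := by
    rw [Finset.sum_sub_distrib, hsum, Finset.sum_const, nsmul_eq_mul, mul_one, hcard', sub_self]
  have hnonneg : ∀ w ∈ hfin.toFinset, 0 ≤ w.ord (x - algebraMap K F a) - 1 := by
    intro w hw
    have : 0 < w.ord (x - algebraMap K F a) := (hfin.mem_toFinset.mp hw)
    omega
  have := (Finset.sum_eq_zero_iff_of_nonneg hnonneg).mp hzero v (hfin.mem_toFinset.mpr hv)
  omega

/-- The sum of the orders of `dx` over the places over `a`. -/
theorem sum_ordDifferential_zerosOver {x : F} (hx : Transcendental K x) (a : K) :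
    ∑ v ∈ (zerosOver_finite hZ hF hx a).toFinset, v.ordDifferential (D K F x)
      = (Module.finrank (IntermediateField.adjoin K ({x} : Set F)) F : ℤ)
        - (Nat.card (zerosOver x a) : ℤ) := by
  classical
  have hfin := zerosOver_finite hZ hF hx a
  rw [natCard_eq_card_toFinset hZ hF hfin, ← sum_ord_zerosOver hZ hF hx a]
  rw [Finset.sum_congr rfl fun v hv =>
    ordDifferential_D_of_mem_zerosOver hZ hF (hfin.mem_toFinset.mp hv)]
  rw [Finset.sum_sub_distrib, Finset.sum_const, nsmul_eq_mul, mul_one]

/-- The sum of the orders of `dx` over the poles of `x`. -/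
theorem sum_ordDifferential_polesOf {x : F} (hx : Transcendental K x) :
    ∑ v ∈ (polesOf_finite hZ hF hx).toFinset, v.ordDifferential (D K F x)
      = -(Module.finrank (IntermediateField.adjoin K ({x} : Set F)) F : ℤ)
        - (Nat.card (polesOf K x) : ℤ) := by
  classical
  have hfin := polesOf_finite hZ hF hx
  rw [natCard_eq_card_toFinset hZ hF hfin, ← sum_ord_polesOf hZ hF hx]
  rw [Finset.sum_congr rfl fun v hv =>
    ordDifferential_D_of_mem_polesOf hZ hF (hfin.mem_toFinset.mp hv)]
  rw [Finset.sum_sub_distrib, Finset.sum_const, nsmul_eq_mul, mul_one]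

end

/-- **Block A**: the Riemann–Hurwitz formula, given the zeros theorem A1. -/
theorem hurwitzFormula_of_zeros [IsAlgClosed K] [CharZero K]
    [HasCanonicalDivisor (K := K) (F := F)] (hZ : ZerosTheorem K F) :
    HurwitzFormula K F := by
  classical
  intro x n hx hfin hn S hS
  have hF : IsFunctionField1 K F := ⟨x, hx, hfin⟩
  have hdx : D K F x ≠ 0 := KaehlerGen.FF.D_ne_zero hF hx
  refine ⟨⟨D K F x, hdx⟩, fun ω hω => ?_⟩
  -- `ω = f • dx`
  obtain ⟨f, hf⟩ : ∃ f : F, f • D K F x = ω := by
    have : ω ∈ Submodule.span F {D K F x} := by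
      rw [KaehlerGen.FF.span_D_eq_top hF hx]; exact Submodule.mem_top
    exact Submodule.mem_span_singleton.mp this
  have hf0 : f ≠ 0 := by
    rintro rfl
    exact hω (by rw [← hf, zero_smul])
  have hDv : ∀ v : Place K F, canonicalDivisorOf hω v
      = v.ord f + v.ordDifferential (D K F x) := fun v => by
    rw [canonicalDivisorOf_apply hω v, ← hf, ordDifferential_smul' hF v f hf0 _ hdx]
  rw [degree_eq_finsum (fun v => deg_eq_one v (KaehlerGen.FF.oneVariable hF))]
  -- the finite set of places carrying the divisor of `dx`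
  set P : Finset (Place K F) := (polesOf_finite hZ hF hx).toFinset with hP
  set Z : K → Finset (Place K F) := fun a => (zerosOver_finite hZ hF hx a).toFinset with hZdef
  set U : Finset (Place K F) := P ∪ S.biUnion Z with hU
  have hE : ∀ v : Place K F, v ∉ U → v.ordDifferential (D K F x) = 0 := by
    intro v hv
    rw [hU, Finset.mem_union, not_or] at hv
    obtain ⟨hvP, hvZ⟩ := hv
    have hvP' : v ∉ polesOf K x := fun h => hvP ((polesOf_finite hZ hF hx).mem_toFinset.mpr h)
    obtain ⟨a, ha⟩ := (mem_polesOf_or_exists_mem_zerosOver hZ hF hx v).resolve_left hvP'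
    have haS : a ∉ S := by
      intro haS
      exact hvZ (Finset.mem_biUnion.mpr ⟨a, haS, (zerosOver_finite hZ hF hx a).mem_toFinset.mpr ha⟩)
    have hcard := hS a haS
    rw [← hn] at hcard
    rw [ordDifferential_D_of_mem_zerosOver hZ hF ha, ord_eq_one_of_card_eq hZ hF hx a hcard ha, sub_self]
  have hsuppE : (Function.support fun v : Place K F => v.ordDifferential (D K F x))
      ⊆ (U : Set (Place K F)) := by
    intro v hv
    by_contra hvU
    exact hv (hE v hvU)
  have hsuppf : (Function.support fun v : Place K F => v.ord f).Finite :=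
    PrincipalDegreeCore.ord_support_finite hZ hF f hf0
  have hsplit : ∑ᶠ v : Place K F, canonicalDivisorOf hω v
      = ∑ᶠ v : Place K F, v.ord f + ∑ᶠ v : Place K F, v.ordDifferential (D K F x) := by
    rw [← finsum_add_distrib hsuppf (U.finite_toSet.subset hsuppE)]
    exact finsum_congr hDv
  rw [hsplit, PrincipalDegreeCore.sum_ord_eq_zero hZ hF f hf0, zero_add, finsum_eq_sum_of_support_subset _ hsuppE]
  have hdisj : Disjoint P (S.biUnion Z) := by
    rw [Finset.disjoint_left]
    intro v hvP hvZ
    obtain ⟨a, -, ha⟩ := Finset.mem_biUnion.mp hvZ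
    exact not_mem_zerosOver_of_mem_polesOf hx ((polesOf_finite hZ hF hx).mem_toFinset.mp hvP) a
      ((zerosOver_finite hZ hF hx a).mem_toFinset.mp ha)
  have hpair : (S : Set K).PairwiseDisjoint Z := by
    intro a _ b _ hab
    rw [Function.onFun, Finset.disjoint_left]
    intro v hva hvb
    exact hab (eq_of_mem_zerosOver hx ((zerosOver_finite hZ hF hx a).mem_toFinset.mp hva)
      ((zerosOver_finite hZ hF hx b).mem_toFinset.mp hvb))
  rw [hU, Finset.sum_union hdisj, Finset.sum_biUnion hpair, hP,
    sum_ordDifferential_polesOf hZ hF hx,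
    Finset.sum_congr rfl fun a _ => sum_ordDifferential_zerosOver hZ hF hx a, hn]
  ring

end Fermat.Agent.S24.Hurwitz
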