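/-
S24, Block C of the reduction: `GenusFormulaIsNat N`, from the finite combinatorics of block B7.
-/
import Fermat.Agent.S24.CombNumerics
import Fermat.Agent.S24.Reduction

set_option autoImplicit false

namespace Fermat.Agent.S24.Comb

/-- Block C of `Fermat.Agent.S24.genus_eq_genusFormula_of_blocks`. -/
theorem genusFormulaIsNat (N : ℕ) [NeZero N] : Fermat.Agent.S24.GenusFormulaIsNat N :=
  genusFormula_isNat N

end Fermat.Agent.S24.Comb
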