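import Fermat.Agent.S24.ZerosBackup
import Fermat.Agent.S24.PrincipalDegreeCore
import Fermat.Agent.S24.Hurwitz

/-!
# S24 / Block A complete: the zeros theorem in the `ZerosTheorem` shape and the unconditional
Riemann–Hurwitz formula `HurwitzFormula K F`.
-/

set_option autoImplicit false

open AlgebraicCurve

namespace Fermat.Agent.S24.ZerosBackup

variable {K F : Type*} [Field K] [Field F] [Algebra K F] [IsAlgClosed K] [CharZero K]

/-- The zeros theorem A1 in the shape consumed by `PrincipalDegreeCore` and `Hurwitz`. -/
theorem zerosTheorem : PrincipalDegreeCore.ZerosTheorem K F := by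
  intro y hy hfin
  haveI := hfin
  exact zeros_finite_and_sum y hy

/-- **Block A**: the Riemann–Hurwitz formula, unconditionally. -/
theorem hurwitzFormula [HasCanonicalDivisor (K := K) (F := F)] : HurwitzFormula K F :=
  Hurwitz.hurwitzFormula_of_zeros zerosTheorem

end Fermat.Agent.S24.ZerosBackup
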