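import Mathlib
import Fermat.Agent.S24.Defs

/-!
# S24: generators of the function field `FBar N` and an induction principle

`FBar N = ℚ̄(j_d : d ∣ N)` inside `ℚ̄((q))`, where `j_d = j(q ^ d)`.  We name the generators
`jBarD N d hd : FBar N` and prove that a predicate on `FBar N` holds everywhere as soon as it holds
for constants and for the `j_d` and is stable under the field operations.
-/

set_option autoImplicit false

noncomputable section

namespace Fermat.Agent.S24.FBarGen

open ModularCurve

theorem coeffEmb_qExpand_mem (N d : ℕ) [NeZero d] (hd : d ∣ N) :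
    coeffEmb Kbar (qExpand ℚ d jq) ∈ modularFunctionFieldBar N :=
  coeffEmb_mem_laurentBaseChange Kbar (jqd_mem_full N hd)

/-- The generator `j_d = j(q ^ d)` of the function field of `X₀(N)` over `ℚ̄`, for `d ∣ N`. -/
def jBarD (N d : ℕ) [NeZero d] (hd : d ∣ N) : FBar N :=
  ⟨coeffEmb Kbar (qExpand ℚ d jq), coeffEmb_qExpand_mem N d hd⟩

@[simp] theorem coe_jBarD (N d : ℕ) [NeZero d] (hd : d ∣ N) :
    ((jBarD N d hd : FBar N) : LaurentSeries Kbar) = coeffEmb Kbar (qExpand ℚ d jq) := rfl

theorem jBarD_one (N : ℕ) [NeZero N] : jBarD N 1 (one_dvd N) = jBar N := by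
  apply Subtype.ext
  show coeffEmb Kbar (qExpand ℚ 1 jq) = coeffEmb Kbar jq
  rw [qExpand_one_apply]

theorem coeffEmb_algebraMap (a : ℚ) :
    coeffEmb Kbar (algebraMap ℚ (LaurentSeries ℚ) a) =
      algebraMap Kbar (LaurentSeries Kbar) (algebraMap ℚ Kbar a) := by
  rw [algebraMap_laurentSeries_eq_single, algebraMap_laurentSeries_eq_single, coeffEmb,
    coeffMap_single]

/-- Induction principle for the function field `FBar N = ℚ̄(j_d : d ∣ N)`. -/
theorem FBar_induction (N : ℕ) {p : FBar N → Prop}
    (hc : ∀ c : Kbar, p (algebraMap Kbar (FBar N) c))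
    (hj : ∀ (d : ℕ) [NeZero d] (hd : d ∣ N), p (jBarD N d hd))
    (hadd : ∀ x y, p x → p y → p (x + y)) (hneg : ∀ x, p x → p (-x))
    (hmul : ∀ x y, p x → p y → p (x * y)) (hinv : ∀ x, p x → p x⁻¹) (x : FBar N) : p x := by
  have h1 : p 1 := by
    have := hc 1
    rwa [map_one] at this
  -- the rational part
  have rat : ∀ (z : LaurentSeries ℚ) (hz : z ∈ modularFunctionFieldFull N),
      p ⟨coeffEmb Kbar z, coeffEmb_mem_laurentBaseChange Kbar hz⟩ := by
    have rat' : ∀ (z : LaurentSeries ℚ)
        (hz : z ∈ Subfield.closure (Set.range (algebraMap ℚ (LaurentSeries ℚ)) ∪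
          divisorExpansions N)),
        p ⟨coeffEmb Kbar z, coeffEmb_mem_laurentBaseChange Kbar (F₀ := modularFunctionFieldFull N)
          hz⟩ := by
      intro z hz
      induction hz using Subfield.closure_induction with
      | mem y hy =>
        rcases hy with ⟨a, rfl⟩ | ⟨d, hne, hd, rfl⟩
        · have := hc (algebraMap ℚ Kbar a)
          convert this using 1
          exact Subtype.ext (coeffEmb_algebraMap a)
        · have := hne
          exact hj d hd
      | one =>
        convert h1 using 1
        exact Subtype.ext (map_one _)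
      | add x y hx hy ihx ihy =>
        convert hadd _ _ ihx ihy using 1
        exact Subtype.ext (map_add _ _ _)
      | neg x hx ih =>
        convert hneg _ ih using 1
        exact Subtype.ext (map_neg _ _)
      | inv x hx ih =>
        convert hinv _ ih using 1
        exact Subtype.ext (map_inv₀ _ _)
      | mul x y hx hy ihx ihy =>
        convert hmul _ _ ihx ihy using 1
        exact Subtype.ext (map_mul _ _ _)
    intro z hz
    exact rat' z hz
  have key : ∀ (y : LaurentSeries Kbar)
      (hy : y ∈ Subfield.closure (Set.range (algebraMap Kbar (LaurentSeries Kbar)) ∪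
        (⇑(coeffEmb Kbar) '' (modularFunctionFieldFull N : Set (LaurentSeries ℚ))))),
      p ⟨y, mem_laurentBaseChange_iff.mpr hy⟩ := by
    intro y hy
    induction hy using Subfield.closure_induction with
    | mem y hy =>
      rcases hy with ⟨a, rfl⟩ | ⟨z, hz, rfl⟩
      · exact hc a
      · exact rat z hz
    | one => exact h1
    | add x y hx hy ihx ihy =>
      convert hadd _ _ ihx ihy using 1
      exact Subtype.ext rfl
    | neg x hx ih =>
      convert hneg _ ih using 1
      exact Subtype.ext rfl
    | inv x hx ih =>
      convert hinv _ ih using 1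
      exact Subtype.ext rfl
    | mul x y hx hy ihx ihy =>
      convert hmul _ _ ihx ihy using 1
      exact Subtype.ext rfl
  exact key x.1 (mem_laurentBaseChange_iff.mp x.2)

end Fermat.Agent.S24.FBarGen
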