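import Mathlib
import Fermat.Agent.S23.HolAtInfty
import Fermat.Agent.S24.HolRing

/-!
# S24 (block II, piece B1): the ring of functions holomorphic at `i∞` and its `q`-expansion

`holInftyRing` is the ring of `1`-periodic holomorphic functions on `ℍ` that are bounded at `i∞`
(helper27's predicate `Fermat.Agent.S23.HolAtInfty`).  The `q`-expansion is an injective ring
homomorphism `qExp : holInftyRing →+* PowerSeries ℂ`; it extends to the fraction field
`MerInfty` as `qExpFrac : MerInfty →+* LaurentSeries ℂ`.  The inclusion into the field `Mer` of
meromorphic functions on `ℍ` is `toMer`.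
-/

set_option autoImplicit false

open UpperHalfPlane Complex
open scoped MatrixGroups Manifold Topology

noncomputable section

namespace Fermat.Agent.S24.HolInfty

open Fermat.Agent.S23 Fermat.Agent.S24.HolRing

/-- The ring of `1`-periodic holomorphic functions on `ℍ` that are bounded at `i∞`. -/
def holInftyRing : Subring (ℍ → ℂ) where
  carrier := {f | HolAtInfty f}
  mul_mem' hf hg := hf.mul hg
  one_mem' := HolAtInfty.one
  add_mem' hf hg := hf.add hg
  zero_mem' := HolAtInfty.zero
  neg_mem' hf := hf.neg

theorem mem_holInftyRing {f : ℍ → ℂ} : f ∈ holInftyRing ↔ HolAtInfty f := Iff.rfl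

theorem holInftyRing_le : holInftyRing ≤ holRing := fun _ hf => hf.hol

/-- The inclusion of `holInftyRing` into `holRing`. -/
def toHol : holInftyRing →+* holRing := Subring.inclusion holInftyRing_le

@[simp] theorem coe_toHol (f : holInftyRing) : ((toHol f : holRing) : ℍ → ℂ) = (f : ℍ → ℂ) := rfl

theorem toHol_injective : Function.Injective toHol := Subring.inclusion_injective _

/-- The `q`-expansion as a ring homomorphism. -/
def qExp : holInftyRing →+* PowerSeries ℂ where
  toFun f := qExpansion 1 (f : ℍ → ℂ)
  map_one' := qExpansion_one 1
  map_mul' f g := qExpansion_mul' f.2 g.2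
  map_zero' := qExpansion_zero 1
  map_add' f g := qExpansion_add' f.2 g.2

@[simp] theorem qExp_apply (f : holInftyRing) : qExp f = qExpansion 1 (f : ℍ → ℂ) := rfl

theorem qExp_injective : Function.Injective qExp := fun f g h =>
  Subtype.ext (HolAtInfty.eq_of_qExpansion_eq f.2 g.2 h)

instance : IsDomain holInftyRing := qExp_injective.isDomain qExp

/-- Constants. -/
def constHom : ℂ →+* holInftyRing where
  toFun c := ⟨fun _ => c, HolAtInfty.const c⟩
  map_one' := rfl
  map_mul' _ _ := rfl
  map_zero' := rfl
  map_add' _ _ := rfl

instance : Algebra ℂ holInftyRing := constHom.toAlgebra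

theorem qExp_algebraMap (c : ℂ) : qExp (algebraMap ℂ holInftyRing c) = PowerSeries.C c :=
  qExpansion_const' c

/-- The fraction field of `holInftyRing`. -/
abbrev MerInfty : Type := FractionRing holInftyRing

theorem ofPowerSeries_comp_qExp_injective :
    Function.Injective ((HahnSeries.ofPowerSeries ℤ ℂ).comp qExp) :=
  HahnSeries.ofPowerSeries_injective.comp qExp_injective

/-- The `q`-expansion of a quotient of functions holomorphic at `i∞`, as a Laurent series. -/
def qExpFrac : MerInfty →+* LaurentSeries ℂ :=
  IsFractionRing.lift ofPowerSeries_comp_qExp_injective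

@[simp] theorem qExpFrac_algebraMap (f : holInftyRing) :
    qExpFrac (algebraMap holInftyRing MerInfty f) = HahnSeries.ofPowerSeries ℤ ℂ (qExp f) := by
  simp [qExpFrac]

theorem qExpFrac_injective : Function.Injective qExpFrac := qExpFrac.injective

theorem algebraMap_comp_toHol_injective :
    Function.Injective ((algebraMap holRing Mer).comp toHol) :=
  (IsFractionRing.injective holRing Mer).comp toHol_injective

/-- The inclusion of `MerInfty` into the field of meromorphic functions on `ℍ`. -/
def toMer : MerInfty →+* Mer :=
  IsFractionRing.lift algebraMap_comp_toHol_injective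

@[simp] theorem toMer_algebraMap (f : holInftyRing) :
    toMer (algebraMap holInftyRing MerInfty f) = algebraMap holRing Mer (toHol f) := by
  simp [toMer]

theorem toMer_injective : Function.Injective toMer := toMer.injective

theorem qExpFrac_algebraMap_const (c : ℂ) :
    qExpFrac (algebraMap ℂ MerInfty c) = HahnSeries.C c := by
  rw [IsScalarTower.algebraMap_apply ℂ holInftyRing MerInfty, qExpFrac_algebraMap,
    qExp_algebraMap, HahnSeries.ofPowerSeries_C]

theorem toMer_algebraMap_const (c : ℂ) :
    toMer (algebraMap ℂ MerInfty c) = algebraMap ℂ Mer c := by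
  rw [IsScalarTower.algebraMap_apply ℂ holInftyRing MerInfty, toMer_algebraMap,
    IsScalarTower.algebraMap_apply ℂ holRing Mer]
  rfl

end Fermat.Agent.S24.HolInfty
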