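import Mathlib
import Fermat.Agent.S23.HolAtInfty
import Fermat.Prelude.Def_ModularCurve_X0

/-!
# S24 (block II, piece B1): the scaling `τ ↦ d τ` on `ℍ` and `q`-expansions

For `f` holomorphic at `i∞` (period one), `τ ↦ f (d τ)` is again holomorphic at `i∞` and its
`q`-expansion is obtained from that of `f` by `q ↦ q ^ d`, i.e. by the Prelude's `qExpand ℂ d` on
Laurent series.
-/

set_option autoImplicit false

open UpperHalfPlane Complex
open scoped MatrixGroups Manifold Topology

noncomputable section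

namespace Fermat.Agent.S24.Scale

open Fermat.Agent.S23

/-- The map `τ ↦ d τ` of the upper half plane, for a positive integer `d`. -/
def scale (d : ℕ) [NeZero d] (τ : ℍ) : ℍ :=
  ⟨(d : ℂ) * τ, by
    have hd : (0 : ℝ) < d := Nat.cast_pos.mpr (Nat.pos_of_ne_zero (NeZero.ne d))
    have : ((d : ℂ) * (τ : ℂ)).im = d * τ.im := by simp
    rw [this]
    exact mul_pos hd τ.im_pos⟩

variable (d : ℕ) [NeZero d]

@[simp] theorem coe_scale (τ : ℍ) : ((scale d τ : ℍ) : ℂ) = (d : ℂ) * τ := rfl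

theorem im_scale (τ : ℍ) : (scale d τ).im = d * τ.im := by
  change ((d : ℂ) * (τ : ℂ)).im = d * τ.im
  simp

theorem scale_one (τ : ℍ) : scale 1 τ = τ := by
  ext
  simp

theorem scale_mul (e : ℕ) [NeZero e] (τ : ℍ) :
    haveI : NeZero (d * e) := ⟨Nat.mul_ne_zero (NeZero.ne d) (NeZero.ne e)⟩
    scale (d * e) τ = scale d (scale e τ) := by
  ext
  simp [mul_assoc]

theorem scale_ofComplex {w : ℂ} (hw : 0 < w.im) : scale d (ofComplex w) = ofComplex ((d : ℂ) * w) := by
  have hd : (0 : ℝ) < d := Nat.cast_pos.mpr (Nat.pos_of_ne_zero (NeZero.ne d))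
  have h2 : 0 < ((d : ℂ) * w).im := by
    have : ((d : ℂ) * w).im = d * w.im := by simp
    rw [this]
    exact mul_pos hd hw
  rw [ofComplex_apply_of_im_pos hw, ofComplex_apply_of_im_pos h2]
  rfl

theorem qParam_scale (τ : ℍ) :
    Function.Periodic.qParam 1 ((scale d τ : ℍ) : ℂ) = Function.Periodic.qParam 1 (τ : ℂ) ^ d := by
  simp only [Function.Periodic.qParam, coe_scale, ← Complex.exp_nat_mul]
  congr 1
  ring

variable {d}

theorem mdiff_comp_scale {f : ℍ → ℂ} (hf : MDiff f) : MDiff (fun τ => f (scale d τ)) := by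
  rw [UpperHalfPlane.mdifferentiable_iff] at hf ⊢
  intro z hz
  have hz' : (0 : ℝ) < z.im := hz
  have hd : (0 : ℝ) < d := Nat.cast_pos.mpr (Nat.pos_of_ne_zero (NeZero.ne d))
  have h2 : 0 < ((d : ℂ) * z).im := by
    have : ((d : ℂ) * z).im = d * z.im := by simp
    rw [this]
    exact mul_pos hd hz'
  have h3 : DifferentiableAt ℂ (f ∘ ofComplex) ((d : ℂ) * z) :=
    (hf _ h2).differentiableAt (isOpen_upperHalfPlaneSet.mem_nhds h2)
  have h4 : DifferentiableAt ℂ (fun w : ℂ => (f ∘ ofComplex) ((d : ℂ) * w)) z :=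
    h3.comp z (by fun_prop)
  refine (h4.congr_of_eventuallyEq ?_).differentiableWithinAt
  filter_upwards [isOpen_upperHalfPlaneSet.mem_nhds hz] with w hw
  simp only [Function.comp_apply]
  rw [scale_ofComplex d hw]

theorem HolAtInfty.comp_scale {f : ℍ → ℂ} (hf : HolAtInfty f) :
    HolAtInfty (fun τ => f (scale d τ)) where
  per := fun w => by
    simp only [Function.comp_apply]
    rcases lt_or_ge 0 w.im with hw | hw
    · have hw1 : 0 < (w + 1).im := by simpa using hw
      rw [scale_ofComplex d hw, scale_ofComplex d hw1]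
      have := (hf.per.nat_mul d) ((d : ℂ) * w)
      simp only [Function.comp_apply] at this
      rw [← this]
      congr 2
      ring
    · have hw1 : (w + 1).im ≤ 0 := by simpa using hw
      rw [ofComplex_apply_eq_of_im_nonpos hw1 hw]
  hol := mdiff_comp_scale hf.hol
  bdd := by
    have h := hf.bdd
    rw [UpperHalfPlane.isBoundedAtImInfty_iff] at h ⊢
    obtain ⟨M, A, hMA⟩ := h
    refine ⟨M, max A 0, fun z hz => hMA _ ?_⟩
    rw [im_scale]
    have hd : (1 : ℝ) ≤ d := by exact_mod_cast Nat.pos_of_ne_zero (NeZero.ne d)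
    have hz0 : 0 ≤ z.im := z.im_pos.le
    calc A ≤ z.im := le_trans (le_max_left _ _) hz
      _ = 1 * z.im := (one_mul _).symm
      _ ≤ d * z.im := mul_le_mul_of_nonneg_right hd hz0

/-- A wrapper turning a plain function `ℍ → ℂ` into a `FunLike` object (Mathlib's uniqueness
lemma for `q`-expansions is stated for `FunLike` objects only). -/
structure PlainFun where
  /-- the underlying function -/
  toFun : ℍ → ℂ

instance : FunLike PlainFun ℍ ℂ where
  coe := PlainFun.toFun
  coe_injective := fun a b h => by cases a; cases b; congr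

/-- Uniqueness of `q`-expansion coefficients, for plain functions. -/
theorem qExpansion_coeff_unique_plain {f : ℍ → ℂ} {c : ℕ → ℂ} {h : ℝ} (hh : 0 < h)
    (hana : AnalyticAt ℂ (cuspFunction h f) 0)
    (hf : ∀ τ : ℍ, HasSum (fun m => c m • Function.Periodic.qParam h (τ : ℂ) ^ m) (f τ)) (m : ℕ) :
    c m = (qExpansion h f).coeff m :=
  UpperHalfPlane.qExpansion_coeff_unique (⟨f⟩ : PlainFun) hh hana hf m

/-- The `q`-expansion of `τ ↦ f (d τ)`. -/
theorem qExpansion_comp_scale_coeff {f : ℍ → ℂ} (hf : HolAtInfty f) (n : ℕ) :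
    (qExpansion 1 (fun τ => f (scale d τ))).coeff n =
      if d ∣ n then (qExpansion 1 f).coeff (n / d) else 0 := by
  have hd : d ≠ 0 := NeZero.ne d
  have hinj : Function.Injective (fun k : ℕ => d * k) := fun a b h =>
    Nat.eq_of_mul_eq_mul_left (Nat.pos_of_ne_zero hd) h
  have hdpos : 0 < d := Nat.pos_of_ne_zero hd
  have key : ∀ τ : ℍ, HasSum (fun m : ℕ => (if d ∣ m then (qExpansion 1 f).coeff (m / d) else 0) •
      Function.Periodic.qParam 1 (τ : ℂ) ^ m) (f (scale d τ)) := by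
    intro τ
    have h1 : HasSum (fun m : ℕ => (qExpansion 1 f).coeff m •
        (Function.Periodic.qParam 1 (τ : ℂ) ^ d) ^ m) (f (scale d τ)) := by
      have := hasSum_qExpansion one_pos hf.per hf.hol hf.bdd (scale d τ)
      rwa [qParam_scale] at this
    generalize Function.Periodic.qParam 1 (τ : ℂ) = q at h1 ⊢
    have h0 : ∀ m ∉ Set.range (fun k : ℕ => d * k),
        (if d ∣ m then (qExpansion 1 f).coeff (m / d) else 0) • q ^ m = 0 := by
      intro m hm
      have : ¬ d ∣ m := fun ⟨k, hk⟩ => hm ⟨k, hk.symm⟩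
      rw [if_neg this, zero_smul]
    rw [← hinj.hasSum_iff h0]
    have h2 : ((fun m : ℕ => (if d ∣ m then (qExpansion 1 f).coeff (m / d) else 0) • q ^ m) ∘
        fun k : ℕ => d * k) = fun m : ℕ => (qExpansion 1 f).coeff m • (q ^ d) ^ m := by
      funext k
      simp only [Function.comp_apply]
      rw [if_pos (dvd_mul_right d k), Nat.mul_div_cancel_left _ hdpos, pow_mul]
    rw [h2]
    exact h1
  have h3 : HolAtInfty (fun τ => f (scale d τ)) := HolAtInfty.comp_scale hf
  exact (qExpansion_coeff_unique_plain one_pos h3.analyticAt key n).symm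

/-- The `q`-expansion of `τ ↦ f (d τ)` is `qExpand ℂ d` of that of `f`. -/
theorem ofPowerSeries_qExpansion_comp_scale {f : ℍ → ℂ} (hf : HolAtInfty f) :
    HahnSeries.ofPowerSeries ℤ ℂ (qExpansion 1 (fun τ => f (scale d τ))) =
      ModularCurve.qExpand ℂ d (HahnSeries.ofPowerSeries ℤ ℂ (qExpansion 1 f)) := by
  ext k
  rcases lt_or_ge k 0 with hk | hk
  · rw [ModularCurve.ofPowerSeries_coeff_of_neg _ hk]
    by_cases hdk : (d : ℤ) ∣ k
    · obtain ⟨m, rfl⟩ := hdk
      rw [ModularCurve.qExpand_coeff_mul]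
      have hd : (0 : ℤ) < d := by exact_mod_cast Nat.pos_of_ne_zero (NeZero.ne d)
      have hm : m < 0 := by
        by_contra hm
        push Not at hm
        exact absurd hk (not_lt.mpr (mul_nonneg hd.le hm))
      rw [ModularCurve.ofPowerSeries_coeff_of_neg _ hm]
    · rw [ModularCurve.qExpand_coeff_of_not_dvd d _ hdk]
  · lift k to ℕ using hk
    rw [HahnSeries.ofPowerSeries_apply_coeff, qExpansion_comp_scale_coeff hf]
    split_ifs with hdk
    · obtain ⟨m, rfl⟩ := hdk
      rw [Nat.mul_div_cancel_left _ (Nat.pos_of_ne_zero (NeZero.ne d))]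
      push_cast
      rw [ModularCurve.qExpand_coeff_mul, HahnSeries.ofPowerSeries_apply_coeff]
    · rw [ModularCurve.qExpand_coeff_of_not_dvd d _ (by exact_mod_cast hdk)]

/-! ### Compatibility of the scaling with the action of `Γ₀(d)` -/

/-- For `γ = [[a, b], [c, e]]` with `d ∣ c`, the matrix `[[a, d b], [c / d, e]]`. -/
def conjG (d : ℕ) [NeZero d] (γ : SL(2, ℤ)) (h : (d : ℤ) ∣ γ 1 0) : SL(2, ℤ) :=
  ⟨!![γ 0 0, d * γ 0 1; γ 1 0 / d, γ 1 1], by
    obtain ⟨c, hc⟩ := h
    have hd : (d : ℤ) ≠ 0 := by exact_mod_cast NeZero.ne d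
    have hdet := Matrix.det_fin_two γ.1
    have h1 : γ.1.det = 1 := γ.2
    rw [Matrix.det_fin_two_of, hc, Int.mul_ediv_cancel_left _ hd]
    rw [hc] at hdet
    linarith⟩

/-- `d (γ τ) = γ' (d τ)` for `γ = [[a, b], [c, e]]` with `d ∣ c` and `γ' = [[a, d b], [c / d, e]]`. -/
theorem scale_smul (d : ℕ) [NeZero d] (γ : SL(2, ℤ)) (h : (d : ℤ) ∣ γ 1 0) (τ : ℍ) :
    scale d (γ • τ) = conjG d γ h • scale d τ := by
  obtain ⟨c, hc⟩ := id h
  have hd : (d : ℤ) ≠ 0 := by exact_mod_cast NeZero.ne d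
  have h00 : (conjG d γ h) 0 0 = γ 0 0 := by simp [conjG]
  have h01 : (conjG d γ h) 0 1 = d * γ 0 1 := by simp [conjG]
  have h10 : (conjG d γ h) 1 0 = c := by
    simp [conjG, hc, Int.mul_ediv_cancel_left _ hd]
  have h11 : (conjG d γ h) 1 1 = γ 1 1 := by simp [conjG]
  ext
  rw [coe_scale, coe_specialLinearGroup_apply, coe_specialLinearGroup_apply, coe_scale, h00, h01,
    h10, h11, hc]
  simp only [algebraMap_int_eq, eq_intCast, Int.cast_mul, Int.cast_natCast, ofReal_intCast,
    ofReal_mul, ofReal_natCast]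
  ring

theorem dvd_of_mem_Gamma0 {N d : ℕ} (hd : d ∣ N) {γ : SL(2, ℤ)}
    (hγ : γ ∈ CongruenceSubgroup.Gamma0 N) : (d : ℤ) ∣ γ 1 0 := by
  rw [CongruenceSubgroup.Gamma0_mem] at hγ
  exact (Int.natCast_dvd_natCast.mpr hd).trans ((ZMod.intCast_zmod_eq_zero_iff_dvd _ _).1 hγ)

end Fermat.Agent.S24.Scale
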