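import Mathlib
import Fermat.Prelude.Def_ModularCurve_X0ModL
import Fermat.Agent.S24.Defs
import Fermat.Agent.S24.FBarGen
import Fermat.Agent.S24.HolRing
import Fermat.Agent.S24.HolInfty
import Fermat.Agent.S24.Scale
import Fermat.Agent.S24.JSurjective
import Fermat.Agent.S24.JQExpansion

/-!
# S24 (block II, piece B1): analytic realization of the function field of `X₀(N)`

We construct a field embedding `Phi N : FBar N →+* Mer` of the function field
`FBar N = ℚ̄(j(q ^ d) : d ∣ N) ⊆ ℚ̄((q))` into the field `Mer` of meromorphic functions on the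
upper half plane, sending `j(q ^ d)` to the holomorphic function `τ ↦ j(d τ)`.
-/

set_option autoImplicit false

open UpperHalfPlane Complex ModularForm
open scoped MatrixGroups Manifold Topology

noncomputable section

namespace Fermat.Agent.S24.AnalyticRealization

open Fermat.Agent.S23 Fermat.Agent.S24.HolRing Fermat.Agent.S24.HolInfty Fermat.Agent.S24.Scale
  Fermat.Agent.S24.FBarGen ModularCurve

/-- A fixed embedding `ℚ̄ → ℂ` (any final assembly needs one; everything below is stated for an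
arbitrary `[Algebra Kbar ℂ]`). -/
def iotaBar : Kbar →+* ℂ :=
  letI : Algebra ℚ Kbar := AlgebraicClosure.instAlgebra ℚ
  (IsAlgClosed.lift (R := ℚ) (S := Kbar) (M := ℂ)).toRingHom

/-- The `ℚ̄`-algebra structure on `ℂ` given by `iotaBar` (use as a local instance). -/
@[reducible] def algebraKbarComplex : Algebra Kbar ℂ := iotaBar.toAlgebra

theorem iotaBar_injective : Function.Injective iotaBar := iotaBar.injective

/-- The statement of piece B0 (helper9): the `q`-expansion of `E₄³ / Δ` is the Prelude's `jq`. -/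
theorem b0_identity :
    (jNum.map (Int.castRingHom ℂ)) * qExpansion 1 (ModularForm.discriminant : ℍ → ℂ)
      = PowerSeries.X * (qExpansion 1 (E₄ : ℍ → ℂ)) ^ 3 :=
  Fermat.Agent.S24.JQExpansion.jNum_mul_qExpansion_discriminant

/-- `E₄` as an element of `holInftyRing`. -/
def e4 : holInftyRing :=
  ⟨(E₄ : ℍ → ℂ), HolAtInfty.of_modularForm one_mem_strictPeriods_SL E₄⟩

/-- `Δ` as an element of `holInftyRing`. -/
def delta : holInftyRing :=
  ⟨(ModularForm.discriminant : ℍ → ℂ), by
    have := HolAtInfty.of_cuspForm one_mem_strictPeriods_SL CuspForm.discriminant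
    rwa [CuspForm.coe_discriminant] at this⟩

/-- `τ ↦ E₄ (d τ)` as an element of `holInftyRing`. -/
def e4d (d : ℕ) [NeZero d] : holInftyRing :=
  ⟨fun τ => E₄ (scale d τ), HolAtInfty.comp_scale e4.2⟩

/-- `τ ↦ Δ (d τ)` as an element of `holInftyRing`. -/
def deltad (d : ℕ) [NeZero d] : holInftyRing :=
  ⟨fun τ => ModularForm.discriminant (scale d τ), HolAtInfty.comp_scale delta.2⟩

theorem deltad_ne_zero (d : ℕ) [NeZero d] : deltad d ≠ 0 := by
  intro h
  have := congrArg (fun f : holInftyRing => (f : ℍ → ℂ) I) h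
  exact discriminant_ne_zero _ this

theorem delta_ne_zero : delta ≠ 0 := by
  intro h
  have := congrArg (fun f : holInftyRing => (f : ℍ → ℂ) I) h
  exact discriminant_ne_zero _ this

/-- `τ ↦ j (d τ)` as an element of `MerInfty`. -/
def Jfrac (d : ℕ) [NeZero d] : MerInfty :=
  algebraMap holInftyRing MerInfty (e4d d) ^ 3 / algebraMap holInftyRing MerInfty (deltad d)

theorem coe_e4 : ((e4 : holInftyRing) : ℍ → ℂ) = (E₄ : ℍ → ℂ) := rfl

theorem coe_delta : ((delta : holInftyRing) : ℍ → ℂ) = (ModularForm.discriminant : ℍ → ℂ) := rfl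

theorem coe_e4d (d : ℕ) [NeZero d] :
    ((e4d d : holInftyRing) : ℍ → ℂ) = fun τ => (E₄ : ℍ → ℂ) (scale d τ) := rfl

theorem coe_deltad (d : ℕ) [NeZero d] :
    ((deltad d : holInftyRing) : ℍ → ℂ) = fun τ => ModularForm.discriminant (scale d τ) := rfl

theorem ofPowerSeries_qExp_e4d (d : ℕ) [NeZero d] :
    HahnSeries.ofPowerSeries ℤ ℂ (qExp (e4d d)) =
      qExpand ℂ d (HahnSeries.ofPowerSeries ℤ ℂ (qExp e4)) := by
  rw [qExp_apply, qExp_apply, coe_e4d, coe_e4]
  have h : HolAtInfty (E₄ : ℍ → ℂ) := e4.2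
  exact ofPowerSeries_qExpansion_comp_scale h

theorem ofPowerSeries_qExp_deltad (d : ℕ) [NeZero d] :
    HahnSeries.ofPowerSeries ℤ ℂ (qExp (deltad d)) =
      qExpand ℂ d (HahnSeries.ofPowerSeries ℤ ℂ (qExp delta)) := by
  rw [qExp_apply, qExp_apply, coe_deltad, coe_delta]
  have h : HolAtInfty (ModularForm.discriminant : ℍ → ℂ) := delta.2
  exact ofPowerSeries_qExpansion_comp_scale h

theorem jqModC_eq :
    jqModC ℂ = HahnSeries.ofPowerSeries ℤ ℂ (qExp e4) ^ 3 /
      HahnSeries.ofPowerSeries ℤ ℂ (qExp delta) := by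
  have hΔ : HahnSeries.ofPowerSeries ℤ ℂ (qExp delta) ≠ 0 := by
    intro h
    refine delta_ne_zero (ofPowerSeries_comp_qExp_injective ?_)
    rw [map_zero]
    exact h
  rw [eq_div_iff hΔ, jqModC]
  have h1 := congrArg (HahnSeries.ofPowerSeries ℤ ℂ) b0_identity
  rw [map_mul, map_mul, map_pow, HahnSeries.ofPowerSeries_X] at h1
  have h2 : qExp delta = qExpansion 1 (ModularForm.discriminant : ℍ → ℂ) := rfl
  have h3 : qExp e4 = qExpansion 1 (E₄ : ℍ → ℂ) := rfl
  rw [h2, h3, mul_assoc, h1, ← mul_assoc, HahnSeries.single_mul_single]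
  simp

theorem qExpFrac_Jfrac (d : ℕ) [NeZero d] : qExpFrac (Jfrac d) = jqNModC ℂ d := by
  rw [Jfrac, map_div₀, map_pow, qExpFrac_algebraMap, qExpFrac_algebraMap,
    ofPowerSeries_qExp_e4d, ofPowerSeries_qExp_deltad, ← map_pow, ← map_div₀, ← jqModC_eq]
  rfl

/-- The holomorphic function `τ ↦ j (d τ)`. -/
def JHol (d : ℕ) [NeZero d] : holRing :=
  ⟨fun τ => jFun (scale d τ), by
    have h1 : MDiff (fun τ => (E₄ : ℍ → ℂ) (scale d τ)) := (e4d d).2.hol
    have h2 : MDiff (fun τ => (ModularForm.discriminant : ℍ → ℂ) (scale d τ)) := (deltad d).2.hol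
    have h3 : (fun τ => jFun (scale d τ)) = fun τ => ((fun τ => (E₄ : ℍ → ℂ) (scale d τ)) τ) ^ 3 /
        (fun τ => (ModularForm.discriminant : ℍ → ℂ) (scale d τ)) τ := rfl
    show MDiff (fun τ => jFun (scale d τ))
    rw [h3]
    exact (h1.pow 3).div h2 (fun τ => discriminant_ne_zero _)⟩

@[simp] theorem JHol_apply (d : ℕ) [NeZero d] (τ : ℍ) :
    ((JHol d : holRing) : ℍ → ℂ) τ = jFun (scale d τ) := rfl

theorem toMer_Jfrac (d : ℕ) [NeZero d] : toMer (Jfrac d) = algebraMap holRing Mer (JHol d) := by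
  have hne : algebraMap holRing Mer (toHol (deltad d)) ≠ 0 := by
    rw [Ne, ← toMer_algebraMap, map_eq_zero, map_eq_zero_iff _ (IsFractionRing.injective _ _)]
    exact deltad_ne_zero d
  rw [Jfrac, map_div₀, map_pow, toMer_algebraMap, toMer_algebraMap, div_eq_iff hne, ← map_pow,
    ← map_mul]
  congr 1
  apply Subtype.ext
  funext τ
  show E₄ (scale d τ) ^ 3 = jFun (scale d τ) * ModularForm.discriminant (scale d τ)
  rw [jFun_mul_discriminant]

theorem actHol_JHol {N d : ℕ} [NeZero d] (hd : d ∣ N) {γ : SL(2, ℤ)}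
    (hγ : γ ∈ CongruenceSubgroup.Gamma0 N) : actHol γ (JHol d) = JHol d := by
  apply Subtype.ext
  funext τ
  show jFun (scale d (γ • τ)) = jFun (scale d τ)
  rw [scale_smul d γ (dvd_of_mem_Gamma0 hd hγ), jFun_smul]

theorem actMer_algebraMap_const (γ : SL(2, ℤ)) (c : ℂ) :
    actMer γ (algebraMap ℂ Mer c) = algebraMap ℂ Mer c := by
  rw [IsScalarTower.algebraMap_apply ℂ holRing Mer, actMer_algebraMap]
  rfl

/-- The subfield of `Mer` generated by the constants and the functions `τ ↦ j (d τ)`, `d ∣ N`. -/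
def jField (N : ℕ) : Subfield Mer :=
  Subfield.closure (Set.range (algebraMap ℂ Mer) ∪
    {y | ∃ (d : ℕ) (_ : NeZero d), d ∣ N ∧ y = algebraMap holRing Mer (JHol d)})

theorem algebraMap_mem_jField (N : ℕ) (c : ℂ) : algebraMap ℂ Mer c ∈ jField N :=
  Subfield.subset_closure (Or.inl ⟨c, rfl⟩)

theorem JHol_mem_jField {N d : ℕ} [NeZero d] (hd : d ∣ N) :
    algebraMap holRing Mer (JHol d) ∈ jField N :=
  Subfield.subset_closure (Or.inr ⟨d, ‹_›, hd, rfl⟩)

/-! ### The image of the function field consists of `q`-expansions of meromorphic functions -/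

variable [Algebra Kbar ℂ]

theorem algebraMap_comp_algebraMap :
    (algebraMap Kbar ℂ).comp (algebraMap ℚ Kbar) = algebraMap ℚ ℂ :=
  Subsingleton.elim _ _


omit [Algebra Kbar ℂ] in
theorem coeffMap_rat_mem_fieldRange (N : ℕ) {z : LaurentSeries ℚ}
    (hz : z ∈ modularFunctionFieldFull N) :
    coeffMap (algebraMap ℚ ℂ) z ∈ qExpFrac.fieldRange := by
  have hz' : z ∈ Subfield.closure (Set.range (algebraMap ℚ (LaurentSeries ℚ)) ∪
      divisorExpansions N) := hz
  have hle : Subfield.closure (Set.range (algebraMap ℚ (LaurentSeries ℚ)) ∪ divisorExpansions N) ≤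
      (qExpFrac.fieldRange).comap (coeffMap (algebraMap ℚ ℂ)) := by
    rw [Subfield.closure_le]
    rintro x (⟨a, rfl⟩ | ⟨d, hne, hd, rfl⟩)
    · show coeffMap (algebraMap ℚ ℂ) (algebraMap ℚ (LaurentSeries ℚ) a) ∈ qExpFrac.fieldRange
      rw [algebraMap_laurentSeries_eq_single, coeffMap_single]
      exact ⟨algebraMap ℂ MerInfty (algebraMap ℚ ℂ a), qExpFrac_algebraMap_const _⟩
    · have := hne
      show coeffMap (algebraMap ℚ ℂ) (qExpand ℚ d jq) ∈ qExpFrac.fieldRange
      refine ⟨Jfrac d, ?_⟩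
      rw [qExpFrac_Jfrac]
      exact (coeffMap_jqNModC (algebraMap ℚ ℂ) d).symm
  exact hle hz'

theorem coeffMap_algebraMap_mem_fieldRange (N : ℕ) {x : LaurentSeries Kbar}
    (hx : x ∈ modularFunctionFieldBar N) :
    coeffMap (algebraMap Kbar ℂ) x ∈ qExpFrac.fieldRange := by
  rw [mem_laurentBaseChange_iff] at hx
  have hle : Subfield.closure (Set.range (algebraMap Kbar (LaurentSeries Kbar)) ∪
      (⇑(coeffEmb Kbar) '' (modularFunctionFieldFull N : Set (LaurentSeries ℚ)))) ≤
      (qExpFrac.fieldRange).comap (coeffMap (algebraMap Kbar ℂ)) := by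
    rw [Subfield.closure_le]
    rintro x (⟨a, rfl⟩ | ⟨z, hz, rfl⟩)
    · show coeffMap (algebraMap Kbar ℂ) (algebraMap Kbar (LaurentSeries Kbar) a) ∈ qExpFrac.fieldRange
      rw [algebraMap_laurentSeries_eq_single, coeffMap_single]
      exact ⟨algebraMap ℂ MerInfty (algebraMap Kbar ℂ a), qExpFrac_algebraMap_const _⟩
    · show coeffMap (algebraMap Kbar ℂ) (coeffEmb Kbar z) ∈ qExpFrac.fieldRange
      rw [coeffEmb, coeffMap_coeffMap, algebraMap_comp_algebraMap]
      exact coeffMap_rat_mem_fieldRange N hz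
  exact hle hx

theorem exists_merInfty (N : ℕ) (x : FBar N) :
    ∃ y : MerInfty, qExpFrac y = coeffMap (algebraMap Kbar ℂ) (x : LaurentSeries Kbar) :=
  coeffMap_algebraMap_mem_fieldRange N x.2

/-- The analytic realization at the level of functions meromorphic at `i∞`: the unique
`y : MerInfty` whose `q`-expansion is the given element of `FBar N ⊆ ℚ̄((q))` (with coefficients
mapped to `ℂ` via `iotaBar`). -/
def PhiInfty (N : ℕ) : FBar N →+* MerInfty where
  toFun x := Classical.choose (exists_merInfty N x)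
  map_one' := qExpFrac_injective (by
    rw [Classical.choose_spec (exists_merInfty N 1), map_one]
    exact map_one _)
  map_mul' x y := qExpFrac_injective (by
    rw [RingHom.map_mul, Classical.choose_spec (exists_merInfty N (x * y)),
      Classical.choose_spec (exists_merInfty N x),
      Classical.choose_spec (exists_merInfty N y)]
    exact RingHom.map_mul _ _ _)
  map_zero' := qExpFrac_injective (by
    rw [Classical.choose_spec (exists_merInfty N 0), map_zero]
    exact map_zero _)
  map_add' x y := qExpFrac_injective (by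
    rw [RingHom.map_add, Classical.choose_spec (exists_merInfty N (x + y)),
      Classical.choose_spec (exists_merInfty N x),
      Classical.choose_spec (exists_merInfty N y)]
    exact RingHom.map_add _ _ _)

theorem qExpFrac_PhiInfty (N : ℕ) (x : FBar N) :
    qExpFrac (PhiInfty N x) = coeffMap (algebraMap Kbar ℂ) (x : LaurentSeries Kbar) :=
  Classical.choose_spec (exists_merInfty N x)

theorem PhiInfty_algebraMap (N : ℕ) (c : Kbar) :
    PhiInfty N (algebraMap Kbar (FBar N) c) = algebraMap ℂ MerInfty (algebraMap Kbar ℂ c) := by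
  apply qExpFrac_injective
  rw [qExpFrac_PhiInfty, qExpFrac_algebraMap_const]
  show coeffMap (algebraMap Kbar ℂ) (algebraMap Kbar (LaurentSeries Kbar) c) = _
  rw [algebraMap_laurentSeries_eq_single, coeffMap_single]
  rfl

theorem PhiInfty_jBarD (N d : ℕ) [NeZero d] (hd : d ∣ N) :
    PhiInfty N (jBarD N d hd) = Jfrac d := by
  apply qExpFrac_injective
  rw [qExpFrac_PhiInfty, qExpFrac_Jfrac, coe_jBarD, coeffEmb, coeffMap_coeffMap,
    algebraMap_comp_algebraMap]
  exact coeffMap_jqNModC (algebraMap ℚ ℂ) d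

/-- **The analytic realization** of the function field of `X₀(N)` inside the field of
meromorphic functions on the upper half plane. -/
def Phi (N : ℕ) : FBar N →+* Mer := toMer.comp (PhiInfty N)

theorem Phi_apply (N : ℕ) (x : FBar N) : Phi N x = toMer (PhiInfty N x) := rfl

theorem Phi_injective (N : ℕ) : Function.Injective (Phi N) :=
  (Phi N).injective

theorem Phi_algebraMap (N : ℕ) (c : Kbar) :
    Phi N (algebraMap Kbar (FBar N) c) = algebraMap ℂ Mer (algebraMap Kbar ℂ c) := by
  rw [Phi_apply, PhiInfty_algebraMap, toMer_algebraMap_const]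

theorem Phi_jBarD (N d : ℕ) [NeZero d] (hd : d ∣ N) :
    Phi N (jBarD N d hd) = algebraMap holRing Mer (JHol d) := by
  rw [Phi_apply, PhiInfty_jBarD, toMer_Jfrac]

/-! ### `Γ₀(N)`-invariance -/

/-- The image of `Phi` consists of `Γ₀(N)`-invariant meromorphic functions. -/
theorem actMer_Phi (N : ℕ) {γ : SL(2, ℤ)} (hγ : γ ∈ CongruenceSubgroup.Gamma0 N)
    (x : FBar N) : actMer γ (Phi N x) = Phi N x := by
  induction x using FBar_induction with
  | hc c => rw [Phi_algebraMap, actMer_algebraMap_const]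
  | hj d hd => rw [Phi_jBarD, actMer_algebraMap, actHol_JHol hd hγ]
  | hadd x y hx hy => rw [RingHom.map_add, RingEquiv.map_add, hx, hy]
  | hneg x hx => rw [map_neg, map_neg, hx]
  | hmul x y hx hy => rw [map_mul, map_mul, hx, hy]
  | hinv x hx => rw [map_inv₀, map_inv₀, hx]

/-! ### The image of `Phi` is generated by constants and the `j (d τ)` -/

theorem Phi_mem_jField (N : ℕ) (x : FBar N) : Phi N x ∈ jField N := by
  induction x using FBar_induction with
  | hc c => rw [Phi_algebraMap]; exact algebraMap_mem_jField N _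
  | hj d hd => rw [Phi_jBarD]; exact JHol_mem_jField hd
  | hadd x y hx hy => rw [RingHom.map_add]; exact add_mem hx hy
  | hneg x hx => rw [map_neg]; exact neg_mem hx
  | hmul x y hx hy => rw [map_mul]; exact mul_mem hx hy
  | hinv x hx => rw [map_inv₀]; exact inv_mem hx

end Fermat.Agent.S24.AnalyticRealization
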