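import Fermat.Agent.S24.BlockB
import Fermat.Agent.S24.CuspPackage
import Fermat.Agent.S24.CuspGen

/-!
# S24 (block B): `ModularRamificationData N`, unconditionally

The cusp package `hinf` from helper96's `CuspPackage.hasEmbeddings_cusp_of`, helper69's `CuspGen`
and helper73's `CuspExpansion`, instantiated with `EvDataInst`; then `BlockB`.
-/

set_option autoImplicit false
set_option linter.unusedSectionVars false

open ModularCurve UpperHalfPlane
open scoped MatrixGroups

noncomputable section

namespace Fermat.Agent.S24.BlockB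

open Fermat.Agent.S24.FieldGen Fermat.Agent.S24.RamGlue Fermat.Agent.S24.EvDataInst
  Fermat.Agent.S24.FinitePackage Fermat.Agent.S24.CuspExpansion

/-- A Laurent series with nonzero coefficient at `n` and vanishing coefficients below has
order `n`. -/
theorem order_eq_of_coeff {x : LaurentSeries ℂ} {n : ℤ} (hn : x.coeff n ≠ 0)
    (hlt : ∀ k < n, x.coeff k = 0) : x.order = n := by
  have hx0 : x ≠ 0 := fun h => hn (by rw [h]; rfl)
  apply le_antisymm (HahnSeries.order_le_of_coeff_ne_zero hn)
  by_contra hcon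
  rw [not_le] at hcon
  exact (not_iff_not.mpr HahnSeries.coeff_order_eq_zero).mpr hx0 (hlt _ hcon)

/-- The root of unity `exp (2πi/N)` as a unit. -/
def zetaN (N : ℕ) : ℂˣ := Units.mk0 (Complex.exp (2 * Real.pi * Complex.I / N)) (Complex.exp_ne_zero _)

theorem isPrimitiveRoot_zetaN (N : ℕ) [NeZero N] : IsPrimitiveRoot ((zetaN N : ℂˣ) : ℂ) N :=
  Complex.isPrimitiveRoot_exp N (NeZero.ne N)

variable [Algebra Kbar ℂ] (N : ℕ) [NeZero N]

theorem order_cuspLaurent_jFun : (cuspLaurent N jFun).order = -(N : ℤ) := by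
  rw [CuspGen.cuspLaurent_jFun N]
  apply order_eq_of_coeff
  · have : -(N : ℤ) = (N : ℤ) * (-1) := by ring
    rw [this, qExpand_coeff_mul, coeffMap_coeff, coeff_jq_neg_one, map_one]
    exact one_ne_zero
  · intro k hk
    by_cases hdk : (N : ℤ) ∣ k
    · obtain ⟨m, rfl⟩ := hdk
      rw [qExpand_coeff_mul, coeffMap_coeff, coeff_jq_of_lt, map_zero]
      have hN : (0 : ℤ) < N := by exact_mod_cast Nat.pos_of_ne_zero (NeZero.ne N)
      nlinarith
    · exact qExpand_coeff_of_not_dvd N _ hdk

/-- **The cusp package.** -/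
theorem hinf : ∃ g : SL(2, ℤ), Subgroup.zpowers g = Subgroup.zpowers ModularGroup.T ∧
    HasEmbeddings N (jBar N)⁻¹ g N := by
  refine CuspPackage.hasEmbeddings_cusp_of (evFun N) (evFun_injective N)
    (evFun_smul_of_mem_Gamma0 N) (evData N).dist (fun d hd => evFun_genJ N hd)
    (merCuspAlg N) (cuspLaurentHom N) (cuspLaurentHom_injective N)
    (fun d hd g => CuspGen.jD_comp_mem N d hd g)
    ModularGroup.T⁻¹ Subgroup.zpowers_inv (zetaN N) (isPrimitiveRoot_zetaN N) ?_
    (CuspGen.merAtCusp_jFun_width N) (order_cuspLaurent_jFun N)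
  intro f hf hf'
  have hf'' : (fun τ : ℍ => f (ModularGroup.T • τ)) ∈ merCuspAlg N := by simpa using hf'
  have key := (MerAtCusp.comp_T (h := N) (mem_merCuspAlg.mp hf)).2
  ext k
  rw [coeff_rot]
  show (cuspLaurent N (fun τ => f ((ModularGroup.T⁻¹)⁻¹ • τ))).coeff k = _
  rw [inv_inv, key k]
  rfl

/-- **Block B.** -/
theorem modularRamificationData : ModularRamificationData N :=
  modularRamificationData_of_hinf N (hinf N)

end Fermat.Agent.S24.BlockB

namespace Fermat.Agent.S24.BlockBFinal

/-- **Block B, unconditionally** (an embedding `ℚ̄ → ℂ` is chosen by `IsAlgClosed.lift`). -/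
theorem modularRamificationData (N : ℕ) [NeZero N] : ModularRamificationData N := by
  let _i1 : Algebra ℚ Kbar := AlgebraicClosure.instAlgebra ℚ
  let φ : Kbar →+* ℂ := (IsAlgClosed.lift (R := ℚ) (S := Kbar) (M := ℂ)).toRingHom
  let _i2 : Algebra Kbar ℂ := φ.toAlgebra
  exact BlockB.modularRamificationData N

end Fermat.Agent.S24.BlockBFinal
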