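/-
S24 piece A8.core: the pure bookkeeping core of the Riemann–Hurwitz formula.
All function-field inputs are explicit hypotheses.  Owner: helper26.
-/
import Fermat.Agent.S24.Defs

set_option autoImplicit false

open AlgebraicCurve

namespace Fermat.Agent.S24.HurwitzCore

variable {K F : Type*} [Field K] [Field F] [Algebra K F]

/-- When every place has degree one, the degree of a divisor is the (finite) sum of its
coefficients. -/
theorem degree_eq_finsum (hdeg : ∀ v : Place K F, v.deg = 1) (D : Divisor K F) :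
    Divisor.degree D = ∑ᶠ v, D v := by
  classical
  have h1 : Divisor.degree D = ∑ v ∈ D.support, D v := by
    unfold Divisor.degree
    rw [Finsupp.liftAddHom_apply, Finsupp.sum]
    refine Finset.sum_congr rfl fun v _ => ?_
    rw [AddMonoidHom.coe_mulRight, hdeg v, Nat.cast_one]
    exact mul_one _
  rw [h1]
  symm
  apply finsum_eq_sum_of_support_subset
  intro v hv
  simpa [Finsupp.mem_support_iff] using hv

/-- If a divisor `D` has values `d v + δ v` where `d` has finite support and finsum zero, then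
`δ` has finite support and its finsum is the degree of `D`. -/
theorem finsum_eq_degree_of_add (hdeg : ∀ v : Place K F, v.deg = 1) (D : Divisor K F)
    (d δ : Place K F → ℤ) (hD : ∀ v, D v = d v + δ v) (hd : (Function.support d).Finite)
    (hd0 : ∑ᶠ v, d v = 0) :
    (Function.support δ).Finite ∧ ∑ᶠ v, δ v = Divisor.degree D := by
  classical
  have hDfin : (Function.support fun v => D v).Finite := by
    refine D.support.finite_toSet.subset ?_
    intro v hv
    simpa [Finsupp.mem_support_iff] using hv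
  have hδ : δ = fun v => D v - d v := by
    funext v
    rw [hD v]; ring
  have hδfin : (Function.support δ).Finite := by
    rw [hδ]
    exact (hDfin.union hd).subset (Function.support_sub _ _)
  refine ⟨hδfin, ?_⟩
  rw [degree_eq_finsum hdeg D]
  have : (fun v => D v) = fun v => d v + δ v := funext hD
  rw [this, finsum_add_distrib hd hδfin, hd0, zero_add]

/-- **Bookkeeping core of Riemann–Hurwitz.**  `δ v` plays the role of `ord_v (dx)`. -/
theorem hurwitz_core (x : F) (n : ℕ) (δ : Place K F → ℤ)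
    (hzero : ∀ a : K, ∀ v ∈ zerosOver x a, δ v = v.ord (x - algebraMap K F a) - 1)
    (hpole : ∀ v ∈ polesOf K x, δ v = v.ord x - 1)
    (hcover : ∀ v : Place K F, v ∈ polesOf K x ∨ ∃ a : K, v ∈ zerosOver x a)
    (hdisj : ∀ a b : K, a ≠ b → Disjoint (zerosOver x a) (zerosOver (F := F) x b))
    (hdisj' : ∀ a : K, Disjoint (zerosOver x a) (polesOf K x))
    (hfin : ∀ a : K, (zerosOver (F := F) x a).Finite) (hfin' : (polesOf K x).Finite)
    (hsum : ∀ a : K, ∑ᶠ v ∈ zerosOver x a, v.ord (x - algebraMap K F a) = (n : ℤ))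
    (hsum' : ∑ᶠ v ∈ polesOf K x, v.ord x = -(n : ℤ))
    (S : Finset K) (hS : ∀ a ∉ S, Nat.card (zerosOver (F := F) x a) = n) :
    (Function.support δ).Finite ∧
      ∑ᶠ v, δ v = (∑ a ∈ S, ((n : ℤ) - (Nat.card (zerosOver (F := F) x a) : ℤ)))
        + ((n : ℤ) - (Nat.card (polesOf K x) : ℤ)) - 2 * (n : ℤ) := by
  classical
  -- finsets
  set Zf : K → Finset (Place K F) := fun a => (hfin a).toFinset with hZf
  set Pf : Finset (Place K F) := hfin'.toFinset with hPf
  have memZ : ∀ a v, v ∈ Zf a ↔ v ∈ zerosOver x a := fun a v => Set.Finite.mem_toFinset _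
  have memP : ∀ v, v ∈ Pf ↔ v ∈ polesOf K x := fun v => Set.Finite.mem_toFinset _
  have cardZ : ∀ a, Nat.card (zerosOver (F := F) x a) = (Zf a).card := fun a => by
    rw [Nat.card_coe_set_eq, Set.ncard_eq_toFinset_card _ (hfin a)]
  have cardP : Nat.card (polesOf K x) = Pf.card := by
    rw [Nat.card_coe_set_eq, Set.ncard_eq_toFinset_card _ hfin']
  have sumZ : ∀ a, ∑ v ∈ Zf a, v.ord (x - algebraMap K F a) = (n : ℤ) := fun a => by
    rw [← hsum a, finsum_mem_eq_finite_toFinset_sum _ (hfin a)]
  have sumP : ∑ v ∈ Pf, v.ord x = -(n : ℤ) := by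
    rw [← hsum', finsum_mem_eq_finite_toFinset_sum _ hfin']
  -- sums of δ over the fibres
  have sumδZ : ∀ a, ∑ v ∈ Zf a, δ v = (n : ℤ) - ((Zf a).card : ℤ) := fun a => by
    have : ∑ v ∈ Zf a, δ v = ∑ v ∈ Zf a, (v.ord (x - algebraMap K F a) - 1) :=
      Finset.sum_congr rfl fun v hv => hzero a v ((memZ a v).mp hv)
    rw [this, Finset.sum_sub_distrib, sumZ a, Finset.sum_const, nsmul_eq_mul, mul_one]
  have sumδP : ∑ v ∈ Pf, δ v = -(n : ℤ) - (Pf.card : ℤ) := by
    have : ∑ v ∈ Pf, δ v = ∑ v ∈ Pf, (v.ord x - 1) :=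
      Finset.sum_congr rfl fun v hv => hpole v ((memP v).mp hv)
    rw [this, Finset.sum_sub_distrib, sumP, Finset.sum_const, nsmul_eq_mul, mul_one]
  -- unramified fibres do not contribute
  have hunr : ∀ a ∉ S, ∀ v ∈ zerosOver x a, δ v = 0 := by
    intro a ha v hv
    have hnonneg : ∀ w ∈ Zf a, 0 ≤ δ w := by
      intro w hw
      have hw' := (memZ a w).mp hw
      rw [hzero a w hw']
      have : 0 < w.ord (x - algebraMap K F a) := hw'
      omega
    have hsum0 : ∑ w ∈ Zf a, δ w = 0 := by
      rw [sumδZ a, ← cardZ a, hS a ha]; ring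
    exact (Finset.sum_eq_zero_iff_of_nonneg hnonneg).mp hsum0 v ((memZ a v).mpr hv)
  -- the support of δ
  set T : Finset (Place K F) := Pf ∪ S.biUnion Zf with hT
  have hsupp : Function.support δ ⊆ (T : Set (Place K F)) := by
    intro v hv
    rw [Function.mem_support] at hv
    rw [hT, Finset.coe_union, Set.mem_union, Finset.mem_coe, Finset.mem_coe]
    rcases hcover v with hp | ⟨a, ha⟩
    · exact Or.inl ((memP v).mpr hp)
    · by_cases haS : a ∈ S
      · exact Or.inr (Finset.mem_biUnion.mpr ⟨a, haS, (memZ a v).mpr ha⟩)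
      · exact absurd (hunr a haS v ha) hv
  refine ⟨T.finite_toSet.subset hsupp, ?_⟩
  rw [finsum_eq_sum_of_support_subset _ hsupp, hT]
  have hdisjPU : Disjoint Pf (S.biUnion Zf) := by
    rw [Finset.disjoint_left]
    intro v hvP hvU
    obtain ⟨a, -, hva⟩ := Finset.mem_biUnion.mp hvU
    exact (Set.disjoint_left.mp (hdisj' a)) ((memZ a v).mp hva) ((memP v).mp hvP)
  rw [Finset.sum_union hdisjPU, Finset.sum_biUnion]
  · rw [sumδP, Finset.sum_congr rfl fun a _ => sumδZ a, cardP]
    have : ∑ a ∈ S, ((n : ℤ) - (Nat.card (zerosOver (F := F) x a) : ℤ))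
        = ∑ a ∈ S, ((n : ℤ) - ((Zf a).card : ℤ)) :=
      Finset.sum_congr rfl fun a _ => by rw [cardZ a]
    rw [this]; ring
  · intro a _ b _ hab
    rw [Function.onFun, Finset.disjoint_left]
    intro v hva hvb
    exact (Set.disjoint_left.mp (hdisj a b hab)) ((memZ a v).mp hva) ((memZ b v).mp hvb)

end Fermat.Agent.S24.HurwitzCore
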