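import Mathlib
import Fermat.Prelude.Def_ModularCurve_LaurentCoeff

/-!
# S24, B4.A4: descent of a bivariate polynomial relation between Laurent series from `ℂ` to `K`

If `x f : K((q))` satisfy a nonzero polynomial relation with coefficients in `ℂ` after extending
the coefficients to `ℂ`, they already satisfy one with coefficients in `K` (apply a suitable
`K`-linear functional `ℂ → K` to all coefficients).
-/

set_option autoImplicit false

namespace Fermat.Agent.S24.DegreeDescent

open Polynomial

section cwMap

variable {A B : Type*} [Semiring A] [Semiring B]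

/-- Apply an additive map to every coefficient of a polynomial. -/
noncomputable def cwMap (g : A →+ B) (p : A[X]) : B[X] :=
  ∑ j ∈ p.support, monomial j (g (p.coeff j))

@[simp] theorem coeff_cwMap (g : A →+ B) (p : A[X]) (k : ℕ) :
    (cwMap g p).coeff k = g (p.coeff k) := by
  classical
  rw [cwMap, finsetSum_coeff]
  simp only [coeff_monomial]
  rw [Finset.sum_ite_eq' p.support k]
  split_ifs with h
  · rfl
  · rw [notMem_support_iff.mp h, map_zero]

theorem cwMap_add (g : A →+ B) (p q : A[X]) : cwMap g (p + q) = cwMap g p + cwMap g q := by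
  ext k
  simp

theorem cwMap_zero (g : A →+ B) : cwMap g (0 : A[X]) = 0 := by
  ext k
  simp

/-- `cwMap` as an additive monoid hom. -/
noncomputable def cwMapHom (g : A →+ B) : A[X] →+ B[X] where
  toFun := cwMap g
  map_zero' := cwMap_zero g
  map_add' := cwMap_add g

@[simp] theorem cwMapHom_apply (g : A →+ B) (p : A[X]) : cwMapHom g p = cwMap g p := rfl

theorem cwMap_monomial (g : A →+ B) (j : ℕ) (a : A) :
    cwMap g (monomial j a) = monomial j (g a) := by
  classical
  ext k
  rw [coeff_cwMap, coeff_monomial, coeff_monomial]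
  split_ifs
  · rfl
  · exact map_zero g

end cwMap

section descent

variable {K : Type*} [Field K] [Algebra K ℂ]

/-- Apply a `K`-linear functional `ℂ → K` to all coefficients of a bivariate polynomial. -/
noncomputable def cw2 (π : ℂ →ₗ[K] K) (P : ℂ[X][X]) : K[X][X] :=
  cwMap (cwMapHom π.toAddMonoidHom) P

theorem coeff_coeff_cw2 (π : ℂ →ₗ[K] K) (P : ℂ[X][X]) (i j : ℕ) :
    ((cw2 π P).coeff i).coeff j = π ((P.coeff i).coeff j) := by
  simp [cw2]

theorem cw2_add (π : ℂ →ₗ[K] K) (P Q : ℂ[X][X]) : cw2 π (P + Q) = cw2 π P + cw2 π Q :=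
  cwMap_add _ P Q

theorem cw2_monomial_monomial (π : ℂ →ₗ[K] K) (i j : ℕ) (z : ℂ) :
    cw2 π (monomial i (monomial j z)) = monomial i (monomial j (π z)) := by
  rw [cw2, cwMap_monomial, cwMapHom_apply, cwMap_monomial]
  rfl

theorem aevalAeval_monomial_monomial {R A : Type*} [CommSemiring R] [CommSemiring A] [Algebra R A]
    (x y : A) (i j : ℕ) (c : R) :
    aevalAeval x y (monomial i (monomial j c)) = algebraMap R A c * x ^ j * y ^ i := by
  rw [← C_mul_X_pow_eq_monomial (n := i), map_mul, map_pow, aevalAeval_C, aevalAeval_Y,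
    aeval_monomial]

/-- The key identity: coefficients of the evaluation of `cw2 π P`. -/
theorem coeff_aevalAeval_cw2 (π : ℂ →ₗ[K] K) (x f : LaurentSeries K) (P : ℂ[X][X]) (m : ℤ) :
    (aevalAeval x f (cw2 π P)).coeff m =
      π ((aevalAeval (ModularCurve.coeffMap (algebraMap K ℂ) x)
        (ModularCurve.coeffMap (algebraMap K ℂ) f) P).coeff m) := by
  induction P using Polynomial.induction_on' with
  | add p q hp hq =>
    rw [cw2_add, map_add, map_add, HahnSeries.coeff_add, HahnSeries.coeff_add, map_add, hp, hq]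
  | monomial i a =>
    induction a using Polynomial.induction_on' with
    | add p q hp hq =>
      rw [map_add (monomial i), cw2_add, map_add, map_add, HahnSeries.coeff_add,
        HahnSeries.coeff_add, map_add, hp, hq]
    | monomial j z =>
      rw [cw2_monomial_monomial, aevalAeval_monomial_monomial, aevalAeval_monomial_monomial]
      rw [mul_assoc, mul_assoc, ← map_pow, ← map_pow, ← map_mul]
      rw [ModularCurve.algebraMap_laurentSeries_eq_single,
        ModularCurve.algebraMap_laurentSeries_eq_single, HahnSeries.coeff_single_zero_mul,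
        HahnSeries.coeff_single_zero_mul, ModularCurve.coeffMap_coeff]
      rw [mul_comm z, ← Algebra.smul_def, map_smul, smul_eq_mul, mul_comm]

theorem descent_bivariate (x f : LaurentSeries K) (n : ℕ)
    (P : Polynomial (Polynomial ℂ)) (hP : P ≠ 0) (hdeg : P.natDegree ≤ n)
    (h : Polynomial.aevalAeval (ModularCurve.coeffMap (algebraMap K ℂ) x)
      (ModularCurve.coeffMap (algebraMap K ℂ) f) P = 0) :
    ∃ P' : Polynomial (Polynomial K), P' ≠ 0 ∧ P'.natDegree ≤ n ∧
      Polynomial.aevalAeval x f P' = 0 := by
  -- a nonzero coefficient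
  obtain ⟨i, hi⟩ : ∃ i, P.coeff i ≠ 0 := by
    by_contra hcon
    push Not at hcon
    exact hP (Polynomial.ext fun i => by rw [hcon i, coeff_zero])
  obtain ⟨j, hj⟩ : ∃ j, (P.coeff i).coeff j ≠ 0 := by
    by_contra hcon
    push Not at hcon
    exact hi (Polynomial.ext fun j => by rw [hcon j, coeff_zero])
  obtain ⟨π, hπ⟩ := Module.Projective.exists_dual_ne_zero K hj
  refine ⟨cw2 π P, ?_, ?_, ?_⟩
  · intro h0
    have h1 := coeff_coeff_cw2 π P i j
    rw [h0, coeff_zero, coeff_zero] at h1
    exact hπ h1.symm
  · rw [natDegree_le_iff_coeff_eq_zero] at hdeg ⊢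
    intro N hN
    ext j'
    rw [coeff_coeff_cw2, hdeg N hN, coeff_zero, map_zero, coeff_zero]
  · ext m
    rw [coeff_aevalAeval_cw2, h, HahnSeries.coeff_zero, map_zero, HahnSeries.coeff_zero]

end descent

end Fermat.Agent.S24.DegreeDescent
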