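/-
S24 helper (owner: helper31), lemma B4.A3: `n` distinct `K`-embeddings `F → L` agreeing at `x`
force `n ≤ [F : K(x)]`.
-/
import Mathlib

set_option autoImplicit false

namespace Fermat.Agent.S24.DegreeEmb

open IntermediateField

theorem card_le_finrank_of_algHoms {K F L : Type*} [Field K] [Field F] [Field L] [Algebra K F]
    [Algebra K L] (x : F)
    [FiniteDimensional (IntermediateField.adjoin K ({x} : Set F)) F]
    {ι : Type*} [Fintype ι] (σ : ι → F →ₐ[K] L) (hσ : Function.Injective σ) (ξ : L)
    (hξ : ∀ i, σ i x = ξ) :
    Fintype.card ι ≤ Module.finrank (IntermediateField.adjoin K ({x} : Set F)) F := by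
  classical
  rcases isEmpty_or_nonempty ι with h | ⟨⟨i₀⟩⟩
  · rw [Fintype.card_eq_zero]; exact Nat.zero_le _
  let φ₀ : IntermediateField.adjoin K ({x} : Set F) →ₐ[K] L :=
    (σ i₀).comp (IntermediateField.adjoin K ({x} : Set F)).val
  have hagree : ∀ i, (σ i).comp (IntermediateField.adjoin K ({x} : Set F)).val = φ₀ := by
    intro i
    apply IntermediateField.adjoin_algHom_ext
    intro y hy
    rw [Set.mem_singleton_iff] at hy
    subst hy
    simp only [φ₀, AlgHom.comp_apply, IntermediateField.val_mk, hξ]
  let _ : Algebra (IntermediateField.adjoin K ({x} : Set F)) L := φ₀.toRingHom.toAlgebra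
  let τ : ι → (F →ₐ[IntermediateField.adjoin K ({x} : Set F)] L) := fun i =>
    { (σ i : F →+* L) with
      commutes' := fun e => by
        have := congrArg (fun f : IntermediateField.adjoin K ({x} : Set F) →ₐ[K] L => f e)
          (hagree i)
        exact this }
  have hτ : Function.Injective τ := by
    intro i j hij
    apply hσ
    ext y
    have := congrArg (fun f : F →ₐ[IntermediateField.adjoin K ({x} : Set F)] L => f y) hij
    exact this
  calc Fintype.card ι = Nat.card ι := Nat.card_eq_fintype_card.symm
    _ ≤ Nat.card (F →ₐ[IntermediateField.adjoin K ({x} : Set F)] L) :=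
        Nat.card_le_card_of_injective τ hτ
    _ ≤ Module.finrank (IntermediateField.adjoin K ({x} : Set F)) F :=
        card_algHom_le_finrank _ _ _

end Fermat.Agent.S24.DegreeEmb
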