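import Mathlib

/-!
# S24 / B4.A2: bounded degree implies bounded dimension (characteristic zero)

If every element of `F` is a root of a nonzero polynomial of degree `≤ n` over `E`
(`char E = 0`), then `[F : E] ≤ n`.
-/

set_option autoImplicit false

open IntermediateField

namespace Fermat.Agent.S24.DegreeBounded

section

variable {E F : Type*} [Field E] [Field F] [Algebra E F]

/-- the minimal polynomial has degree at most `n` -/
theorem natDegree_minpoly_le {n : ℕ} {f : F}
    (h : ∃ p : Polynomial E, p ≠ 0 ∧ p.natDegree ≤ n ∧ Polynomial.aeval f p = 0) :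
    (minpoly E f).natDegree ≤ n := by
  obtain ⟨p, hp0, hpn, hpf⟩ := h
  exact (Polynomial.natDegree_le_of_dvd (minpoly.dvd E f hpf) hp0).trans hpn

theorem isAlgebraic_of_exists_poly {n : ℕ} {f : F}
    (h : ∃ p : Polynomial E, p ≠ 0 ∧ p.natDegree ≤ n ∧ Polynomial.aeval f p = 0) :
    IsAlgebraic E f := by
  obtain ⟨p, hp0, _, hpf⟩ := h
  exact ⟨p, hp0, hpf⟩

theorem finrank_le_of_forall_exists_poly [CharZero E] (n : ℕ)
    (h : ∀ f : F, ∃ p : Polynomial E, p ≠ 0 ∧ p.natDegree ≤ n ∧ Polynomial.aeval f p = 0) :
    FiniteDimensional E F ∧ Module.finrank E F ≤ n := by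
  classical
  have halg : Algebra.IsAlgebraic E F := ⟨fun f => isAlgebraic_of_exists_poly (h f)⟩
  -- every finite-dimensional intermediate field has degree `≤ n`
  have key : ∀ L : IntermediateField E F, FiniteDimensional E L → Module.finrank E L ≤ n := by
    intro L hL
    have := hL
    obtain ⟨α, hα⟩ := Field.exists_primitive_element E L
    have hint : IsIntegral E α := (Algebra.IsIntegral.isIntegral α)
    have h1 : Module.finrank E L = (minpoly E α).natDegree := by
      rw [← IntermediateField.adjoin.finrank hint, hα]
      exact (IntermediateField.finrank_top').symm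
    rw [h1, IntermediateField.minpoly_eq]
    exact natDegree_minpoly_le (h (α : F))
  have hfd : FiniteDimensional E F := by
    by_contra hnfd
    obtain ⟨L, hL, hn⟩ := IntermediateField.exists_lt_finrank_of_infinite_dimensional hnfd n
    exact absurd (key L hL) (not_le.mpr hn)
  refine ⟨hfd, ?_⟩
  have := hfd
  have htop := key ⊤ inferInstance
  rwa [IntermediateField.finrank_top'] at htop

theorem finrank_le_of_adjoin [CharZero E] (n : ℕ) (S : Set F)
    (hS : IntermediateField.adjoin E S = ⊤)
    (h : ∀ f ∈ Algebra.adjoin E S,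
      ∃ p : Polynomial E, p ≠ 0 ∧ p.natDegree ≤ n ∧ Polynomial.aeval f p = 0) :
    FiniteDimensional E F ∧ Module.finrank E F ≤ n := by
  have hSalg : ∀ x ∈ S, IsAlgebraic E x := fun x hx =>
    isAlgebraic_of_exists_poly (h x (Algebra.subset_adjoin hx))
  have htop : Algebra.adjoin E S = ⊤ := by
    rw [← IntermediateField.adjoin_toSubalgebra_of_isAlgebraic hSalg, hS,
      IntermediateField.top_toSubalgebra]
  exact finrank_le_of_forall_exists_poly n fun f => h f (by rw [htop]; exact Algebra.mem_top)

end

end Fermat.Agent.S24.DegreeBounded
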