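import Mathlib
import Fermat.Agent.S24.DegreeBounded

/-!
# S24, piece B4 (pure algebra): a bivariate relation for every element of `K[S]` bounds `[K(S):K(x)]`

Let `F = K(S) ⊆ L` be generated by a set `S`, let `x ∈ K[S]` be transcendental over `K`, and assume
that every `a ∈ K[S]` satisfies a nonzero relation `P(x, a) = 0` with `P ∈ Polynomial (Polynomial K)` of `Y`-degree
at most `n`.  Then `F` is finite over `K(x)` of degree at most `n`.
-/

set_option autoImplicit false

open Polynomial IntermediateField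

namespace Fermat.Agent.S24.DegreeUpper

variable {K L : Type*} [Field K] [Field L] [Algebra K L]

section Step1

variable (F : IntermediateField K L) (x : F)

/-- `K[X] → K(x)`, `X ↦ x`. -/
noncomputable def toAdjoin : K[X] →ₐ[K] K⟮x⟯ := aeval (AdjoinSimple.gen K x)

lemma algebraMap_toAdjoin (h : K[X]) : algebraMap K⟮x⟯ F (toAdjoin F x h) = aeval x h := by
  rw [toAdjoin, ← aeval_algebraMap_apply, AdjoinSimple.algebraMap_gen]

lemma coe_aeval (h : K[X]) : ((aeval x h : F) : L) = aeval (x : L) h := by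
  exact (aeval_algebraMap_apply L x h).symm

lemma toAdjoin_injective (hx : Transcendental K x) : Function.Injective (toAdjoin F x) := by
  rw [injective_iff_map_eq_zero]
  intro h hh
  have h1 : aeval x h = 0 := by rw [← algebraMap_toAdjoin, hh, map_zero]
  by_contra h0
  exact hx ⟨h, h0, h1⟩

/-- The `K`-algebra map `Polynomial (Polynomial K) → L`, `P ↦ (P.map (X ↦ x))(y)`. -/
noncomputable def bivEval (y : F) : Polynomial (Polynomial K) →ₐ[K] L :=
  (F.val).comp (((aeval y : K⟮x⟯[X] →ₐ[K⟮x⟯] F).restrictScalars K).comp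
    (Polynomial.mapAlgHom (toAdjoin F x)))

lemma bivEval_apply (y : F) (P : Polynomial (Polynomial K)) :
    bivEval F x y P = ((aeval y (P.map (toAdjoin F x).toRingHom) : F) : L) := rfl

lemma bivEval_eq (y : F) : bivEval F x y = aevalAeval (x : L) (y : L) := by
  have h := (aevalAevalEquiv K L).right_inv (bivEval F x y)
  rw [← h]
  show aevalAevalEquiv K L ⟨bivEval F x y (C X), bivEval F x y X⟩ = _
  have h1 : bivEval F x y (C X) = (x : L) := by
    rw [bivEval_apply, Polynomial.map_C, aeval_C]
    show ((algebraMap K⟮x⟯ F (toAdjoin F x X) : F) : L) = x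
    rw [algebraMap_toAdjoin, aeval_X]
  have h2 : bivEval F x y X = (y : L) := by
    rw [bivEval_apply, Polynomial.map_X, aeval_X]
  rw [h1, h2]

/-- A bivariate relation over `K` gives a univariate relation over `K(x)`. -/
lemma exists_poly_of_bivariate (hx : Transcendental K x) (y : F) (n : ℕ)
    (h : ∃ P : Polynomial (Polynomial K), P ≠ 0 ∧ P.natDegree ≤ n ∧ aevalAeval (x : L) (y : L) P = 0) :
    ∃ p : K⟮x⟯[X], p ≠ 0 ∧ p.natDegree ≤ n ∧ aeval y p = 0 := by
  obtain ⟨P, hP0, hPn, hP⟩ := h
  refine ⟨P.map (toAdjoin F x).toRingHom, ?_, (natDegree_map_le).trans hPn, ?_⟩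
  · rwa [Ne, Polynomial.map_eq_zero_iff (toAdjoin_injective F x hx)]
  · rw [← bivEval_eq, bivEval_apply] at hP
    exact_mod_cast hP

end Step1

section Main

lemma aeval_mem_of_mem {A : Subalgebra K L} {y : L} (hy : y ∈ A) (p : K[X]) :
    aeval y p ∈ A := by
  have h := Polynomial.aeval_subalgebra_coe p A ⟨y, hy⟩
  rw [← h]
  exact SetLike.coe_mem _

variable [CharZero K]

/-- **Upper bound for the degree** from bivariate relations on the generated algebra. -/
theorem finrank_le_of_bivariate (F : IntermediateField K L) (S : Set L)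
    (hS : F = IntermediateField.adjoin K S) (x : F) (hx : Transcendental K x)
    (hxS : (x : L) ∈ Algebra.adjoin K S) (n : ℕ)
    (hrel : ∀ a ∈ Algebra.adjoin K S, ∃ P : Polynomial (Polynomial K), P ≠ 0 ∧ P.natDegree ≤ n ∧
      aevalAeval (x : L) a P = 0) :
    FiniteDimensional K⟮x⟯ F ∧ Module.finrank K⟮x⟯ F ≤ n := by
  classical
  have hSF : S ⊆ F := by rw [hS]; exact IntermediateField.subset_adjoin K S
  have hAF : ∀ a ∈ Algebra.adjoin K S, a ∈ F := fun a ha =>
    (Algebra.adjoin_le (S := F.toSubalgebra) hSF) ha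
  -- the generators, inside `F`
  set S' : Set F := {f | (f : L) ∈ S} with hS'
  -- Step 4: `S'` generates `F` over `K(x)`
  have htopK : IntermediateField.adjoin K S' = ⊤ := by
    apply IntermediateField.lift_injective F
    rw [IntermediateField.lift_adjoin, IntermediateField.lift_top]
    have : (Subtype.val '' S' : Set L) = S := by
      ext s
      constructor
      · rintro ⟨f, hf, rfl⟩; exact hf
      · intro hs; exact ⟨⟨s, hSF hs⟩, hs, rfl⟩
    rw [this, ← hS]
  have htop : IntermediateField.adjoin K⟮x⟯ S' = ⊤ := by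
    rw [eq_top_iff]
    intro f _
    have hf : f ∈ IntermediateField.adjoin K S' := by rw [htopK]; trivial
    have hle : IntermediateField.adjoin K S' ≤
        (IntermediateField.adjoin K⟮x⟯ S').restrictScalars K := by
      rw [IntermediateField.adjoin_le_iff]
      exact IntermediateField.subset_adjoin K⟮x⟯ S'
    exact hle hf
  -- Step 2: the subalgebra `D` of elements `a / h(x)`
  have hx0 : ∀ h : K[X], h ≠ 0 → aeval (x : L) h ≠ 0 := by
    intro h h0 h1
    apply hx
    refine ⟨h, h0, ?_⟩
    apply Subtype.val_injective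
    rw [coe_aeval, h1]; rfl
  let D : Subalgebra K⟮x⟯ F :=
    { carrier := {f | ∃ a ∈ Algebra.adjoin K S, ∃ h : K[X], h ≠ 0 ∧ (f : L) * aeval (x : L) h = a}
      mul_mem' := by
        rintro f g ⟨a, ha, h, h0, hfa⟩ ⟨b, hb, k, k0, hgb⟩
        refine ⟨a * b, mul_mem ha hb, h * k, mul_ne_zero h0 k0, ?_⟩
        rw [map_mul, ← hfa, ← hgb]
        push_cast
        ring
      add_mem' := by
        rintro f g ⟨a, ha, h, h0, hfa⟩ ⟨b, hb, k, k0, hgb⟩
        refine ⟨a * aeval (x : L) k + b * aeval (x : L) h,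
          add_mem (mul_mem ha (aeval_mem_of_mem hxS k))
            (mul_mem hb (aeval_mem_of_mem hxS h)), h * k, mul_ne_zero h0 k0, ?_⟩
        rw [map_mul, ← hfa, ← hgb]
        push_cast
        ring
      algebraMap_mem' := by
        intro e
        obtain ⟨r, s, hrs⟩ := (IntermediateField.mem_adjoin_simple_iff K (e : F)).mp e.2
        by_cases hs : s = 0
        · refine ⟨0, zero_mem _, 1, one_ne_zero, ?_⟩
          have : (algebraMap K⟮x⟯ F e : F) = 0 := by
            show (e : F) = 0
            rw [hrs, hs, map_zero, div_zero]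
          rw [this]; simp
        · refine ⟨aeval (x : L) r, aeval_mem_of_mem hxS r, s, hs, ?_⟩
          have h1 : (algebraMap K⟮x⟯ F e : F) = aeval x r / aeval x s := hrs
          rw [h1]
          push_cast
          rw [coe_aeval, coe_aeval, div_mul_cancel₀ _ (hx0 s hs)] }
  have hSD : S' ⊆ D := by
    intro f hf
    exact ⟨(f : L), Algebra.subset_adjoin hf, 1, one_ne_zero, by simp⟩
  -- Step 3 + 5
  refine DegreeBounded.finrank_le_of_adjoin n S' htop fun f hf => ?_
  obtain ⟨a, ha, h, h0, hfa⟩ := (Algebra.adjoin_le hSD) hf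
  obtain ⟨p, hp0, hpn, hp⟩ := exists_poly_of_bivariate F x hx ⟨a, hAF a ha⟩ n (hrel a ha)
  -- `f = c⁻¹ * a` with `c = h(x)`
  set c : K⟮x⟯ := toAdjoin F x h with hc
  have hcne : c ≠ 0 := by
    intro hc0
    exact h0 ((injective_iff_map_eq_zero _).mp (toAdjoin_injective F x hx) h hc0)
  have hfeq : f = algebraMap K⟮x⟯ F c⁻¹ * ⟨a, hAF a ha⟩ := by
    apply Subtype.val_injective
    have hcL : ((algebraMap K⟮x⟯ F c : F) : L) = aeval (x : L) h := by
      rw [hc, algebraMap_toAdjoin, coe_aeval]
    have hcL0 : ((algebraMap K⟮x⟯ F c : F) : L) ≠ 0 := by rw [hcL]; exact hx0 h h0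
    rw [map_inv₀]
    push_cast
    rw [← hfa, hcL, mul_comm, mul_assoc, mul_inv_cancel₀ (hx0 h h0), mul_one]
  refine ⟨scaleRoots p c⁻¹, scaleRoots_ne_zero hp0 _, by rw [natDegree_scaleRoots]; exact hpn, ?_⟩
  rw [hfeq]
  exact scaleRoots_aeval_eq_zero hp

end Main

end Fermat.Agent.S24.DegreeUpper
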