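import Fermat.Agent.S24.Defs

/-!
# S24 / G1 FieldGen: generators of the function field of `X₀(N)` over `ℚ̄`

`FBar N` is generated over `Kbar = ℚ̄` by the finitely many series
`J_d = coeffEmb Kbar (qExpand ℚ d jq)`, `d ∣ N`, and it is the fraction field of the
`Kbar`-algebra `genAlg N` they generate.  Consequently injective `Kbar`-algebra maps out of
`genAlg N` into a field extend uniquely to `FBar N`.
-/

set_option autoImplicit false
set_option linter.style.haveILetI false

noncomputable section

open ModularCurve

namespace Fermat.Agent.S24.FieldGen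

/-- The series `J_d = j(q^d)` with coefficients in `Kbar` (junk value `0` for `d = 0`). -/
def genJ (d : ℕ) : LaurentSeries Kbar :=
  if h : d = 0 then 0 else
    haveI : NeZero d := ⟨h⟩
    coeffEmb Kbar (qExpand ℚ d jq)

theorem genJ_eq (d : ℕ) [hd : NeZero d] : genJ d = coeffEmb Kbar (qExpand ℚ d jq) := by
  unfold genJ
  rw [dif_neg hd.out]

theorem genJ_zero : genJ 0 = 0 := by
  unfold genJ
  rw [dif_pos rfl]

/-- The generating set `{J_d : d ∣ N}`. -/
def gens (N : ℕ) : Set (LaurentSeries Kbar) := genJ '' {d | d ∣ N}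

/-- The `Kbar`-algebra generated by the `J_d`, `d ∣ N`. -/
def genAlg (N : ℕ) : Subalgebra Kbar (LaurentSeries Kbar) := Algebra.adjoin Kbar (gens N)

theorem genJ_mem_gens {N d : ℕ} (hd : d ∣ N) : genJ d ∈ gens N := ⟨d, hd, rfl⟩

theorem genJ_mem_genAlg {N d : ℕ} (hd : d ∣ N) : genJ d ∈ genAlg N :=
  Algebra.subset_adjoin (genJ_mem_gens hd)

theorem gens_finite (N : ℕ) [NeZero N] : (gens N).Finite := by
  refine Set.Finite.image _ ?_
  exact Set.Finite.subset (Finset.finite_toSet N.divisors) fun d hd => by
    simpa [Nat.mem_divisors, NeZero.ne N] using hd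

/-- `coeffEmb` sends rational constants to constants. -/
theorem coeffEmb_algebraMap (c : ℚ) :
    coeffEmb Kbar (algebraMap ℚ (LaurentSeries ℚ) c)
      = algebraMap Kbar (LaurentSeries Kbar) (algebraMap ℚ Kbar c) := by
  rw [ModularCurve.algebraMap_laurentSeries_eq_single,
    ModularCurve.algebraMap_laurentSeries_eq_single, coeffEmb, coeffMap_single]

theorem gens_subset (N : ℕ) [NeZero N] :
    gens N ⊆ (modularFunctionFieldBar N : Set (LaurentSeries Kbar)) := by
  rintro _ ⟨d, hd, rfl⟩
  have hd' : d ∣ N := hd
  have hd0 : d ≠ 0 := fun h => NeZero.ne N (by rw [h] at hd'; exact Nat.eq_zero_of_zero_dvd hd')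
  haveI : NeZero d := ⟨hd0⟩
  rw [genJ_eq]
  exact coeffEmb_mem_laurentBaseChange Kbar (jqd_mem_full N hd')

/-- `FBar N` is generated, as a field over `Kbar`, by the `J_d`, `d ∣ N`. -/
theorem modularFunctionFieldBar_eq_adjoin (N : ℕ) [NeZero N] :
    modularFunctionFieldBar N = IntermediateField.adjoin Kbar (gens N) := by
  apply le_antisymm
  · show laurentBaseChange Kbar (modularFunctionFieldFull N) ≤ _
    rw [laurentBaseChange, IntermediateField.adjoin_le_iff]
    rintro _ ⟨x, hx, rfl⟩
    have hx' : x ∈ IntermediateField.adjoin ℚ (divisorExpansions N) := hx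
    induction hx' using IntermediateField.adjoin_induction with
    | mem y hy =>
        obtain ⟨d, hne, hd, rfl⟩ := hy
        haveI := hne
        refine IntermediateField.subset_adjoin Kbar _ ?_
        rw [← genJ_eq]
        exact genJ_mem_gens hd
    | algebraMap c =>
        rw [coeffEmb_algebraMap]
        exact (IntermediateField.adjoin Kbar (gens N)).algebraMap_mem _
    | add y z hy hz ihy ihz =>
        rw [map_add]
        exact add_mem (ihy hy) (ihz hz)
    | inv y hy ihy =>
        rw [map_inv₀]
        exact inv_mem (ihy hy)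
    | mul y z hy hz ihy ihz =>
        rw [map_mul]
        exact mul_mem (ihy hy) (ihz hz)
  · rw [IntermediateField.adjoin_le_iff]
    exact gens_subset N

theorem genAlg_le (N : ℕ) [NeZero N] : genAlg N ≤ (modularFunctionFieldBar N).toSubalgebra :=
  Algebra.adjoin_le (gens_subset N)

/-- The inclusion of the generated algebra into the function field. -/
def incl (N : ℕ) [NeZero N] : genAlg N →ₐ[Kbar] FBar N :=
  Subalgebra.inclusion (genAlg_le N)

theorem coe_incl (N : ℕ) [NeZero N] (a : genAlg N) :
    ((incl N a : FBar N) : LaurentSeries Kbar) = a := rfl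

theorem incl_injective (N : ℕ) [NeZero N] : Function.Injective (incl N) :=
  Subalgebra.inclusion_injective (genAlg_le N)

theorem incl_ne_zero (N : ℕ) [NeZero N] {b : genAlg N} (hb : b ≠ 0) : incl N b ≠ 0 := fun h =>
  hb (incl_injective N (by rw [h, map_zero]))

/-- Every element of `FBar N` is a quotient of two elements of the generated algebra. -/
theorem exists_div (N : ℕ) [NeZero N] (f : FBar N) :
    ∃ a b : genAlg N, b ≠ 0 ∧ f = incl N a / incl N b := by
  have hf : (f : LaurentSeries Kbar) ∈ IntermediateField.adjoin Kbar (gens N) := by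
    rw [← modularFunctionFieldBar_eq_adjoin]
    exact f.2
  obtain ⟨r, hr, s, hs, hrs⟩ := IntermediateField.mem_adjoin_iff_div.mp hf
  by_cases hs0 : s = 0
  · refine ⟨0, 1, one_ne_zero, ?_⟩
    apply Subtype.ext
    rw [map_zero, zero_div, hrs, hs0, div_zero]
    rfl
  · refine ⟨⟨r, hr⟩, ⟨s, hs⟩, fun h => hs0 (congrArg Subtype.val h), ?_⟩
    apply Subtype.ext
    rw [hrs]
    rfl

section Lift

variable (N : ℕ) [NeZero N]

/-- `FBar N` as an algebra over the generated algebra (local to this file's constructions). -/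
@[reducible] def algebraGenAlg : Algebra (genAlg N) (FBar N) :=
  (incl N).toRingHom.toAlgebra

theorem isFractionRing_genAlg :
    @IsFractionRing (genAlg N) _ (FBar N) _ (algebraGenAlg N) := by
  letI := algebraGenAlg N
  haveI : FaithfulSMul (genAlg N) (FBar N) :=
    (faithfulSMul_iff_algebraMap_injective _ _).mpr (incl_injective N)
  refine IsFractionRing.of_field _ _ fun z => ?_
  obtain ⟨a, b, _, h⟩ := exists_div N z
  exact ⟨a, b, h⟩

theorem isScalarTower_genAlg :
    @IsScalarTower Kbar (genAlg N) (FBar N) _ (algebraGenAlg N).toSMul _ := by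
  letI := algebraGenAlg N
  refine IsScalarTower.of_algebraMap_eq fun c => ?_
  exact ((incl N).commutes c).symm

/-- Two `Kbar`-algebra maps out of `FBar N` into a field which agree on the generated algebra
are equal. -/
theorem algHom_ext_incl {L : Type*} [Field L] [Algebra Kbar L] (σ σ' : FBar N →ₐ[Kbar] L)
    (h : ∀ a, σ (incl N a) = σ' (incl N a)) : σ = σ' := by
  refine AlgHom.ext fun f => ?_
  obtain ⟨a, b, _, rfl⟩ := exists_div N f
  rw [map_div₀, map_div₀, h a, h b]

/-- An injective `Kbar`-algebra map from the generated algebra into a field extends uniquely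
to the function field. -/
theorem exists_unique_lift {L : Type*} [Field L] [Algebra Kbar L] (φ : genAlg N →ₐ[Kbar] L)
    (hφ : Function.Injective φ) : ∃! σ : FBar N →ₐ[Kbar] L, ∀ a, σ (incl N a) = φ a := by
  letI := algebraGenAlg N
  haveI := isFractionRing_genAlg N
  haveI := isScalarTower_genAlg N
  refine ⟨IsFractionRing.liftAlgHom (K := FBar N) hφ, fun a => ?_, fun σ' hσ' => ?_⟩
  · rw [IsFractionRing.liftAlgHom_apply]
    exact IsFractionRing.lift_algebraMap hφ a
  · refine algHom_ext_incl N σ' _ fun a => ?_
    rw [hσ' a, IsFractionRing.liftAlgHom_apply]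
    exact (IsFractionRing.lift_algebraMap hφ a).symm

end Lift

/-- `jBar N` is the image of the generator `J_1`. -/
theorem jBar_eq (N : ℕ) [NeZero N] :
    jBar N = incl N ⟨genJ 1, genJ_mem_genAlg (one_dvd N)⟩ := by
  apply Subtype.ext
  rw [coe_incl]
  show coeffEmb Kbar jq = genJ 1
  rw [genJ_eq, qExpand_one_apply]

/-- The image of the generator `J_d` in `FBar N` has underlying series `J_d`. -/
theorem coe_incl_genJ (N : ℕ) [NeZero N] {d : ℕ} (hd : d ∣ N) :
    ((incl N ⟨genJ d, genJ_mem_genAlg hd⟩ : FBar N) : LaurentSeries Kbar) = genJ d := rfl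

end Fermat.Agent.S24.FieldGen

end
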