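import Fermat.Agent.S24.Defs
import Fermat.Agent.S24.Exchange

/-!
# S24, piece B8.transc: `j` is transcendental over `ℚ̄` in the function field of `X₀(N)`

The `q`-expansion of `j` has a simple pole (`coeff (-1) = 1`), so `j` is not a constant; over an
algebraically closed field every non-constant element is transcendental.
-/

set_option autoImplicit false

namespace Fermat.Agent.S24.JTranscendental

open Fermat.Agent.S24 ModularCurve

/-- The underlying Laurent series of `jBar N`. -/
theorem coe_jBar (N : ℕ) [NeZero N] :
    ((jBar N : FBar N) : LaurentSeries Kbar) = coeffEmb Kbar jq := rfl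

/-- The coefficient of `q⁻¹` in `jBar N` is `1`. -/
theorem coeff_jBar_neg_one (N : ℕ) [NeZero N] :
    ((jBar N : FBar N) : LaurentSeries Kbar).coeff (-1 : ℤ) = 1 := by
  rw [coe_jBar, coeffEmb_coeff, coeff_jq_neg_one, map_one]

/-- `jBar N` has no terms below `q⁻¹`. -/
theorem coeff_jBar_of_lt (N : ℕ) [NeZero N] {k : ℤ} (hk : k < -1) :
    ((jBar N : FBar N) : LaurentSeries Kbar).coeff k = 0 := by
  rw [coe_jBar, coeffEmb_coeff, coeff_jq_of_lt hk, map_zero]

/-- The order of the `q`-expansion of `jBar N` is `-1`. -/
theorem order_jBar (N : ℕ) [NeZero N] :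
    ((jBar N : FBar N) : LaurentSeries Kbar).order = -1 := by
  have hne : ((jBar N : FBar N) : LaurentSeries Kbar) ≠ 0 := by
    intro h
    have := coeff_jBar_neg_one N
    rw [h] at this
    simp at this
  apply le_antisymm
  · apply HahnSeries.order_le_of_coeff_ne_zero
    rw [coeff_jBar_neg_one]
    exact one_ne_zero
  · by_contra hlt
    rw [not_le] at hlt
    have h0 := coeff_jBar_of_lt N hlt
    exact (HahnSeries.coeff_order_eq_zero.not.mpr hne) h0

theorem jBar_ne_zero (N : ℕ) [NeZero N] : jBar N ≠ 0 := by
  intro h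
  have := coeff_jBar_neg_one N
  rw [h] at this
  simp at this

/-- `jBar N` is not a constant. -/
theorem jBar_not_mem_range (N : ℕ) [NeZero N] :
    jBar N ∉ Set.range (algebraMap Kbar (FBar N)) := by
  rintro ⟨c, hc⟩
  have h1 : ((jBar N : FBar N) : LaurentSeries Kbar) = algebraMap Kbar (LaurentSeries Kbar) c := by
    rw [← hc]
    rfl
  have h2 := coeff_jBar_neg_one N
  rw [h1, algebraMap_laurentSeries_eq_single, HahnSeries.coeff_single_of_ne (by norm_num)] at h2
  exact zero_ne_one h2

/-- **B8.transc.** `j` is transcendental over `ℚ̄`. -/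
theorem transcendental_jBar (N : ℕ) [NeZero N] : Transcendental Kbar (jBar N) :=
  (Exchange.transcendental_iff_not_mem_range (jBar N)).mpr (jBar_not_mem_range N)

end Fermat.Agent.S24.JTranscendental
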