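import Mathlib
import Fermat.Agent.S24.Defs
import Fermat.Agent.S24.FieldGen
import Fermat.Agent.S24.JTranscendental
import Fermat.Agent.S24.LevelOnePoly
import Fermat.Agent.S24.LevelOneUnit
import Fermat.Agent.S24.LevelForms
import Fermat.Agent.S24.DegreeDescent
import Fermat.Agent.S24.DegreeUpper
import Fermat.Agent.S24.DegreeEmb
import Fermat.Agent.S24.CombNumerics

/-!
# S24, piece B4: `[ℚ̄(X₀(N)) : ℚ̄(j)] = ψ(N)`

Inputs (hypotheses of the theorems below, supplied by the analytic block):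

* an evaluation hom `ev : genAlg N →ₐ[ℚ̄] (ℍ → ℂ)` with `ev (J_d) = j(d τ)`;
* an expansion datum at `i∞` of width one: a subalgebra `R` of functions containing the image of
  `ev`, and a `ℂ`-algebra hom `Λ : R → ℂ((q))` with `Λ (ev a) = a ⊗ ℂ` (the original `q`-series);
* for the lower bound: a family of `ψ(N)` pairwise distinct embeddings `FBar N → ℂ((u))` with the
  same value at `jBar N`.

Outputs: `finrank_le` (`FiniteDimensional` and `finrank ≤ ψ(N)`), `finrank_eq_of_family`.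
-/

set_option autoImplicit false

open ModularCurve UpperHalfPlane Polynomial IntermediateField
open scoped MatrixGroups

namespace Fermat.Agent.S24.Degree

open Fermat.Agent.S24.FieldGen

theorem polyInput : CosetPoly.PolyInput := fun r X => LevelOnePoly.exists_poly_jFun r X

theorem unitInput : CosetPoly.UnitInput := fun Y hY =>
  LevelOneUnit.eq_const_mul_discriminant_pow Y hY

/-- `(Γ₀(N) : SL₂(ℤ))` has index `ψ(N)`. -/
theorem index_Gamma0 (N : ℕ) [NeZero N] :
    (CongruenceSubgroup.Gamma0 N).index = ModularCurve.dedekindPsi N :=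
  Comb.card_X0 N

/-- Algebra homs commute with bivariate evaluation. -/
lemma map_aevalAeval {R A B : Type*} [CommSemiring R] [CommSemiring A] [CommSemiring B]
    [Algebra R A] [Algebra R B] (φ : A →ₐ[R] B) (x y : A) (P : Polynomial (Polynomial R)) :
    φ (aevalAeval x y P) = aevalAeval (φ x) (φ y) P := by
  have h := (aevalAevalEquiv R B).right_inv (φ.comp (aevalAeval x y))
  have h2 : φ.comp (aevalAeval x y) = aevalAeval (φ x) (φ y) := by
    rw [← h]
    show aevalAevalEquiv R B ⟨φ (aevalAeval x y (C X)), φ (aevalAeval x y X)⟩ = _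
    rw [aevalAeval_X, aevalAeval_Y]
  exact DFunLike.congr_fun h2 P

section Upper

variable [Algebra Kbar ℂ] (N : ℕ) [NeZero N]
  (ev : genAlg N →ₐ[Kbar] (ℍ → ℂ))
  (ev_gen : ∀ d (hd : d ∣ N), ev ⟨genJ d, genJ_mem_genAlg hd⟩ = jD d)

include ev_gen in
/-- The image of `ev` consists of polynomials in the functions `j(d τ)`, `d ∣ N`. -/
lemma ev_mem_adjoin (a : genAlg N) : ev a ∈ Algebra.adjoin ℂ (jD '' {d | d ∣ N}) := by
  have htop : Algebra.adjoin Kbar ((↑) ⁻¹' gens N : Set (genAlg N)) = ⊤ :=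
    Algebra.adjoin_adjoin_coe_preimage
  have ha : a ∈ Algebra.adjoin Kbar ((↑) ⁻¹' gens N : Set (genAlg N)) := by
    rw [htop]; trivial
  induction ha using Algebra.adjoin_induction with
  | mem x hx =>
    obtain ⟨d, hd, hdx⟩ := hx
    have hx' : x = ⟨genJ d, genJ_mem_genAlg hd⟩ := Subtype.ext hdx.symm
    rw [hx', ev_gen d hd]
    exact Algebra.subset_adjoin ⟨d, hd, rfl⟩
  | algebraMap c =>
    rw [AlgHom.commutes]
    have : algebraMap Kbar (ℍ → ℂ) c = algebraMap ℂ (ℍ → ℂ) (algebraMap Kbar ℂ c) := rfl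
    rw [this]
    exact Subalgebra.algebraMap_mem _ _
  | add x y _ _ hx hy => rw [map_add]; exact add_mem hx hy
  | mul x y _ _ hx hy => rw [map_mul]; exact mul_mem hx hy

variable (R : Subalgebra ℂ (ℍ → ℂ)) (Λ : R →ₐ[ℂ] LaurentSeries ℂ)
  (hR : ∀ a, ev a ∈ R)
  (hΛ : ∀ a, Λ ⟨ev a, hR a⟩ = coeffMap (algebraMap Kbar ℂ) (a : LaurentSeries Kbar))

include ev_gen hΛ in
/-- **HUB**: an analytic relation between `j` and `ev a` is a formal relation between their
`q`-expansions. -/
lemma formal_of_analytic (a : genAlg N) (P : Polynomial (Polynomial ℂ))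
    (hP : ∀ z : ℍ, P.evalEval (jFun z) (ev a z) = 0) :
    aevalAeval (coeffMap (algebraMap Kbar ℂ) (genJ 1))
      (coeffMap (algebraMap Kbar ℂ) (a : LaurentSeries Kbar)) P = 0 := by
  set j1 : genAlg N := ⟨genJ 1, genJ_mem_genAlg (one_dvd N)⟩ with hj1
  have hjev : ev j1 = jFun := by rw [hj1, ev_gen 1 (one_dvd N), jD_one]
  have h1 := hΛ j1
  have h2 := hΛ a
  rw [← h1, ← h2, ← map_aevalAeval]
  have hzero : aevalAeval (⟨ev j1, hR j1⟩ : R) ⟨ev a, hR a⟩ P = 0 := by
    apply Subtype.ext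
    funext z
    have h3 := map_aevalAeval ((Pi.evalAlgHom ℂ (fun _ : ℍ => ℂ) z).comp R.val)
      (⟨ev j1, hR j1⟩ : R) ⟨ev a, hR a⟩ P
    have h4 : ((Pi.evalAlgHom ℂ (fun _ : ℍ => ℂ) z).comp R.val)
        (aevalAeval (⟨ev j1, hR j1⟩ : R) ⟨ev a, hR a⟩ P) =
        (aevalAeval (⟨ev j1, hR j1⟩ : R) ⟨ev a, hR a⟩ P : R).1 z := rfl
    rw [← h4, h3]
    show aevalAeval (ev j1 z) (ev a z) P = 0
    rw [coe_aevalAeval_eq_evalEval, hjev]
    exact hP z
  rw [hzero, map_zero]

include ev_gen hΛ in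
/-- **Upper bound.** `FBar N` is finite over `ℚ̄(j)` of degree at most `ψ(N)`. -/
theorem finrank_le :
    FiniteDimensional Kbar⟮jBar N⟯ (FBar N) ∧
      Module.finrank Kbar⟮jBar N⟯ (FBar N) ≤ ModularCurve.dedekindPsi N := by
  have hj : ((jBar N : FBar N) : LaurentSeries Kbar) = genJ 1 := by
    rw [jBar_eq, coe_incl]
  refine DegreeUpper.finrank_le_of_bivariate (modularFunctionFieldBar N) (gens N)
    (modularFunctionFieldBar_eq_adjoin N) (jBar N) (JTranscendental.transcendental_jBar N)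
    ?_ _ ?_
  · rw [hj]
    exact genJ_mem_genAlg (one_dvd N)
  · intro a ha
    obtain ⟨P, hmonic, hdeg, hroot⟩ := LevelForms.exists_monic_of_mem_adjoin polyInput unitInput N
      (ev_mem_adjoin N ev ev_gen ⟨a, ha⟩)
    have h2 := formal_of_analytic N ev ev_gen R Λ hR hΛ ⟨a, ha⟩ P hroot
    obtain ⟨P', hP'0, hP'n, hP'⟩ := DegreeDescent.descent_bivariate (genJ 1) a
      (ModularCurve.dedekindPsi N) P hmonic.ne_zero (by rw [hdeg, index_Gamma0]) h2
    exact ⟨P', hP'0, hP'n, by rw [hj]; exact hP'⟩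

end Upper

section Lower

variable [Algebra Kbar ℂ] (N : ℕ) [NeZero N]

/-- **Degree.** Given the upper bound and `ψ(N)` distinct embeddings with the same value at `j`,
the degree is exactly `ψ(N)`. -/
theorem finrank_eq_of_family
    (hle : FiniteDimensional Kbar⟮jBar N⟯ (FBar N) ∧
      Module.finrank Kbar⟮jBar N⟯ (FBar N) ≤ ModularCurve.dedekindPsi N)
    {ι : Type*} [Fintype ι] (σ : ι → FBar N →ₐ[Kbar] LaurentSeries ℂ)
    (hσ : Function.Injective σ) (ξ : LaurentSeries ℂ) (hξ : ∀ i, σ i (jBar N) = ξ)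
    (hcard : Fintype.card ι = ModularCurve.dedekindPsi N) :
    Module.finrank Kbar⟮jBar N⟯ (FBar N) = ModularCurve.dedekindPsi N := by
  have := hle.1
  refine le_antisymm hle.2 ?_
  rw [← hcard]
  exact DegreeEmb.card_le_finrank_of_algHoms (jBar N) σ hσ ξ hξ

end Lower

end Fermat.Agent.S24.Degree
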