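import Mathlib
import Fermat.Prelude.Def_AlgebraicCurve_DivisorClassGroup

/-!
# Places of a function field versus height-one primes of a Dedekind subring (S24, piece A1.a)

`B` is a Dedekind domain with fraction field `F`, containing the constant field `K`.
* `ord_ofHeightOneSpectrum`: the Prelude order function of the place attached to a prime `P`
  is the `P`-adic valuation.
* `eq_ofHeightOneSpectrum_center`, `placeEquiv`: every place whose valuation ring contains `B`
  is attached to a unique height-one prime of `B` (its centre).
* `forall_mem_of_isIntegral`: valuation rings of places are integrally closed, so they contain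
  the integral closure of any subring they contain.
-/

set_option autoImplicit false

noncomputable section

namespace Fermat.Agent.S24.PlaceOfPrime

open AlgebraicCurve IsDedekindDomain WithZero

variable {K F : Type*} [Field K] [Field F] [Algebra K F]
variable {B : Type*} [CommRing B] [IsDedekindDomain B] [Algebra B F] [IsFractionRing B F]
variable [Algebra K B] [IsScalarTower K B F]

/-- Units of the valuation ring of `P` have `P`-adic valuation one. -/
theorem valuation_eq_one_of_isUnit (P : HeightOneSpectrum B)
    {x : (P.valuation F).valuationSubring} (hx : IsUnit x) :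
    P.valuation F (x : F) = 1 := by
  have h1 : P.valuation F (x : F) ≤ 1 := (Valuation.mem_valuationSubring_iff _ _).mp x.2
  have h2 : ¬ P.valuation F (x : F) < 1 := by
    rw [← Valuation.mem_maximalIdeal_iff]
    intro h
    exact (IsLocalRing.mem_maximalIdeal _).mp h hx
  exact le_antisymm h1 (not_lt.mp h2)

include K in
/-- Irreducible elements of the valuation ring of `P` have `P`-adic valuation `exp (-1)`. -/
theorem valuation_irreducible (P : HeightOneSpectrum B)
    {π : (P.valuation F).valuationSubring} (hπ : Irreducible π) :
    P.valuation F (π : F) = exp (-1 : ℤ) := by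
  set v : Place K F := Place.ofHeightOneSpectrum (K := K) P with hv
  obtain ⟨ϖ, hϖ⟩ := P.valuation_exists_uniformizer F
  have hϖ0 : ϖ ≠ 0 := by
    intro h
    rw [h, map_zero] at hϖ
    exact absurd hϖ.symm (by simp)
  obtain ⟨u, hu⟩ := v.exists_unit_mul_zpow hϖ0 (π := π) hπ
  have hπlt : P.valuation F (π : F) < 1 := by
    rw [← Valuation.mem_maximalIdeal_iff]
    exact (IsLocalRing.mem_maximalIdeal _).mpr hπ.not_isUnit
  have hπ0 : (π : F) ≠ 0 := by
    simpa [ne_eq, ZeroMemClass.coe_eq_zero] using hπ.ne_zero
  have hx0 : P.valuation F (π : F) ≠ 0 := (Valuation.ne_zero_iff _).mpr hπ0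
  have hval : P.valuation F ϖ = (P.valuation F (π : F)) ^ (v.ord ϖ) := by
    conv_lhs => rw [hu]
    rw [map_mul, map_zpow₀]
    have : P.valuation F ((u : v.toValuationSubring) : F) = 1 :=
      valuation_eq_one_of_isUnit P (x := (u : v.toValuationSubring)) u.isUnit
    rw [this, one_mul]
  rw [hϖ] at hval
  have hlog := congrArg WithZero.log hval
  rw [WithZero.log_exp, WithZero.log_zpow] at hlog
  have hneg : WithZero.log (P.valuation F (π : F)) < 0 := by
    have := (WithZero.log_lt_log hx0 one_ne_zero).mpr hπlt
    simpa using this
  have hunit : IsUnit (WithZero.log (P.valuation F (π : F))) := by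
    refine IsUnit.of_mul_eq_one (- v.ord ϖ) ?_
    simp only [smul_eq_mul] at hlog
    linarith
  rcases Int.isUnit_iff.mp hunit with h | h
  · omega
  · rw [← h, WithZero.exp_log hx0]

/-- **Bridge lemma.** The Prelude order function at the place attached to a height-one prime `P`
is the (additive) `P`-adic valuation. -/
theorem ord_ofHeightOneSpectrum (P : HeightOneSpectrum B) (f : F) :
    (Place.ofHeightOneSpectrum (K := K) P).ord f = -(WithZero.log (P.valuation F f)) := by
  rcases eq_or_ne f 0 with rfl | hf
  · simp
  set v : Place K F := Place.ofHeightOneSpectrum (K := K) P with hv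
  obtain ⟨π, hπ⟩ := IsDiscreteValuationRing.exists_irreducible v.toValuationSubring
  obtain ⟨u, hu⟩ := v.exists_unit_mul_zpow hf (π := π) hπ
  have h1 : P.valuation F ((u : v.toValuationSubring) : F) = 1 :=
    valuation_eq_one_of_isUnit P (x := (u : v.toValuationSubring)) u.isUnit
  have h2 : P.valuation F (π : F) = exp (-1 : ℤ) := valuation_irreducible (K := K) P hπ
  have hval : P.valuation F f = exp (-(v.ord f)) := by
    conv_lhs => rw [hu]
    rw [map_mul, map_zpow₀, h1, h2, one_mul, ← WithZero.exp_zsmul]
    simp
  rw [hval, WithZero.log_exp, neg_neg]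

/-- The `P`-adic valuation in terms of the Prelude order function. -/
theorem valuation_eq_exp_neg_ord (P : HeightOneSpectrum B) {f : F} (hf : f ≠ 0) :
    P.valuation F f = exp (-((Place.ofHeightOneSpectrum (K := K) P).ord f)) := by
  rw [ord_ofHeightOneSpectrum, neg_neg, WithZero.exp_log ((Valuation.ne_zero_iff _).mpr hf)]

/-- The ring homomorphism `B → O_v` for a place `v` whose valuation ring contains `B`. -/
def toValuationSubringHom (v : Place K F)
    (hv : ∀ b : B, algebraMap B F b ∈ v.toValuationSubring) : B →+* v.toValuationSubring :=
  (algebraMap B F).codRestrict v.toValuationSubring.toSubring hv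

omit [IsDedekindDomain B] [IsFractionRing B F] [Algebra K B] [IsScalarTower K B F] in
@[simp]
theorem coe_toValuationSubringHom (v : Place K F)
    (hv : ∀ b : B, algebraMap B F b ∈ v.toValuationSubring) (b : B) :
    ((toValuationSubringHom v hv b : v.toValuationSubring) : F) = algebraMap B F b := rfl

/-- The centre on `B` of a place `v` whose valuation ring contains `B`:
the prime `𝔪_v ∩ B`, which is nonzero because `O_v ≠ F`. -/
def center (v : Place K F) (hv : ∀ b : B, algebraMap B F b ∈ v.toValuationSubring) :
    HeightOneSpectrum B where
  asIdeal := (IsLocalRing.maximalIdeal v.toValuationSubring).comap (toValuationSubringHom v hv)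
  isPrime := Ideal.IsPrime.comap _
  ne_bot := by
    intro hbot
    apply v.ne_top'
    refine SetLike.ext fun x => ⟨fun _ => ValuationSubring.mem_top x, fun _ => ?_⟩
    obtain ⟨a, b, hb, rfl⟩ := IsFractionRing.div_surjective (A := B) x
    have hb0 : b ≠ 0 := nonZeroDivisors.ne_zero hb
    have hbnot : b ∉ (IsLocalRing.maximalIdeal v.toValuationSubring).comap
        (toValuationSubringHom v hv) := by
      rw [hbot]
      simpa using hb0
    have hunit : IsUnit (toValuationSubringHom v hv b) := by
      by_contra h
      exact hbnot ((IsLocalRing.mem_maximalIdeal _).mpr h)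
    obtain ⟨u, hu⟩ := hunit
    have hinv : (algebraMap B F b)⁻¹ = ((u⁻¹ : (v.toValuationSubring)ˣ) : v.toValuationSubring) := by
      have h1 : ((u : v.toValuationSubring) : F) = algebraMap B F b := by rw [hu]; rfl
      have h2 : ((u : v.toValuationSubring) : F) *
          (((u⁻¹ : (v.toValuationSubring)ˣ) : v.toValuationSubring) : F) = 1 :=
        congrArg Subtype.val u.mul_inv
      rw [← h1]
      exact inv_eq_of_mul_eq_one_right h2
    rw [div_eq_mul_inv, hinv]
    exact v.toValuationSubring.mul_mem _ _ (hv a) (SetLike.coe_mem _)

omit [Algebra K B] [IsScalarTower K B F] in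
theorem mem_center_iff (v : Place K F) (hv : ∀ b : B, algebraMap B F b ∈ v.toValuationSubring)
    (b : B) : b ∈ (center v hv).asIdeal ↔
      toValuationSubringHom v hv b ∈ IsLocalRing.maximalIdeal v.toValuationSubring := Iff.rfl

/-- A place whose valuation ring contains `B` is the place attached to its centre. -/
theorem eq_ofHeightOneSpectrum_center (v : Place K F)
    (hv : ∀ b : B, algebraMap B F b ∈ v.toValuationSubring) :
    v = Place.ofHeightOneSpectrum (K := K) (center v hv) := by
  symm
  apply Place.ext
  set P := center v hv with hP
  have hle : (Place.ofHeightOneSpectrum (K := K) P).toValuationSubring ≤ v.toValuationSubring := by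
    intro x hx
    rw [Place.ofHeightOneSpectrum_toValuationSubring, Valuation.mem_valuationSubring_iff] at hx
    obtain ⟨n, d, hnd⟩ := P.exists_primeCompl_mul_eq_of_integer x hx
    have hdnot : (d : B) ∉ P.asIdeal := d.2
    have hunit : IsUnit (toValuationSubringHom v hv d) := by
      by_contra h
      exact hdnot ((IsLocalRing.mem_maximalIdeal _).mpr h)
    obtain ⟨u, hu⟩ := hunit
    have h1 : ((u : v.toValuationSubring) : F) = algebraMap B F d := by rw [hu]; rfl
    have h2 : ((u : v.toValuationSubring) : F) *
        (((u⁻¹ : (v.toValuationSubring)ˣ) : v.toValuationSubring) : F) = 1 :=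
      congrArg Subtype.val u.mul_inv
    have hx' : x = algebraMap B F n *
        (((u⁻¹ : (v.toValuationSubring)ˣ) : v.toValuationSubring) : F) := by
      rw [← hnd, ← h1, mul_assoc, h2, mul_one]
    rw [hx']
    exact v.toValuationSubring.mul_mem _ _ (hv n) (SetLike.coe_mem _)
  exact ValuationSubring.eq_of_le_of_ne_top _ hle v.ne_top'

/-- The place attached to a height-one prime determines the prime. -/
theorem ofHeightOneSpectrum_injective :
    Function.Injective (Place.ofHeightOneSpectrum (K := K) (F := F) (R := B)) := by
  intro P Q h
  have h' : (P.valuation F).valuationSubring = (Q.valuation F).valuationSubring :=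
    congrArg Place.toValuationSubring h
  exact HeightOneSpectrum.eq_of_valuation_isEquiv_valuation
    ((Valuation.isEquiv_iff_valuationSubring _ _).mpr h')

/-- The valuation ring of the place attached to `P` contains `B`. -/
theorem algebraMap_mem_ofHeightOneSpectrum (P : HeightOneSpectrum B) (b : B) :
    algebraMap B F b ∈ (Place.ofHeightOneSpectrum (K := K) P).toValuationSubring := by
  rw [Place.ofHeightOneSpectrum_toValuationSubring, Valuation.mem_valuationSubring_iff]
  exact P.valuation_le_one b

/-- The centre of the place attached to `P` is `P`. -/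
theorem center_ofHeightOneSpectrum (P : HeightOneSpectrum B) :
    center (Place.ofHeightOneSpectrum (K := K) (F := F) P)
      (algebraMap_mem_ofHeightOneSpectrum P) = P :=
  (ofHeightOneSpectrum_injective (K := K) (F := F) (eq_ofHeightOneSpectrum_center _ _)).symm

/-- Every place whose valuation ring contains `B` comes from a unique height-one prime. -/
theorem existsUnique_eq_ofHeightOneSpectrum (v : Place K F)
    (hv : ∀ b : B, algebraMap B F b ∈ v.toValuationSubring) :
    ∃! P : HeightOneSpectrum B, v = Place.ofHeightOneSpectrum (K := K) P :=
  ⟨center v hv, eq_ofHeightOneSpectrum_center v hv, fun _ hQ =>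
    ofHeightOneSpectrum_injective ((hQ.symm.trans (eq_ofHeightOneSpectrum_center v hv)))⟩

/-- Places whose valuation ring contains `B` correspond bijectively to height-one primes
of `B`. -/
def placeEquiv :
    {v : Place K F // ∀ b : B, algebraMap B F b ∈ v.toValuationSubring} ≃ HeightOneSpectrum B where
  toFun v := center v.1 v.2
  invFun P := ⟨Place.ofHeightOneSpectrum (K := K) P, algebraMap_mem_ofHeightOneSpectrum P⟩
  left_inv v := Subtype.ext (eq_ofHeightOneSpectrum_center v.1 v.2).symm
  right_inv P := center_ofHeightOneSpectrum P

/-- Elements of `B` have nonnegative order at the place attached to `P`. -/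
theorem ord_algebraMap_nonneg (P : HeightOneSpectrum B) (b : B) :
    0 ≤ (Place.ofHeightOneSpectrum (K := K) P).ord (algebraMap B F b) := by
  rw [ord_ofHeightOneSpectrum]
  rcases eq_or_ne b 0 with rfl | hb
  · simp
  have h0 : P.valuation F (algebraMap B F b) ≠ 0 :=
    (Valuation.ne_zero_iff _).mpr (by simpa using hb)
  have h1 : WithZero.log (P.valuation F (algebraMap B F b)) ≤ WithZero.log (1 : ℤᵐ⁰) :=
    (WithZero.log_le_log h0 one_ne_zero).mpr (P.valuation_le_one b)
  simp only [WithZero.log_one] at h1
  omega

/-- A nonzero element of `B` has positive order at the place attached to `P` iff it lies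
in `P`. -/
theorem ord_algebraMap_pos_iff (P : HeightOneSpectrum B) {b : B} (hb : b ≠ 0) :
    0 < (Place.ofHeightOneSpectrum (K := K) P).ord (algebraMap B F b) ↔ b ∈ P.asIdeal := by
  rw [ord_ofHeightOneSpectrum, ← P.valuation_lt_one_iff_mem (K := F)]
  have h0 : P.valuation F (algebraMap B F b) ≠ 0 :=
    (Valuation.ne_zero_iff _).mpr (by simpa using hb)
  rw [← WithZero.log_lt_log h0 one_ne_zero, WithZero.log_one]
  omega

/-- The order of a nonzero element of `B` at the place attached to `P` is the multiplicity
of `P` in the principal ideal it generates. -/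
theorem ord_algebraMap_eq_multiplicity (P : HeightOneSpectrum B) {b : B} (hb : b ≠ 0) :
    (Place.ofHeightOneSpectrum (K := K) P).ord (algebraMap B F b) =
      (multiplicity P.asIdeal (Ideal.span {b}) : ℤ) := by
  rw [ord_ofHeightOneSpectrum, HeightOneSpectrum.valuation_of_algebraMap,
    P.intValuation_eq_exp_neg_multiplicity hb, WithZero.log_exp, neg_neg]

/-- For a place `v` whose valuation ring contains `B` and `b ≠ 0` in `B`:
`b` lies in the centre of `v` iff `b` has positive order at `v`. -/
theorem mem_center_iff_ord_pos (v : Place K F)
    (hv : ∀ b : B, algebraMap B F b ∈ v.toValuationSubring) {b : B} (hb : b ≠ 0) :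
    b ∈ (center v hv).asIdeal ↔ 0 < v.ord (algebraMap B F b) := by
  have h : v.ord (algebraMap B F b) =
      (Place.ofHeightOneSpectrum (K := K) (center v hv)).ord (algebraMap B F b) :=
    congrArg (fun w : Place K F => w.ord (algebraMap B F b)) (eq_ofHeightOneSpectrum_center v hv)
  rw [h, ord_algebraMap_pos_iff (K := K) (center v hv) hb]

/-- The order at `v` of a nonzero element of `B` is the multiplicity of the centre of `v`
in the principal ideal it generates. -/
theorem ord_algebraMap_eq_multiplicity_center (v : Place K F)
    (hv : ∀ b : B, algebraMap B F b ∈ v.toValuationSubring) {b : B} (hb : b ≠ 0) :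
    v.ord (algebraMap B F b) = (multiplicity (center v hv).asIdeal (Ideal.span {b}) : ℤ) := by
  have h : v.ord (algebraMap B F b) =
      (Place.ofHeightOneSpectrum (K := K) (center v hv)).ord (algebraMap B F b) :=
    congrArg (fun w : Place K F => w.ord (algebraMap B F b)) (eq_ofHeightOneSpectrum_center v hv)
  rw [h, ord_algebraMap_eq_multiplicity (K := K) (center v hv) hb]

omit [IsDedekindDomain B] [IsFractionRing B F] [Algebra K B] [IsScalarTower K B F] in
/-- Valuation rings of places are integrally closed in `F`: if `O_v` contains the image of a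
ring `R` and `B` is integral over `R`, then `O_v` contains the image of `B`. -/
theorem forall_mem_of_isIntegral (v : Place K F) {R : Type*} [CommRing R] [Algebra R B]
    [Algebra R F] [IsScalarTower R B F] [Algebra.IsIntegral R B]
    (hR : ∀ r : R, algebraMap R F r ∈ v.toValuationSubring) (b : B) :
    algebraMap B F b ∈ v.toValuationSubring := by
  obtain ⟨p, hpm, hp⟩ := Algebra.IsIntegral.isIntegral (R := R) b
  let φ : R →+* v.toValuationSubring :=
    (algebraMap R F).codRestrict v.toValuationSubring.toSubring hR
  have hint : IsIntegral v.toValuationSubring (algebraMap B F b) := by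
    refine ⟨p.map φ, hpm.map φ, ?_⟩
    rw [Polynomial.eval₂_map]
    have hcomp : (algebraMap v.toValuationSubring F).comp φ = algebraMap R F := by
      ext r; rfl
    rw [hcomp, IsScalarTower.algebraMap_eq R B F, ← Polynomial.hom_eval₂, hp, map_zero]
  obtain ⟨y, hy⟩ := (IsIntegrallyClosed.isIntegral_iff (R := v.toValuationSubring) (K := F)).mp hint
  rw [← hy]
  exact y.2

end Fermat.Agent.S24.PlaceOfPrime
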