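/-
S24, piece A1.f: inertia degree one over an algebraically closed constant field.

If `K` is algebraically closed, `R` is a `K`-algebra, `p` a maximal ideal of `R` with residue
field `K` (a `K`-rational point), `S` an integral `R`-algebra and `q` a prime of `S` over `p`,
then `S ⧸ q = R ⧸ p = K`; in particular the inertia degree is `1` (both Mathlib versions
`Ideal.inertiaDeg` and `Ideal.inertiaDeg'`).  Specialised to `R = K[X]`, `p = (X - a)`.
-/
import Mathlib

set_option autoImplicit false

namespace Fermat.Agent.S24.InertiaOne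

open Polynomial

section General

variable {K R S : Type*} [Field K] [IsAlgClosed K] [CommRing R] [CommRing S]
  [Algebra K R] [Algebra R S] [Algebra K S] [IsScalarTower K R S] [Algebra.IsIntegral R S]

/-- The residue field of a prime over a `K`-rational maximal ideal is again `K`. -/
theorem algebraMap_quotient_bijective (p : Ideal R) [p.IsMaximal]
    (hp : Function.Surjective (algebraMap K (R ⧸ p))) (q : Ideal S) [q.IsPrime] [q.LiesOver p] :
    Function.Bijective (algebraMap K (S ⧸ q)) := by
  have : q.IsMaximal := Ideal.IsMaximal.of_liesOver_isMaximal q p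
  let : Field (S ⧸ q) := Ideal.Quotient.field q
  have h1 : Algebra.IsIntegral K (R ⧸ p) := Algebra.isIntegral_of_surjective hp
  have h2 : Algebra.IsIntegral (R ⧸ p) (S ⧸ q) := inferInstance
  have h3 : Algebra.IsIntegral K (S ⧸ q) := Algebra.IsIntegral.trans (R ⧸ p)
  exact IsAlgClosed.algebraMap_bijective_of_isIntegral

theorem algebraMap_quotient_quotient_bijective (p : Ideal R) [p.IsMaximal]
    (hp : Function.Surjective (algebraMap K (R ⧸ p))) (q : Ideal S) [q.IsPrime] [q.LiesOver p] :
    Function.Bijective (algebraMap (R ⧸ p) (S ⧸ q)) := by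
  have : q.IsMaximal := Ideal.IsMaximal.of_liesOver_isMaximal q p
  let : Field (R ⧸ p) := Ideal.Quotient.field p
  let : Field (S ⧸ q) := Ideal.Quotient.field q
  refine ⟨(algebraMap (R ⧸ p) (S ⧸ q)).injective, fun y => ?_⟩
  obtain ⟨c, rfl⟩ := (algebraMap_quotient_bijective p hp q).2 y
  exact ⟨algebraMap K (R ⧸ p) c, (IsScalarTower.algebraMap_apply K (R ⧸ p) (S ⧸ q) c).symm⟩

theorem finrank_quotient_eq_one (p : Ideal R) [p.IsMaximal]
    (hp : Function.Surjective (algebraMap K (R ⧸ p))) (q : Ideal S) [q.IsPrime] [q.LiesOver p] :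
    Module.finrank (R ⧸ p) (S ⧸ q) = 1 := by
  have hb := algebraMap_quotient_quotient_bijective p hp q
  have e : (R ⧸ p) ≃ₗ[R ⧸ p] (S ⧸ q) :=
    LinearEquiv.ofBijective (Algebra.linearMap (R ⧸ p) (S ⧸ q)) hb
  have : Nontrivial (R ⧸ p) := Ideal.Quotient.nontrivial_iff.mpr (Ideal.IsMaximal.ne_top ‹_›)
  rw [← e.finrank_eq, Module.finrank_self]

/-- New-style inertia degree (`Ideal.inertiaDeg q R`). -/
theorem inertiaDeg_eq_one (p : Ideal R) [p.IsMaximal]
    (hp : Function.Surjective (algebraMap K (R ⧸ p))) (q : Ideal S) [q.IsPrime] [q.LiesOver p] :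
    q.inertiaDeg R = 1 := by
  have : q.IsMaximal := Ideal.IsMaximal.of_liesOver_isMaximal q p
  rw [Ideal.inertiaDeg_eq_of_isMaximal p q]
  exact finrank_quotient_eq_one p hp q

/-- Old-style inertia degree (`Ideal.inertiaDeg' p q`, used by `Ideal.sum_ramification_inertia`). -/
theorem inertiaDeg'_eq_one (p : Ideal R) [p.IsMaximal]
    (hp : Function.Surjective (algebraMap K (R ⧸ p))) (q : Ideal S) [q.IsPrime] [q.LiesOver p] :
    p.inertiaDeg' q = 1 := by
  rw [Ideal.inertiaDeg'_algebraMap]
  exact finrank_quotient_eq_one p hp q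

end General

section Poly

variable {K : Type*} [Field K]

theorem span_X_sub_C_isMaximal (a : K) : (Ideal.span {(X - C a : K[X])}).IsMaximal :=
  PrincipalIdealRing.isMaximal_of_irreducible (irreducible_X_sub_C a)

theorem span_X_sub_C_ne_bot (a : K) : Ideal.span {(X - C a : K[X])} ≠ ⊥ := by
  rw [Ne, Ideal.span_singleton_eq_bot]
  exact X_sub_C_ne_zero a

theorem algebraMap_quotient_span_X_sub_C_surjective (a : K) :
    Function.Surjective (algebraMap K (K[X] ⧸ Ideal.span {(X - C a : K[X])})) := by
  intro y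
  obtain ⟨f, rfl⟩ := Ideal.Quotient.mk_surjective y
  refine ⟨f.eval a, ?_⟩
  rw [IsScalarTower.algebraMap_apply K K[X] (K[X] ⧸ Ideal.span {(X - C a : K[X])}),
    Ideal.Quotient.algebraMap_eq, Polynomial.algebraMap_eq]
  symm
  rw [Ideal.Quotient.eq, Ideal.mem_span_singleton]
  exact X_sub_C_dvd_sub_C_eval

variable [IsAlgClosed K] {S : Type*} [CommRing S] [Algebra K[X] S] [Algebra K S]
  [IsScalarTower K K[X] S] [Algebra.IsIntegral K[X] S]

/-- **A1.f** (new-style): primes over `(X - a)` have inertia degree one. -/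
theorem inertiaDeg_X_sub_C (a : K) (q : Ideal S) [q.IsPrime]
    [q.LiesOver (Ideal.span {(X - C a : K[X])})] : q.inertiaDeg K[X] = 1 := by
  have := span_X_sub_C_isMaximal a
  exact inertiaDeg_eq_one _ (algebraMap_quotient_span_X_sub_C_surjective a) q

/-- **A1.f** (old-style). -/
theorem inertiaDeg'_X_sub_C (a : K) (q : Ideal S) [q.IsPrime]
    [q.LiesOver (Ideal.span {(X - C a : K[X])})] :
    (Ideal.span {(X - C a : K[X])}).inertiaDeg' q = 1 := by
  have := span_X_sub_C_isMaximal a
  exact inertiaDeg'_eq_one _ (algebraMap_quotient_span_X_sub_C_surjective a) q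

/-- The residue field at a prime over `(X - a)` is `K`. -/
theorem algebraMap_quotient_bijective_X_sub_C (a : K) (q : Ideal S) [q.IsPrime]
    [q.LiesOver (Ideal.span {(X - C a : K[X])})] :
    Function.Bijective (algebraMap K (S ⧸ q)) := by
  have := span_X_sub_C_isMaximal a
  exact algebraMap_quotient_bijective _ (algebraMap_quotient_span_X_sub_C_surjective a) q

end Poly

end Fermat.Agent.S24.InertiaOne
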