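import Mathlib
import Fermat.Agent.S24.Defs
import Fermat.Agent.S24.PlaceOfPrime
import Fermat.Agent.S24.InertiaOne
import Fermat.Agent.S24.PlaceDeg
import Fermat.Agent.S24.KaehlerGen

/-!
# S24 / A1: the zeros theorem (full proof)

For `K` algebraically closed of characteristic zero, `F / K` a field extension and `y : F`
transcendental over `K` with `F / K(y)` finite:

* `zeros_finite`  : the set of places `v` of `F / K` with `0 < ord_v y` is finite;
* `sum_ord_zeros` : `∑_{v, 0 < ord_v y} ord_v y = [F : K(y)]`.

Proof: `A = K[X] → F`, `X ↦ y`; `B` = integral closure of `A` in `F` is a Dedekind domain, finite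
over `A`, with fraction field `F`.  Places with `0 < ord_v y` correspond to the primes of `B` over
`(X)` (`PlaceOfPrime`), `ord_v y` is the ramification index, the inertia degree is one
(`InertiaOne`), and `∑ e f = [F : K(y)]` (`Ideal.sum_ramification_inertia`).
-/

set_option autoImplicit false
set_option linter.deprecated false
set_option linter.style.haveILetI false

open Polynomial IntermediateField AlgebraicCurve IsDedekindDomain

namespace Fermat.Agent.S24.ZerosBackup

section Setup

variable {K F : Type*} [Field K] [Field F] [Algebra K F]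

/-- The `K[X]`-algebra structure on `F` sending `X` to `y`. -/
@[reducible] noncomputable def polyAlgebra (y : F) : Algebra K[X] F :=
  (Polynomial.aeval y).toRingHom.toAlgebra

/-- The `K[X]`-algebra structure on `K(y)` sending `X` to `y`. -/
@[reducible] noncomputable def polyAlgebraAdjoin (y : F) : Algebra K[X] K⟮y⟯ :=
  (Polynomial.aeval (AdjoinSimple.gen K y)).toRingHom.toAlgebra

section

variable (y : F)

theorem algebraMap_poly_apply (p : K[X]) :
    letI := polyAlgebra (K := K) y
    algebraMap K[X] F p = Polynomial.aeval y p := rfl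

theorem algebraMap_polyAdjoin_apply (p : K[X]) :
    letI := polyAlgebraAdjoin (K := K) y
    algebraMap K[X] K⟮y⟯ p = Polynomial.aeval (AdjoinSimple.gen K y) p := rfl

theorem isScalarTower_poly :
    letI := polyAlgebra (K := K) y
    IsScalarTower K K[X] F := by
  letI := polyAlgebra (K := K) y
  refine IsScalarTower.of_algebraMap_eq fun c => ?_
  rw [algebraMap_poly_apply, Polynomial.algebraMap_apply, Polynomial.aeval_C]
  simp

theorem isScalarTower_polyAdjoin :
    letI := polyAlgebra (K := K) y
    letI := polyAlgebraAdjoin (K := K) y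
    IsScalarTower K[X] K⟮y⟯ F := by
  letI := polyAlgebra (K := K) y
  letI := polyAlgebraAdjoin (K := K) y
  refine IsScalarTower.of_algebraMap_eq fun p => ?_
  rw [algebraMap_poly_apply, algebraMap_polyAdjoin_apply, ← Polynomial.aeval_algebraMap_apply,
    AdjoinSimple.algebraMap_gen]

theorem isFractionRing_polyAdjoin (hy : Transcendental K y) :
    letI := polyAlgebraAdjoin (K := K) y
    IsFractionRing K[X] K⟮y⟯ := by
  letI := polyAlgebraAdjoin (K := K) y
  have hinj : Function.Injective (algebraMap K[X] K⟮y⟯) := by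
    intro p q hpq
    have h := congrArg (algebraMap K⟮y⟯ F) hpq
    rw [algebraMap_polyAdjoin_apply, algebraMap_polyAdjoin_apply,
      ← Polynomial.aeval_algebraMap_apply, ← Polynomial.aeval_algebraMap_apply,
      AdjoinSimple.algebraMap_gen] at h
    exact (transcendental_iff_injective.mp hy) h
  haveI : FaithfulSMul K[X] K⟮y⟯ := (faithfulSMul_iff_algebraMap_injective _ _).mpr hinj
  refine IsFractionRing.of_field K[X] K⟮y⟯ fun z => ?_
  obtain ⟨r, s, hrs⟩ := (IntermediateField.mem_adjoin_simple_iff K (z : F)).mp z.2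
  refine ⟨r, s, ?_⟩
  apply Subtype.ext
  rw [hrs, algebraMap_polyAdjoin_apply, algebraMap_polyAdjoin_apply]
  push_cast
  rw [← IntermediateField.algebraMap_apply, ← IntermediateField.algebraMap_apply,
    ← Polynomial.aeval_algebraMap_apply, ← Polynomial.aeval_algebraMap_apply,
    AdjoinSimple.algebraMap_gen]

end

end Setup

section Generic

variable {K F : Type*} [Field K] [Field F] [Algebra K F]
variable [Algebra K[X] F] [IsScalarTower K K[X] F]

omit [IsScalarTower K K[X] F] in
theorem algebraMap_eq_aeval [IsScalarTower K K[X] F] (y : F) (hy : algebraMap K[X] F X = y)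
    (r : K[X]) : algebraMap K[X] F r = Polynomial.aeval y r := by
  have : (algebraMap K[X] F) = ((Polynomial.aeval y : K[X] →ₐ[K] F) : K[X] →+* F) := by
    refine Polynomial.ringHom_ext (fun c => ?_) ?_
    · rw [← Polynomial.algebraMap_eq, ← IsScalarTower.algebraMap_apply K K[X] F]
      simp
    · simpa using hy
  rw [this]; rfl

theorem algebraMap_poly_mem (v : Place K F) (y : F) (hy : algebraMap K[X] F X = y)
    (hyv : y ∈ v.toValuationSubring) (r : K[X]) :
    algebraMap K[X] F r ∈ v.toValuationSubring := by
  rw [algebraMap_eq_aeval y hy r, ← KaehlerGen.mem_placeSubalgebra]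
  have h1 : Polynomial.aeval y r ∈ Algebra.adjoin K {y} := Polynomial.aeval_mem_adjoin_singleton _ _
  have h2 : Algebra.adjoin K {y} ≤ KaehlerGen.placeSubalgebra v :=
    Algebra.adjoin_le (Set.singleton_subset_iff.mpr hyv)
  exact h2 h1

end Generic

section Generic

variable {K F : Type*} [Field K] [Field F] [Algebra K F] [IsAlgClosed K]
variable [Algebra K[X] F] [IsScalarTower K K[X] F]
variable (Kf : Type*) [Field Kf] [Algebra K[X] Kf] [IsFractionRing K[X] Kf] [Algebra Kf F]
  [IsScalarTower K[X] Kf F] [FiniteDimensional Kf F] [Algebra.IsSeparable Kf F]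

theorem zeros_generic (y : F) (hy : algebraMap K[X] F X = y) :
    {v : Place K F | 0 < v.ord y}.Finite ∧
      ∑ᶠ v ∈ {v : Place K F | 0 < v.ord y}, v.ord y = (Module.finrank Kf F : ℤ) := by
  classical
  let B := integralClosure K[X] F
  haveI : IsDedekindDomain B := integralClosure.isDedekindDomain K[X] Kf F
  haveI : IsFractionRing B F := integralClosure.isFractionRing_of_finite_extension Kf F
  haveI : Module.Finite K[X] B := IsIntegralClosure.finite K[X] Kf F B
  haveI : IsScalarTower K B F := IsScalarTower.of_algebraMap_eq (fun c => rfl)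
  haveI : IsScalarTower K K[X] B := IsScalarTower.of_algebraMap_eq (fun c => by
    apply Subtype.ext
    exact IsScalarTower.algebraMap_apply K K[X] F c)
  haveI : Algebra.IsIntegral K[X] B := inferInstance
  haveI : Module.IsTorsionFree K[X] F := .trans_faithfulSMul K[X] Kf F
  haveI : Module.IsTorsionFree K[X] B := IsIntegralClosure.isTorsionFree K[X] F
  -- the prime `(X)` of `K[X]`
  let p : Ideal K[X] := Ideal.span {X - C (0 : K)}
  haveI hpmax : p.IsMaximal := InertiaOne.span_X_sub_C_isMaximal (0 : K)
  have hp0 : p ≠ ⊥ := InertiaOne.span_X_sub_C_ne_bot (0 : K)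
  have hXp : (X : K[X]) ∈ p := by
    have : (X : K[X]) = X - C (0 : K) := by simp
    rw [this]; exact Ideal.subset_span rfl
  -- the element `y` of `B`
  let b : B := algebraMap K[X] B X
  have hbF : algebraMap B F b = y := by
    rw [← hy]; exact (IsScalarTower.algebraMap_apply K[X] B F X).symm
  have hinj : Function.Injective (algebraMap K[X] F) := by
    rw [IsScalarTower.algebraMap_eq K[X] Kf F]
    exact (algebraMap Kf F).injective.comp (IsFractionRing.injective K[X] Kf)
  have hy0 : y ≠ 0 := by
    rw [← hy]; exact (map_ne_zero_iff _ hinj).mpr X_ne_zero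
  have hb0 : b ≠ 0 := by
    intro h; apply hy0; rw [← hbF, h, map_zero]
  have hmap : Ideal.map (algebraMap K[X] B) p = Ideal.span {b} := by
    rw [Ideal.map_span, Set.image_singleton]
    simp [b]
  have hmap0 : Ideal.map (algebraMap K[X] B) p ≠ ⊥ := by
    rw [hmap]; simpa using hb0
  -- the sum formula
  have hsum := Ideal.sum_ramification_inertia B Kf F hp0
  -- the map places → primes
  have hB_of : ∀ v : Place K F, 0 < v.ord y → ∀ c : B, algebraMap B F c ∈ v.toValuationSubring := by
    intro v hv
    have hyv : y ∈ v.toValuationSubring :=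
      (mem_valuationSubring_iff_ord_nonneg v hy0).mpr hv.le
    exact PlaceOfPrime.forall_mem_of_isIntegral v (R := K[X]) (algebraMap_poly_mem v y hy hyv)
  let h : Place K F → Ideal B := fun v =>
    if hv : 0 < v.ord y then (PlaceOfPrime.center v (hB_of v hv)).asIdeal else ⊥
  have hh : ∀ v (hv : 0 < v.ord y), h v = (PlaceOfPrime.center v (hB_of v hv)).asIdeal := by
    intro v hv; simp only [h, dif_pos hv]
  have hbij : Set.BijOn h {v : Place K F | 0 < v.ord y} (IsDedekindDomain.primesOverFinset p B : Set (Ideal B)) := by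
    refine ⟨?_, ?_, ?_⟩
    · intro v hv
      have hv' : 0 < v.ord y := hv
      rw [Finset.mem_coe, IsDedekindDomain.mem_primesOverFinset_iff hp0 B, hh v hv']
      set Q := PlaceOfPrime.center v (hB_of v hv') with hQ
      refine ⟨Q.isPrime, ⟨?_⟩⟩
      have hbQ : b ∈ Q.asIdeal := by
        rw [hQ, PlaceOfPrime.mem_center_iff_ord_pos v (hB_of v hv') hb0, hbF]; exact hv'
      have hle : p ≤ Q.asIdeal.under K[X] := by
        rw [Ideal.span_le, Set.singleton_subset_iff]
        show algebraMap K[X] B (X - C 0) ∈ Q.asIdeal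
        simpa using hbQ
      have hne : Q.asIdeal.under K[X] ≠ ⊤ := (Ideal.IsPrime.under K[X] Q.asIdeal).ne_top
      exact hpmax.eq_of_le hne hle
    · intro v hv w hw hvw
      have hv' : 0 < v.ord y := hv
      have hw' : 0 < w.ord y := hw
      rw [hh v hv', hh w hw'] at hvw
      have hc : PlaceOfPrime.center v (hB_of v hv') = PlaceOfPrime.center w (hB_of w hw') :=
        HeightOneSpectrum.ext hvw
      rw [PlaceOfPrime.eq_ofHeightOneSpectrum_center v (hB_of v hv'),
        PlaceOfPrime.eq_ofHeightOneSpectrum_center w (hB_of w hw'), hc]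
    · intro P hP
      rw [Finset.mem_coe, IsDedekindDomain.mem_primesOverFinset_iff hp0 B] at hP
      obtain ⟨hPprime, hPover⟩ := hP
      have hPne : P ≠ ⊥ := Ideal.ne_bot_of_liesOver_of_ne_bot hp0 P
      let Q : HeightOneSpectrum B := ⟨P, hPprime, hPne⟩
      let v : Place K F := Place.ofHeightOneSpectrum (K := K) Q
      have hbP : b ∈ Q.asIdeal := by
        have h1 : (X : K[X]) ∈ P.under K[X] := by rw [← hPover.over]; exact hXp
        exact h1
      have hv : 0 < v.ord y := by
        rw [← hbF]; exact (PlaceOfPrime.ord_algebraMap_pos_iff (K := K) Q hb0).mpr hbP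
      refine ⟨v, hv, ?_⟩
      rw [hh v hv]
      have := PlaceOfPrime.center_ofHeightOneSpectrum (K := K) (F := F) Q
      exact congrArg HeightOneSpectrum.asIdeal this
  have hval : ∀ v ∈ {v : Place K F | 0 < v.ord y},
      v.ord y = ((Ideal.ramificationIdx' p (h v) * Ideal.inertiaDeg' p (h v) : ℕ) : ℤ) := by
    intro v hv
    have hv' : 0 < v.ord y := hv
    have hmem := hbij.mapsTo hv
    rw [Finset.mem_coe, IsDedekindDomain.mem_primesOverFinset_iff hp0 B] at hmem
    obtain ⟨hPprime, hPover⟩ := hmem
    rw [InertiaOne.inertiaDeg'_X_sub_C (0 : K) (h v), mul_one,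
      Ideal.IsDedekindDomain.ramificationIdx'_eq_multiplicity hmap0 hPprime, hmap, hh v hv',
      ← PlaceOfPrime.ord_algebraMap_eq_multiplicity_center v (hB_of v hv') hb0, hbF]
  refine ⟨?_, ?_⟩
  · exact (hbij.finite_iff_finite).mpr (Finset.finite_toSet _)
  · rw [finsum_mem_congr rfl hval, finsum_mem_eq_of_bijOn h hbij (g := fun P =>
      ((Ideal.ramificationIdx' p P * Ideal.inertiaDeg' p P : ℕ) : ℤ)) (fun v _ => rfl),
      finsum_mem_coe_finset, ← Nat.cast_sum, hsum]

end Generic

section Main

variable {K F : Type*} [Field K] [Field F] [Algebra K F] [IsAlgClosed K] [CharZero K]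

theorem zeros_finite_and_sum (y : F) (hy : Transcendental K y) [FiniteDimensional K⟮y⟯ F] :
    {v : Place K F | 0 < v.ord y}.Finite ∧
      ∑ᶠ v ∈ {v : Place K F | 0 < v.ord y}, v.ord y = (Module.finrank K⟮y⟯ F : ℤ) := by
  letI := polyAlgebra (K := K) y
  letI := polyAlgebraAdjoin (K := K) y
  haveI := isScalarTower_poly (K := K) y
  haveI := isScalarTower_polyAdjoin (K := K) y
  haveI := isFractionRing_polyAdjoin y hy
  haveI : Algebra.IsSeparable K⟮y⟯ F := inferInstance
  exact zeros_generic K⟮y⟯ y (by rw [algebraMap_poly_apply, Polynomial.aeval_X])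

/-- **Zeros theorem, finiteness**: a non-constant `y` has only finitely many zeros. -/
theorem zeros_finite (y : F) (hy : Transcendental K y) [FiniteDimensional K⟮y⟯ F] :
    {v : Place K F | 0 < v.ord y}.Finite :=
  (zeros_finite_and_sum y hy).1

/-- **Zeros theorem**: the zero divisor of a non-constant `y` has degree `[F : K(y)]`. -/
theorem sum_ord_zeros (y : F) (hy : Transcendental K y) [FiniteDimensional K⟮y⟯ F] :
    ∑ᶠ v ∈ {v : Place K F | 0 < v.ord y}, v.ord y = (Module.finrank K⟮y⟯ F : ℤ) :=
  (zeros_finite_and_sum y hy).2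

end Main

end Fermat.Agent.S24.ZerosBackup
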