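import Mathlib

/-!
# S24, piece II2.fin: Taylor expansion of a holomorphic function on `ℍ` in the disc coordinate

For `z0 : ℍ` the Cayley-type coordinate `u = (z - z0) / (z - conj z0)` identifies `ℍ` with the open
unit disc, `z0 ↦ 0`; the inverse is `discParam z0 u = (z0 - conj z0 * u) / (1 - u)`.
For `f : ℍ → ℂ` we define `discExp z0 f : PowerSeries ℂ`, the Taylor series at `u = 0` of
`u ↦ f (discParam z0 u)`, and prove that on holomorphic functions it is additive, multiplicative,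
injective, computes the analytic order at `z0`, and is equivariant for the stabiliser of `z0` in
`SL(2, ℤ)`, which acts on the disc coordinate by a rotation.
-/

set_option autoImplicit false

open UpperHalfPlane Complex Filter Topology
open scoped ComplexConjugate MatrixGroups Nat

namespace Fermat.Agent.S24.DiscExpansion

/-! ## Taylor series at `0` of a function `ℂ → ℂ` -/

/-- The Taylor series at `0`. -/
noncomputable def taylor0 (g : ℂ → ℂ) : PowerSeries ℂ :=
  PowerSeries.mk fun n => ((n ! : ℕ) : ℂ)⁻¹ * iteratedDeriv n g 0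

@[simp]
theorem coeff_taylor0 (g : ℂ → ℂ) (n : ℕ) :
    PowerSeries.coeff n (taylor0 g) = ((n ! : ℕ) : ℂ)⁻¹ * iteratedDeriv n g 0 := by
  simp [taylor0]

theorem taylor0_congr {f g : ℂ → ℂ} (h : f =ᶠ[𝓝 0] g) : taylor0 f = taylor0 g := by
  ext n
  simp only [coeff_taylor0]
  rw [(h.iteratedDeriv n).eq_of_nhds]

theorem taylor0_add {f g : ℂ → ℂ} (hf : AnalyticAt ℂ f 0) (hg : AnalyticAt ℂ g 0) :
    taylor0 (f + g) = taylor0 f + taylor0 g := by
  ext n
  simp [iteratedDeriv_add hf.contDiffAt hg.contDiffAt, mul_add]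

theorem taylor0_mul {f g : ℂ → ℂ} (hf : AnalyticAt ℂ f 0) (hg : AnalyticAt ℂ g 0) :
    taylor0 (f * g) = taylor0 f * taylor0 g := by
  ext n
  simp only [coeff_taylor0, iteratedDeriv_mul hf.contDiffAt hg.contDiffAt, Finset.mul_sum,
    PowerSeries.coeff_mul, Finset.Nat.sum_antidiagonal_eq_sum_range_succ_mk, Nat.succ_eq_add_one]
  refine Finset.sum_congr rfl fun i hi ↦ ?_
  rw [Nat.cast_choose _ (by grind)]
  field_simp [Nat.factorial_ne_zero]

theorem taylor0_const (c : ℂ) : taylor0 (fun _ => c) = PowerSeries.C c := by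
  ext n
  rcases n with _ | n
  · simp
  · simp [iteratedDeriv_const]

theorem taylor0_one : taylor0 (1 : ℂ → ℂ) = 1 := by
  have := taylor0_const 1
  rw [map_one] at this
  exact this

theorem taylor0_zero : taylor0 (0 : ℂ → ℂ) = 0 := by
  have := taylor0_const 0
  rw [map_zero] at this
  exact this

theorem taylor0_smul {f : ℂ → ℂ} (a : ℂ) : taylor0 (a • f) = a • taylor0 f := by
  ext m
  simp [iteratedDeriv_const_smul_field, mul_left_comm]

theorem taylor0_neg {f : ℂ → ℂ} : taylor0 (-f) = -taylor0 f := by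
  simpa using taylor0_smul (f := f) (-1)

theorem taylor0_sub {f g : ℂ → ℂ} (hf : AnalyticAt ℂ f 0) (hg : AnalyticAt ℂ g 0) :
    taylor0 (f - g) = taylor0 f - taylor0 g := by
  rw [sub_eq_add_neg, taylor0_add hf hg.neg, taylor0_neg, ← sub_eq_add_neg]

theorem taylor0_pow {f : ℂ → ℂ} (hf : AnalyticAt ℂ f 0) (n : ℕ) :
    taylor0 (f ^ n) = taylor0 f ^ n := by
  induction n with
  | zero => simpa using taylor0_one
  | succ n ih => rw [pow_succ, taylor0_mul (hf.pow n) hf, ih, pow_succ]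

/-- Unconditional chain rule for `x ↦ f (c * x)` and iterated derivatives. -/
theorem iteratedDeriv_comp_mul_left (n : ℕ) (f : ℂ → ℂ) (c : ℂ) :
    iteratedDeriv n (fun x => f (c * x)) = fun x => c ^ n * iteratedDeriv n f (c * x) := by
  induction n with
  | zero => simp
  | succ n ih =>
    funext x
    rw [iteratedDeriv_succ, ih, deriv_const_mul_field, deriv_comp_mul_left, iteratedDeriv_succ,
      smul_eq_mul]
    ring

theorem taylor0_comp_mul_left (g : ℂ → ℂ) (ζ : ℂ) :
    taylor0 (fun u => g (ζ * u)) = PowerSeries.rescale ζ (taylor0 g) := by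
  ext n
  simp only [coeff_taylor0, PowerSeries.coeff_rescale, iteratedDeriv_comp_mul_left, mul_zero]
  ring

theorem order_taylor0 {f : ℂ → ℂ} (hf : AnalyticAt ℂ f 0) :
    (taylor0 f).order = analyticOrderAt f 0 := by
  refine ENat.eq_of_forall_natCast_le_iff fun n => ?_
  rw [natCast_le_analyticOrderAt_iff_iteratedDeriv_eq_zero hf]
  constructor
  · intro h i hi
    have := PowerSeries.coeff_of_lt_order (R := ℂ) i
      (lt_of_lt_of_le (by exact_mod_cast hi) h)
    rw [coeff_taylor0, mul_eq_zero] at this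
    rcases this with h1 | h1
    · exact absurd h1 (inv_ne_zero (Nat.cast_ne_zero.mpr i.factorial_ne_zero))
    · exact h1
  · intro h
    refine PowerSeries.nat_le_order _ n fun i hi => ?_
    rw [coeff_taylor0, h i hi, mul_zero]

theorem taylor0_eq_zero_iff {f : ℂ → ℂ} (hf : AnalyticAt ℂ f 0) :
    taylor0 f = 0 ↔ f =ᶠ[𝓝 0] 0 := by
  rw [← PowerSeries.order_eq_top, order_taylor0 hf, analyticOrderAt_eq_top]
  rfl


/-! ## The disc coordinate at a point of `ℍ` -/

/-- The inverse Cayley map `u ↦ (z0 - conj z0 * u) / (1 - u)`: it maps the open unit disc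
biholomorphically onto the upper half plane and `0` to `z0`. -/
noncomputable def discParam (z0 : ℍ) (u : ℂ) : ℂ :=
  ((z0 : ℂ) - conj (z0 : ℂ) * u) / (1 - u)

/-- The Cayley coordinate `z ↦ (z - z0) / (z - conj z0)` centred at `z0`. -/
noncomputable def discCoord (z0 : ℍ) (z : ℂ) : ℂ :=
  (z - z0) / (z - conj (z0 : ℂ))

@[simp]
theorem discParam_zero (z0 : ℍ) : discParam z0 0 = z0 := by
  simp [discParam]

@[simp]
theorem discCoord_self (z0 : ℍ) : discCoord z0 z0 = 0 := by
  simp [discCoord]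

theorem one_sub_ne_zero_of_norm_lt {u : ℂ} (hu : ‖u‖ < 1) : (1 : ℂ) - u ≠ 0 := by
  intro h
  have h1 : u = 1 := by linear_combination -h
  rw [h1] at hu
  simp at hu

theorem coe_sub_conj_ne_zero (z0 : ℍ) : (z0 : ℂ) - conj (z0 : ℂ) ≠ 0 := by
  intro h
  have h1 := congrArg Complex.im h
  simp only [Complex.sub_im, Complex.conj_im, Complex.zero_im, UpperHalfPlane.coe_im] at h1
  have := z0.im_pos
  linarith

theorem im_discParam (z0 : ℍ) (u : ℂ) :
    (discParam z0 u).im = z0.im * (1 - Complex.normSq u) / Complex.normSq (1 - u) := by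
  unfold discParam
  rw [Complex.div_im]
  simp only [Complex.sub_im, Complex.sub_re, Complex.mul_im, Complex.mul_re, Complex.conj_re,
    Complex.conj_im, Complex.one_re, Complex.one_im, UpperHalfPlane.coe_im, UpperHalfPlane.coe_re,
    Complex.normSq_apply]
  ring

theorem im_discParam_pos (z0 : ℍ) {u : ℂ} (hu : ‖u‖ < 1) : 0 < (discParam z0 u).im := by
  rw [im_discParam]
  have h1 : Complex.normSq u < 1 := by
    rw [Complex.normSq_eq_norm_sq]
    have h0 := norm_nonneg u
    nlinarith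
  have h2 : 0 < Complex.normSq (1 - u) :=
    Complex.normSq_pos.mpr (one_sub_ne_zero_of_norm_lt hu)
  have := z0.im_pos
  positivity

theorem discCoord_discParam (z0 : ℍ) {u : ℂ} (hu : (1 : ℂ) - u ≠ 0) :
    discCoord z0 (discParam z0 u) = u := by
  have h0 := coe_sub_conj_ne_zero z0
  unfold discCoord discParam
  have e1 : ((z0 : ℂ) - conj (z0 : ℂ) * u) / (1 - u) - z0 =
      u * ((z0 : ℂ) - conj (z0 : ℂ)) / (1 - u) := by
    field_simp
    ring
  have e2 : ((z0 : ℂ) - conj (z0 : ℂ) * u) / (1 - u) - conj (z0 : ℂ) =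
      ((z0 : ℂ) - conj (z0 : ℂ)) / (1 - u) := by
    field_simp
    ring
  rw [e1, e2, div_div_div_cancel_right₀ hu, mul_div_assoc, div_self h0, mul_one]

theorem discParam_discCoord (z0 : ℍ) {z : ℂ} (hz : z - conj (z0 : ℂ) ≠ 0) :
    discParam z0 (discCoord z0 z) = z := by
  have h0 := coe_sub_conj_ne_zero z0
  unfold discCoord discParam
  have e1 : (1 : ℂ) - (z - z0) / (z - conj (z0 : ℂ)) =
      ((z0 : ℂ) - conj (z0 : ℂ)) / (z - conj (z0 : ℂ)) := by
    field_simp
    ring
  have e2 : (z0 : ℂ) - conj (z0 : ℂ) * ((z - z0) / (z - conj (z0 : ℂ))) =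
      z * ((z0 : ℂ) - conj (z0 : ℂ)) / (z - conj (z0 : ℂ)) := by
    field_simp
    ring
  rw [e1, e2, div_div_div_cancel_right₀ hz, mul_div_assoc, div_self h0, mul_one]

theorem analyticAt_discParam (z0 : ℍ) {u : ℂ} (hu : (1 : ℂ) - u ≠ 0) :
    AnalyticAt ℂ (discParam z0) u := by
  unfold discParam
  exact AnalyticAt.div (by fun_prop) (by fun_prop) hu

theorem hasDerivAt_discParam_zero (z0 : ℍ) :
    HasDerivAt (discParam z0) ((z0 : ℂ) - conj (z0 : ℂ)) 0 := by
  have h1 : HasDerivAt (fun u : ℂ => (z0 : ℂ) - conj (z0 : ℂ) * u) (-(conj (z0 : ℂ))) 0 := by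
    simpa using ((hasDerivAt_id (0 : ℂ)).const_mul (conj (z0 : ℂ))).const_sub (z0 : ℂ)
  have h2 : HasDerivAt (fun u : ℂ => (1 : ℂ) - u) (-1) 0 := by
    simpa using (hasDerivAt_id (0 : ℂ)).const_sub 1
  have h3 := h1.div h2 (by simp)
  have e : ((z0 : ℂ) - conj (z0 : ℂ)) = (-(conj (z0 : ℂ)) * (1 - 0) -
      ((z0 : ℂ) - conj (z0 : ℂ) * 0) * -1) / (1 - 0) ^ 2 := by
    norm_num
    ring
  rw [e]
  exact h3

theorem deriv_discParam_zero_ne_zero (z0 : ℍ) : deriv (discParam z0) 0 ≠ 0 := by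
  rw [(hasDerivAt_discParam_zero z0).deriv]
  exact coe_sub_conj_ne_zero z0

/-! ## The expansion of a holomorphic function on `ℍ` at `z0` -/

/-- Pull back `f : ℍ → ℂ` to the disc coordinate at `z0`. -/
noncomputable def discPull (z0 : ℍ) (f : ℍ → ℂ) : ℂ → ℂ :=
  fun u => f (ofComplex (discParam z0 u))

/-- The Taylor expansion of `f : ℍ → ℂ` at `z0` in the disc coordinate
`u = (z - z0) / (z - conj z0)`. -/
noncomputable def discExp (z0 : ℍ) (f : ℍ → ℂ) : PowerSeries ℂ :=
  taylor0 (discPull z0 f)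

theorem discPull_eq_comp (z0 : ℍ) (f : ℍ → ℂ) :
    discPull z0 f = (f ∘ ofComplex) ∘ discParam z0 := rfl

theorem analyticAt_comp_ofComplex {f : ℍ → ℂ}
    (hf : DifferentiableOn ℂ (f ∘ ofComplex) upperHalfPlaneSet) (z0 : ℍ) :
    AnalyticAt ℂ (f ∘ ofComplex) (z0 : ℂ) :=
  hf.analyticAt (isOpen_upperHalfPlaneSet.mem_nhds z0.im_pos)

theorem analyticAt_discPull (z0 : ℍ) {f : ℍ → ℂ}
    (hf : DifferentiableOn ℂ (f ∘ ofComplex) upperHalfPlaneSet) :
    AnalyticAt ℂ (discPull z0 f) 0 := by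
  rw [discPull_eq_comp]
  refine AnalyticAt.comp ?_ (analyticAt_discParam z0 (by simp))
  rw [discParam_zero]
  exact analyticAt_comp_ofComplex hf z0

theorem discExp_add (z0 : ℍ) {f g : ℍ → ℂ}
    (hf : DifferentiableOn ℂ (f ∘ ofComplex) upperHalfPlaneSet)
    (hg : DifferentiableOn ℂ (g ∘ ofComplex) upperHalfPlaneSet) :
    discExp z0 (f + g) = discExp z0 f + discExp z0 g :=
  taylor0_add (analyticAt_discPull z0 hf) (analyticAt_discPull z0 hg)

theorem discExp_mul (z0 : ℍ) {f g : ℍ → ℂ}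
    (hf : DifferentiableOn ℂ (f ∘ ofComplex) upperHalfPlaneSet)
    (hg : DifferentiableOn ℂ (g ∘ ofComplex) upperHalfPlaneSet) :
    discExp z0 (f * g) = discExp z0 f * discExp z0 g :=
  taylor0_mul (analyticAt_discPull z0 hf) (analyticAt_discPull z0 hg)

theorem discExp_sub (z0 : ℍ) {f g : ℍ → ℂ}
    (hf : DifferentiableOn ℂ (f ∘ ofComplex) upperHalfPlaneSet)
    (hg : DifferentiableOn ℂ (g ∘ ofComplex) upperHalfPlaneSet) :
    discExp z0 (f - g) = discExp z0 f - discExp z0 g :=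
  taylor0_sub (analyticAt_discPull z0 hf) (analyticAt_discPull z0 hg)

theorem discExp_neg (z0 : ℍ) (f : ℍ → ℂ) : discExp z0 (-f) = -discExp z0 f :=
  taylor0_neg

theorem discExp_smul (z0 : ℍ) (a : ℂ) (f : ℍ → ℂ) : discExp z0 (a • f) = a • discExp z0 f :=
  taylor0_smul a

theorem discExp_const (z0 : ℍ) (c : ℂ) : discExp z0 (fun _ => c) = PowerSeries.C c :=
  taylor0_const c

theorem discExp_one (z0 : ℍ) : discExp z0 (1 : ℍ → ℂ) = 1 := taylor0_one

theorem discExp_zero (z0 : ℍ) : discExp z0 (0 : ℍ → ℂ) = 0 := taylor0_zero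

theorem discExp_pow (z0 : ℍ) {f : ℍ → ℂ}
    (hf : DifferentiableOn ℂ (f ∘ ofComplex) upperHalfPlaneSet) (n : ℕ) :
    discExp z0 (f ^ n) = discExp z0 f ^ n :=
  taylor0_pow (analyticAt_discPull z0 hf) n

theorem constantCoeff_discExp (z0 : ℍ) (f : ℍ → ℂ) :
    PowerSeries.constantCoeff (discExp z0 f) = f z0 := by
  rw [← PowerSeries.coeff_zero_eq_constantCoeff_apply, discExp, coeff_taylor0]
  simp [discPull]

/-- The order of the expansion is the analytic order of `f` at `z0`. -/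
theorem order_discExp (z0 : ℍ) {f : ℍ → ℂ}
    (hf : DifferentiableOn ℂ (f ∘ ofComplex) upperHalfPlaneSet) :
    (discExp z0 f).order = analyticOrderAt (f ∘ ofComplex) (z0 : ℂ) := by
  rw [discExp, order_taylor0 (analyticAt_discPull z0 hf), discPull_eq_comp,
    analyticOrderAt_comp_of_deriv_ne_zero (analyticAt_discParam z0 (by simp))
      (deriv_discParam_zero_ne_zero z0), discParam_zero]

theorem isPreconnected_upperHalfPlaneSet : IsPreconnected upperHalfPlaneSet :=
  (convex_halfSpace_im_gt 0).isPreconnected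

/-- The expansion map is injective on holomorphic functions. -/
theorem eq_zero_of_discExp_eq_zero (z0 : ℍ) {f : ℍ → ℂ}
    (hf : DifferentiableOn ℂ (f ∘ ofComplex) upperHalfPlaneSet) (h : discExp z0 f = 0) :
    f = 0 := by
  have h1 : analyticOrderAt (f ∘ ofComplex) (z0 : ℂ) = ⊤ := by
    rw [← order_discExp z0 hf, h, PowerSeries.order_zero]
  rw [analyticOrderAt_eq_top] at h1
  have h2 : AnalyticOnNhd ℂ (f ∘ ofComplex) upperHalfPlaneSet :=
    hf.analyticOnNhd isOpen_upperHalfPlaneSet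
  have h3 := h2.eqOn_zero_of_preconnected_of_eventuallyEq_zero isPreconnected_upperHalfPlaneSet
    (show (z0 : ℂ) ∈ upperHalfPlaneSet from z0.im_pos) h1
  funext z
  have := h3 (show (z : ℂ) ∈ upperHalfPlaneSet from z.im_pos)
  simpa [ofComplex_apply] using this

theorem discExp_injective (z0 : ℍ) {f g : ℍ → ℂ}
    (hf : DifferentiableOn ℂ (f ∘ ofComplex) upperHalfPlaneSet)
    (hg : DifferentiableOn ℂ (g ∘ ofComplex) upperHalfPlaneSet)
    (h : discExp z0 f = discExp z0 g) : f = g := by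
  have hfg : DifferentiableOn ℂ ((f - g) ∘ ofComplex) upperHalfPlaneSet := hf.sub hg
  have := eq_zero_of_discExp_eq_zero z0 hfg (by rw [discExp_sub z0 hf hg, h, sub_self])
  exact sub_eq_zero.mp this


/-! ## Equivariance under the stabiliser of `z0` in `SL(2, ℤ)` -/

/-- `c z + d` for the bottom row `(c, d)` of `γ`, as a function of a complex variable. -/
noncomputable def cd (γ : SL(2, ℤ)) (z : ℂ) : ℂ := ((γ 1 0 : ℤ) : ℂ) * z + ((γ 1 1 : ℤ) : ℂ)

/-- `a z + b` for the top row `(a, b)` of `γ`, as a function of a complex variable. -/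
noncomputable def ab (γ : SL(2, ℤ)) (z : ℂ) : ℂ := ((γ 0 0 : ℤ) : ℂ) * z + ((γ 0 1 : ℤ) : ℂ)

/-- The rotation factor by which `γ` (fixing `z0`) acts on the disc coordinate at `z0`. -/
noncomputable def rotFactor (γ : SL(2, ℤ)) (z0 : ℍ) : ℂ := cd γ (conj (z0 : ℂ)) / cd γ z0

theorem cd_conj (γ : SL(2, ℤ)) (z : ℂ) : cd γ (conj z) = conj (cd γ z) := by
  simp [cd, map_add, map_mul]

theorem ab_conj (γ : SL(2, ℤ)) (z : ℂ) : ab γ (conj z) = conj (ab γ z) := by
  simp [ab, map_add, map_mul]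

theorem cd_ne_zero (γ : SL(2, ℤ)) {z : ℂ} (hz : z.im ≠ 0) : cd γ z ≠ 0 := by
  intro h
  have him := congrArg Complex.im h
  have hre := congrArg Complex.re h
  simp only [cd, Complex.add_im, Complex.mul_im, Complex.intCast_re, Complex.intCast_im,
    zero_mul, add_zero, Complex.zero_im, Complex.add_re, Complex.mul_re, sub_zero,
    Complex.zero_re] at him hre
  have hc : ((γ 1 0 : ℤ) : ℝ) = 0 := by
    rcases mul_eq_zero.mp him with h1 | h1
    · exact h1
    · exact absurd h1 hz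
  have hd : ((γ 1 1 : ℤ) : ℝ) = 0 := by
    rw [hc] at hre
    simpa using hre
  have hc' : γ 1 0 = 0 := by exact_mod_cast hc
  have hd' : γ 1 1 = 0 := by exact_mod_cast hd
  have hdet := Matrix.SpecialLinearGroup.det_coe γ
  rw [Matrix.det_fin_two, hc', hd'] at hdet
  simp at hdet

theorem coe_smul_eq (γ : SL(2, ℤ)) (z : ℍ) : ((γ • z : ℍ) : ℂ) = ab γ z / cd γ z := by
  rw [coe_specialLinearGroup_apply]
  simp [ab, cd]

theorem norm_rotFactor (γ : SL(2, ℤ)) (z0 : ℍ) : ‖rotFactor γ z0‖ = 1 := by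
  have h0 : cd γ (z0 : ℂ) ≠ 0 := cd_ne_zero γ (by simpa using z0.im_pos.ne')
  rw [rotFactor, cd_conj, norm_div, Complex.norm_conj, div_self (norm_ne_zero_iff.mpr h0)]

theorem rotFactor_ne_zero (γ : SL(2, ℤ)) (z0 : ℍ) : rotFactor γ z0 ≠ 0 := by
  intro h
  have := norm_rotFactor γ z0
  rw [h, norm_zero] at this
  exact zero_ne_one this

/-- The fixed point equation `a z0 + b = z0 (c z0 + d)`. -/
theorem ab_eq_of_smul_eq (γ : SL(2, ℤ)) (z0 : ℍ) (h : γ • z0 = z0) :
    ab γ z0 = z0 * cd γ z0 := by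
  have h0 : cd γ (z0 : ℂ) ≠ 0 := cd_ne_zero γ (by simpa using z0.im_pos.ne')
  have h1 := coe_smul_eq γ z0
  rw [h] at h1
  rw [eq_div_iff h0] at h1
  exact h1.symm

theorem ab_conj_eq_of_smul_eq (γ : SL(2, ℤ)) (z0 : ℍ) (h : γ • z0 = z0) :
    ab γ (conj (z0 : ℂ)) = conj (z0 : ℂ) * cd γ (conj (z0 : ℂ)) := by
  rw [ab_conj, cd_conj, ab_eq_of_smul_eq γ z0 h, map_mul]

/-- The key algebraic identity: a Möbius transformation fixing `p` and `q` is a multiplication
in the coordinate `(z - p) / (z - q)`. -/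
theorem moebius_param_aux (a b c d p q u : ℂ) (h1 : a * p + b = p * (c * p + d))
    (h2 : a * q + b = q * (c * q + d)) (hP : c * p + d ≠ 0) (hu : 1 - u ≠ 0)
    (hD : (c * p + d) - (c * q + d) * u ≠ 0) :
    (a * ((p - q * u) / (1 - u)) + b) / (c * ((p - q * u) / (1 - u)) + d) =
      (p - q * ((c * q + d) / (c * p + d) * u)) / (1 - (c * q + d) / (c * p + d) * u) := by
  have e1 : a * ((p - q * u) / (1 - u)) + b =
      (p * (c * p + d) - q * (c * q + d) * u) / (1 - u) := by
    field_simp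
    linear_combination h1 - u * h2
  have e2 : c * ((p - q * u) / (1 - u)) + d = ((c * p + d) - (c * q + d) * u) / (1 - u) := by
    field_simp
    ring
  have e3 : 1 - (c * q + d) / (c * p + d) * u = ((c * p + d) - (c * q + d) * u) / (c * p + d) := by
    field_simp
  have e4 : p - q * ((c * q + d) / (c * p + d) * u) =
      (p * (c * p + d) - q * (c * q + d) * u) / (c * p + d) := by
    rw [eq_div_iff hP, sub_mul, mul_assoc q, div_mul_eq_mul_div, mul_assoc q,
      div_mul_cancel₀ _ hP]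
  rw [e1, e2, e3, e4, div_div_div_cancel_right₀ hu, div_div_div_cancel_right₀ hP]

theorem smul_ofComplex_discParam (γ : SL(2, ℤ)) (z0 : ℍ) (h : γ • z0 = z0) {u : ℂ}
    (hu : ‖u‖ < 1) :
    γ • ofComplex (discParam z0 u) = ofComplex (discParam z0 (rotFactor γ z0 * u)) := by
  have hu' : ‖rotFactor γ z0 * u‖ < 1 := by
    rw [norm_mul, norm_rotFactor, one_mul]; exact hu
  have him := im_discParam_pos z0 hu
  have him' := im_discParam_pos z0 hu'
  apply UpperHalfPlane.ext
  rw [coe_smul_eq, ofComplex_apply_of_im_pos him, ofComplex_apply_of_im_pos him']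
  have h0 : cd γ (z0 : ℂ) ≠ 0 := cd_ne_zero γ (by simpa using z0.im_pos.ne')
  have h1u := one_sub_ne_zero_of_norm_lt hu
  have h1u' := one_sub_ne_zero_of_norm_lt hu'
  have hD : cd γ (z0 : ℂ) - cd γ (conj (z0 : ℂ)) * u ≠ 0 := by
    intro hD
    apply h1u'
    rw [rotFactor, div_mul_eq_mul_div, sub_eq_zero, eq_div_iff h0, one_mul, ← sub_eq_zero]
    exact hD
  have := moebius_param_aux ((γ 0 0 : ℤ) : ℂ) ((γ 0 1 : ℤ) : ℂ) ((γ 1 0 : ℤ) : ℂ)
    ((γ 1 1 : ℤ) : ℂ) (z0 : ℂ) (conj (z0 : ℂ)) u (ab_eq_of_smul_eq γ z0 h)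
    (ab_conj_eq_of_smul_eq γ z0 h) h0 h1u hD
  exact this

/-- Equivariance: an element `γ` of the stabiliser of `z0` acts on expansions at `z0` through the
rotation `u ↦ ζ u` of the disc coordinate, `ζ = rotFactor γ z0`. -/
theorem discExp_comp_smul (γ : SL(2, ℤ)) (z0 : ℍ) (h : γ • z0 = z0) (f : ℍ → ℂ) :
    discExp z0 (fun z => f (γ • z)) = PowerSeries.rescale (rotFactor γ z0) (discExp z0 f) := by
  rw [discExp, discExp, ← taylor0_comp_mul_left]
  apply taylor0_congr
  filter_upwards [Metric.ball_mem_nhds (0 : ℂ) one_pos] with u hu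
  rw [mem_ball_zero_iff] at hu
  simp only [discPull]
  rw [smul_ofComplex_discParam γ z0 h hu]


/-! ## The rotation factors of `S` and `S * T` -/

theorem cd_S (z : ℂ) : cd ModularGroup.S z = z := by
  simp [cd, ModularGroup.S]

theorem ab_S (z : ℂ) : ab ModularGroup.S z = -1 := by
  simp [ab, ModularGroup.S]

theorem cd_ST (z : ℂ) : cd (ModularGroup.S * ModularGroup.T) z = z + 1 := by
  have e10 : (ModularGroup.S * ModularGroup.T) 1 0 = 1 := by decide
  have e11 : (ModularGroup.S * ModularGroup.T) 1 1 = 1 := by decide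
  simp [cd, e10, e11]

theorem ab_ST (z : ℂ) : ab (ModularGroup.S * ModularGroup.T) z = -1 := by
  have e00 : (ModularGroup.S * ModularGroup.T) 0 0 = 0 := by decide
  have e01 : (ModularGroup.S * ModularGroup.T) 0 1 = -1 := by decide
  simp [ab, e00, e01]

/-- A fixed point of `S` satisfies `z0 ^ 2 = -1`. -/
theorem sq_eq_of_S_smul_eq (z0 : ℍ) (h : ModularGroup.S • z0 = z0) : (z0 : ℂ) ^ 2 = -1 := by
  have := ab_eq_of_smul_eq _ z0 h
  rw [ab_S, cd_S] at this
  rw [sq, ← this]

/-- A fixed point of `S * T` satisfies `z0 ^ 2 + z0 + 1 = 0`. -/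
theorem quad_eq_of_ST_smul_eq (z0 : ℍ) (h : (ModularGroup.S * ModularGroup.T) • z0 = z0) :
    (z0 : ℂ) ^ 2 + z0 + 1 = 0 := by
  have := ab_eq_of_smul_eq _ z0 h
  rw [ab_ST, cd_ST] at this
  linear_combination -this

/-- At a fixed point of `S` (i.e. at `i`), `S` acts on the disc coordinate by `u ↦ -u`. -/
theorem rotFactor_S (z0 : ℍ) (h : ModularGroup.S • z0 = z0) :
    rotFactor ModularGroup.S z0 = -1 := by
  have h1 := sq_eq_of_S_smul_eq z0 h
  have h2 : conj (z0 : ℂ) ^ 2 = -1 := by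
    rw [← map_pow, h1]; simp
  have hz : (z0 : ℂ) ≠ 0 := by
    intro h0; rw [h0] at h1; norm_num at h1
  -- `conj z0 = z0` or `conj z0 = - z0`; the first is impossible
  have h3 : (conj (z0 : ℂ) - z0) * (conj (z0 : ℂ) + z0) = 0 := by
    linear_combination h2 - h1
  have h4 : conj (z0 : ℂ) - z0 ≠ 0 := by
    intro h'
    apply coe_sub_conj_ne_zero z0
    linear_combination -h'
  have h5 : conj (z0 : ℂ) + z0 = 0 := (mul_eq_zero.mp h3).resolve_left h4
  rw [rotFactor, cd_S, cd_S, div_eq_iff hz]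
  linear_combination h5

theorem isPrimitiveRoot_rotFactor_S (z0 : ℍ) (h : ModularGroup.S • z0 = z0) :
    IsPrimitiveRoot (rotFactor ModularGroup.S z0) 2 := by
  rw [rotFactor_S z0 h]
  exact IsPrimitiveRoot.neg_one 0 (by norm_num)

/-- At a fixed point of `S * T` (i.e. at `ρ`), `S * T` acts on the disc coordinate by a primitive
cube root of unity. -/
theorem isPrimitiveRoot_rotFactor_ST (z0 : ℍ)
    (h : (ModularGroup.S * ModularGroup.T) • z0 = z0) :
    IsPrimitiveRoot (rotFactor (ModularGroup.S * ModularGroup.T) z0) 3 := by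
  have h1 := quad_eq_of_ST_smul_eq z0 h
  have h2 : conj (z0 : ℂ) ^ 2 + conj (z0 : ℂ) + 1 = 0 := by
    have := congrArg conj h1
    simpa [map_add, map_pow] using this
  have hz : (z0 : ℂ) + 1 ≠ 0 := by
    intro h0
    have : (z0 : ℂ) = -1 := by linear_combination h0
    rw [this] at h1; norm_num at h1
  have hc1 : ((z0 : ℂ) + 1) ^ 3 = -1 := by
    linear_combination ((z0 : ℂ) + 2) * h1
  have hc2 : (conj (z0 : ℂ) + 1) ^ 3 = -1 := by
    linear_combination (conj (z0 : ℂ) + 2) * h2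
  have hζ3 : rotFactor (ModularGroup.S * ModularGroup.T) z0 ^ 3 = 1 := by
    rw [rotFactor, cd_ST, cd_ST, div_pow, hc1, hc2]
    norm_num
  have hζ1 : rotFactor (ModularGroup.S * ModularGroup.T) z0 ≠ 1 := by
    rw [rotFactor, cd_ST, cd_ST]
    intro h'
    rw [div_eq_iff hz, one_mul] at h'
    apply coe_sub_conj_ne_zero z0
    linear_combination -h'
  refine IsPrimitiveRoot.mk_of_lt _ (by norm_num) hζ3 ?_
  intro l hl0 hl3 hl
  interval_cases l
  · exact hζ1 (by simpa using hl)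
  · apply hζ1
    calc rotFactor (ModularGroup.S * ModularGroup.T) z0
        = rotFactor (ModularGroup.S * ModularGroup.T) z0 ^ 2 *
            rotFactor (ModularGroup.S * ModularGroup.T) z0 := by rw [hl, one_mul]
      _ = rotFactor (ModularGroup.S * ModularGroup.T) z0 ^ 3 := (pow_succ _ 2).symm
      _ = 1 := hζ3

end Fermat.Agent.S24.DiscExpansion
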