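/-
S24, piece II2a: Taylor expansion of a holomorphic function on `ℍ` at a point `z0 : ℍ` in the disc
coordinate `u = (τ - z0) / (τ - conj z0)`.  Owner: helper66.
-/
import Mathlib

set_option autoImplicit false

open UpperHalfPlane Complex Filter Topology
open scoped ComplexConjugate Manifold

namespace Fermat.Agent.S24.ExpandAt

noncomputable section

/-! ### Taylor series at `0` of a function `ℂ → ℂ` -/

/-- The Taylor series at `0`. -/
def taylor (g : ℂ → ℂ) : PowerSeries ℂ :=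
  PowerSeries.mk fun m => (m.factorial : ℂ)⁻¹ * iteratedDeriv m g 0

@[simp] lemma coeff_taylor (g : ℂ → ℂ) (m : ℕ) :
    PowerSeries.coeff m (taylor g) = (m.factorial : ℂ)⁻¹ * iteratedDeriv m g 0 := by
  simp [taylor]

lemma taylor_congr {g h : ℂ → ℂ} (hgh : g =ᶠ[𝓝 0] h) : taylor g = taylor h := by
  ext m
  simp only [coeff_taylor]
  rw [(hgh.iteratedDeriv m).eq_of_nhds]

lemma taylor_mul {g h : ℂ → ℂ} (hg : AnalyticAt ℂ g 0) (hh : AnalyticAt ℂ h 0) :
    taylor (g * h) = taylor g * taylor h := by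
  ext m
  simp only [coeff_taylor, iteratedDeriv_mul hg.contDiffAt hh.contDiffAt, Finset.mul_sum,
    PowerSeries.coeff_mul, Finset.Nat.sum_antidiagonal_eq_sum_range_succ_mk, Nat.succ_eq_add_one]
  refine Finset.sum_congr rfl fun i hi ↦ ?_
  rw [Nat.cast_choose _ (by grind)]
  field_simp [Nat.factorial_ne_zero]

lemma taylor_add {g h : ℂ → ℂ} (hg : AnalyticAt ℂ g 0) (hh : AnalyticAt ℂ h 0) :
    taylor (g + h) = taylor g + taylor h := by
  ext m
  simp [coeff_taylor, iteratedDeriv_add hg.contDiffAt hh.contDiffAt, mul_add]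

lemma taylor_const (c : ℂ) : taylor (fun _ => c) = PowerSeries.C c := by
  ext m
  rw [coeff_taylor, iteratedDeriv_const, PowerSeries.coeff_C]
  rcases m with _ | m <;> simp

lemma taylor_neg {g : ℂ → ℂ} : taylor (-g) = -taylor g := by
  ext m
  simp [coeff_taylor, iteratedDeriv_neg]

/-- The order of the Taylor series is the analytic order. -/
lemma order_taylor {g : ℂ → ℂ} (hg : AnalyticAt ℂ g 0) :
    (taylor g).order = analyticOrderAt g 0 := by
  refine ENat.eq_of_forall_natCast_le_iff fun n => ?_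
  rw [natCast_le_analyticOrderAt_iff_iteratedDeriv_eq_zero hg]
  constructor
  · intro h i hi
    have := PowerSeries.coeff_of_lt_order i (lt_of_lt_of_le (by exact_mod_cast hi) h)
    rw [coeff_taylor] at this
    simpa [Nat.factorial_ne_zero] using this
  · intro h
    refine PowerSeries.nat_le_order _ _ fun i hi => ?_
    rw [coeff_taylor, h i hi, mul_zero]

lemma taylor_eq_zero_iff {g : ℂ → ℂ} (hg : AnalyticAt ℂ g 0) :
    taylor g = 0 ↔ ∀ᶠ u in 𝓝 0, g u = 0 := by
  rw [← analyticOrderAt_eq_top, ← order_taylor hg, PowerSeries.order_eq_top]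

/-! ### Rotation of the variable -/

/-- Local chain rule for iterated derivatives under `v ↦ ζ * v` with `‖ζ‖ ≤ 1`, for a function
analytic on the unit ball. -/
lemma iteratedDeriv_comp_mul_of_analyticOnNhd {g : ℂ → ℂ}
    (hg : AnalyticOnNhd ℂ g (Metric.ball 0 1)) (ζ : ℂ) (hζ : ‖ζ‖ ≤ 1) (m : ℕ) :
    ∀ u ∈ Metric.ball (0 : ℂ) 1,
      iteratedDeriv m (fun v => g (ζ * v)) u = ζ ^ m * iteratedDeriv m g (ζ * u) := by
  have hmaps : ∀ u ∈ Metric.ball (0 : ℂ) 1, ζ * u ∈ Metric.ball (0 : ℂ) 1 := by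
    intro u hu
    rw [mem_ball_zero_iff] at hu ⊢
    calc ‖ζ * u‖ = ‖ζ‖ * ‖u‖ := norm_mul _ _
      _ ≤ 1 * ‖u‖ := by gcongr
      _ < 1 := by rwa [one_mul]
  induction m with
  | zero => intro u _; simp
  | succ m ih =>
    intro u hu
    rw [iteratedDeriv_succ, iteratedDeriv_succ]
    have hev : (iteratedDeriv m fun v => g (ζ * v)) =ᶠ[𝓝 u]
        fun v => ζ ^ m * iteratedDeriv m g (ζ * v) := by
      filter_upwards [Metric.isOpen_ball.mem_nhds hu] with v hv using ih v hv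
    rw [hev.deriv_eq]
    have hd : DifferentiableAt ℂ (iteratedDeriv m g) (ζ * u) := by
      rw [iteratedDeriv_eq_iterate]
      exact (AnalyticAt.iterated_deriv (hg (ζ * u) (hmaps u hu)) m).differentiableAt
    have h1 : HasDerivAt (fun v => iteratedDeriv m g (ζ * v))
        (deriv (iteratedDeriv m g) (ζ * u) * ζ) u := by
      have h2 : HasDerivAt (fun v : ℂ => ζ * v) ζ u := by
        simpa using (hasDerivAt_id u).const_mul ζ
      exact hd.hasDerivAt.comp u h2
    rw [(h1.const_mul (ζ ^ m)).deriv]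
    ring

lemma coeff_taylor_comp_mul {g : ℂ → ℂ} (hg : AnalyticOnNhd ℂ g (Metric.ball 0 1)) (ζ : ℂ)
    (hζ : ‖ζ‖ ≤ 1) (m : ℕ) :
    PowerSeries.coeff m (taylor fun v => g (ζ * v)) = ζ ^ m * PowerSeries.coeff m (taylor g) := by
  rw [coeff_taylor, coeff_taylor,
    iteratedDeriv_comp_mul_of_analyticOnNhd hg ζ hζ m 0 (Metric.mem_ball_self one_pos), mul_zero]
  ring

/-! ### The disc coordinate at `z0` -/

/-- The inverse of the disc coordinate `τ ↦ (τ - z0) / (τ - conj z0)`: a biholomorphic map from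
the unit disc onto the upper half plane with `0 ↦ z0`. -/
def disc (z0 : ℍ) (u : ℂ) : ℂ := ((z0 : ℂ) - conj (z0 : ℂ) * u) / (1 - u)

@[simp] lemma disc_zero (z0 : ℍ) : disc z0 0 = z0 := by simp [disc]

lemma one_sub_ne_zero_of_norm_lt {u : ℂ} (hu : ‖u‖ < 1) : (1 : ℂ) - u ≠ 0 := by
  intro h
  have : u = 1 := (sub_eq_zero.mp h).symm
  rw [this, norm_one] at hu
  exact lt_irrefl _ hu

lemma disc_im (z0 : ℍ) {u : ℂ} (hu : ‖u‖ < 1) :
    (disc z0 u).im = z0.im * (1 - normSq u) / normSq (1 - u) := by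
  have h1 : normSq (1 - u) ≠ 0 := by
    rw [Ne, normSq_eq_zero]
    exact one_sub_ne_zero_of_norm_lt hu
  rw [disc, div_im, eq_div_iff h1]
  have : normSq (1 - u) = (1 - u.re) * (1 - u.re) + u.im * u.im := by
    rw [normSq_apply]; simp
  field_simp
  simp only [sub_re, sub_im, mul_re, mul_im, conj_re, conj_im, one_re, one_im, coe_re, coe_im,
    normSq_apply]
  ring

lemma disc_im_pos (z0 : ℍ) {u : ℂ} (hu : ‖u‖ < 1) : 0 < (disc z0 u).im := by
  rw [disc_im z0 hu]
  have h1 : 0 < normSq (1 - u) := normSq_pos.mpr (one_sub_ne_zero_of_norm_lt hu)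
  have h2 : normSq u < 1 := by
    rw [normSq_eq_norm_sq]
    have := norm_nonneg u
    nlinarith
  have h3 := z0.im_pos
  positivity

lemma differentiableAt_disc (z0 : ℍ) {u : ℂ} (hu : ‖u‖ < 1) : DifferentiableAt ℂ (disc z0) u := by
  unfold disc
  have := one_sub_ne_zero_of_norm_lt hu
  fun_prop (disch := assumption)

lemma hasDerivAt_disc_zero (z0 : ℍ) :
    HasDerivAt (disc z0) ((z0 : ℂ) - conj (z0 : ℂ)) 0 := by
  have h1 : HasDerivAt (fun u : ℂ => (z0 : ℂ) - conj (z0 : ℂ) * u) (-(conj (z0 : ℂ))) 0 := by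
    simpa using ((hasDerivAt_id (0 : ℂ)).const_mul (conj (z0 : ℂ))).const_sub (z0 : ℂ)
  have h2 : HasDerivAt (fun u : ℂ => (1 : ℂ) - u) (-1) 0 := by
    simpa using (hasDerivAt_id (0 : ℂ)).const_sub (1 : ℂ)
  have h3 := h1.div h2 (by simp)
  have h4 : ((-(conj (z0 : ℂ)) * (1 - 0) - ((z0 : ℂ) - conj (z0 : ℂ) * 0) * -1) / (1 - 0) ^ 2 : ℂ)
      = (z0 : ℂ) - conj (z0 : ℂ) := by ring
  rw [h4] at h3
  exact h3

lemma deriv_disc_zero_ne_zero (z0 : ℍ) : deriv (disc z0) 0 ≠ 0 := by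
  rw [(hasDerivAt_disc_zero z0).deriv]
  intro h
  have h1 := congrArg Complex.im h
  simp only [sub_im, conj_im, coe_im, zero_im] at h1
  have := z0.im_pos
  linarith

/-- The pull-back of `f : ℍ → ℂ` to the unit disc. -/
def pull (z0 : ℍ) (f : ℍ → ℂ) (u : ℂ) : ℂ := f (ofComplex (disc z0 u))

lemma pull_zero (z0 : ℍ) (f : ℍ → ℂ) : pull z0 f 0 = f z0 := by
  simp [pull]

lemma pull_eq_comp (z0 : ℍ) (f : ℍ → ℂ) : pull z0 f = (f ∘ ofComplex) ∘ disc z0 := rfl

lemma differentiableOn_pull (z0 : ℍ) {f : ℍ → ℂ} (hf : MDiff f) :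
    DifferentiableOn ℂ (pull z0 f) (Metric.ball 0 1) := by
  rw [pull_eq_comp]
  refine (UpperHalfPlane.mdifferentiable_iff.mp hf).comp (fun u hu => ?_) (fun u hu => ?_)
  · exact (differentiableAt_disc z0 (mem_ball_zero_iff.mp hu)).differentiableWithinAt
  · exact disc_im_pos z0 (mem_ball_zero_iff.mp hu)

lemma analyticOnNhd_pull (z0 : ℍ) {f : ℍ → ℂ} (hf : MDiff f) :
    AnalyticOnNhd ℂ (pull z0 f) (Metric.ball 0 1) :=
  (differentiableOn_pull z0 hf).analyticOnNhd Metric.isOpen_ball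

lemma analyticAt_pull_zero (z0 : ℍ) {f : ℍ → ℂ} (hf : MDiff f) : AnalyticAt ℂ (pull z0 f) 0 :=
  analyticOnNhd_pull z0 hf 0 (Metric.mem_ball_self one_pos)

lemma analyticAt_disc_zero (z0 : ℍ) : AnalyticAt ℂ (disc z0) 0 := by
  have h : DifferentiableOn ℂ (disc z0) (Metric.ball 0 1) := fun u hu =>
    (differentiableAt_disc z0 (mem_ball_zero_iff.mp hu)).differentiableWithinAt
  exact h.analyticOnNhd Metric.isOpen_ball 0 (Metric.mem_ball_self one_pos)

/-! ### The expansion -/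

/-- The Taylor expansion of `f : ℍ → ℂ` at `z0` in the disc coordinate. -/
def expand (z0 : ℍ) (f : ℍ → ℂ) : PowerSeries ℂ := taylor (pull z0 f)

lemma coeff_expand (z0 : ℍ) (f : ℍ → ℂ) (m : ℕ) :
    PowerSeries.coeff m (expand z0 f) = (m.factorial : ℂ)⁻¹ * iteratedDeriv m (pull z0 f) 0 :=
  coeff_taylor _ _

lemma constantCoeff_expand (z0 : ℍ) (f : ℍ → ℂ) :
    PowerSeries.constantCoeff (expand z0 f) = f z0 := by
  rw [← PowerSeries.coeff_zero_eq_constantCoeff_apply, coeff_expand]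
  simp [pull_zero]

variable {z0 : ℍ} {f g : ℍ → ℂ}

lemma expand_mul (hf : MDiff f) (hg : MDiff g) :
    expand z0 (f * g) = expand z0 f * expand z0 g :=
  taylor_mul (analyticAt_pull_zero z0 hf) (analyticAt_pull_zero z0 hg)

lemma expand_add (hf : MDiff f) (hg : MDiff g) :
    expand z0 (f + g) = expand z0 f + expand z0 g :=
  taylor_add (analyticAt_pull_zero z0 hf) (analyticAt_pull_zero z0 hg)

lemma expand_neg : expand z0 (-f) = -expand z0 f := taylor_neg

lemma expand_sub (hf : MDiff f) (hg : MDiff g) :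
    expand z0 (f - g) = expand z0 f - expand z0 g := by
  rw [sub_eq_add_neg, expand_add hf hg.neg, expand_neg, ← sub_eq_add_neg]

lemma expand_const (c : ℂ) : expand z0 (fun _ => c) = PowerSeries.C c := taylor_const c

lemma expand_one : expand z0 (1 : ℍ → ℂ) = 1 := by
  have := expand_const (z0 := z0) 1
  rw [map_one] at this
  exact this

lemma expand_zero : expand z0 (0 : ℍ → ℂ) = 0 := by
  have := expand_const (z0 := z0) 0
  rw [map_zero] at this
  exact this

/-- The order of the expansion is the analytic order of `f` at `z0`. -/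
lemma order_expand (hf : MDiff f) :
    (expand z0 f).order = analyticOrderAt (f ∘ ofComplex) (z0 : ℂ) := by
  rw [expand, order_taylor (analyticAt_pull_zero z0 hf), pull_eq_comp,
    analyticOrderAt_comp_of_deriv_ne_zero (analyticAt_disc_zero z0)
      (deriv_disc_zero_ne_zero z0), disc_zero]

lemma analyticOnNhd_comp_ofComplex (hf : MDiff f) :
    AnalyticOnNhd ℂ (f ∘ ofComplex) {z : ℂ | 0 < z.im} :=
  (UpperHalfPlane.mdifferentiable_iff.mp hf).analyticOnNhd
    (isOpen_lt continuous_const Complex.continuous_im)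

/-- Injectivity of the expansion (identity theorem). -/
lemma expand_eq_zero_iff (hf : MDiff f) : expand z0 f = 0 ↔ f = 0 := by
  constructor
  · intro h
    have h1 : analyticOrderAt (f ∘ ofComplex) (z0 : ℂ) = ⊤ := by
      rw [← order_expand hf, h, PowerSeries.order_zero]
    rw [analyticOrderAt_eq_top] at h1
    have h2 := (analyticOnNhd_comp_ofComplex hf).eqOn_zero_of_preconnected_of_eventuallyEq_zero
      (convex_halfSpace_im_gt 0).isPreconnected (z₀ := (z0 : ℂ)) z0.im_pos h1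
    funext τ
    have := h2 τ.im_pos
    simpa using this
  · rintro rfl
    exact expand_zero

lemma expand_injective_of_mdiff (hf : MDiff f) (hg : MDiff g) (h : expand z0 f = expand z0 g) :
    f = g := by
  have h1 : expand z0 (f - g) = 0 := by rw [expand_sub hf hg, h, sub_self]
  have := (expand_eq_zero_iff (hf.sub hg)).mp h1
  exact sub_eq_zero.mp this

/-! ### The stabiliser of `z0` acts by rotations -/

/-- The rotation factor `(c * conj z0 + d) / (c * z0 + d)` of a real Möbius transformation with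
bottom row `(c, d)` fixing `z0`. -/
def rotFactorReal (z0 : ℍ) (c d : ℝ) : ℂ :=
  ((c : ℂ) * conj (z0 : ℂ) + d) / ((c : ℂ) * z0 + d)

lemma real_mul_add_ne_zero {c d : ℝ} (h : c ≠ 0 ∨ d ≠ 0) {τ : ℂ} (hτ : 0 < τ.im) :
    (c : ℂ) * τ + d ≠ 0 := by
  intro h0
  have him := congrArg Complex.im h0
  have hre := congrArg Complex.re h0
  simp only [add_im, mul_im, ofReal_re, ofReal_im, zero_mul, add_zero, zero_im] at him
  simp only [add_re, mul_re, ofReal_re, ofReal_im, zero_mul, sub_zero, zero_re] at hre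
  have hc : c = 0 := by
    rcases mul_eq_zero.mp him with h | h
    · exact h
    · exact absurd h hτ.ne'
  rw [hc, zero_mul, zero_add] at hre
  rcases h with h | h
  · exact h hc
  · exact h hre

lemma norm_rotFactorReal (z0 : ℍ) {c d : ℝ} (h : c ≠ 0 ∨ d ≠ 0) :
    ‖rotFactorReal z0 c d‖ = 1 := by
  have h1 : (c : ℂ) * conj (z0 : ℂ) + d = conj ((c : ℂ) * z0 + d) := by
    simp [map_add, map_mul]
  rw [rotFactorReal, h1, norm_div, Complex.norm_conj, div_self]
  exact norm_ne_zero_iff.mpr (real_mul_add_ne_zero h z0.im_pos)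

lemma mobius_disc (z0 : ℍ) (a b c d : ℝ) (hcd : c ≠ 0 ∨ d ≠ 0)
    (hfix : (a : ℂ) * z0 + b = z0 * ((c : ℂ) * z0 + d)) {u : ℂ} (hu : ‖u‖ < 1) :
    ((a : ℂ) * disc z0 u + b) / ((c : ℂ) * disc z0 u + d) =
      disc z0 (rotFactorReal z0 c d * u) := by
  have hfix' : (a : ℂ) * conj (z0 : ℂ) + b = conj (z0 : ℂ) * ((c : ℂ) * conj (z0 : ℂ) + d) := by
    have := congrArg conj hfix
    simpa [map_add, map_mul] using this
  have h1 : (1 : ℂ) - u ≠ 0 := one_sub_ne_zero_of_norm_lt hu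
  have h2 : (c : ℂ) * z0 + d ≠ 0 := real_mul_add_ne_zero hcd z0.im_pos
  have h3 : (c : ℂ) * disc z0 u + d ≠ 0 := real_mul_add_ne_zero hcd (disc_im_pos z0 hu)
  set w : ℂ := conj (z0 : ℂ) with hw
  set A : ℂ := (c : ℂ) * z0 + d with hA
  set B : ℂ := (c : ℂ) * w + d with hB
  have e1 : (a : ℂ) * disc z0 u + b = ((z0 : ℂ) * A - w * B * u) / (1 - u) := by
    rw [disc, eq_div_iff h1, add_mul, mul_assoc, div_mul_cancel₀ _ h1]
    linear_combination hfix - u * hfix'
  have e2 : (c : ℂ) * disc z0 u + d = (A - B * u) / (1 - u) := by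
    rw [disc, eq_div_iff h1, add_mul, mul_assoc, div_mul_cancel₀ _ h1]
    ring
  have h6 : A - B * u ≠ 0 := by
    intro h
    apply h3
    rw [e2, h, zero_div]
  have e3 : disc z0 (rotFactorReal z0 c d * u) = ((z0 : ℂ) * A - w * B * u) / (A - B * u) := by
    have hr : rotFactorReal z0 c d = B / A := rfl
    rw [disc, hr]
    have n1 : (z0 : ℂ) - w * (B / A * u) = ((z0 : ℂ) * A - w * B * u) / A := by
      rw [eq_div_iff h2]
      field_simp
    have n2 : (1 : ℂ) - B / A * u = (A - B * u) / A := by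
      rw [eq_div_iff h2]
      field_simp
    rw [n1, n2, div_div_div_cancel_right₀ h2]
  rw [e1, e2, e3, div_div_div_cancel_right₀ h1]

/-- The rotation factor of `γ : SL(2, ℤ)` at `z0`: `(c * conj z0 + d) / (c * z0 + d)` with
`(c, d)` the bottom row of `γ`. -/
def rotFactor (z0 : ℍ) (γ : Matrix.SpecialLinearGroup (Fin 2) ℤ) : ℂ :=
  rotFactorReal z0 ((γ 1 0 : ℤ) : ℝ) ((γ 1 1 : ℤ) : ℝ)

lemma bottom_row_ne_zero (γ : Matrix.SpecialLinearGroup (Fin 2) ℤ) :
    ((γ 1 0 : ℤ) : ℝ) ≠ 0 ∨ ((γ 1 1 : ℤ) : ℝ) ≠ 0 := by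
  by_contra h
  push Not at h
  obtain ⟨h0, h1⟩ := h
  have h0' : γ 1 0 = 0 := by exact_mod_cast h0
  have h1' : γ 1 1 = 0 := by exact_mod_cast h1
  have hdet := γ.det_coe
  rw [Matrix.det_fin_two, h0', h1'] at hdet
  simp at hdet

lemma norm_rotFactor (z0 : ℍ) (γ : Matrix.SpecialLinearGroup (Fin 2) ℤ) :
    ‖rotFactor z0 γ‖ = 1 :=
  norm_rotFactorReal z0 (bottom_row_ne_zero γ)

lemma smul_ofComplex_disc {γ : Matrix.SpecialLinearGroup (Fin 2) ℤ} (hγ : γ • z0 = z0)
    {u : ℂ} (hu : ‖u‖ < 1) :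
    γ • ofComplex (disc z0 u) = ofComplex (disc z0 (rotFactor z0 γ * u)) := by
  have hcd := bottom_row_ne_zero γ
  have hu' : ‖rotFactor z0 γ * u‖ < 1 := by
    rw [norm_mul, norm_rotFactor, one_mul]; exact hu
  have hfix : (((γ 0 0 : ℤ) : ℝ) : ℂ) * z0 + (((γ 0 1 : ℤ) : ℝ) : ℂ) =
      z0 * ((((γ 1 0 : ℤ) : ℝ) : ℂ) * z0 + (((γ 1 1 : ℤ) : ℝ) : ℂ)) := by
    have h := congrArg (fun τ : ℍ => (τ : ℂ)) hγ
    simp only [coe_specialLinearGroup_apply, algebraMap_int_eq, eq_intCast] at h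
    rw [div_eq_iff (real_mul_add_ne_zero hcd z0.im_pos)] at h
    exact h
  apply UpperHalfPlane.ext
  rw [coe_specialLinearGroup_apply, ofComplex_apply_of_im_pos (disc_im_pos z0 hu),
    ofComplex_apply_of_im_pos (disc_im_pos z0 hu')]
  simp only [algebraMap_int_eq, eq_intCast]
  exact mobius_disc z0 _ _ _ _ hcd hfix hu

/-- Equivariance of the expansion under the stabiliser of `z0`: coefficientwise form. -/
lemma coeff_expand_smul {γ : Matrix.SpecialLinearGroup (Fin 2) ℤ} (hγ : γ • z0 = z0)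
    (hf : MDiff f) (m : ℕ) :
    PowerSeries.coeff m (expand z0 (fun τ => f (γ • τ))) =
      rotFactor z0 γ ^ m * PowerSeries.coeff m (expand z0 f) := by
  have h1 : pull z0 (fun τ => f (γ • τ)) =ᶠ[𝓝 0] fun v => pull z0 f (rotFactor z0 γ * v) := by
    filter_upwards [Metric.ball_mem_nhds (0 : ℂ) one_pos] with u hu
    have hu' : ‖u‖ < 1 := by simpa using hu
    simp only [pull]
    rw [smul_ofComplex_disc hγ hu']
  rw [expand, taylor_congr h1,
    coeff_taylor_comp_mul (analyticOnNhd_pull z0 hf) _ (norm_rotFactor z0 γ).le, expand]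

/-- Equivariance of the expansion under the stabiliser of `z0`: `rescale` form. -/
lemma expand_smul {γ : Matrix.SpecialLinearGroup (Fin 2) ℤ} (hγ : γ • z0 = z0) (hf : MDiff f) :
    expand z0 (fun τ => f (γ • τ)) = PowerSeries.rescale (rotFactor z0 γ) (expand z0 f) := by
  ext m
  rw [coeff_expand_smul hγ hf, PowerSeries.coeff_rescale]

/-! ### Multiplicativity of the rotation factor on the stabiliser -/

lemma fix_eq_of_smul_eq {γ : Matrix.SpecialLinearGroup (Fin 2) ℤ} (hγ : γ • z0 = z0) :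
    (((γ 0 0 : ℤ) : ℝ) : ℂ) * z0 + (((γ 0 1 : ℤ) : ℝ) : ℂ) =
      z0 * ((((γ 1 0 : ℤ) : ℝ) : ℂ) * z0 + (((γ 1 1 : ℤ) : ℝ) : ℂ)) := by
  have h := congrArg (fun τ : ℍ => (τ : ℂ)) hγ
  simp only [coe_specialLinearGroup_apply, algebraMap_int_eq, eq_intCast] at h
  rw [div_eq_iff (real_mul_add_ne_zero (bottom_row_ne_zero γ) z0.im_pos)] at h
  exact h

lemma rotFactor_one (z0 : ℍ) : rotFactor z0 1 = 1 := by
  simp [rotFactor, rotFactorReal]

lemma rotFactor_ne_zero (z0 : ℍ) (γ : Matrix.SpecialLinearGroup (Fin 2) ℤ) :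
    rotFactor z0 γ ≠ 0 := by
  intro h
  have := norm_rotFactor z0 γ
  rw [h, norm_zero] at this
  exact zero_ne_one this

lemma rotFactor_mul (γ : Matrix.SpecialLinearGroup (Fin 2) ℤ)
    {γ' : Matrix.SpecialLinearGroup (Fin 2) ℤ} (hγ' : γ' • z0 = z0) :
    rotFactor z0 (γ * γ') = rotFactor z0 γ * rotFactor z0 γ' := by
  have hfix := fix_eq_of_smul_eq hγ'
  have hfix' : (((γ' 0 0 : ℤ) : ℝ) : ℂ) * conj (z0 : ℂ) + (((γ' 0 1 : ℤ) : ℝ) : ℂ) =
      conj (z0 : ℂ) *
        ((((γ' 1 0 : ℤ) : ℝ) : ℂ) * conj (z0 : ℂ) + (((γ' 1 1 : ℤ) : ℝ) : ℂ)) := by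
    have := congrArg conj hfix
    simpa [map_add, map_mul] using this
  have h1 := real_mul_add_ne_zero (bottom_row_ne_zero γ) z0.im_pos
  have h2 := real_mul_add_ne_zero (bottom_row_ne_zero γ') z0.im_pos
  have h3 := real_mul_add_ne_zero (bottom_row_ne_zero (γ * γ')) z0.im_pos
  have e10 : (γ * γ') 1 0 = γ 1 0 * γ' 0 0 + γ 1 1 * γ' 1 0 := by
    rw [Matrix.SpecialLinearGroup.coe_mul, Matrix.mul_apply, Fin.sum_univ_two]
  have e11 : (γ * γ') 1 1 = γ 1 0 * γ' 0 1 + γ 1 1 * γ' 1 1 := by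
    rw [Matrix.SpecialLinearGroup.coe_mul, Matrix.mul_apply, Fin.sum_univ_two]
  simp only [rotFactor, rotFactorReal] at *
  rw [div_mul_div_comm, div_eq_div_iff h3 (mul_ne_zero h1 h2)]
  rw [e10, e11]
  push_cast
  linear_combination
    ((γ 1 0 : ℂ) * (((γ 1 0 : ℂ) * γ' 0 0 + (γ 1 1 : ℂ) * γ' 1 0) * z0
        + ((γ 1 0 : ℂ) * γ' 0 1 + (γ 1 1 : ℂ) * γ' 1 1))) * hfix'
    - ((γ 1 0 : ℂ) * (((γ 1 0 : ℂ) * γ' 0 0 + (γ 1 1 : ℂ) * γ' 1 0) * conj (z0 : ℂ)
        + ((γ 1 0 : ℂ) * γ' 0 1 + (γ 1 1 : ℂ) * γ' 1 1))) * hfix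

lemma rotFactor_inv {γ : Matrix.SpecialLinearGroup (Fin 2) ℤ} (hγ : γ • z0 = z0) :
    rotFactor z0 γ⁻¹ = (rotFactor z0 γ)⁻¹ := by
  have h := rotFactor_mul γ⁻¹ hγ
  rw [inv_mul_cancel, rotFactor_one] at h
  exact eq_inv_of_mul_eq_one_left h.symm

lemma rotFactor_pow {γ : Matrix.SpecialLinearGroup (Fin 2) ℤ} (hγ : γ • z0 = z0) (k : ℕ) :
    rotFactor z0 (γ ^ k) = rotFactor z0 γ ^ k := by
  induction k with
  | zero => simp [rotFactor_one]
  | succ k ih => rw [pow_succ, rotFactor_mul _ hγ, ih, pow_succ]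

lemma rotFactor_ne_one_of_bottom_left_ne_zero {γ : Matrix.SpecialLinearGroup (Fin 2) ℤ}
    (hc : γ 1 0 ≠ 0) : rotFactor z0 γ ≠ 1 := by
  intro h
  have h1 := real_mul_add_ne_zero (bottom_row_ne_zero γ) z0.im_pos
  rw [rotFactor, rotFactorReal, div_eq_one_iff_eq h1] at h
  have h2 : (((γ 1 0 : ℤ) : ℝ) : ℂ) * (conj (z0 : ℂ) - z0) = 0 := by
    linear_combination h
  rcases mul_eq_zero.mp h2 with h3 | h3
  · exact hc (by exact_mod_cast h3)
  · have him := congrArg Complex.im h3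
    simp only [sub_im, conj_im, zero_im, UpperHalfPlane.coe_im] at him
    have := z0.im_pos
    linarith

/-- At a fixed point of `S`, the rotation factor of `S` is a primitive square root of unity. -/
lemma isPrimitiveRoot_rotFactor_S (hz : ModularGroup.S • z0 = z0) :
    IsPrimitiveRoot (rotFactor z0 ModularGroup.S) 2 := by
  have hne : rotFactor z0 ModularGroup.S ≠ 1 :=
    rotFactor_ne_one_of_bottom_left_ne_zero (by simp [ModularGroup.S])
  have hpow : rotFactor z0 ModularGroup.S ^ 2 = 1 := by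
    rw [← rotFactor_pow hz]
    have : (ModularGroup.S ^ 2 : Matrix.SpecialLinearGroup (Fin 2) ℤ) = -1 := by
      ext i j
      rw [pow_two, Matrix.SpecialLinearGroup.coe_mul, ModularGroup.S_mul_S_eq]
      simp
    rw [this]
    simp [rotFactor, rotFactorReal]
  have := orderOf_eq_prime (p := 2) hpow hne
  rw [← this]
  exact IsPrimitiveRoot.orderOf _

lemma coe_S_mul_T :
    ((ModularGroup.S * ModularGroup.T : Matrix.SpecialLinearGroup (Fin 2) ℤ) :
      Matrix (Fin 2) (Fin 2) ℤ) = !![0, -1; 1, 1] := by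
  rw [Matrix.SpecialLinearGroup.coe_mul, ModularGroup.coe_S, ModularGroup.coe_T]
  simp

lemma S_mul_T_pow_three :
    ((ModularGroup.S * ModularGroup.T) ^ 3 : Matrix.SpecialLinearGroup (Fin 2) ℤ) = -1 := by
  apply Subtype.ext
  rw [Matrix.SpecialLinearGroup.coe_pow, coe_S_mul_T, Matrix.SpecialLinearGroup.coe_neg,
    Matrix.SpecialLinearGroup.coe_one]
  simp [pow_succ, Matrix.one_fin_two]

/-- At a fixed point of `S * T`, the rotation factor of `S * T` is a primitive cube root of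
unity. -/
lemma isPrimitiveRoot_rotFactor_ST (hz : (ModularGroup.S * ModularGroup.T) • z0 = z0) :
    IsPrimitiveRoot (rotFactor z0 (ModularGroup.S * ModularGroup.T)) 3 := by
  have hne : rotFactor z0 (ModularGroup.S * ModularGroup.T) ≠ 1 :=
    rotFactor_ne_one_of_bottom_left_ne_zero (by rw [coe_S_mul_T]; simp)
  have hpow : rotFactor z0 (ModularGroup.S * ModularGroup.T) ^ 3 = 1 := by
    rw [← rotFactor_pow hz, S_mul_T_pow_three]
    simp [rotFactor, rotFactorReal]
  have : Fact (Nat.Prime 3) := ⟨by norm_num⟩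
  have := orderOf_eq_prime (p := 3) hpow hne
  rw [← this]
  exact IsPrimitiveRoot.orderOf _

lemma isPrimitiveRoot_rotFactor_inv {γ : Matrix.SpecialLinearGroup (Fin 2) ℤ} (hγ : γ • z0 = z0)
    {e : ℕ} (h : IsPrimitiveRoot (rotFactor z0 γ) e) : IsPrimitiveRoot (rotFactor z0 γ⁻¹) e := by
  rw [rotFactor_inv hγ]
  exact h.inv

/-! ### The concrete fixed points -/

lemma S_smul_I : ModularGroup.S • UpperHalfPlane.I = UpperHalfPlane.I := by
  apply UpperHalfPlane.ext
  rw [modular_S_smul]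
  simp [UpperHalfPlane.I]

/-- `ρ = (-1 + i √3) / 2`, the fixed point of `S * T` in `ℍ`. -/
def rho : ℍ := ⟨(-1 + Complex.I * (Real.sqrt 3 : ℝ)) / 2, by
  simp⟩

lemma coe_rho : (rho : ℂ) = (-1 + Complex.I * (Real.sqrt 3 : ℝ)) / 2 := rfl

lemma rho_sq_add : (rho : ℂ) ^ 2 + rho + 1 = 0 := by
  have h3 : ((Real.sqrt 3 : ℝ) : ℂ) ^ 2 = 3 := by
    rw [← Complex.ofReal_pow, Real.sq_sqrt (by norm_num : (0 : ℝ) ≤ 3)]
    norm_num
  rw [coe_rho]
  linear_combination (-1 / 4 : ℂ) * h3 + (((Real.sqrt 3 : ℝ) : ℂ) ^ 2 / 4) * Complex.I_sq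

lemma smul_eq_self_iff {γ : Matrix.SpecialLinearGroup (Fin 2) ℤ} :
    γ • z0 = z0 ↔ (((γ 0 0 : ℤ) : ℝ) : ℂ) * z0 + (((γ 0 1 : ℤ) : ℝ) : ℂ) =
      z0 * ((((γ 1 0 : ℤ) : ℝ) : ℂ) * z0 + (((γ 1 1 : ℤ) : ℝ) : ℂ)) := by
  refine ⟨fix_eq_of_smul_eq, fun h => ?_⟩
  apply UpperHalfPlane.ext
  rw [coe_specialLinearGroup_apply]
  simp only [algebraMap_int_eq, eq_intCast]
  rw [div_eq_iff (real_mul_add_ne_zero (bottom_row_ne_zero γ) z0.im_pos)]
  exact h

lemma S_mul_T_smul_eq_self_iff :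
    (ModularGroup.S * ModularGroup.T) • z0 = z0 ↔ (z0 : ℂ) ^ 2 + z0 + 1 = 0 := by
  rw [smul_eq_self_iff, coe_S_mul_T]
  simp only [Matrix.of_apply, Matrix.cons_val', Matrix.cons_val_zero, Matrix.cons_val_one,
    Matrix.cons_val_fin_one]
  push_cast
  constructor
  · intro h; linear_combination -h
  · intro h; linear_combination -h

lemma S_mul_T_smul_rho : (ModularGroup.S * ModularGroup.T) • rho = rho :=
  S_mul_T_smul_eq_self_iff.mpr rho_sq_add

/-- The fixed point of `S * T` in `ℍ` is unique. -/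
lemma eq_rho_of_S_mul_T_smul_eq (h : (ModularGroup.S * ModularGroup.T) • z0 = z0) : z0 = rho := by
  have h1 := S_mul_T_smul_eq_self_iff.mp h
  have h2 := rho_sq_add
  have h3 : ((z0 : ℂ) - rho) * ((z0 : ℂ) + rho + 1) = 0 := by linear_combination h1 - h2
  apply UpperHalfPlane.ext
  rcases mul_eq_zero.mp h3 with h4 | h4
  · exact sub_eq_zero.mp h4
  · exfalso
    have him := congrArg Complex.im h4
    simp only [add_im, one_im, add_zero, zero_im, UpperHalfPlane.coe_im] at him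
    have := z0.im_pos
    have := rho.im_pos
    linarith

lemma S_smul_eq_self_iff : ModularGroup.S • z0 = z0 ↔ (z0 : ℂ) ^ 2 + 1 = 0 := by
  rw [smul_eq_self_iff, ModularGroup.coe_S]
  simp only [Matrix.of_apply, Matrix.cons_val', Matrix.cons_val_zero, Matrix.cons_val_one,
    Matrix.cons_val_fin_one]
  push_cast
  constructor
  · intro h; linear_combination -h
  · intro h; linear_combination -h

/-- The fixed point of `S` in `ℍ` is unique. -/
lemma eq_I_of_S_smul_eq (h : ModularGroup.S • z0 = z0) : z0 = UpperHalfPlane.I := by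
  have h1 := S_smul_eq_self_iff.mp h
  have h2 := S_smul_eq_self_iff.mp S_smul_I
  have h3 : ((z0 : ℂ) - UpperHalfPlane.I) * ((z0 : ℂ) + UpperHalfPlane.I) = 0 := by
    linear_combination h1 - h2
  apply UpperHalfPlane.ext
  rcases mul_eq_zero.mp h3 with h4 | h4
  · exact sub_eq_zero.mp h4
  · exfalso
    have him := congrArg Complex.im h4
    simp only [add_im, zero_im, UpperHalfPlane.coe_im] at him
    have := z0.im_pos
    have := UpperHalfPlane.I.im_pos
    linarith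

end

end Fermat.Agent.S24.ExpandAt
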