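/-
S24: bridge between helper28's `DiscExpansion` and helper66's `ExpandAt`, and the `γ⁻¹` versions of
the equivariance / primitive-root facts stated for `DiscExpansion` names.  Owner: helper66.
-/
import Fermat.Agent.S24.DiscExpansion
import Fermat.Agent.S24.ExpandAt

set_option autoImplicit false

open UpperHalfPlane Complex
open scoped ComplexConjugate MatrixGroups

namespace Fermat.Agent.S24.DiscExpansionInv

open Fermat.Agent.S24

/-- The two rotation factors agree. -/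
theorem rotFactor_eq (γ : SL(2, ℤ)) (z0 : ℍ) :
    DiscExpansion.rotFactor γ z0 = ExpandAt.rotFactor z0 γ := by
  simp [DiscExpansion.rotFactor, DiscExpansion.cd, ExpandAt.rotFactor, ExpandAt.rotFactorReal]

/-- The two expansions agree. -/
theorem discExp_eq_expand (z0 : ℍ) (f : ℍ → ℂ) :
    DiscExpansion.discExp z0 f = ExpandAt.expand z0 f := by
  ext m
  simp [DiscExpansion.discExp, ExpandAt.expand, DiscExpansion.taylor0, ExpandAt.taylor]
  left
  rfl

theorem rotFactor_one (z0 : ℍ) : DiscExpansion.rotFactor 1 z0 = 1 := by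
  rw [rotFactor_eq, ExpandAt.rotFactor_one]

theorem rotFactor_mul (γ γ' : SL(2, ℤ)) (z0 : ℍ) (h' : γ' • z0 = z0) :
    DiscExpansion.rotFactor (γ * γ') z0 =
      DiscExpansion.rotFactor γ z0 * DiscExpansion.rotFactor γ' z0 := by
  simp only [rotFactor_eq]
  exact ExpandAt.rotFactor_mul γ h'

theorem rotFactor_inv (γ : SL(2, ℤ)) (z0 : ℍ) (h : γ • z0 = z0) :
    DiscExpansion.rotFactor γ⁻¹ z0 = (DiscExpansion.rotFactor γ z0)⁻¹ := by
  simp only [rotFactor_eq]
  exact ExpandAt.rotFactor_inv h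

theorem rotFactor_pow (γ : SL(2, ℤ)) (z0 : ℍ) (h : γ • z0 = z0) (k : ℕ) :
    DiscExpansion.rotFactor (γ ^ k) z0 = DiscExpansion.rotFactor γ z0 ^ k := by
  simp only [rotFactor_eq]
  exact ExpandAt.rotFactor_pow h k

theorem inv_smul_eq_self {γ : SL(2, ℤ)} {z0 : ℍ} (h : γ • z0 = z0) : γ⁻¹ • z0 = z0 := by
  rw [inv_smul_eq_iff, h]

/-- Equivariance for the inverse: `f ∘ γ⁻¹` expands to the rotation by `ζ⁻¹`. -/
theorem discExp_comp_inv_smul (γ : SL(2, ℤ)) (z0 : ℍ) (h : γ • z0 = z0) (f : ℍ → ℂ) :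
    DiscExpansion.discExp z0 (fun z => f (γ⁻¹ • z)) =
      PowerSeries.rescale (DiscExpansion.rotFactor γ z0)⁻¹ (DiscExpansion.discExp z0 f) := by
  rw [DiscExpansion.discExp_comp_smul γ⁻¹ z0 (inv_smul_eq_self h) f, rotFactor_inv γ z0 h]

theorem isPrimitiveRoot_rotFactor_inv (γ : SL(2, ℤ)) (z0 : ℍ) (h : γ • z0 = z0) {e : ℕ}
    (hζ : IsPrimitiveRoot (DiscExpansion.rotFactor γ z0) e) :
    IsPrimitiveRoot (DiscExpansion.rotFactor γ⁻¹ z0) e := by
  rw [rotFactor_inv γ z0 h]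
  exact hζ.inv

theorem isPrimitiveRoot_inv_rotFactor_S (z0 : ℍ) (h : ModularGroup.S • z0 = z0) :
    IsPrimitiveRoot (DiscExpansion.rotFactor ModularGroup.S z0)⁻¹ 2 :=
  (DiscExpansion.isPrimitiveRoot_rotFactor_S z0 h).inv

theorem isPrimitiveRoot_inv_rotFactor_ST (z0 : ℍ)
    (h : (ModularGroup.S * ModularGroup.T) • z0 = z0) :
    IsPrimitiveRoot (DiscExpansion.rotFactor (ModularGroup.S * ModularGroup.T) z0)⁻¹ 3 :=
  (DiscExpansion.isPrimitiveRoot_rotFactor_ST z0 h).inv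

theorem isPrimitiveRoot_rotFactor_S_inv (z0 : ℍ) (h : ModularGroup.S • z0 = z0) :
    IsPrimitiveRoot (DiscExpansion.rotFactor ModularGroup.S⁻¹ z0) 2 :=
  isPrimitiveRoot_rotFactor_inv _ z0 h (DiscExpansion.isPrimitiveRoot_rotFactor_S z0 h)

theorem isPrimitiveRoot_rotFactor_ST_inv (z0 : ℍ)
    (h : (ModularGroup.S * ModularGroup.T) • z0 = z0) :
    IsPrimitiveRoot (DiscExpansion.rotFactor (ModularGroup.S * ModularGroup.T)⁻¹ z0) 3 :=
  isPrimitiveRoot_rotFactor_inv _ z0 h (DiscExpansion.isPrimitiveRoot_rotFactor_ST z0 h)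

/-- The rotation factor of the identity-like element `1` (generic point, `e = 1`). -/
theorem isPrimitiveRoot_rotFactor_one (z0 : ℍ) :
    IsPrimitiveRoot (DiscExpansion.rotFactor 1 z0) 1 := by
  rw [rotFactor_one]
  exact IsPrimitiveRoot.one

end Fermat.Agent.S24.DiscExpansionInv
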