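import Fermat.Agent.S24.FinitePackage
import Fermat.Agent.S24.JLocalOrder

/-!
# S24 (block B): the three finite embedding packages, from an `EvData N` alone

Combines `FinitePackage` with helper45's local orders of `j` (`JLocalOrder`).
These are the hypotheses `hgen`, `h0`, `h1728` of `RamGlue.modularRamificationData`.
-/

set_option autoImplicit false

open ModularCurve UpperHalfPlane Complex
open scoped MatrixGroups

noncomputable section

namespace Fermat.Agent.S24.FinitePackage

open Fermat.Agent.S24.RamGlue Fermat.Agent.S24.JLocalOrder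

variable [Algebra Kbar ℂ] {N : ℕ} [NeZero N]

theorem hgen_of_evData (D : EvData N) (a : Kbar) (ha0 : a ≠ 0) (ha1 : a ≠ 1728) :
    HasEmbeddings N (jBar N - algebraMap Kbar (FBar N) a) 1 1 :=
  hasEmbeddings_generic D
    (fun _ h0 h1 => analyticOrderAt_jFun_sub_generic rfl h0 h1) a ha0 ha1

theorem h0_of_evData (D : EvData N) :
    ∃ g : SL(2, ℤ), Subgroup.zpowers g = Subgroup.zpowers (ModularGroup.S * ModularGroup.T) ∧
      HasEmbeddings N (jBar N - algebraMap Kbar (FBar N) 0) g 3 :=
  hasEmbeddings_zero D ⟨rho, ST_smul_rho, by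
    have := analyticOrderAt_jFun_of_ST_smul_eq ST_smul_rho
    simpa using this⟩

theorem h1728_of_evData (D : EvData N) :
    ∃ g : SL(2, ℤ), Subgroup.zpowers g = Subgroup.zpowers ModularGroup.S ∧
      HasEmbeddings N (jBar N - algebraMap Kbar (FBar N) 1728) g 2 :=
  hasEmbeddings_1728 D ⟨UpperHalfPlane.I, S_smul_I, analyticOrderAt_jFun_of_S_smul_eq S_smul_I⟩

end Fermat.Agent.S24.FinitePackage
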