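import Fermat.Agent.S24.Defs

/-!
# S24, piece A1: the zeros theorem

For a function field `F / K` (`K` algebraically closed of characteristic zero) and a
transcendental `y : F` with `F / K(y)` finite, the set of places of `F` at which `y` vanishes is
finite and `∑_{v(y) > 0} v(y) = [F : K(y)]`.

Proof: `R0 = K[y] ⊆ F` is a polynomial ring, `B0` its integral closure in `F` is a Dedekind domain,
finite over `R0`.  The places with `v(y) > 0` are in bijection with the primes of `B0` over `(y)`
(`v ↦ 𝔪_v ∩ B0`, `P ↦ Place.ofHeightOneSpectrum P`), `v(y)` is the ramification index, all inertia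
degrees are `1` because `K` is algebraically closed, and Mathlib's fundamental identity
`∑ e f = [F : K(y)]` concludes.
-/

set_option autoImplicit false
set_option linter.deprecated false
set_option linter.style.haveILetI false
set_option linter.unusedSectionVars false

open AlgebraicCurve IsDedekindDomain WithZero IntermediateField Polynomial
open IntermediateField.algebraAdjoinAdjoin

namespace Fermat.Agent.S24.Zeros

section General

variable {K F : Type*} [Field K] [Field F] [Algebra K F]
variable {B : Type*} [CommRing B] [IsDedekindDomain B] [Algebra B F] [IsFractionRing B F]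
  [Algebra K B] [IsScalarTower K B F]

/-- In `ℤᵐ⁰`, `x < 1` iff `x ≤ exp (-1)`. -/
theorem lt_one_iff_le_exp_neg_one (x : ℤᵐ⁰) : x < 1 ↔ x ≤ exp (-1 : ℤ) := by
  rcases eq_or_ne x 0 with rfl | hx
  · simp
  · rw [← exp_log hx, ← exp_zero, exp_lt_exp, exp_le_exp]
    omega

/-- A unit of the valuation ring of a valuation has valuation `1`. -/
theorem valuation_unit_eq_one {Γ : Type*} [LinearOrderedCommGroupWithZero Γ] (val : Valuation F Γ)
    (u : (val.valuationSubring)ˣ) :
    val ((u : val.valuationSubring) : F) = 1 := by
  have h1 : val ((u : val.valuationSubring) : F) ≤ 1 :=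
    (Valuation.mem_valuationSubring_iff _ _).mp (u : val.valuationSubring).2
  have h2 : val (((u⁻¹ : (val.valuationSubring)ˣ) : val.valuationSubring) : F) ≤ 1 :=
    (Valuation.mem_valuationSubring_iff _ _).mp ((u⁻¹ : (val.valuationSubring)ˣ) : val.valuationSubring).2
  have h3 : ((u : val.valuationSubring) : F) *
      (((u⁻¹ : (val.valuationSubring)ˣ) : val.valuationSubring) : F) = 1 := by
    exact_mod_cast congrArg (fun x : val.valuationSubring => (x : F)) u.mul_inv
  have h4 := congrArg val h3
  rw [map_mul, map_one] at h4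
  refine le_antisymm h1 ?_
  by_contra hlt
  rw [not_le] at hlt
  have : val ((u : val.valuationSubring) : F) *
      val (((u⁻¹ : (val.valuationSubring)ˣ) : val.valuationSubring) : F) < 1 := by
    calc _ ≤ val ((u : val.valuationSubring) : F) * 1 := by gcongr
      _ < 1 := by rwa [mul_one]
  exact absurd h4 this.ne

/-- The order function of the place attached to a height one prime `w` of a Dedekind domain
`B` with fraction field `F` is the `w`-adic valuation. -/
theorem ord_ofHeightOneSpectrum (w : HeightOneSpectrum B) (f : F) :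
    (Place.ofHeightOneSpectrum (K := K) (F := F) w).ord f = -(WithZero.log (w.valuation F f)) := by
  set W := Place.ofHeightOneSpectrum (K := K) (F := F) w with hW
  rcases eq_or_ne f 0 with rfl | hf
  · simp
  obtain ⟨π, hπ⟩ := w.intValuation_exists_uniformizer
  have hπF : w.valuation F (algebraMap B F π) = exp (-1 : ℤ) := by
    rw [w.valuation_of_algebraMap, hπ]
  have hπmem : algebraMap B F π ∈ W.toValuationSubring := by
    show algebraMap B F π ∈ (w.valuation F).valuationSubring
    rw [Valuation.mem_valuationSubring_iff]; exact w.valuation_le_one π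
  -- the uniformizer of `B` at `w` is irreducible in the valuation ring
  have hirr : Irreducible (⟨algebraMap B F π, hπmem⟩ : W.toValuationSubring) := by
    rw [IsDiscreteValuationRing.irreducible_iff_uniformizer]
    apply le_antisymm
    · intro x hx
      rw [IsLocalRing.mem_maximalIdeal, mem_nonunits_iff] at hx
      have hx1 : w.valuation F (x : F) ≤ 1 := (Valuation.mem_valuationSubring_iff _ _).mp x.2
      have hx2 : w.valuation F (x : F) < 1 := by
        refine lt_of_le_of_ne hx1 fun h1 => hx ?_
        have hx0 : (x : F) ≠ 0 := by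
          intro h0; rw [h0, map_zero] at h1; exact zero_ne_one h1
        have hinv : (x : F)⁻¹ ∈ W.toValuationSubring := by
          show (x : F)⁻¹ ∈ (w.valuation F).valuationSubring
          rw [Valuation.mem_valuationSubring_iff, map_inv₀, h1, inv_one]
        refine ⟨⟨x, ⟨(x : F)⁻¹, hinv⟩, ?_, ?_⟩, rfl⟩ <;> ext <;> simp [hx0]
      rw [lt_one_iff_le_exp_neg_one] at hx2
      have hπ0 : algebraMap B F π ≠ 0 := by
        intro h0; rw [h0, map_zero] at hπF; exact exp_ne_zero hπF.symm
      have hq : (x : F) / algebraMap B F π ∈ W.toValuationSubring := by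
        show (x : F) / algebraMap B F π ∈ (w.valuation F).valuationSubring
        rw [Valuation.mem_valuationSubring_iff, map_div₀, hπF]
        exact div_le_one_of_le₀ hx2 zero_le'
      rw [Ideal.mem_span_singleton]
      refine ⟨⟨_, hq⟩, ?_⟩
      ext
      simp [mul_div_cancel₀ _ hπ0]
    · rw [Ideal.span_singleton_le_iff_mem, IsLocalRing.mem_maximalIdeal, mem_nonunits_iff]
      intro hu
      have := valuation_unit_eq_one (w.valuation F) hu.unit
      rw [IsUnit.unit_spec] at this
      change w.valuation F (algebraMap B F π) = 1 at this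
      rw [hπF] at this
      exact absurd this (by simp)
  obtain ⟨u, hu⟩ := W.exists_unit_mul_zpow hf hirr
  have hu1 : w.valuation F ((u : W.toValuationSubring) : F) = 1 :=
    valuation_unit_eq_one (w.valuation F) u
  have key : w.valuation F f = exp (-(W.ord f)) := by
    conv_lhs => rw [hu]
    rw [map_mul, map_zpow₀, hu1, one_mul]
    change (w.valuation F (algebraMap B F π)) ^ (W.ord f) = _
    rw [hπF, ← exp_zsmul]
    simp
  rw [key, log_exp, neg_neg]

end General

section General

variable {K F : Type*} [Field K] [Field F] [Algebra K F]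
variable {B : Type*} [CommRing B] [IsDedekindDomain B] [Algebra B F] [IsFractionRing B F]
  [Algebra K B] [IsScalarTower K B F]

/-- The centre on `B` of the place attached to `w` is `w`. -/
theorem mem_nonunits_ofHeightOneSpectrum_iff (w : HeightOneSpectrum B) (b : B) :
    algebraMap B F b ∈ (Place.ofHeightOneSpectrum (K := K) (F := F) w).toValuationSubring.nonunits
      ↔ b ∈ w.asIdeal := by
  rw [← w.valuation_lt_one_iff_mem (K := F), ValuationSubring.mem_nonunits_iff]
  exact ((Valuation.isEquiv_valuation_valuationSubring (w.valuation F)).lt_one_iff_lt_one).symm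

theorem ofHeightOneSpectrum_injective :
    Function.Injective (Place.ofHeightOneSpectrum (K := K) (F := F) (R := B)) := by
  intro w w' h
  ext b
  rw [← mem_nonunits_ofHeightOneSpectrum_iff (K := K) (F := F) w b,
    ← mem_nonunits_ofHeightOneSpectrum_iff (K := K) (F := F) w' b, h]

/-- A place whose valuation ring contains `B` and whose centre on `B` is the height one prime
`w` is the place attached to `w`. -/
theorem eq_ofHeightOneSpectrum (v : Place K F) (w : HeightOneSpectrum B)
    (hB : ∀ b : B, algebraMap B F b ∈ v.toValuationSubring)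
    (hw : ∀ b : B, algebraMap B F b ∈ v.toValuationSubring.nonunits → b ∈ w.asIdeal) :
    v = Place.ofHeightOneSpectrum w := by
  apply Place.ext
  show v.toValuationSubring = (w.valuation F).valuationSubring
  have h := HeightOneSpectrum.valuationSubringAtPrime_eq_valuationSubring (K := F) w
  have hle : HeightOneSpectrum.valuationSubringAtPrime F w ≤ v.toValuationSubring := by
    intro x hx
    rw [h, Valuation.mem_valuationSubring_iff] at hx
    obtain ⟨n, d, hnd⟩ := w.exists_primeCompl_mul_eq_of_integer x hx
    set A := v.toValuationSubring with hA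
    have hd1 : A.valuation (algebraMap B F d) = 1 := by
      refine le_antisymm ((A.valuation_le_one_iff _).mpr (hB d)) ?_
      rw [← not_lt, ← ValuationSubring.mem_nonunits_iff]
      exact fun hmem => d.2 (hw _ hmem)
    rw [← A.valuation_le_one_iff]
    calc A.valuation x = A.valuation x * A.valuation (algebraMap B F d) := by rw [hd1, mul_one]
      _ = A.valuation (algebraMap B F n) := by rw [← map_mul, hnd]
      _ ≤ 1 := (A.valuation_le_one_iff _).mpr (hB n)
  rw [← h]
  exact (ValuationSubring.eq_of_le_of_ne_top _ hle v.ne_top').symm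

end General

section Specific

variable {K F : Type*} [Field K] [Field F] [Algebra K F]
variable (y : F)

/-- The polynomial ring `K[y] ⊆ F`. -/
abbrev R0 : Subalgebra K F := Algebra.adjoin K ({y} : Set F)

/-- `y` as an element of `K[y]`. -/
abbrev gen0 : R0 (K := K) y := ⟨y, Algebra.self_mem_adjoin_singleton K y⟩

variable {y}

theorem isPrincipalIdealRing_R0 (hy : Transcendental K y) :
    IsPrincipalIdealRing (R0 (K := K) y) :=
  IsPrincipalIdealRing.of_surjective (Polynomial.algEquivOfTranscendental K y hy).toRingEquiv.toRingHom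
    (Polynomial.algEquivOfTranscendental K y hy).surjective

theorem irreducible_gen0 (hy : Transcendental K y) : Irreducible (gen0 (K := K) y) := by
  have h := (MulEquiv.irreducible_iff (Polynomial.algEquivOfTranscendental K y hy).toMulEquiv).mpr
    (Polynomial.irreducible_X (R := K))
  simpa using h

/-- Every element of `K[y]` is congruent to a constant modulo `y`. -/
theorem exists_sub_mem_span_gen0 (hy : Transcendental K y) (r : R0 (K := K) y) :
    ∃ c : K, r - algebraMap K (R0 (K := K) y) c ∈ Ideal.span {gen0 (K := K) y} := by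
  obtain ⟨f, rfl⟩ := (Polynomial.algEquivOfTranscendental K y hy).surjective r
  refine ⟨f.coeff 0, ?_⟩
  obtain ⟨g, hg⟩ := Polynomial.X_dvd_sub_C (p := f)
  rw [Ideal.mem_span_singleton]
  refine ⟨Polynomial.algEquivOfTranscendental K y hy g, ?_⟩
  have := congrArg (Polynomial.algEquivOfTranscendental K y hy) hg
  rw [map_sub, map_mul] at this
  have hX : Polynomial.algEquivOfTranscendental K y hy X = gen0 (K := K) y :=
    Polynomial.algEquivOfTranscendental_apply_X K y hy
  have hC : Polynomial.algEquivOfTranscendental K y hy (C (f.coeff 0))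
      = algebraMap K (R0 (K := K) y) (f.coeff 0) := by
    rw [← Polynomial.algebraMap_eq, AlgEquiv.commutes]
  rw [hX, hC] at this
  exact this

end Specific

section Specific

variable {K F : Type*} [Field K] [Field F] [Algebra K F]
variable (y : F)

/-- The integral closure of `K[y]` in `F`. -/
abbrev B0 : Subalgebra (R0 (K := K) y) F := integralClosure (R0 (K := K) y) F

instance : IsScalarTower (R0 (K := K) y) (B0 (K := K) y) F :=
  Subalgebra.isScalarTower_mid _

variable {y}
variable [CharZero K] [FiniteDimensional K⟮y⟯ F]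

theorem isSeparable_F : Algebra.IsSeparable K⟮y⟯ F := by
  haveI : CharZero K⟮y⟯ := charZero_of_injective_algebraMap (algebraMap K K⟮y⟯).injective
  infer_instance

theorem isDedekindDomain_B0 (hy : Transcendental K y) : IsDedekindDomain (B0 (K := K) y) := by
  haveI := isPrincipalIdealRing_R0 hy
  haveI := isSeparable_F (K := K) (F := F) (y := y)
  exact integralClosure.isDedekindDomain (R0 (K := K) y) K⟮y⟯ F

theorem isFractionRing_B0 : IsFractionRing (B0 (K := K) y) F :=
  integralClosure.isFractionRing_of_finite_extension K⟮y⟯ F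

theorem finite_B0 (hy : Transcendental K y) : Module.Finite (R0 (K := K) y) (B0 (K := K) y) := by
  haveI := isPrincipalIdealRing_R0 hy
  haveI := isSeparable_F (K := K) (F := F) (y := y)
  exact IsIntegralClosure.finite (R0 (K := K) y) K⟮y⟯ F (B0 (K := K) y)

end Specific

section PlaceBasics

variable {K F : Type*} [Field K] [Field F] [Algebra K F]

/-- An element of positive order at `v` is a non-unit of the valuation ring of `v`. -/
theorem mem_nonunits_of_ord_pos (v : Place K F) {f : F} (hf : 0 < v.ord f) :
    f ∈ v.toValuationSubring.nonunits := by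
  have hf0 : f ≠ 0 := by
    rintro rfl
    simp at hf
  obtain ⟨π, hπ⟩ := IsDiscreteValuationRing.exists_irreducible v.toValuationSubring
  obtain ⟨u, hu⟩ := v.exists_unit_mul_zpow hf0 hπ
  obtain ⟨n, hn⟩ : ∃ n : ℕ, v.ord f = (n : ℤ) + 1 := ⟨(v.ord f - 1).toNat, by omega⟩
  rw [hn, zpow_add_one₀ (by
    intro h0
    exact hπ.ne_zero (Subtype.ext h0)), zpow_natCast] at hu
  -- `f = (u * π ^ n) * π` in the valuation ring
  have hfmem : f = (((u : v.toValuationSubring) * π ^ n * π : v.toValuationSubring) : F) := by
    rw [hu]; push_cast; ring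
  rw [ValuationSubring.mem_nonunits_iff_exists_mem_maximalIdeal]
  refine ⟨hfmem ▸ Subtype.coe_prop _, ?_⟩
  have : (⟨f, hfmem ▸ Subtype.coe_prop _⟩ : v.toValuationSubring)
      = (u : v.toValuationSubring) * π ^ n * π := Subtype.ext hfmem
  rw [this]
  exact Ideal.mul_mem_left _ _ (by
    rw [IsLocalRing.mem_maximalIdeal, mem_nonunits_iff]; exact hπ.not_isUnit)

theorem mem_of_ord_pos (v : Place K F) {f : F} (hf : 0 < v.ord f) :
    f ∈ v.toValuationSubring :=
  (ValuationSubring.mem_nonunits_iff_exists_mem_maximalIdeal.mp (mem_nonunits_of_ord_pos v hf)).1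

/-- The valuation ring of a place, as a `K`-subalgebra of `F`. -/
def placeSubalgebra (v : Place K F) : Subalgebra K F :=
  { v.toValuationSubring.toSubring with
    algebraMap_mem' := v.algebraMap_mem' }

theorem mem_placeSubalgebra (v : Place K F) (f : F) :
    f ∈ placeSubalgebra v ↔ f ∈ v.toValuationSubring := Iff.rfl

end PlaceBasics

section Centre

variable {K F : Type*} [Field K] [Field F] [Algebra K F]
variable {y : F}

/-- If `y` lies in the valuation ring of `v`, so does `K[y]`. -/
theorem R0_le (v : Place K F) (hyv : y ∈ v.toValuationSubring) (r : R0 (K := K) y) :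
    (r : F) ∈ v.toValuationSubring := by
  have h : R0 (K := K) y ≤ placeSubalgebra v :=
    Algebra.adjoin_le (Set.singleton_subset_iff.mpr hyv)
  exact h r.2

/-- If `y` lies in the valuation ring of `v`, so does the integral closure of `K[y]`. -/
theorem B0_le (v : Place K F) (hyv : y ∈ v.toValuationSubring) (b : B0 (K := K) y) :
    (b : F) ∈ v.toValuationSubring := by
  -- `b` is integral over `K[y]`, hence over the valuation ring, which is integrally closed
  let φ : R0 (K := K) y →+* v.toValuationSubring :=
    (algebraMap (R0 (K := K) y) F).codRestrict v.toValuationSubring.toSubring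
      (fun r => R0_le v hyv r)
  letI : Algebra (R0 (K := K) y) v.toValuationSubring := φ.toAlgebra
  haveI : IsScalarTower (R0 (K := K) y) v.toValuationSubring F :=
    IsScalarTower.of_algebraMap_eq (fun _ => rfl)
  have hb : IsIntegral (R0 (K := K) y) (b : F) := b.2
  have hb' : IsIntegral v.toValuationSubring (b : F) := hb.tower_top
  obtain ⟨a, ha⟩ := IsIntegrallyClosed.isIntegral_iff.mp hb'
  rw [← ha]
  exact a.2

end Centre

section Centre

variable {K F : Type*} [Field K] [Field F] [Algebra K F]
variable {y : F}

/-- The centre of the place `v` on the integral closure of `K[y]`. -/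
def centre (v : Place K F) (hyv : y ∈ v.toValuationSubring) : Ideal (B0 (K := K) y) :=
  Ideal.comap ((algebraMap (B0 (K := K) y) F).codRestrict v.toValuationSubring.toSubring
    (fun b => B0_le v hyv b)) (IsLocalRing.maximalIdeal v.toValuationSubring)

theorem mem_centre (v : Place K F) (hyv : y ∈ v.toValuationSubring) (b : B0 (K := K) y) :
    b ∈ centre v hyv ↔ (b : F) ∈ v.toValuationSubring.nonunits := by
  rw [ValuationSubring.mem_nonunits_iff_exists_mem_maximalIdeal]
  constructor
  · intro h
    exact ⟨B0_le v hyv b, h⟩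
  · rintro ⟨_, h⟩
    exact h

instance centre_isPrime (v : Place K F) (hyv : y ∈ v.toValuationSubring) :
    (centre (K := K) v hyv).IsPrime :=
  Ideal.comap_isPrime _ _

/-- `y` as an element of the integral closure of `K[y]`. -/
abbrev yB : B0 (K := K) y := algebraMap (R0 (K := K) y) (B0 (K := K) y) (gen0 (K := K) y)

theorem coe_yB : ((yB (K := K) (y := y) : B0 (K := K) y) : F) = y := rfl

theorem yB_ne_zero (hy : Transcendental K y) : (yB (K := K) (y := y)) ≠ 0 := by
  intro h
  have h' : ((yB (K := K) (y := y) : B0 (K := K) y) : F) = 0 := by rw [h]; rfl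
  rw [coe_yB] at h'
  exact hy (h' ▸ isAlgebraic_zero)

end Centre

section Main

variable {K F : Type*} [Field K] [Field F] [Algebra K F] {y : F}

variable (K y) in
/-- The prime `(y)` of `K[y]`. -/
abbrev p0 : Ideal (R0 (K := K) y) := Ideal.span {gen0 (K := K) y}

theorem map_p0 : Ideal.map (algebraMap (R0 (K := K) y) (B0 (K := K) y)) (p0 K y)
    = Ideal.span {yB (K := K) (y := y)} := by
  rw [Ideal.map_span, Set.image_singleton]

theorem p0_ne_bot (hy : Transcendental K y) : p0 K y ≠ ⊥ := by
  rw [Ne, Ideal.span_singleton_eq_bot]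
  exact (irreducible_gen0 hy).ne_zero

theorem p0_isMaximal (hy : Transcendental K y) : (p0 K y).IsMaximal := by
  haveI := isPrincipalIdealRing_R0 hy
  exact PrincipalIdealRing.isMaximal_of_irreducible (irreducible_gen0 hy)

theorem map_p0_ne_bot (hy : Transcendental K y) :
    Ideal.map (algebraMap (R0 (K := K) y) (B0 (K := K) y)) (p0 K y) ≠ ⊥ := by
  rw [map_p0, Ne, Ideal.span_singleton_eq_bot]
  exact yB_ne_zero hy

variable [IsDedekindDomain (B0 (K := K) y)] [IsFractionRing (B0 (K := K) y) F]

/-- The order of `y` at the place attached to a nonzero prime `P` of the integral closure of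
`K[y]` is the ramification index of `P` over `(y)`. -/
theorem ord_eq_ramificationIdx (hy : Transcendental K y) (P : Ideal (B0 (K := K) y))
    (hP : P.IsPrime) (hP0 : P ≠ ⊥) :
    (Place.ofHeightOneSpectrum (K := K) (F := F) (⟨P, hP, hP0⟩ : HeightOneSpectrum (B0 (K := K) y))).ord y
      = (Ideal.ramificationIdx' (p0 K y) P : ℤ) := by
  rw [ord_ofHeightOneSpectrum]
  change -(log ((HeightOneSpectrum.valuation F (⟨P, hP, hP0⟩ : HeightOneSpectrum (B0 (K := K) y)))
    (algebraMap (B0 (K := K) y) F (yB (K := K) (y := y))))) = _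
  have h1 : Ideal.ramificationIdx' (p0 K y) P = multiplicity P (Ideal.span {yB (K := K) (y := y)}) := by
    have := Ideal.IsDedekindDomain.ramificationIdx'_eq_multiplicity (p := p0 K y) (P := P)
      (map_p0_ne_bot hy) hP
    rw [this, map_p0]
  rw [HeightOneSpectrum.valuation_of_algebraMap,
    HeightOneSpectrum.intValuation_eq_exp_neg_multiplicity _ (yB_ne_zero hy), log_exp, neg_neg, h1]

end Main

section ResidueGeneric

variable {K R B : Type*} [Field K] [IsAlgClosed K] [CommRing R] [CommRing B]
  [Algebra K R] [Algebra R B] [Algebra K B] [IsScalarTower K R B] [Algebra.IsIntegral R B]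

/-- If `R / (t) = K` is algebraically closed and `B` is integral over `R`, then every element of
`B` is congruent to a constant modulo any prime of `B` containing `t`. -/
theorem exists_sub_mem_of_prime_generic (ψ : R →ₐ[K] K) (t : R)
    (hψ : ∀ r : R, r - algebraMap K R (ψ r) ∈ Ideal.span {t})
    (P : Ideal B) [P.IsPrime] (htP : algebraMap R B t ∈ P) (b : B) :
    ∃ c : K, b - algebraMap K B c ∈ P := by
  have hkey : ∀ r : R, algebraMap R (B ⧸ P) r = algebraMap K (B ⧸ P) (ψ r) := by
    intro r
    rw [IsScalarTower.algebraMap_apply R B (B ⧸ P), IsScalarTower.algebraMap_apply K B (B ⧸ P),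
      IsScalarTower.algebraMap_apply K R B, Ideal.Quotient.algebraMap_eq, ← sub_eq_zero,
      ← map_sub, ← map_sub, Ideal.Quotient.eq_zero_iff_mem]
    obtain ⟨s, hs⟩ := Ideal.mem_span_singleton.mp (hψ r)
    rw [hs, map_mul]
    exact Ideal.mul_mem_right _ _ htP
  letI : Algebra R K := ψ.toRingHom.toAlgebra
  haveI : IsScalarTower R K (B ⧸ P) := IsScalarTower.of_algebraMap_eq hkey
  have hb : IsIntegral R b := Algebra.IsIntegral.isIntegral b
  have hb1 : IsIntegral R (Ideal.Quotient.mk P b) := hb.map (Ideal.Quotient.mkₐ R P)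
  have hb2 : IsIntegral K (Ideal.Quotient.mk P b) := hb1.tower_top
  have hdeg : (minpoly K (Ideal.Quotient.mk P b)).degree = 1 :=
    IsAlgClosed.degree_eq_one_of_irreducible K (minpoly.irreducible hb2)
  obtain ⟨c, hc⟩ := minpoly.mem_range_of_degree_eq_one K _ hdeg
  refine ⟨c, ?_⟩
  rw [← Ideal.Quotient.eq_zero_iff_mem, map_sub, sub_eq_zero, ← hc,
    IsScalarTower.algebraMap_apply K B (B ⧸ P), Ideal.Quotient.algebraMap_eq]

/-- Consequently the inertia degree is one. -/
theorem inertiaDeg'_eq_one_generic (ψ : R →ₐ[K] K) (t : R)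
    (hψ : ∀ r : R, r - algebraMap K R (ψ r) ∈ Ideal.span {t})
    (P : Ideal B) [P.IsPrime] [P.LiesOver (Ideal.span {t})] :
    Ideal.inertiaDeg' (Ideal.span {t}) P = 1 := by
  have htP : algebraMap R B t ∈ P := by
    have : t ∈ Ideal.comap (algebraMap R B) P := by
      rw [← Ideal.under_def, ← Ideal.over_def P (Ideal.span {t})]
      exact Ideal.mem_span_singleton_self t
    exact this
  rw [Ideal.inertiaDeg'_algebraMap]
  have hne : (Ideal.span {t} : Ideal R) ≠ ⊤ := by
    rw [Ideal.over_def P (Ideal.span {t})]
    exact (Ideal.IsPrime.under R P).ne_top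
  haveI : Nontrivial (R ⧸ (Ideal.span {t} : Ideal R)) := Ideal.Quotient.nontrivial_iff.mpr hne
  have hsurj : Function.Surjective (algebraMap (R ⧸ (Ideal.span {t} : Ideal R)) (B ⧸ P)) := by
    intro w
    obtain ⟨b, rfl⟩ := Ideal.Quotient.mk_surjective w
    obtain ⟨c, hc⟩ := exists_sub_mem_of_prime_generic ψ t hψ P htP b
    refine ⟨Ideal.Quotient.mk _ (algebraMap K R c), ?_⟩
    rw [Ideal.Quotient.algebraMap_mk_of_liesOver,
      ← IsScalarTower.algebraMap_apply K R B, eq_comm, ← sub_eq_zero, ← map_sub,
      Ideal.Quotient.eq_zero_iff_mem]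
    exact hc
  have hbij : Function.Bijective (algebraMap (R ⧸ (Ideal.span {t} : Ideal R)) (B ⧸ P)) :=
    ⟨FaithfulSMul.algebraMap_injective _ _, hsurj⟩
  let e : (R ⧸ (Ideal.span {t} : Ideal R)) ≃ₗ[R ⧸ (Ideal.span {t} : Ideal R)] (B ⧸ P) :=
    LinearEquiv.ofBijective (Algebra.linearMap _ _) hbij
  rw [← e.finrank_eq, Module.finrank_self]

end ResidueGeneric

section Residue

variable {K F : Type*} [Field K] [Field F] [Algebra K F] {y : F}

/-- The residue map `K[y] → K`, `y ↦ 0`. -/
noncomputable def resMap (hy : Transcendental K y) : R0 (K := K) y →ₐ[K] K :=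
  (Polynomial.aeval (0 : K)).comp (Polynomial.algEquivOfTranscendental K y hy).symm.toAlgHom

theorem sub_resMap_mem (hy : Transcendental K y) (r : R0 (K := K) y) :
    r - algebraMap K (R0 (K := K) y) (resMap hy r) ∈ p0 K y := by
  obtain ⟨f, rfl⟩ := (Polynomial.algEquivOfTranscendental K y hy).surjective r
  have hres : resMap hy (Polynomial.algEquivOfTranscendental K y hy f) = f.coeff 0 := by
    simp [resMap, Polynomial.coeff_zero_eq_aeval_zero]
  rw [hres]
  obtain ⟨g, hg⟩ := Polynomial.X_dvd_sub_C (p := f)
  rw [Ideal.mem_span_singleton]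
  refine ⟨Polynomial.algEquivOfTranscendental K y hy g, ?_⟩
  have := congrArg (Polynomial.algEquivOfTranscendental K y hy) hg
  rw [map_sub, map_mul] at this
  have hX : Polynomial.algEquivOfTranscendental K y hy X = gen0 (K := K) y :=
    Polynomial.algEquivOfTranscendental_apply_X K y hy
  have hC : Polynomial.algEquivOfTranscendental K y hy (C (f.coeff 0))
      = algebraMap K (R0 (K := K) y) (f.coeff 0) := by
    rw [← Polynomial.algebraMap_eq, AlgEquiv.commutes]
  rw [hX, hC] at this
  exact this

instance faithfulSMul_R0_B0 : FaithfulSMul (R0 (K := K) y) (B0 (K := K) y) :=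
  (faithfulSMul_iff_algebraMap_injective _ _).mpr fun _ _ h =>
    Subtype.ext (congrArg (fun x : B0 (K := K) y => (x : F)) h)

end Residue

section Assembly

variable {K F : Type*} [Field K] [Field F] [Algebra K F] {y : F}

theorem zeros_main [IsAlgClosed K] [CharZero K] (hy : Transcendental K y)
    [FiniteDimensional K⟮y⟯ F] :
    {v : Place K F | 0 < v.ord y}.Finite ∧
      ∑ᶠ v ∈ {v : Place K F | 0 < v.ord y}, v.ord y = (Module.finrank K⟮y⟯ F : ℤ) := by
  haveI := isPrincipalIdealRing_R0 hy
  haveI := isDedekindDomain_B0 (F := F) hy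
  haveI := isFractionRing_B0 (K := K) (F := F) (y := y)
  haveI := finite_B0 (F := F) hy
  haveI := p0_isMaximal hy
  have hp0 := p0_ne_bot hy
  have hsum := Ideal.sum_ramification_inertia (B0 (K := K) y) K⟮y⟯ F hp0
  set T := IsDedekindDomain.primesOverFinset (p0 K y) (B0 (K := K) y) with hT
  have hT_mem : ∀ P ∈ T, P.IsPrime ∧ P.LiesOver (p0 K y) := fun P hP =>
    (IsDedekindDomain.mem_primesOverFinset_iff hp0 _).mp hP
  have hT_ne : ∀ P ∈ T, P ≠ ⊥ := fun P hP => by
    haveI := (hT_mem P hP).2
    exact Ideal.ne_bot_of_liesOver_of_ne_bot hp0 P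
  -- the places attached to the primes over `(y)`
  let g : T → Place K F := fun P =>
    Place.ofHeightOneSpectrum (K := K) (F := F)
      (⟨P.1, (hT_mem P.1 P.2).1, hT_ne P.1 P.2⟩ : HeightOneSpectrum (B0 (K := K) y))
  have hg_inj : Function.Injective g := by
    intro P Q hPQ
    have := ofHeightOneSpectrum_injective (K := K) (F := F) hPQ
    exact Subtype.ext (congrArg HeightOneSpectrum.asIdeal this)
  have hg_ord : ∀ P : T, (g P).ord y = (Ideal.ramificationIdx' (p0 K y) P.1 : ℤ) := fun P =>
    ord_eq_ramificationIdx hy P.1 (hT_mem P.1 P.2).1 (hT_ne P.1 P.2)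
  -- ramification indices are positive
  have he_pos : ∀ P ∈ T, Ideal.ramificationIdx' (p0 K y) P ≠ 0 := fun P hP => by
    haveI := (hT_mem P hP).2
    haveI := (hT_mem P hP).1
    exact Ideal.IsDedekindDomain.ramificationIdx'_ne_zero_of_liesOver P hp0
  -- inertia degrees are one
  have hf_one : ∀ P ∈ T, Ideal.inertiaDeg' (p0 K y) P = 1 := fun P hP => by
    haveI := (hT_mem P hP).2
    haveI := (hT_mem P hP).1
    exact inertiaDeg'_eq_one_generic (resMap hy) (gen0 (K := K) y) (sub_resMap_mem hy) P
  -- the zeros of `y` are exactly the places `g P`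
  have hZ : {v : Place K F | 0 < v.ord y} = Set.range g := by
    ext v
    constructor
    · intro hv
      have hyv : y ∈ v.toValuationSubring := mem_of_ord_pos v hv
      have hynon : y ∈ v.toValuationSubring.nonunits := mem_nonunits_of_ord_pos v hv
      set P := centre (K := K) v hyv with hP
      have hyP : yB (K := K) (y := y) ∈ P := (mem_centre v hyv _).mpr hynon
      have hPne : P ≠ ⊥ := fun h => yB_ne_zero hy (by rw [h] at hyP; exact hyP)
      have hPprime : P.IsPrime := centre_isPrime v hyv
      have hlies : P.LiesOver (p0 K y) := by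
        constructor
        refine Ideal.IsMaximal.eq_of_le (p0_isMaximal hy)
          (Ideal.IsPrime.under (R0 (K := K) y) P).ne_top ?_
        rw [Ideal.span_singleton_le_iff_mem]
        exact hyP
      have hPT : P ∈ T := (IsDedekindDomain.mem_primesOverFinset_iff hp0 _).mpr ⟨hPprime, hlies⟩
      refine ⟨⟨P, hPT⟩, ?_⟩
      symm
      exact eq_ofHeightOneSpectrum v _ (fun b => B0_le v hyv b)
        (fun b hb => (mem_centre v hyv b).mpr hb)
    · rintro ⟨P, rfl⟩
      show 0 < (g P).ord y
      rw [hg_ord P]
      exact_mod_cast Nat.pos_of_ne_zero (he_pos P.1 P.2)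
  refine ⟨hZ ▸ Set.finite_range g, ?_⟩
  rw [hZ, finsum_mem_range hg_inj, finsum_eq_sum_of_fintype]
  simp_rw [hg_ord]
  rw [Finset.sum_coe_sort T (fun P => (Ideal.ramificationIdx' (p0 K y) P : ℤ)), ← hsum]
  push_cast
  refine Finset.sum_congr rfl fun P hP => ?_
  rw [hf_one P hP]
  simp

end Assembly

section Final

variable {K F : Type*} [Field K] [Field F] [Algebra K F] [IsAlgClosed K] [CharZero K]

/-- A non-constant function has finitely many zeros. -/
theorem zeros_finite (y : F) (hy : Transcendental K y)
    [FiniteDimensional (IntermediateField.adjoin K ({y} : Set F)) F] :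
    {v : Place K F | 0 < v.ord y}.Finite :=
  (zeros_main hy).1

/-- **Zeros theorem**: the number of zeros of a non-constant function `y`, counted with
multiplicity, is the degree `[F : K(y)]`. -/
theorem sum_ord_zeros (y : F) (hy : Transcendental K y)
    [FiniteDimensional (IntermediateField.adjoin K ({y} : Set F)) F] :
    ∑ᶠ v ∈ {v : Place K F | 0 < v.ord y}, v.ord y =
      (Module.finrank (IntermediateField.adjoin K ({y} : Set F)) F : ℤ) :=
  (zeros_main hy).2

end Final

end Fermat.Agent.S24.Zeros
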