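import Fermat.Agent.S24.EvDataInst
import Fermat.Agent.S24.FinitePackageFinal
import Fermat.Agent.S24.Degree
import Fermat.Agent.S24.Zeros
import Fermat.Agent.S24.CombNumerics

/-!
# S24 (block B): `ModularRamificationData N` from the embedding package at the cusp

Everything except the package `hinf` at `i∞` is closed here:
degree (helper91's `Degree` instantiated with `EvDataInst`), zeros theorem (helper44's `Zeros`),
orbit numerics (helper60's `CombNumerics`), finite packages (`FinitePackageFinal`).
-/

set_option autoImplicit false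
set_option linter.unusedSectionVars false

open ModularCurve UpperHalfPlane IntermediateField AlgebraicCurve
open scoped MatrixGroups

noncomputable section

namespace Fermat.Agent.S24.BlockB

open Fermat.Agent.S24.FieldGen Fermat.Agent.S24.RamGlue Fermat.Agent.S24.EvDataInst
  Fermat.Agent.S24.FinitePackage Fermat.Agent.S24.CuspExpansion

variable [Algebra Kbar ℂ] (N : ℕ) [NeZero N]

theorem finrank_le :
    FiniteDimensional Kbar⟮jBar N⟯ (FBar N) ∧
      Module.finrank Kbar⟮jBar N⟯ (FBar N) ≤ dedekindPsi N :=
  Degree.finrank_le N (evFun N) (fun _ hd => evFun_genJ N hd) (merCuspAlg 1) (cuspLaurentHom 1)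
    (evFun_merAtCusp N) (fun a => cuspHomK_evR N a)

theorem card_cosets : Nat.card (Cosets N) = dedekindPsi N := Comb.card_X0 N

theorem finrank_eq : Module.finrank Kbar⟮jBar N⟯ (FBar N) = dedekindPsi N := by
  obtain ⟨σ, ζ, ξ, hσ, -, -, hξ, -, -⟩ := hgen_of_evData (evData N) (1 : Kbar) one_ne_zero
    (by norm_num)
  refine Degree.finrank_eq_of_family N (finrank_le N) σ hσ
    (ξ + algebraMap Kbar (LaurentSeries ℂ) 1) (fun c => ?_) ?_
  · have := hξ c
    rw [map_sub, AlgHom.commutes] at this
    rw [← this]
    ring
  · rw [← Nat.card_eq_fintype_card]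
    exact card_cosets N

/-- **Block B modulo the cusp package.** -/
theorem modularRamificationData_of_hinf
    (hinf : ∃ g : SL(2, ℤ), Subgroup.zpowers g = Subgroup.zpowers ModularGroup.T ∧
      HasEmbeddings N (jBar N)⁻¹ g N) :
    ModularRamificationData N := by
  refine RamGlue.modularRamificationData (JTranscendental.transcendental_jBar N)
    (finrank_le N).1 (finrank_eq N) ?_ (card_cosets N) ?_ ?_ ?_
    (fun a ha0 ha1 => hgen_of_evData (evData N) a ha0 ha1) (h0_of_evData (evData N))
    (h1728_of_evData (evData N)) hinf
  · intro y hy hfd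
    have := hfd
    exact ⟨Zeros.zeros_finite y hy, Zeros.sum_ord_zeros y hy⟩
  · exact Comb.three_mul_numOrbits_ST N
  · exact Comb.two_mul_numOrbits_S N
  · exact Comb.numOrbits_T N

end Fermat.Agent.S24.BlockB
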