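/-
S24, B7.d (lemma row 66): number of `⟨T⟩`-orbits on the `CombModel` projective line `Comb.P1 N`
equals `cuspCount N`.  Thin wrapper: transported from `CuspCount.card_orbits_T`
(stated on `SL(2, ℤ) ⧸ Γ₀(N)`) along `Comb.X0.equivP1`.
-/
import Fermat.Agent.S24.CombModel
import Fermat.Agent.S24.CuspCount

set_option autoImplicit false

open MatrixGroups

namespace Fermat.Agent.S24.Comb

theorem card_orbits_T (N : ℕ) [NeZero N] :
    Nat.card (MulAction.orbitRel.Quotient (Subgroup.zpowers ModularGroup.T) (P1 N))
      = ModularCurve.cuspCount N := by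
  rw [← card_orbitQuotient_eq (X0.equivP1 (N := N)) X0.equivP1_smul
    (Subgroup.zpowers ModularGroup.T)]
  exact Fermat.Agent.S24.CuspCount.card_orbits_T

end Fermat.Agent.S24.Comb
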