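import Mathlib
import Fermat.Agent.S24.CuspExpansion
import Fermat.Agent.S24.LaurentAux

/-!
# S24 / S20 (L): the normalized derivative `D = (2πi)⁻¹ d/dτ` at the cusp `i∞` of width `h`

On top of `CuspExpansion`: `D` preserves `MerAtCusp h` and acts on Laurent expansions in
`u = exp (2πiτ/h)` by `a_k ↦ (k / h) a_k` (i.e. `(1/h) u d/du`).  Also: criteria for boundedness and
vanishing at `i∞` in terms of the Laurent coefficients.
-/

set_option autoImplicit false
set_option linter.unusedSectionVars false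

namespace Fermat.Agent.S24.CuspDeriv

open UpperHalfPlane hiding I
open Filter Function Complex Derivative
open Fermat.Agent.S24.CuspExpansion
open scoped Manifold Topology Real

variable {h : ℕ} [NeZero h]

/-! ### Derivative of the local parameter -/

theorem hasDerivAt_qParam (w : ℂ) :
    HasDerivAt (Function.Periodic.qParam (h : ℝ))
      (2 * π * I / h * Function.Periodic.qParam (h : ℝ) w) w := by
  have h1 : HasDerivAt (fun z : ℂ => 2 * π * I * z / ((h : ℝ) : ℂ)) (2 * π * I / ((h : ℝ) : ℂ)) w := by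
    have := ((hasDerivAt_id w).const_mul (2 * π * I)).div_const (((h : ℝ) : ℂ))
    simpa using this
  have h2 := h1.cexp
  have h3 : (fun z : ℂ => cexp (2 * π * I * z / ((h : ℝ) : ℂ))) =
      Function.Periodic.qParam (h : ℝ) := by
    funext z
    simp [Function.Periodic.qParam]
  rw [h3] at h2
  have h4 : cexp (2 * π * I * w / ((h : ℝ) : ℂ)) = Function.Periodic.qParam (h : ℝ) w := by
    simp [Function.Periodic.qParam]
  rw [h4] at h2
  have e : 2 * (π : ℂ) * I / (h : ℂ) * Function.Periodic.qParam (h : ℝ) w =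
      Function.Periodic.qParam (h : ℝ) w * (2 * π * I / ((h : ℝ) : ℂ)) := by
    push_cast
    ring
  rw [e]
  exact h2

/-- On the upper half plane, `f ∘ ofComplex` agrees with `cuspFunction h f ∘ 𝕢 h`. -/
theorem comp_ofComplex_eventuallyEq {f : ℍ → ℂ} (hf : HolAtCusp h f) (τ : ℍ) :
    (f ∘ ofComplex) =ᶠ[𝓝 (τ : ℂ)]
      fun w : ℂ => cuspFunction (h : ℝ) f (Function.Periodic.qParam (h : ℝ) w) := by
  have hopen : IsOpen {w : ℂ | 0 < w.im} := isOpen_upperHalfPlaneSet
  filter_upwards [hopen.mem_nhds τ.im_pos] with w hw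
  have h0 := eq_cuspFunction (f := f) (ofComplex w) (hpos h).ne' hf.per
  rw [ofComplex_apply_of_im_pos hw] at h0
  simp only [Function.comp_apply]
  rw [ofComplex_apply_of_im_pos hw]
  exact h0.symm

/-- `D f τ = (1/h) · u · G'(u)` where `G = cuspFunction h f`, `u = qh h τ`. -/
theorem D_eq {f : ℍ → ℂ} (hf : HolAtCusp h f) (τ : ℍ) :
    D f τ = (1 / (h : ℂ)) * qh h τ * deriv (cuspFunction (h : ℝ) f) (qh h τ) := by
  have hu : ‖qh h τ‖ < 1 := norm_qh_lt_one h τ
  have hG : DifferentiableAt ℂ (cuspFunction (h : ℝ) f) (qh h τ) :=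
    differentiableAt_cuspFunction (hpos h) hf.per hf.hol hf.bdd hu
  have h1 : HasDerivAt (fun w : ℂ => cuspFunction (h : ℝ) f (Function.Periodic.qParam (h : ℝ) w))
      (deriv (cuspFunction (h : ℝ) f) (qh h τ) *
        (2 * π * I / h * Function.Periodic.qParam (h : ℝ) (τ : ℂ))) (τ : ℂ) := by
    have := HasDerivAt.comp (τ : ℂ) (h₂ := cuspFunction (h : ℝ) f)
      (h := Function.Periodic.qParam (h : ℝ)) hG.hasDerivAt (hasDerivAt_qParam (h := h) (τ : ℂ))
    exact this
  have h2 : deriv (f ∘ ofComplex) (τ : ℂ) = deriv (cuspFunction (h : ℝ) f) (qh h τ) *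
        (2 * π * I / h * Function.Periodic.qParam (h : ℝ) (τ : ℂ)) := by
    rw [(comp_ofComplex_eventuallyEq hf τ).deriv_eq]
    exact h1.deriv
  have hne : (2 * (π : ℂ) * I) ≠ 0 := two_pi_I_ne_zero
  have hh : (h : ℂ) ≠ 0 := by exact_mod_cast NeZero.ne h
  rw [normalizedDerivOfComplex, h2]
  show _ = (1 / (h : ℂ)) * Function.Periodic.qParam (h : ℝ) (τ : ℂ) * _
  field_simp

/-- Termwise differentiation of the `q`-expansion. -/
theorem hasSum_deriv_cuspFunction {f : ℍ → ℂ} (hf : HolAtCusp h f) {u : ℂ} (hu : ‖u‖ < 1) :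
    HasSum (fun n : ℕ => ((n : ℂ) + 1) * (qExpansion (h : ℝ) f).coeff (n + 1) * u ^ n)
      (deriv (cuspFunction (h : ℝ) f) u) := by
  have hG : DifferentiableOn ℂ (cuspFunction (h : ℝ) f) (Metric.ball 0 1) :=
    differentiableOn_cuspFunction_ball (hpos h) hf.per hf.hol hf.bdd
  have hG' : DifferentiableOn ℂ (deriv (cuspFunction (h : ℝ) f)) (Metric.ball 0 1) :=
    hG.deriv Metric.isOpen_ball
  have hu' : u ∈ Metric.ball (0 : ℂ) 1 := by simpa using hu
  have hs := hasSum_taylorSeries_on_ball hG' hu'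
  have hfun : (fun n : ℕ => ((n.factorial : ℕ) : ℂ)⁻¹ • (u - 0) ^ n •
      iteratedDeriv n (deriv (cuspFunction (h : ℝ) f)) 0) =
      fun n : ℕ => ((n : ℂ) + 1) * (qExpansion (h : ℝ) f).coeff (n + 1) * u ^ n := by
    funext n
    rw [qExpansion_coeff, ← iteratedDeriv_succ', sub_zero, smul_eq_mul, smul_eq_mul,
      Nat.factorial_succ]
    have hn : ((n.factorial : ℕ) : ℂ) ≠ 0 := by exact_mod_cast n.factorial_ne_zero
    have hn1 : ((n : ℂ) + 1) ≠ 0 := by exact_mod_cast n.succ_ne_zero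
    push_cast
    field_simp
  rw [hfun] at hs
  exact hs

/-- `D` of a function holomorphic at the cusp: again holomorphic at the cusp, and the
`n`-th coefficient gets multiplied by `n / h`. -/
theorem HolAtCusp_D {f : ℍ → ℂ} (hf : HolAtCusp h f) :
    HolAtCusp h (D f) ∧ ∀ n : ℕ, (qExpansion (h : ℝ) (D f)).coeff n =
      (n : ℂ) / h * (qExpansion (h : ℝ) f).coeff n := by
  have hper : Periodic ((D f) ∘ ofComplex) (h : ℝ) := by
    intro z
    simp only [Function.comp_apply]
    by_cases hz : 0 < z.im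
    · have hz' : 0 < (z + ((h : ℝ) : ℂ)).im := by simpa using hz
      rw [ofComplex_apply_of_im_pos hz, ofComplex_apply_of_im_pos hz', D_eq hf, D_eq hf]
      have : qh h ⟨z + ((h : ℝ) : ℂ), hz'⟩ = qh h ⟨z, hz⟩ := qParam_add_period h z
      rw [this]
    · have hz' : ¬ 0 < (z + ((h : ℝ) : ℂ)).im := by simpa using hz
      rw [ofComplex_apply_of_im_nonpos (not_lt.mp hz),
        ofComplex_apply_of_im_nonpos (not_lt.mp hz')]
  have hhol : MDiff (D f) := normalizedDerivOfComplex_mdifferentiable hf.hol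
  have hh : (h : ℂ) ≠ 0 := by exact_mod_cast NeZero.ne h
  have hs : ∀ τ : ℍ, HasSum (fun n : ℕ => ((n : ℂ) / h * (qExpansion (h : ℝ) f).coeff n) *
      qh h τ ^ n) (D f τ) := by
    intro τ
    have h1 := (hasSum_deriv_cuspFunction hf (norm_qh_lt_one h τ)).mul_left
      ((1 / (h : ℂ)) * qh h τ)
    rw [← D_eq hf τ] at h1
    rw [← hasSum_nat_add_iff' 1]
    simp only [Finset.range_one, Finset.sum_singleton, Nat.cast_zero, zero_div, zero_mul, sub_zero]
    have hfun : (fun i : ℕ => 1 / (h : ℂ) * qh h τ *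
        (((i : ℂ) + 1) * (qExpansion (h : ℝ) f).coeff (i + 1) * qh h τ ^ i)) =
        fun n : ℕ => (((n + 1 : ℕ) : ℂ) / h * (qExpansion (h : ℝ) f).coeff (n + 1)) *
          qh h τ ^ (n + 1) := by
      funext n
      push_cast
      rw [pow_succ]
      field_simp
    rw [hfun] at h1
    exact h1
  obtain ⟨h1, h2⟩ := HolAtCusp.of_hasSum hper hhol hs
  refine ⟨h1, fun n => ?_⟩
  rw [h2, PowerSeries.coeff_mk]

/-! ### `D` on functions meromorphic at the cusp -/

theorem D_qh (τ : ℍ) : D (qh h) τ = (1 / (h : ℂ)) * qh h τ := by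
  have hev : (qh h ∘ ofComplex) =ᶠ[𝓝 (τ : ℂ)] Function.Periodic.qParam (h : ℝ) := by
    filter_upwards [isOpen_upperHalfPlaneSet.mem_nhds τ.im_pos] with w hw
    simp only [Function.comp_apply]
    rw [ofComplex_apply_of_im_pos hw]
    rfl
  have hne : (2 * (π : ℂ) * I) ≠ 0 := two_pi_I_ne_zero
  have hh : (h : ℂ) ≠ 0 := by exact_mod_cast NeZero.ne h
  rw [normalizedDerivOfComplex, hev.deriv_eq, (hasDerivAt_qParam (h := h) (τ : ℂ)).deriv]
  show _ = (1 / (h : ℂ)) * Function.Periodic.qParam (h : ℝ) (τ : ℂ)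
  field_simp

theorem D_qh_pow (m : ℕ) (τ : ℍ) : D (qh h ^ m) τ = ((m : ℂ) / h) * qh h τ ^ m := by
  rw [normalizedDerivOfComplex_pow _ _ (qh_mdiff h)]
  simp only [Pi.mul_apply, Pi.pow_apply, D_qh]
  cases m with
  | zero => simp
  | succ m =>
    simp only [Nat.add_sub_cancel, Pi.natCast_apply]
    rw [pow_succ]
    ring

theorem periodic_D {f : ℍ → ℂ} (hper : Periodic (f ∘ ofComplex) (h : ℝ)) :
    Periodic ((D f) ∘ ofComplex) (h : ℝ) := by
  intro z
  simp only [Function.comp_apply]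
  by_cases hz : 0 < z.im
  · have hz' : 0 < (z + ((h : ℝ) : ℂ)).im := by simpa using hz
    rw [ofComplex_apply_of_im_pos hz, ofComplex_apply_of_im_pos hz']
    simp only [normalizedDerivOfComplex]
    congr 1
    have h1 : (fun x : ℂ => (f ∘ ofComplex) (x + ((h : ℝ) : ℂ))) = f ∘ ofComplex := by
      funext x
      exact hper x
    rw [← deriv_comp_add_const, h1]
  · have hz' : ¬ 0 < (z + ((h : ℝ) : ℂ)).im := by simpa using hz
    rw [ofComplex_apply_of_im_nonpos (not_lt.mp hz),
      ofComplex_apply_of_im_nonpos (not_lt.mp hz')]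

/-- **`D` at the cusp.** `D` preserves `MerAtCusp h` and multiplies the `k`-th Laurent
coefficient by `k / h`. -/
theorem MerAtCusp_D {f : ℍ → ℂ} (hf : MerAtCusp h f) :
    MerAtCusp h (D f) ∧ ∀ k : ℤ, (cuspLaurent h (D f)).coeff k =
      (k : ℂ) / h * (cuspLaurent h f).coeff k := by
  obtain ⟨m, hm⟩ := hf.mer
  have hG := hf.holAtCusp_mul hm
  obtain ⟨hDG, hDGc⟩ := HolAtCusp_D hG
  have hDf : MDiff (D f) := normalizedDerivOfComplex_mdifferentiable hf.hol
  -- product rule
  have hprod : qh h ^ m * D f = D (qh h ^ m * f) + (fun _ : ℍ => -((m : ℂ) / h)) * (qh h ^ m * f) := by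
    rw [normalizedDerivOfComplex_mul _ _ ((HolAtCusp.qh h).pow m).hol hf.hol]
    funext τ
    simp only [Pi.add_apply, Pi.mul_apply, D_qh_pow, Pi.pow_apply]
    ring
  have hK : HolAtCusp h (qh h ^ m * D f) := by
    rw [hprod]
    exact hDG.add ((HolAtCusp.const _).mul hG)
  have hmer : MerAtCusp h (D f) := ⟨periodic_D hf.per, hDf, ⟨m, hK.bdd⟩⟩
  refine ⟨hmer, fun k => ?_⟩
  rw [coeff_cuspLaurent hmer hK.bdd, coeff_cuspLaurent hf hm]
  split_ifs with hk
  · rw [hprod, qExpansion_add' hDG ((HolAtCusp.const _).mul hG),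
      qExpansion_mul' (HolAtCusp.const _) hG, qExpansion_const', map_add, hDGc,
      PowerSeries.coeff_C_mul]
    have : (((k + (m : ℤ)).toNat : ℕ) : ℂ) = (k : ℂ) + m := by
      have := Int.toNat_of_nonneg hk
      exact_mod_cast this
    rw [this]
    ring
  · rw [mul_zero]

/-- The same statement with the derivation `lderiv = d/du` of `LaurentAux`:
`cuspLaurent h (D f) = (1/h) · u · d/du (cuspLaurent h f)`. -/
theorem cuspLaurent_D_eq_lderiv {f : ℍ → ℂ} (hf : MerAtCusp h f) :
    cuspLaurent h (D f) = HahnSeries.C (1 / (h : ℂ)) *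
      (HahnSeries.single (1 : ℤ) (1 : ℂ) * Fermat.Agent.S24.lderiv (cuspLaurent h f)) := by
  ext k
  rw [(MerAtCusp_D hf).2 k, HahnSeries.C_mul_eq_smul, HahnSeries.coeff_smul,
    HahnSeries.coeff_single_mul, one_mul, Fermat.Agent.S24.coeff_lderiv, smul_eq_mul]
  rw [sub_add_cancel]
  push_cast
  ring

/-! ### Boundedness and vanishing criteria -/

/-- No negative Laurent coefficients ⇒ holomorphic (in particular bounded) at the cusp. -/
theorem holAtCusp_of_coeff_neg {f : ℍ → ℂ} (hf : MerAtCusp h f)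
    (hneg : ∀ k : ℤ, k < 0 → (cuspLaurent h f).coeff k = 0) : HolAtCusp h f := by
  obtain ⟨m, hm⟩ := hf.mer
  have hG := hf.holAtCusp_mul hm
  have hc : ∀ n : ℕ, n < m → (qExpansion (h : ℝ) (qh h ^ m * f)).coeff n = 0 := by
    intro n hn
    have h1 := hneg ((n : ℤ) - m) (by omega)
    rw [coeff_cuspLaurent hf hm, if_pos (by omega)] at h1
    have : ((n : ℤ) - m + m).toNat = n := by
      rw [sub_add_cancel, Int.toNat_natCast]
    rwa [this] at h1
  refine (HolAtCusp.of_hasSum (c := fun n => (qExpansion (h : ℝ) (qh h ^ m * f)).coeff (n + m))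
    hf.per hf.hol (fun τ => ?_)).1
  have h1 := hG.hasSum τ
  rw [← hasSum_nat_add_iff' m] at h1
  have hzero : ∑ i ∈ Finset.range m,
      (qExpansion (h : ℝ) (qh h ^ m * f)).coeff i * qh h τ ^ i = 0 := by
    apply Finset.sum_eq_zero
    intro i hi
    rw [hc i (Finset.mem_range.mp hi), zero_mul]
  rw [hzero, sub_zero] at h1
  have h2 := h1.mul_left ((qh h τ ^ m)⁻¹)
  have hu : qh h τ ^ m ≠ 0 := pow_ne_zero m (qh_ne_zero h τ)
  have e1 : (qh h τ ^ m)⁻¹ * (qh h ^ m * f) τ = f τ := by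
    simp only [Pi.mul_apply, Pi.pow_apply]
    field_simp
  rw [e1] at h2
  have hfun : (fun i : ℕ => (qh h τ ^ m)⁻¹ *
      ((qExpansion (h : ℝ) (qh h ^ m * f)).coeff (i + m) * qh h τ ^ (i + m))) =
      fun n : ℕ => (qExpansion (h : ℝ) (qh h ^ m * f)).coeff (n + m) * qh h τ ^ n := by
    funext n
    rw [pow_add]
    field_simp
  rw [hfun] at h2
  exact h2

/-- Laurent coefficients vanish for `k ≤ 0` (i.e. order `≥ 1`) ⇒ the function is zero at `i∞`. -/
theorem isZeroAtImInfty_of_coeff {f : ℍ → ℂ} (hf : MerAtCusp h f)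
    (hz : ∀ k : ℤ, k ≤ 0 → (cuspLaurent h f).coeff k = 0) : IsZeroAtImInfty f := by
  have hhol : HolAtCusp h f := holAtCusp_of_coeff_neg hf (fun k hk => hz k hk.le)
  have h0 : (qExpansion (h : ℝ) f).coeff 0 = 0 := by
    have := hz 0 le_rfl
    rw [cuspLaurent_of_holAtCusp hhol] at this
    have e := HahnSeries.ofPowerSeries_apply_coeff (Γ := ℤ) (qExpansion (h : ℝ) f) 0
    simp only [Nat.cast_zero] at e
    rwa [e] at this
  have h1 : (cuspFunction (h : ℝ) f ∘ fun τ : ℍ => Function.Periodic.qParam (h : ℝ) τ : ℍ → ℂ)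
      = f := by
    funext τ
    simpa using eq_cuspFunction τ (hpos h).ne' hhol.per
  have h2 := hhol.analyticAt.continuousAt.tendsto.comp (qParam_tendsto_atImInfty (hpos h))
  rw [h1] at h2
  have h3 : cuspFunction (h : ℝ) f 0 = 0 := by
    have := qExpansion_coeff (h := (h : ℝ)) f 0
    simp only [Nat.factorial_zero, Nat.cast_one, inv_one, one_mul, iteratedDeriv_zero] at this
    rw [← this, h0]
  rw [h3] at h2
  exact h2

/-- Conversely, a function holomorphic at the cusp has no negative Laurent coefficients. -/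
theorem coeff_neg_of_holAtCusp {f : ℍ → ℂ} (hf : HolAtCusp h f) {k : ℤ} (hk : k < 0) :
    (cuspLaurent h f).coeff k = 0 := by
  rw [cuspLaurent_of_holAtCusp hf]
  exact ofPowerSeries_coeff_neg _ hk

end Fermat.Agent.S24.CuspDeriv
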