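import Mathlib
import Fermat.Agent.S24.HolRing
import Fermat.Agent.S24.LaurentAux

/-!
# S24 (block II, piece II6): the generic construction of a family of embeddings
`F → ℂ((u))` out of an "expansion" of a ring of holomorphic functions

Setting: `A` is a domain and a `ℂ`-algebra, `i : A →ₐ[ℂ] holRing` an injective algebra map into
the holomorphic functions on `ℍ`, `E : A →+* ℂ((u))` an injective "expansion" (at a point of `ℍ`
in the disc coordinate, or at the cusp `∞` in `u = q^{1/N}`).  Both extend to `Frac A`, and the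
expansion descends to the subfield `merSub i hi` of `Mer` of all quotients of elements of `A`.

Given a field `F` with a ring hom `Φ : F →+* Mer` such that all `SL(2, ℤ)`-translates of `Φ x`
lie in `merSub`, we get the family `fam g x := expansion of (Φ x) ∘ g⁻¹` and prove the formal
properties required by the ramification glue: invariance under right multiplication by a
subgroup fixing `Φ`, separation, equivariance under an element acting on expansions by a
rotation, and compatibility with constants.
-/

set_option autoImplicit false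
set_option linter.unusedSectionVars false

open UpperHalfPlane Complex
open scoped MatrixGroups

noncomputable section

namespace Fermat.Agent.S24.FamilyCore

open Fermat.Agent.S24 Fermat.Agent.S24.HolRing

variable {A : Type*} [CommRing A] [IsDomain A] [Algebra ℂ A]
variable (i : A →ₐ[ℂ] holRing) (hi : Function.Injective i)
variable (E : A →+* LaurentSeries ℂ) (hE : Function.Injective E)

include hi in
/-- `A → holRing → Mer` is injective. -/
theorem toMer_aux_injective : Function.Injective ((algebraMap holRing Mer).comp (i : A →+* holRing)) :=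
  (IsFractionRing.injective holRing Mer).comp hi

/-- The extension of `i` to fraction fields. -/
def toMer : FractionRing A →+* Mer :=
  IsFractionRing.lift (toMer_aux_injective i hi)

@[simp] theorem toMer_algebraMap (a : A) :
    toMer i hi (algebraMap A (FractionRing A) a) = algebraMap holRing Mer (i a) := by
  simp [toMer]

theorem toMer_injective : Function.Injective (toMer i hi) := (toMer i hi).injective

/-- The extension of the expansion `E` to the fraction field. -/
def expFrac : FractionRing A →+* LaurentSeries ℂ := IsFractionRing.lift hE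

@[simp] theorem expFrac_algebraMap (a : A) :
    expFrac E hE (algebraMap A (FractionRing A) a) = E a := by
  simp [expFrac]

/-- The subfield of `Mer` of quotients of elements of `A`. -/
def merSub : Subfield Mer := (toMer i hi).fieldRange

theorem mem_merSub {x : Mer} : x ∈ merSub i hi ↔ ∃ y, toMer i hi y = x := Iff.rfl

theorem algebraMap_mem_merSub (a : A) : algebraMap holRing Mer (i a) ∈ merSub i hi :=
  ⟨algebraMap A (FractionRing A) a, toMer_algebraMap i hi a⟩

/-- `Frac A ≃ merSub`. -/
def fracEquiv : FractionRing A ≃+* merSub i hi :=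
  RingEquiv.ofBijective (toMer i hi).rangeRestrictField
    ⟨fun _ _ h => toMer_injective i hi (congrArg Subtype.val h),
     fun ⟨_, y, hy⟩ => ⟨y, Subtype.ext hy⟩⟩

@[simp] theorem coe_fracEquiv (y : FractionRing A) :
    ((fracEquiv i hi y : merSub i hi) : Mer) = toMer i hi y := rfl

/-- The expansion on `merSub`. -/
def expMer : merSub i hi →+* LaurentSeries ℂ :=
  (expFrac E hE).comp (fracEquiv i hi).symm.toRingHom

theorem expMer_injective : Function.Injective (expMer i hi E hE) := (expMer i hi E hE).injective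

theorem expMer_eq_of_toMer {x : merSub i hi} {y : FractionRing A} (h : toMer i hi y = x) :
    expMer i hi E hE x = expFrac E hE y := by
  have : (fracEquiv i hi).symm x = y := by
    rw [RingEquiv.symm_apply_eq]
    exact Subtype.ext h.symm
  simp [expMer, this]

theorem expMer_algebraMap (a : A) (h : algebraMap holRing Mer (i a) ∈ merSub i hi) :
    expMer i hi E hE ⟨algebraMap holRing Mer (i a), h⟩ = E a := by
  rw [expMer_eq_of_toMer i hi E hE (y := algebraMap A (FractionRing A) a) (by simp)]
  simp

/-! ### The family -/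

variable {F : Type*} [Field F] (Φ : F →+* Mer)
variable (hmem : ∀ (g : SL(2, ℤ)) (x : F), actMer g (Φ x) ∈ merSub i hi)

/-- `fam g x` is the expansion of `(Φ x) ∘ g⁻¹`. -/
def fam (g : SL(2, ℤ)) : F →+* LaurentSeries ℂ :=
  (expMer i hi E hE).comp
    ((((actMer g⁻¹ : Mer ≃+* Mer) : Mer →+* Mer).comp Φ).codRestrict (merSub i hi) (hmem g⁻¹))

theorem fam_apply (g : SL(2, ℤ)) (x : F) :
    fam i hi E hE Φ hmem g x = expMer i hi E hE ⟨actMer g⁻¹ (Φ x), hmem g⁻¹ x⟩ := rfl

theorem fam_eq_of_toMer (g : SL(2, ℤ)) (x : F) {y : FractionRing A}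
    (h : toMer i hi y = actMer g⁻¹ (Φ x)) : fam i hi E hE Φ hmem g x = expFrac E hE y := by
  rw [fam_apply]
  exact expMer_eq_of_toMer i hi E hE h

theorem fam_eq_of_algebraMap (g : SL(2, ℤ)) (x : F) {a : A}
    (h : algebraMap holRing Mer (i a) = actMer g⁻¹ (Φ x)) : fam i hi E hE Φ hmem g x = E a := by
  rw [fam_eq_of_toMer i hi E hE Φ hmem g x (y := algebraMap A (FractionRing A) a) (by simpa using h)]
  simp

theorem fam_injective (g : SL(2, ℤ)) : Function.Injective (fam i hi E hE Φ hmem g) :=
  (fam i hi E hE Φ hmem g).injective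

/-- Two members of the family are equal iff the translates of `Φ` agree. -/
theorem fam_eq_iff (g g' : SL(2, ℤ)) :
    fam i hi E hE Φ hmem g = fam i hi E hE Φ hmem g' ↔
      ∀ x, actMer g⁻¹ (Φ x) = actMer g'⁻¹ (Φ x) := by
  constructor
  · intro h x
    have := congrArg (fun f => f x) h
    simp only [fam_apply] at this
    exact congrArg Subtype.val (expMer_injective i hi E hE this)
  · intro h
    ext1 x
    simp only [fam_apply]
    congr 1
    exact Subtype.ext (h x)

/-- Invariance under right multiplication by elements fixing `Φ`. -/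
theorem fam_mul_right (g δ : SL(2, ℤ)) (hδ : ∀ x, actMer δ⁻¹ (Φ x) = Φ x) :
    fam i hi E hE Φ hmem (g * δ) = fam i hi E hE Φ hmem g := by
  rw [fam_eq_iff]
  intro x
  rw [mul_inv_rev, actMer_mul, hδ]

/-- Separation: equal members differ by an element fixing `Φ`. -/
theorem fam_eq_imp (g g' : SL(2, ℤ))
    (h : fam i hi E hE Φ hmem g = fam i hi E hE Φ hmem g') :
    ∀ x, actMer (g⁻¹ * g') (Φ x) = Φ x := by
  rw [fam_eq_iff] at h
  intro x
  rw [actMer_mul, h x, ← actMer_mul, inv_mul_cancel, actMer_one]

/-- Equivariance: if precomposition with `s⁻¹` acts on expansions of elements of `A` by the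
rotation `rot ζ`, then `fam (s * g) = rot ζ ∘ fam g`. -/
theorem fam_mul_left (s : SL(2, ℤ)) (ζ : ℂˣ)
    (hs : ∀ a : A, ∃ b : A, i b = actHol s⁻¹ (i a) ∧ E b = rot ζ (E a))
    (g : SL(2, ℤ)) (x : F) :
    fam i hi E hE Φ hmem (s * g) x = rot ζ (fam i hi E hE Φ hmem g x) := by
  obtain ⟨y, hy⟩ := hmem g⁻¹ x
  obtain ⟨a, b, hb, rfl⟩ := IsFractionRing.div_surjective (A := A) y
  have hb0 : b ≠ 0 := nonZeroDivisors.ne_zero hb
  obtain ⟨a', ha', hEa'⟩ := hs a
  obtain ⟨b', hb', hEb'⟩ := hs b
  rw [fam_eq_of_toMer i hi E hE Φ hmem g x hy]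
  have h2 : toMer i hi (algebraMap A (FractionRing A) a' / algebraMap A (FractionRing A) b')
      = actMer (s * g)⁻¹ (Φ x) := by
    rw [mul_inv_rev, actMer_mul, ← hy]
    simp only [map_div₀, toMer_algebraMap, actMer_algebraMap, ha', hb']
  rw [fam_eq_of_toMer i hi E hE Φ hmem (s * g) x h2]
  simp only [map_div₀, expFrac_algebraMap, hEa', hEb']

/-! ### Constants -/

section Constants

variable {K : Type*} [Field K] [Algebra K F] [Algebra K ℂ]
variable (hEC : ∀ c : ℂ, E (algebraMap ℂ A c) = HahnSeries.C c)
variable (hΦK : ∀ c : K, Φ (algebraMap K F c)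
  = algebraMap holRing Mer (algebraMap ℂ holRing (algebraMap K ℂ c)))

include hEC hΦK in
theorem fam_algebraMap (g : SL(2, ℤ)) (c : K) :
    fam i hi E hE Φ hmem g (algebraMap K F c) = algebraMap K (LaurentSeries ℂ) c := by
  rw [LaurentAux.algebraMap_eq_C', ← hEC]
  apply fam_eq_of_algebraMap
  rw [hΦK, actMer_algebraMap, AlgHom.commutes]
  congr 1

/-- The family as `K`-algebra homomorphisms. -/
def famAlg (g : SL(2, ℤ)) : F →ₐ[K] LaurentSeries ℂ :=
  { fam i hi E hE Φ hmem g with
    commutes' := fam_algebraMap i hi E hE Φ hmem hEC hΦK g }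

@[simp] theorem famAlg_apply (g : SL(2, ℤ)) (x : F) :
    famAlg i hi E hE Φ hmem hEC hΦK g x = fam i hi E hE Φ hmem g x := rfl

theorem famAlg_eq_iff (g g' : SL(2, ℤ)) :
    famAlg (K := K) i hi E hE Φ hmem hEC hΦK g = famAlg i hi E hE Φ hmem hEC hΦK g' ↔
      fam i hi E hE Φ hmem g = fam i hi E hE Φ hmem g' := by
  constructor
  · intro h
    ext1 x
    exact congrArg (fun f : F →ₐ[K] LaurentSeries ℂ => f x) h
  · intro h
    apply AlgHom.ext
    intro x
    exact congrArg (fun f : F →+* LaurentSeries ℂ => f x) h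

theorem famAlg_mul_right (g δ : SL(2, ℤ)) (hδ : ∀ x, actMer δ⁻¹ (Φ x) = Φ x) :
    famAlg (K := K) i hi E hE Φ hmem hEC hΦK (g * δ) = famAlg i hi E hE Φ hmem hEC hΦK g := by
  rw [famAlg_eq_iff]
  exact fam_mul_right i hi E hE Φ hmem g δ hδ

theorem famAlg_eq_imp (g g' : SL(2, ℤ))
    (h : famAlg (K := K) i hi E hE Φ hmem hEC hΦK g = famAlg i hi E hE Φ hmem hEC hΦK g') :
    ∀ x, actMer (g⁻¹ * g') (Φ x) = Φ x :=
  fam_eq_imp i hi E hE Φ hmem g g' ((famAlg_eq_iff i hi E hE Φ hmem hEC hΦK g g').mp h)

theorem famAlg_mul_left (s : SL(2, ℤ)) (ζ : ℂˣ)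
    (hs : ∀ a : A, ∃ b : A, i b = actHol s⁻¹ (i a) ∧ E b = rot ζ (E a))
    (g : SL(2, ℤ)) (x : F) :
    famAlg (K := K) i hi E hE Φ hmem hEC hΦK (s * g) x
      = rot ζ (famAlg (K := K) i hi E hE Φ hmem hEC hΦK g x) :=
  fam_mul_left i hi E hE Φ hmem s ζ hs g x

/-- The value of the family on an element whose image under `Φ` is an `SL(2, ℤ)`-invariant
element of `A`. -/
theorem famAlg_eq_of_invariant (g : SL(2, ℤ)) (x : F) (a : A)
    (hx : Φ x = algebraMap holRing Mer (i a)) (hinv : actHol g⁻¹ (i a) = i a) :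
    famAlg (K := K) i hi E hE Φ hmem hEC hΦK g x = E a := by
  rw [famAlg_apply]
  apply fam_eq_of_algebraMap
  rw [hx, actMer_algebraMap, hinv]

end Constants

end Fermat.Agent.S24.FamilyCore
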