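import Mathlib
import Fermat.Agent.S24.FieldGen
import Fermat.Agent.S24.FamilyCore

/-!
# S24 (block II, piece II6): from an evaluation `ev : genAlg N → (ℍ → ℂ)` to `Φ : FBar N → Mer`

`genAlg N` is the `ℚ̄`-algebra generated by the series `J_d`, `d ∣ N`, and `FBar N` its fraction
field (`FieldGen`).  An injective `ℚ̄`-algebra map `ev` from `genAlg N` into holomorphic functions
on `ℍ` extends to a ring hom `Φ : FBar N →+* Mer` into the field of meromorphic functions
(`HolRing.Mer`).  We record the properties of `Φ` needed to feed `FamilyCore`: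
constants, invariance, separation and membership of translates in a subfield `merSub`.
-/

set_option autoImplicit false
set_option linter.unusedSectionVars false
set_option linter.style.haveILetI false

open UpperHalfPlane Complex
open scoped MatrixGroups Manifold

noncomputable section

namespace Fermat.Agent.S24.EvPhi

open Fermat.Agent.S24 Fermat.Agent.S24.HolRing Fermat.Agent.S24.FieldGen
  Fermat.Agent.S24.FamilyCore

variable (N : ℕ) [NeZero N] [Algebra Kbar ℂ]
variable (ev : genAlg N →ₐ[Kbar] (ℍ → ℂ)) (hinj : Function.Injective ev)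
variable (hmd : ∀ a, MDiff (ev a))

/-- `ev` with values in `holRing`. -/
def evHol : genAlg N →+* holRing :=
  (ev : genAlg N →+* (ℍ → ℂ)).codRestrict holRing hmd

@[simp] theorem coe_evHol (a : genAlg N) : ((evHol N ev hmd a : holRing) : ℍ → ℂ) = ev a := rfl

include hinj in
theorem evHol_injective : Function.Injective (evHol N ev hmd) := fun _ _ h =>
  hinj (congrArg Subtype.val h)

/-- `ev` with values in `Mer`. -/
def evMer : genAlg N →+* Mer := (algebraMap holRing Mer).comp (evHol N ev hmd)

include hinj in
theorem evMer_injective : Function.Injective (evMer N ev hmd) :=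
  (IsFractionRing.injective holRing Mer).comp (evHol_injective N ev hinj hmd)

/-- The extension of `ev` to the function field. -/
def Phi : FBar N →+* Mer :=
  letI := algebraGenAlg N
  haveI := isFractionRing_genAlg N
  IsFractionRing.lift (K := FBar N) (evMer_injective N ev hinj hmd)

theorem Phi_incl (a : genAlg N) :
    Phi N ev hinj hmd (incl N a) = algebraMap holRing Mer (evHol N ev hmd a) := by
  letI := algebraGenAlg N
  haveI := isFractionRing_genAlg N
  exact IsFractionRing.lift_algebraMap (K := FBar N) (evMer_injective N ev hinj hmd) a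

theorem Phi_div (a b : genAlg N) :
    Phi N ev hinj hmd (incl N a / incl N b)
      = algebraMap holRing Mer (evHol N ev hmd a) / algebraMap holRing Mer (evHol N ev hmd b) := by
  rw [map_div₀, Phi_incl, Phi_incl]

theorem Phi_algebraMap (c : Kbar) :
    Phi N ev hinj hmd (algebraMap Kbar (FBar N) c)
      = algebraMap holRing Mer (algebraMap ℂ holRing (algebraMap Kbar ℂ c)) := by
  have h1 : algebraMap Kbar (FBar N) c = incl N (algebraMap Kbar (genAlg N) c) :=
    ((incl N).commutes c).symm
  rw [h1, Phi_incl]
  congr 1
  apply Subtype.ext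
  rw [coe_evHol, AlgHom.commutes]
  rfl

/-- Translates. -/
theorem actMer_Phi_div (g : SL(2, ℤ)) (a b : genAlg N) :
    actMer g (Phi N ev hinj hmd (incl N a / incl N b))
      = algebraMap holRing Mer (actHol g (evHol N ev hmd a))
        / algebraMap holRing Mer (actHol g (evHol N ev hmd b)) := by
  rw [Phi_div, map_div₀, actMer_algebraMap, actMer_algebraMap]

/-- Invariance of `ev` under `δ` gives invariance of `Φ`. -/
theorem actMer_Phi_of_invariant (δ : SL(2, ℤ)) (h : ∀ a τ, ev a (δ • τ) = ev a τ) (x : FBar N) :
    actMer δ (Phi N ev hinj hmd x) = Phi N ev hinj hmd x := by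
  obtain ⟨a, b, _, rfl⟩ := exists_div N x
  rw [actMer_Phi_div, Phi_div]
  have h1 : ∀ a, actHol δ (evHol N ev hmd a) = evHol N ev hmd a := fun a => by
    apply Subtype.ext
    funext τ
    rw [actHol_apply, coe_evHol, h]
  rw [h1, h1]

/-- Conversely, invariance of `Φ` gives invariance of `ev`. -/
theorem invariant_of_actMer_Phi (δ : SL(2, ℤ))
    (h : ∀ x, actMer δ (Phi N ev hinj hmd x) = Phi N ev hinj hmd x) (a : genAlg N) (τ : ℍ) :
    ev a (δ • τ) = ev a τ := by
  have h1 := h (incl N a)
  rw [Phi_incl, actMer_algebraMap] at h1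
  have h2 := IsFractionRing.injective holRing Mer h1
  have h3 := congrArg (fun f : holRing => (f : ℍ → ℂ) τ) h2
  simpa using h3

/-- Membership of all translates in the subfield attached to an expansion ring `A`. -/
theorem actMer_Phi_mem {A : Type*} [CommRing A] [IsDomain A] [Algebra ℂ A]
    (i : A →ₐ[ℂ] holRing) (hi : Function.Injective i)
    (h : ∀ (a : genAlg N) (g : SL(2, ℤ)), ∃ a' : A, ((i a' : holRing) : ℍ → ℂ) = fun τ => ev a (g • τ))
    (g : SL(2, ℤ)) (x : FBar N) :
    actMer g (Phi N ev hinj hmd x) ∈ merSub i hi := by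
  obtain ⟨a, b, _, rfl⟩ := exists_div N x
  rw [actMer_Phi_div]
  obtain ⟨a', ha'⟩ := h a g
  obtain ⟨b', hb'⟩ := h b g
  have h1 : actHol g (evHol N ev hmd a) = i a' := by
    apply Subtype.ext
    rw [ha']
    funext τ
    simp
  have h2 : actHol g (evHol N ev hmd b) = i b' := by
    apply Subtype.ext
    rw [hb']
    funext τ
    simp
  rw [h1, h2]
  exact (merSub i hi).div_mem (algebraMap_mem_merSub i hi a') (algebraMap_mem_merSub i hi b')

end Fermat.Agent.S24.EvPhi
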