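import Fermat.Agent.S24.Reduction
import Fermat.Agent.S24.Criterion
import Fermat.Agent.S24.CombNumerics
import Fermat.Agent.S24.Exchange
import Fermat.Agent.S24.PlaceDeg

/-!
# S24, block B8 (part 1): from embedding families to `ModularRamificationData`

This file is the *hypothesis form* of the final assembly of Block B.  It contains

* `HasEmbFamily φ Γ s y e`: the package delivered by the analytic block at one point of the
  `j`-line: a family `τ g : F →ₐ[K] ℂ((u))`, `g ∈ G`, of expansions, well defined on left cosets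
  `g Γ`, separated, rotation-equivariant under `s` and with `τ g y = ξ` of order `e`;
* `card_pos_ord_eq_numOrbits`: the abstract glue (criterion + zeros theorem + residue fields);
* `modularRamificationData_of`: the assembly of `ModularRamificationData N`.
-/

set_option autoImplicit false

open AlgebraicCurve IntermediateField ModularCurve MatrixGroups

namespace Fermat.Agent.S24.ModularGlue

open Fermat.Agent.S24.Comb Fermat.Agent.S24.Exchange

section Abstract

variable {K F : Type*} [Field K] [Field F] [Algebra K F]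

/-- The package delivered by the analytic block at one point: a family of `K`-embeddings
`τ g : F → ℂ((u))` indexed by a group `G`, constant on left cosets of `Γ`, separating the cosets,
equivariant (`τ (s * g) = rot ζ ∘ τ g`) for a primitive `e`-th root of unity `ζ`, and such that
`τ g y = ξ` is a fixed series of order `e`.  The `K`-algebra structure on `ℂ` is the one given
by `φ`. -/
def HasEmbFamily (φ : K →+* ℂ) {G : Type*} [Group G] (Γ : Subgroup G) (s : G) (y : F) (e : ℕ) :
    Prop :=
  let _ : Algebra K ℂ := φ.toAlgebra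
  ∃ (τ : G → F →ₐ[K] LaurentSeries ℂ) (ζ : ℂˣ) (ξ : LaurentSeries ℂ),
    (∀ g : G, ∀ δ ∈ Γ, τ (g * δ) = τ g) ∧
    (∀ g g' : G, τ g = τ g' → g⁻¹ * g' ∈ Γ) ∧
    IsPrimitiveRoot (ζ : ℂ) e ∧
    (∀ (g : G) (f : F), τ (s * g) f = rot ζ (τ g f)) ∧
    (∀ g : G, τ g y = ξ) ∧ ξ ≠ 0 ∧ ξ.order = e

/-- **Abstract glue.** The number of places at which `y` vanishes equals the number of orbits of
`s` on `G ⧸ Γ`, given an embedding family at `y`, the zeros theorem for `y`
(`∑_{v : y(v) = 0} ord_v y = n = |G ⧸ Γ|`) and residue fields equal to `K`. -/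
theorem card_pos_ord_eq_numOrbits (φ : K →+* ℂ) (y : F) (n : ℕ)
    (hfin : {v : Place K F | 0 < v.ord y}.Finite)
    (hsum : ∑ᶠ v ∈ {v : Place K F | 0 < v.ord y}, v.ord y = (n : ℤ))
    (hres : ∀ (w : Place K F) (f : F), f ≠ 0 → 0 ≤ w.ord f →
      ∃ c : K, f = algebraMap K F c ∨ 0 < w.ord (f - algebraMap K F c))
    {G : Type*} [Group G] (Γ : Subgroup G) [Finite (G ⧸ Γ)] (hcard : Nat.card (G ⧸ Γ) = n)
    (s : G) (e : ℕ) (he : 0 < e) (h : HasEmbFamily φ Γ s y e) :
    Nat.card {v : Place K F | 0 < v.ord y} = numOrbits (G ⧸ Γ) s := by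
  classical
  letI : Algebra K ℂ := φ.toAlgebra
  obtain ⟨τ, ζ, ξ, hτΓ, hτinj, hζ, hrot, hξ, hξ0, hξord⟩ := h
  haveI : Fintype (G ⧸ Γ) := Fintype.ofFinite _
  -- the family on the quotient
  have hwd : ∀ g g' : G, (QuotientGroup.leftRel Γ) g g' → τ g = τ g' := by
    intro g g' hgg'
    rw [QuotientGroup.leftRel_apply] at hgg'
    have := hτΓ g _ hgg'
    rw [mul_inv_cancel_left] at this
    exact this.symm
  let σ : G ⧸ Γ → F →ₐ[K] LaurentSeries ℂ := Quotient.lift τ hwd
  have hσmk : ∀ g : G, σ (QuotientGroup.mk g) = τ g := fun g => rfl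
  have hσinj : Function.Injective σ := by
    intro a b hab
    induction a using QuotientGroup.induction_on with
    | H g =>
    induction b using QuotientGroup.induction_on with
    | H g' =>
    rw [hσmk, hσmk] at hab
    exact QuotientGroup.eq.mpr (hτinj g g' hab)
  set Z : Finset (Place K F) := hfin.toFinset with hZdef
  have hZ : ∀ w : Place K F, w ∈ Z ↔ 0 < w.ord y := by
    intro w
    rw [hZdef, Set.Finite.mem_toFinset]
    exact Iff.rfl
  have hsumZ : ∑ w ∈ Z, w.ord y = n := by
    rw [← hsum, finsum_mem_eq_finite_toFinset_sum _ hfin]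
  have hπ : ∀ (i : G ⧸ Γ) (f : F), σ ((MulAction.toPerm s : Equiv.Perm (G ⧸ Γ)) i) f
      = rot ζ (σ i f) := by
    intro i f
    induction i using QuotientGroup.induction_on with
    | H g =>
    have : (MulAction.toPerm s : Equiv.Perm (G ⧸ Γ)) (QuotientGroup.mk g)
        = QuotientGroup.mk (s * g) := rfl
    rw [this, hσmk, hσmk, hrot]
  have hcard' : Fintype.card (G ⧸ Γ) = n := by
    rw [← Nat.card_eq_fintype_card, hcard]
  have hcrit := (criterion (K := K) (F := F) y n Z hZ hsumZ
    (fun w _ f hf hf0 => hres w f hf hf0) σ hσinj hcard' e he ζ hζ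
    (MulAction.toPerm s : Equiv.Perm (G ⧸ Γ)) hπ ξ
    (fun i => by
      induction i using QuotientGroup.induction_on with
      | H g => rw [hσmk, hξ]) hξ0 hξord).1
  have h1 : Nat.card {v : Place K F | 0 < v.ord y} = Z.card := by
    rw [Nat.card_eq_card_finite_toFinset hfin]
  rw [h1, ← hcrit]
  exact numOrbits_toPerm (X := G ⧸ Γ) s

end Abstract

section Modular

/-- Assembly of Block B in hypothesis form: degree, zeros theorem, and the four embedding
families (generic point, `ρ`, `i`, cusp). -/
theorem modularRamificationData_of (N : ℕ) [NeZero N] (φ : Kbar →+* ℂ)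
    (htr : Transcendental Kbar (jBar N))
    (hfd : FiniteDimensional (IntermediateField.adjoin Kbar ({jBar N} : Set (FBar N))) (FBar N))
    (hdeg : Module.finrank (IntermediateField.adjoin Kbar ({jBar N} : Set (FBar N))) (FBar N)
      = dedekindPsi N)
    (hzfin : ∀ y : FBar N, Transcendental Kbar y →
      FiniteDimensional (IntermediateField.adjoin Kbar ({y} : Set (FBar N))) (FBar N) →
      {v : Place Kbar (FBar N) | 0 < v.ord y}.Finite)
    (hzsum : ∀ y : FBar N, Transcendental Kbar y →
      FiniteDimensional (IntermediateField.adjoin Kbar ({y} : Set (FBar N))) (FBar N) →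
      ∑ᶠ v ∈ {v : Place Kbar (FBar N) | 0 < v.ord y}, v.ord y
        = (Module.finrank (IntermediateField.adjoin Kbar ({y} : Set (FBar N))) (FBar N) : ℤ))
    (hgen : ∀ a : Kbar, a ≠ 0 → a ≠ 1728 →
      HasEmbFamily φ (CongruenceSubgroup.Gamma0 N) (1 : SL(2, ℤ))
        (jBar N - algebraMap Kbar (FBar N) a) 1)
    (hzero : HasEmbFamily φ (CongruenceSubgroup.Gamma0 N) (ModularGroup.S * ModularGroup.T)
        (jBar N - algebraMap Kbar (FBar N) 0) 3)
    (h1728 : HasEmbFamily φ (CongruenceSubgroup.Gamma0 N) ModularGroup.S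
        (jBar N - algebraMap Kbar (FBar N) 1728) 2)
    (hinf : HasEmbFamily φ (CongruenceSubgroup.Gamma0 N) ModularGroup.T (jBar N)⁻¹ N) :
    ModularRamificationData N := by
  have halg : Algebra.IsAlgebraic (IntermediateField.adjoin Kbar ({jBar N} : Set (FBar N)))
      (FBar N) := Algebra.IsAlgebraic.of_finite _ _
  have hone : OneVariable Kbar (FBar N) :=
    oneVariable_of_exists (jBar N) htr (halg := halg)
  have hres : ∀ (w : Place Kbar (FBar N)) (f : FBar N), f ≠ 0 → 0 ≤ w.ord f →
      ∃ c : Kbar, f = algebraMap Kbar (FBar N) c ∨ 0 < w.ord (f - algebraMap Kbar (FBar N) c) := by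
    intro w f hf hf0
    exact exists_const_ord_sub_pos w hone ((mem_valuationSubring_iff_ord_nonneg w hf).mpr hf0)
  have hcardX : Nat.card (SL(2, ℤ) ⧸ CongruenceSubgroup.Gamma0 N) = dedekindPsi N := card_X0 N
  -- the count at a finite value `a`
  have hfinite : ∀ (a : Kbar) (s : SL(2, ℤ)) (e : ℕ), 0 < e →
      HasEmbFamily φ (CongruenceSubgroup.Gamma0 N) s (jBar N - algebraMap Kbar (FBar N) a) e →
      Nat.card (zerosOver (jBar N) a) = numOrbits (X0 N) s := by
    intro a s e he hfam
    have htr' : Transcendental Kbar (jBar N - algebraMap Kbar (FBar N) a) :=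
      transcendental_sub_algebraMap htr a
    have hfd' : FiniteDimensional (IntermediateField.adjoin Kbar
        ({jBar N - algebraMap Kbar (FBar N) a} : Set (FBar N))) (FBar N) :=
      finiteDimensional_adjoin_sub_algebraMap (jBar N) a
    have hs := hzsum _ htr' hfd'
    rw [finrank_adjoin_sub_algebraMap, hdeg] at hs
    exact card_pos_ord_eq_numOrbits φ _ (dedekindPsi N) (hzfin _ htr' hfd') hs hres
      (CongruenceSubgroup.Gamma0 N) hcardX s e he hfam
  refine ⟨htr, hfd, hdeg, ?_, ?_, ?_, ?_⟩
  · intro a ha0 ha1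
    rw [hfinite a 1 1 one_pos (hgen a ha0 ha1)]
    -- orbits of the trivial group
    rw [← hcardX]
    unfold numOrbits
    refine Nat.card_congr (Equiv.symm ?_)
    refine Equiv.ofBijective (fun x => Quotient.mk'' x) ⟨?_, Quotient.mk''_surjective⟩
    intro x x' hxx'
    have := Quotient.exact hxx'
    change (MulAction.orbitRel (Subgroup.zpowers (1 : SL(2, ℤ))) (X0 N)) x x' at this
    rw [MulAction.orbitRel_apply] at this
    obtain ⟨⟨g, hg⟩, rfl⟩ := this
    rw [Subgroup.zpowers_one_eq_bot, Subgroup.mem_bot] at hg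
    subst hg
    exact one_smul _ _
  · rw [hfinite 0 _ 3 (by norm_num) hzero]
    exact three_mul_numOrbits_ST N
  · rw [hfinite 1728 _ 2 (by norm_num) h1728]
    exact two_mul_numOrbits_S N
  · have hj0 : jBar N ≠ 0 := fun h0 => by
      rw [h0] at htr
      exact htr (isAlgebraic_zero)
    have htr' : Transcendental Kbar (jBar N)⁻¹ := transcendental_inv htr
    have hfd' : FiniteDimensional (IntermediateField.adjoin Kbar
        ({(jBar N)⁻¹} : Set (FBar N))) (FBar N) := finiteDimensional_adjoin_inv (jBar N)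
    have hs := hzsum _ htr' hfd'
    rw [finrank_adjoin_inv, hdeg] at hs
    have hc := card_pos_ord_eq_numOrbits φ _ (dedekindPsi N) (hzfin _ htr' hfd') hs hres
      (CongruenceSubgroup.Gamma0 N) hcardX ModularGroup.T N (NeZero.pos N) hinf
    have hset : polesOf Kbar (jBar N) = {v : Place Kbar (FBar N) | 0 < v.ord (jBar N)⁻¹} := by
      ext v
      simp only [mem_polesOf, Set.mem_ofPred_eq]
      have : v.ord (jBar N)⁻¹ = - v.ord (jBar N) := by
        have := v.ord_zpow (jBar N) (-1)
        simpa using this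
      rw [this]
      omega
    rw [hset, hc]
    exact numOrbits_T N

end Modular

end Fermat.Agent.S24.ModularGlue
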