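import Mathlib
import Fermat.Agent.S24.EvPhi
import Fermat.Agent.S24.ModularGlue

/-!
# S24 (block II, piece II6): the embedding family attached to a local expansion datum

Inputs:
* an evaluation `ev : genAlg N →ₐ[ℚ̄] (ℍ → ℂ)`, injective, holomorphic values, `Γ₀(N)`-invariant,
  and separating `Γ₀(N)` (`hdist`);
* a local expansion datum: a `ℂ`-subalgebra `R` of holomorphic functions on `ℍ` containing all
  translates `(ev a) ∘ g`, an injective `ℂ`-algebra map `L : R → ℂ((u))`, and an element `s` of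
  `SL(2, ℤ)` such that `L (f ∘ s⁻¹) = rot ζ (L f)`.

Output: the package `ModularGlue.HasEmbFamily` for `y = incl b` or `y = (incl b)⁻¹`, `b` with
`ev b` invariant under `SL(2, ℤ)`.
-/

set_option autoImplicit false
set_option linter.unusedSectionVars false
set_option linter.style.haveILetI false

open UpperHalfPlane Complex CongruenceSubgroup
open scoped MatrixGroups Manifold

noncomputable section

namespace Fermat.Agent.S24.LocalFamily

open Fermat.Agent.S24 Fermat.Agent.S24.HolRing Fermat.Agent.S24.FieldGen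
  Fermat.Agent.S24.FamilyCore Fermat.Agent.S24.EvPhi

/-- The body of `ModularGlue.HasEmbFamily` for an ambient `Algebra ℚ̄ ℂ` instance. -/
def HasFam (N : ℕ) [NeZero N] [Algebra Kbar ℂ] (s : SL(2, ℤ)) (y : FBar N) (e : ℕ) : Prop :=
  ∃ (τ : SL(2, ℤ) → FBar N →ₐ[Kbar] LaurentSeries ℂ) (ζ : ℂˣ) (ξ : LaurentSeries ℂ),
    (∀ g : SL(2, ℤ), ∀ δ ∈ Gamma0 N, τ (g * δ) = τ g) ∧
    (∀ g g' : SL(2, ℤ), τ g = τ g' → g⁻¹ * g' ∈ Gamma0 N) ∧
    IsPrimitiveRoot (ζ : ℂ) e ∧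
    (∀ (g : SL(2, ℤ)) (f : FBar N), τ (s * g) f = rot ζ (τ g f)) ∧
    (∀ g : SL(2, ℤ), τ g y = ξ) ∧ ξ ≠ 0 ∧ ξ.order = e

theorem hasEmbFamily_of_hasFam (N : ℕ) [NeZero N] (φ : Kbar →+* ℂ) (s : SL(2, ℤ)) (y : FBar N)
    (e : ℕ) (h : letI : Algebra Kbar ℂ := φ.toAlgebra; HasFam N s y e) :
    ModularGlue.HasEmbFamily φ (Gamma0 N) s y e := h

section Datum

variable (N : ℕ) [NeZero N] [Algebra Kbar ℂ]
variable (R : Subalgebra ℂ (ℍ → ℂ)) (hR : ∀ f ∈ R, MDiff f)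

/-- The inclusion of a subalgebra of holomorphic functions into `holRing`. -/
def inclHol : R →ₐ[ℂ] holRing where
  toFun f := ⟨f.1, hR f.1 f.2⟩
  map_one' := rfl
  map_mul' _ _ := rfl
  map_zero' := rfl
  map_add' _ _ := rfl
  commutes' _ := rfl

theorem inclHol_injective : Function.Injective (inclHol R hR) := fun _ _ h =>
  Subtype.ext (congrArg (fun f : holRing => (f : ℍ → ℂ)) h)

include hR in
theorem isDomain_of_mdiff : IsDomain R :=
  Function.Injective.isDomain (inclHol R hR : R →+* holRing) (inclHol_injective R hR)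

variable (ev : genAlg N →ₐ[Kbar] (ℍ → ℂ)) (hinj : Function.Injective ev)
variable (hmd : ∀ a, MDiff (ev a))
variable (hinv : ∀ δ ∈ Gamma0 N, ∀ (a : genAlg N) (τ : ℍ), ev a (δ • τ) = ev a τ)
variable (hdist : ∀ δ : SL(2, ℤ), (∀ (a : genAlg N) (τ : ℍ), ev a (δ • τ) = ev a τ) → δ ∈ Gamma0 N)
variable (L : R →ₐ[ℂ] LaurentSeries ℂ) (hL : Function.Injective L)
variable (hmem : ∀ (a : genAlg N) (g : SL(2, ℤ)), (fun τ => ev a (g • τ)) ∈ R)
variable (s : SL(2, ℤ)) (ζ : ℂˣ) (e : ℕ) (hζ : IsPrimitiveRoot (ζ : ℂ) e)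
variable (hs : ∀ (f : ℍ → ℂ) (hf : f ∈ R), ∃ hf' : (fun τ => f (s⁻¹ • τ)) ∈ R,
  L ⟨_, hf'⟩ = rot ζ (L ⟨f, hf⟩))

include hR hinj hmd hinv hdist hL hmem hζ hs in
/-- The family for `y = incl b`, `ev b` invariant under `SL(2, ℤ)` with expansion of order `e`. -/
theorem hasFam_incl (b : genAlg N) (hb : ∀ (g : SL(2, ℤ)) (τ : ℍ), ev b (g • τ) = ev b τ)
    (hbR : ev b ∈ R) (hne : L ⟨ev b, hbR⟩ ≠ 0) (hord : (L ⟨ev b, hbR⟩).order = e) :
    HasFam N s (incl N b) e := by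
  haveI : IsDomain R := isDomain_of_mdiff R hR
  let i := inclHol R hR
  have hi := inclHol_injective R hR
  let Φ := Phi N ev hinj hmd
  have hmemΦ : ∀ (g : SL(2, ℤ)) (x : FBar N), actMer g (Φ x) ∈ merSub i hi :=
    actMer_Phi_mem N ev hinj hmd i hi (fun a g => ⟨⟨_, hmem a g⟩, rfl⟩)
  have hEC : ∀ c : ℂ, (L : R →+* LaurentSeries ℂ) (algebraMap ℂ R c) = HahnSeries.C c := fun c => by
    show L (algebraMap ℂ R c) = _
    rw [AlgHom.commutes, LaurentAux.algebraMap_eq_C]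
  have hΦK := Phi_algebraMap N ev hinj hmd
  let τ : SL(2, ℤ) → FBar N →ₐ[Kbar] LaurentSeries ℂ :=
    famAlg (K := Kbar) i hi (L : R →+* LaurentSeries ℂ) hL Φ hmemΦ hEC hΦK
  refine ⟨τ, ζ, L ⟨ev b, hbR⟩, ?_, ?_, hζ, ?_, ?_, hne, hord⟩
  · intro g δ hδ
    apply famAlg_mul_right
    intro x
    exact actMer_Phi_of_invariant N ev hinj hmd δ⁻¹ (hinv δ⁻¹ (inv_mem hδ)) x
  · intro g g' h
    apply hdist
    have := famAlg_eq_imp (K := Kbar) i hi (L : R →+* LaurentSeries ℂ) hL Φ hmemΦ hEC hΦK g g' h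
    exact invariant_of_actMer_Phi N ev hinj hmd _ this
  · intro g f
    apply famAlg_mul_left
    intro a
    obtain ⟨hf', h⟩ := hs a.1 a.2
    exact ⟨⟨_, hf'⟩, rfl, h⟩
  · intro g
    apply famAlg_eq_of_invariant (K := Kbar) i hi (L : R →+* LaurentSeries ℂ) hL Φ hmemΦ hEC hΦK g
      (incl N b) ⟨ev b, hbR⟩
    · exact Phi_incl N ev hinj hmd b
    · apply Subtype.ext
      funext τ'
      exact hb g⁻¹ τ'

include hR hinj hmd hinv hdist hL hmem hζ hs in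
/-- The family for `y = (incl b)⁻¹`, `ev b` invariant under `SL(2, ℤ)` with expansion of
order `-e`. -/
theorem hasFam_incl_inv (b : genAlg N) (hb : ∀ (g : SL(2, ℤ)) (τ : ℍ), ev b (g • τ) = ev b τ)
    (hbR : ev b ∈ R) (hne : L ⟨ev b, hbR⟩ ≠ 0) (hord : (L ⟨ev b, hbR⟩).order = -(e : ℤ)) :
    HasFam N s (incl N b)⁻¹ e := by
  haveI : IsDomain R := isDomain_of_mdiff R hR
  let i := inclHol R hR
  have hi := inclHol_injective R hR
  let Φ := Phi N ev hinj hmd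
  have hmemΦ : ∀ (g : SL(2, ℤ)) (x : FBar N), actMer g (Φ x) ∈ merSub i hi :=
    actMer_Phi_mem N ev hinj hmd i hi (fun a g => ⟨⟨_, hmem a g⟩, rfl⟩)
  have hEC : ∀ c : ℂ, (L : R →+* LaurentSeries ℂ) (algebraMap ℂ R c) = HahnSeries.C c := fun c => by
    show L (algebraMap ℂ R c) = _
    rw [AlgHom.commutes, LaurentAux.algebraMap_eq_C]
  have hΦK := Phi_algebraMap N ev hinj hmd
  let τ : SL(2, ℤ) → FBar N →ₐ[Kbar] LaurentSeries ℂ :=
    famAlg (K := Kbar) i hi (L : R →+* LaurentSeries ℂ) hL Φ hmemΦ hEC hΦK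
  refine ⟨τ, ζ, (L ⟨ev b, hbR⟩)⁻¹, ?_, ?_, hζ, ?_, ?_, inv_ne_zero hne, ?_⟩
  · intro g δ hδ
    apply famAlg_mul_right
    intro x
    exact actMer_Phi_of_invariant N ev hinj hmd δ⁻¹ (hinv δ⁻¹ (inv_mem hδ)) x
  · intro g g' h
    apply hdist
    have := famAlg_eq_imp (K := Kbar) i hi (L : R →+* LaurentSeries ℂ) hL Φ hmemΦ hEC hΦK g g' h
    exact invariant_of_actMer_Phi N ev hinj hmd _ this
  · intro g f
    apply famAlg_mul_left
    intro a
    obtain ⟨hf', h⟩ := hs a.1 a.2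
    exact ⟨⟨_, hf'⟩, rfl, h⟩
  · intro g
    rw [map_inv₀]
    congr 1
    apply famAlg_eq_of_invariant (K := Kbar) i hi (L : R →+* LaurentSeries ℂ) hL Φ hmemΦ hEC hΦK g
      (incl N b) ⟨ev b, hbR⟩
    · exact Phi_incl N ev hinj hmd b
    · apply Subtype.ext
      funext τ'
      exact hb g⁻¹ τ'
  · rw [order_inv, hord, neg_neg]

end Datum

end Fermat.Agent.S24.LocalFamily
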