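import Mathlib
import Fermat.Agent.S24.LocalFamily
import Fermat.Agent.S24.CuspExpansion
import Fermat.Agent.S24.Hermite
import Fermat.Agent.S24.JD
import Fermat.Agent.S24.JdInv
import Fermat.Agent.S24.JQExpansion

/-!
# S24 (block II, piece II6.inf): the embedding family at the cusp `∞`

From an evaluation `ev : genAlg N →ₐ[ℚ̄] (ℍ → ℂ)` (injective, `ev J_d = j(d τ)`, values in the
`ℚ̄`-algebra generated by the `j(d τ)`) we build the family of expansions at the cusp `∞` in the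
parameter `u = q^{1/N}`: the package `HasFam N T (jBar N)⁻¹ N`
(= body of `ModularGlue.HasEmbFamily φ (Gamma0 N) T (jBar N)⁻¹ N`).

Contents:
* generic facts on elements of `Algebra.adjoin ℚ̄ D`, `D` a set of functions on `ℍ`;
* `j_d` is holomorphic; `j` is meromorphic at the cusp with expansion of order `-N` in `u`;
* translates `j_d ∘ g` are meromorphic at the cusp of width `N` (Hermite normal form);
* `T⁻¹` acts on expansions by the rotation `u ↦ ζ⁻¹ u`, `ζ = exp (2πi / N)`;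
* the final package `hasFam_cusp`.
-/

set_option autoImplicit false
set_option linter.unusedSectionVars false

open UpperHalfPlane Complex CongruenceSubgroup Function
open scoped MatrixGroups Manifold Real

noncomputable section

namespace Fermat.Agent.S24.CuspFamily

open Fermat.Agent.S24 Fermat.Agent.S24.HolRing Fermat.Agent.S24.FieldGen
  Fermat.Agent.S24.CuspExpansion Fermat.Agent.S24.LocalFamily



section Adjoin

variable [Algebra Kbar ℂ] (D : Set (ℍ → ℂ))

theorem adjoin_induction_fun (P : (ℍ → ℂ) → Prop) (hc : ∀ c : ℂ, P (fun _ => c))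
    (hadd : ∀ f g, P f → P g → P (f + g)) (hmul : ∀ f g, P f → P g → P (f * g))
    (hD : ∀ f ∈ D, P f) {f : ℍ → ℂ} (hf : f ∈ Algebra.adjoin Kbar D) : P f := by
  induction hf using Algebra.adjoin_induction with
  | mem x hx => exact hD x hx
  | algebraMap r => exact hc (algebraMap Kbar ℂ r)
  | add x y _ _ hx hy => exact hadd x y hx hy
  | mul x y _ _ hx hy => exact hmul x y hx hy

theorem mdiff_of_mem_adjoin (hD : ∀ f ∈ D, MDiff f) {f : ℍ → ℂ}
    (hf : f ∈ Algebra.adjoin Kbar D) : MDiff f :=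
  adjoin_induction_fun D (fun f => MDiff f) (fun _ => mdifferentiable_const)
    (fun _ _ h1 h2 => h1.add h2) (fun _ _ h1 h2 => h1.mul h2) hD hf

theorem invariant_of_mem_adjoin (δ : SL(2, ℤ)) (hD : ∀ f ∈ D, ∀ τ : ℍ, f (δ • τ) = f τ)
    {f : ℍ → ℂ} (hf : f ∈ Algebra.adjoin Kbar D) : ∀ τ : ℍ, f (δ • τ) = f τ :=
  adjoin_induction_fun D (fun f => ∀ τ : ℍ, f (δ • τ) = f τ) (fun _ _ => rfl)
    (fun f g h1 h2 τ => by rw [Pi.add_apply, Pi.add_apply, h1 τ, h2 τ])
    (fun f g h1 h2 τ => by rw [Pi.mul_apply, Pi.mul_apply, h1 τ, h2 τ]) hD hf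

theorem comp_mem_of_mem_adjoin (R : Subalgebra ℂ (ℍ → ℂ)) (g : SL(2, ℤ))
    (hD : ∀ f ∈ D, (fun τ : ℍ => f (g • τ)) ∈ R)
    {f : ℍ → ℂ} (hf : f ∈ Algebra.adjoin Kbar D) : (fun τ : ℍ => f (g • τ)) ∈ R :=
  adjoin_induction_fun D (fun f => (fun τ : ℍ => f (g • τ)) ∈ R)
    (fun c => R.algebraMap_mem c)
    (fun _ _ h1 h2 => R.add_mem h1 h2) (fun _ _ h1 h2 => R.mul_mem h1 h2) hD hf

end Adjoin

/-- `j_d` is holomorphic on `ℍ`. -/
theorem mdiff_jD {d : ℕ} (hd : 0 < d) : MDiff (jD d) := by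
  rw [UpperHalfPlane.mdifferentiable_iff]
  have h1 : DifferentiableOn ℂ (fun z : ℂ => (jFun ∘ ofComplex) ((d : ℂ) * z)) upperHalfPlaneSet := by
    refine differentiableOn_jFun_comp_ofComplex.comp (f := fun z : ℂ => (d : ℂ) * z)
      ((differentiable_const _).mul differentiable_id).differentiableOn ?_
    intro z hz
    show 0 < ((d : ℂ) * z).im
    have : ((d : ℂ) * z).im = (d : ℝ) * z.im := by simp
    rw [this]
    exact mul_pos (by exact_mod_cast hd) hz
  refine h1.congr ?_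
  intro z hz
  simp only [Function.comp_apply]
  rw [jD_def]
  congr 1
  apply UpperHalfPlane.ext
  rw [coe_scaleH hd, ofComplex_apply_of_im_pos hz]
  have h2 : 0 < ((d : ℂ) * z).im := by
    have : ((d : ℂ) * z).im = (d : ℝ) * z.im := by simp
    rw [this]
    exact mul_pos (by exact_mod_cast hd) hz
  rw [ofComplex_apply_of_im_pos h2]




/-- A `T`-invariant function is `1`-periodic. -/
theorem periodic_of_T_invariant (f : ℍ → ℂ) (hf : ∀ τ : ℍ, f (ModularGroup.T • τ) = f τ) :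
    Periodic (f ∘ ofComplex) ((1 : ℕ) : ℝ) := by
  intro w
  simp only [Function.comp_apply]
  by_cases hw : 0 < w.im
  · have hw' : 0 < (w + (((1 : ℕ) : ℝ) : ℂ)).im := by simpa using hw
    have : ofComplex (w + (((1 : ℕ) : ℝ) : ℂ)) = ModularGroup.T • ofComplex w := by
      apply UpperHalfPlane.ext
      rw [coe_T_smul, ofComplex_apply_of_im_pos hw', ofComplex_apply_of_im_pos hw]
      simp
    rw [this, hf]
  · have hw' : ¬ 0 < (w + (((1 : ℕ) : ℝ) : ℂ)).im := by simpa using hw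
    rw [ofComplex_apply_of_im_nonpos (not_lt.mp hw), ofComplex_apply_of_im_nonpos (not_lt.mp hw')]

theorem mdiff_jFun : MDiff jFun :=
  UpperHalfPlane.mdifferentiable_iff.mpr differentiableOn_jFun_comp_ofComplex

/-- The coefficients of `q · j`. -/
def jc (n : ℕ) : ℂ := ((ModularCurve.jNum.coeff n : ℤ) : ℂ)

theorem merAtCusp_jFun_aux : MerAtCusp 1 jFun ∧ cuspLaurent 1 jFun =
    HahnSeries.single (-((1 : ℕ) : ℤ)) (1 : ℂ) * HahnSeries.ofPowerSeries ℤ ℂ (PowerSeries.mk jc) := by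
  apply MerAtCusp.of_hasSum (h := 1) (m := 1) (c := jc)
    (periodic_of_T_invariant jFun (fun τ => jFun_smul _ τ)) mdiff_jFun
  intro τ
  have h := JQExpansion.hasSum_jNum τ
  have hq : qh 1 τ = Function.Periodic.qParam 1 (τ : ℂ) := by
    simp [qh]
  rw [hq, pow_one]
  exact h

theorem merAtCusp_jFun : MerAtCusp 1 jFun := merAtCusp_jFun_aux.1




theorem jc_zero : jc 0 = 1 := by
  have := ModularCurve.constantCoeff_jNum
  rw [← PowerSeries.coeff_zero_eq_constantCoeff] at this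
  simp [jc, this]

theorem coeff_cuspLaurent_one_jFun (k : ℤ) :
    (cuspLaurent 1 jFun).coeff k = if 0 ≤ k + 1 then jc (k + 1).toNat else 0 := by
  rw [merAtCusp_jFun_aux.2, coeff_single_neg_mul_ofPowerSeries]
  simp

variable (N : ℕ) [NeZero N]

theorem merAtCusp_jFun_width : MerAtCusp N jFun := (MerAtCusp.of_width_one merAtCusp_jFun).1

theorem coeff_cuspLaurent_jFun (k : ℤ) :
    (cuspLaurent N jFun).coeff k =
      if (N : ℤ) ∣ k then (cuspLaurent 1 jFun).coeff (k / N) else 0 :=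
  (MerAtCusp.of_width_one merAtCusp_jFun).2 k

theorem coeff_cuspLaurent_jFun_neg : (cuspLaurent N jFun).coeff (-(N : ℤ)) = 1 := by
  have hN : (N : ℤ) ≠ 0 := by exact_mod_cast NeZero.ne N
  rw [coeff_cuspLaurent_jFun, if_pos (Dvd.dvd.neg_right dvd_rfl), Int.neg_ediv_of_dvd dvd_rfl,
    Int.ediv_self hN, coeff_cuspLaurent_one_jFun]
  simp [jc_zero]

theorem coeff_cuspLaurent_jFun_of_lt {k : ℤ} (hk : k < -(N : ℤ)) :
    (cuspLaurent N jFun).coeff k = 0 := by
  have hN : (0 : ℤ) < N := by exact_mod_cast Nat.pos_of_ne_zero (NeZero.ne N)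
  rw [coeff_cuspLaurent_jFun]
  split_ifs with h
  · obtain ⟨m, rfl⟩ := h
    rw [Int.mul_ediv_cancel_left _ hN.ne', coeff_cuspLaurent_one_jFun]
    have hm : m < -1 := by
      by_contra hcon
      rw [not_lt] at hcon
      have : -(N : ℤ) ≤ N * m := by nlinarith
      omega
    rw [if_neg (by omega)]
  · rfl

theorem cuspLaurent_jFun_ne_zero : cuspLaurent N jFun ≠ 0 := by
  intro h
  have := coeff_cuspLaurent_jFun_neg N
  rw [h] at this
  simp at this

theorem order_cuspLaurent_jFun : (cuspLaurent N jFun).order = -(N : ℤ) := by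
  apply le_antisymm
  · apply HahnSeries.order_le_of_coeff_ne_zero
    rw [coeff_cuspLaurent_jFun_neg]
    exact one_ne_zero
  · rw [HahnSeries.le_order_iff_forall (cuspLaurent_jFun_ne_zero N)]
    intro j hj
    exact coeff_cuspLaurent_jFun_of_lt N hj

/-- Translates of `j_d` are meromorphic at the cusp of width `N`. -/
theorem merAtCusp_jD_comp {d : ℕ} (hd : d ∣ N) (g : SL(2, ℤ)) :
    MerAtCusp N (fun τ => jD d (g • τ)) := by
  have hN : 0 < N := Nat.pos_of_ne_zero (NeZero.ne N)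
  have hd0 : 0 < d := Nat.pos_of_dvd_of_pos hd hN
  obtain ⟨γ', a, b, e, ha, he, hae, hb0, hbe, hz⟩ := Hermite.exists_smul_eq d hd0 g
  have hfun : (fun τ => jD d (g • τ)) = jFun ∘ (Hermite.affinePoint a b e ha he) := by
    funext τ
    simp only [Function.comp_apply]
    rw [jD_def, ← jFun_smul γ' (Hermite.affinePoint a b e ha he τ)]
    congr 1
    apply UpperHalfPlane.ext
    rw [coe_scaleH hd0, hz τ]
  rw [hfun]
  -- natural number versions
  obtain ⟨a', rfl⟩ : ∃ a' : ℕ, a = a' := ⟨a.toNat, (Int.toNat_of_nonneg ha.le).symm⟩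
  obtain ⟨e', rfl⟩ : ∃ e' : ℕ, e = e' := ⟨e.toNat, (Int.toNat_of_nonneg he.le).symm⟩
  have ha' : 0 < a' := by exact_mod_cast ha
  have he' : 0 < e' := by exact_mod_cast he
  have hae' : a' * e' = d := by exact_mod_cast hae
  have heN : e' ∣ N := Dvd.dvd.trans ⟨a', by rw [← hae']; ring⟩ hd
  obtain ⟨m, hm⟩ := heN
  have hm0 : 0 < m := by
    rcases Nat.eq_zero_or_pos m with h | h
    · rw [h, mul_zero] at hm; omega
    · exact h
  have key := MerAtCusp.comp_affine (h₁ := 1) (h := N) (a := a') (d := e') (e := a' * m) (b := b)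
    (φ := Hermite.affinePoint (a' : ℤ) b (e' : ℤ) ha he) merAtCusp_jFun he' (Nat.mul_pos ha' hm0)
    (by rw [hm]; ring) (fun τ => by rw [Hermite.coe_affinePoint]; push_cast; ring)
  exact key.1

theorem jD_comp_mem {d : ℕ} (hd : d ∣ N) (g : SL(2, ℤ)) :
    (fun τ => jD d (g • τ)) ∈ merCuspAlg N := merAtCusp_jD_comp N hd g

/-- The rotation factor of `T⁻¹` at the cusp of width `N`. -/
def zetaInv : ℂˣ := Units.mk0 (omega (-1) 1 N) (omega_ne_zero _ _ _)

theorem isPrimitiveRoot_zetaInv : IsPrimitiveRoot ((zetaInv N : ℂˣ) : ℂ) N := by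
  have h1 := Complex.isPrimitiveRoot_exp N (NeZero.ne N)
  have h2 : ((zetaInv N : ℂˣ) : ℂ) = (Complex.exp (2 * π * Complex.I / N))⁻¹ := by
    simp only [zetaInv, Units.val_mk0, omega]
    rw [← Complex.exp_neg]
    congr 1
    push_cast
    ring
  rw [h2]
  exact h1.inv

theorem coe_T_inv_smul (τ : ℍ) : ((ModularGroup.T⁻¹ • τ : ℍ) : ℂ) = (τ : ℂ) - 1 := by
  have h := coe_T_smul (ModularGroup.T⁻¹ • τ)
  rw [smul_inv_smul] at h
  rw [h]
  ring

/-- `T⁻¹`-equivariance of the expansion at the cusp. -/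
theorem cuspLaurent_comp_T_inv {F : ℍ → ℂ} (hF : MerAtCusp N F) :
    MerAtCusp N (fun τ => F (ModularGroup.T⁻¹ • τ)) ∧
      cuspLaurent N (fun τ => F (ModularGroup.T⁻¹ • τ)) = rot (zetaInv N) (cuspLaurent N F) := by
  have key := MerAtCusp.comp_affine (h₁ := N) (h := N) (a := 1) (d := 1) (e := 1) (b := -1)
    (φ := fun τ => ModularGroup.T⁻¹ • τ) hF one_pos one_pos (by ring)
    (fun τ => by rw [coe_T_inv_smul]; push_cast; ring)
  refine ⟨key.1, ?_⟩
  ext k
  have := key.2 k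
  simp only [Function.comp_def] at this
  rw [this, coeff_rot]
  simp [zetaInv]


/-! ### The cusp package -/

section Main

variable [Algebra Kbar ℂ]
variable (ev : genAlg N →ₐ[Kbar] (ℍ → ℂ)) (hinj : Function.Injective ev)
variable (hgen : ∀ (d : ℕ) (hd : d ∣ N), ev ⟨genJ d, genJ_mem_genAlg hd⟩ = jD d)
variable (hadj : ∀ a, ev a ∈ Algebra.adjoin Kbar (jD '' {d | d ∣ N}))

include hadj in
theorem ev_mdiff (a : genAlg N) : MDiff (ev a) := by
  have hN : 0 < N := Nat.pos_of_ne_zero (NeZero.ne N)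
  refine mdiff_of_mem_adjoin _ ?_ (hadj a)
  rintro f ⟨d, hd, rfl⟩
  exact mdiff_jD (Nat.pos_of_dvd_of_pos hd hN)

include hadj in
theorem ev_invariant (δ : SL(2, ℤ)) (hδ : δ ∈ Gamma0 N) (a : genAlg N) (τ : ℍ) :
    ev a (δ • τ) = ev a τ := by
  have hN : 0 < N := Nat.pos_of_ne_zero (NeZero.ne N)
  refine invariant_of_mem_adjoin _ δ ?_ (hadj a) τ
  rintro f ⟨d, hd, rfl⟩ τ
  exact JdInv.jD_smul_of_mem_Gamma0 hd hN δ hδ τ

include hgen in
theorem ev_dist (δ : SL(2, ℤ)) (h : ∀ (a : genAlg N) (τ : ℍ), ev a (δ • τ) = ev a τ) :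
    δ ∈ Gamma0 N := by
  have hN : 0 < N := Nat.pos_of_ne_zero (NeZero.ne N)
  refine JdInv.mem_Gamma0_of_jD_smul hN δ fun τ => ?_
  have := h ⟨genJ N, genJ_mem_genAlg dvd_rfl⟩ τ
  rwa [hgen N dvd_rfl] at this

include hadj in
theorem ev_comp_mem (a : genAlg N) (g : SL(2, ℤ)) : (fun τ => ev a (g • τ)) ∈ merCuspAlg N := by
  refine comp_mem_of_mem_adjoin _ (merCuspAlg N) g ?_ (hadj a)
  rintro f ⟨d, hd, rfl⟩
  exact jD_comp_mem N hd g

include hinj hgen hadj in
/-- **The cusp package.** -/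
theorem hasFam_cusp : HasFam N ModularGroup.T (jBar N)⁻¹ N := by
  have hb1 : ev ⟨genJ 1, genJ_mem_genAlg (one_dvd N)⟩ = jFun := by
    rw [hgen 1 (one_dvd N), jD_one]
  have hbR : ev ⟨genJ 1, genJ_mem_genAlg (one_dvd N)⟩ ∈ merCuspAlg N := by
    rw [hb1]; exact merAtCusp_jFun_width N
  rw [FieldGen.jBar_eq N]
  refine hasFam_incl_inv N (merCuspAlg N) (fun f hf => hf.hol) ev hinj (ev_mdiff N ev hadj)
    (ev_invariant N ev hadj) (ev_dist N ev hgen) (cuspLaurentHom N) (cuspLaurentHom_injective N)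
    (ev_comp_mem N ev hadj) ModularGroup.T (zetaInv N) N (isPrimitiveRoot_zetaInv N) ?_
    ⟨genJ 1, genJ_mem_genAlg (one_dvd N)⟩ ?_ hbR ?_ ?_
  · intro f hf
    obtain ⟨h1, h2⟩ := cuspLaurent_comp_T_inv N hf
    exact ⟨h1, h2⟩
  · intro g τ
    rw [hb1, jFun_smul]
  · show cuspLaurent N (ev ⟨genJ 1, genJ_mem_genAlg (one_dvd N)⟩) ≠ 0
    rw [hb1]; exact cuspLaurent_jFun_ne_zero N
  · show (cuspLaurent N (ev ⟨genJ 1, genJ_mem_genAlg (one_dvd N)⟩)).order = -(N : ℤ)
    rw [hb1]; exact order_cuspLaurent_jFun N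

end Main

end Fermat.Agent.S24.CuspFamily
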