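/-
S24, Block B, piece P2 (concrete part): the embedding package at the cusp from an `EvData N`
(with its values on all generators `J_d`), helper73's `CuspExpansion` (algebra `merCuspAlg N` of
`N`-periodic functions meromorphic at `i∞`, expansion `cuspLaurentHom N`, `T`-equivariance) and the
two CUSPGEN facts (translates of the generators are meromorphic at the cusp; the expansion of `j`
in `u = q^{1/N}` has order `-N`).
-/
import Mathlib
import Fermat.Agent.S24.CuspPackage
import Fermat.Agent.S24.CuspExpansion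
import Fermat.Agent.S24.FinitePackage

set_option autoImplicit false

open UpperHalfPlane Complex
open scoped MatrixGroups Real

noncomputable section

namespace Fermat.Agent.S24.CuspPackage

open Fermat.Agent.S24 Fermat.Agent.S24.FieldGen Fermat.Agent.S24.RamGlue
  Fermat.Agent.S24.CuspExpansion Fermat.Agent.S24.FinitePackage

/-- `ζ_N = exp (2πi / N)` as a unit of `ℂ`. -/
def zetaUnit (N : ℕ) : ℂˣ := Units.mk0 (Complex.exp (2 * π * Complex.I / N)) (Complex.exp_ne_zero _)

theorem coe_zetaUnit (N : ℕ) : ((zetaUnit N : ℂˣ) : ℂ) = Complex.exp (2 * π * Complex.I / N) := rfl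

theorem isPrimitiveRoot_zetaUnit (N : ℕ) [NeZero N] : IsPrimitiveRoot ((zetaUnit N : ℂˣ) : ℂ) N :=
  Complex.isPrimitiveRoot_exp N (NeZero.ne N)

/-- `T`-equivariance of the bundled cusp expansion: `f ↦ f (· + 1)` is the rotation by `ζ_N`. -/
theorem cuspLaurentHom_comp_T (N : ℕ) [NeZero N] (f : ℍ → ℂ) (hf : f ∈ merCuspAlg N)
    (hf' : (fun τ => f ((ModularGroup.T⁻¹)⁻¹ • τ)) ∈ merCuspAlg N) :
    cuspLaurentHom N ⟨_, hf'⟩ = rot (zetaUnit N) (cuspLaurentHom N ⟨f, hf⟩) := by
  have hT := (MerAtCusp.comp_T (h := N) (F := f) hf).2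
  ext k
  rw [coeff_rot, coe_zetaUnit, cuspLaurentHom_apply, cuspLaurentHom_apply]
  have : (fun τ => f ((ModularGroup.T⁻¹)⁻¹ • τ)) = fun τ => f (ModularGroup.T • τ) := by
    funext τ
    rw [inv_inv]
  show (cuspLaurent N (fun τ => f ((ModularGroup.T⁻¹)⁻¹ • τ))).coeff k = _
  rw [this]
  exact hT k

variable [Algebra Kbar ℂ] {N : ℕ} [NeZero N]

/-- **P2, the cusp package** `hinf` of `RamGlue.modularRamificationData`. -/
theorem hinf_of_evData (D : EvData N)
    (hDgen : ∀ d (hd : d ∣ N), D.ev ⟨genJ d, genJ_mem_genAlg hd⟩ = jD d)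
    (hgen : ∀ d, d ∣ N → ∀ g : SL(2, ℤ), MerAtCusp N (fun τ : ℍ => jD d (g • τ)))
    (hord : (cuspLaurent N jFun).order = -(N : ℤ)) :
    ∃ g : SL(2, ℤ), Subgroup.zpowers g = Subgroup.zpowers ModularGroup.T ∧
      HasEmbeddings N (jBar N)⁻¹ g N := by
  have hjR : jFun ∈ merCuspAlg N := by
    have := hgen 1 (one_dvd N) 1
    rw [jD_one] at this
    have h2 : (fun τ : ℍ => jFun ((1 : SL(2, ℤ)) • τ)) = jFun := by
      funext τ
      rw [one_smul]
    rw [h2] at this
    exact this
  exact hasEmbeddings_cusp_of D.ev D.inj D.inv D.dist hDgen (merCuspAlg N) (cuspLaurentHom N)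
    (cuspLaurentHom_injective N) hgen ModularGroup.T⁻¹ Subgroup.zpowers_inv
    (zetaUnit N) (isPrimitiveRoot_zetaUnit N)
    (cuspLaurentHom_comp_T N) hjR (by rw [cuspLaurentHom_apply]; exact hord)

end Fermat.Agent.S24.CuspPackage
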