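/-
S24, Block B, piece P2 (final): the unconditional cusp package
`hinf N : ∃ g, zpowers g = zpowers T ∧ RamGlue.HasEmbeddings N (jBar N)⁻¹ g N`,
i.e. the hypothesis `hinf` of `RamGlue.modularRamificationData`, from
`EvDataInst.evData`, `CuspGen` and `CuspPackageFinal.hinf_of_evData`.
-/
import Mathlib
import Fermat.Agent.S24.CuspPackageFinal
import Fermat.Agent.S24.CuspGen
import Fermat.Agent.S24.EvDataInst

set_option autoImplicit false

open UpperHalfPlane Complex ModularCurve
open scoped MatrixGroups Real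

noncomputable section

namespace Fermat.Agent.S24.CuspPackage

open Fermat.Agent.S24 Fermat.Agent.S24.FieldGen Fermat.Agent.S24.RamGlue
  Fermat.Agent.S24.CuspExpansion Fermat.Agent.S24.FinitePackage

/-- The order of `j(q^N)` (coefficients in `ℂ`) is `-N`. -/
theorem order_qExpand_jq (N : ℕ) [NeZero N] :
    (qExpand ℂ N (coeffMap (algebraMap ℚ ℂ) jq)).order = -(N : ℤ) := by
  set f := qExpand ℂ N (coeffMap (algebraMap ℚ ℂ) jq) with hf
  have hcoeff : f.coeff (-(N : ℤ)) = 1 := by
    have h1 : (-(N : ℤ)) = (N : ℤ) * (-1) := by ring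
    rw [h1, hf, qExpand_coeff_mul, coeffMap_coeff, coeff_jq_neg_one, map_one]
  have hne : f ≠ 0 := by
    intro h0
    rw [h0, HahnSeries.coeff_zero] at hcoeff
    exact zero_ne_one hcoeff
  apply le_antisymm
  · apply HahnSeries.order_le_of_coeff_ne_zero
    rw [hcoeff]
    exact one_ne_zero
  · by_contra hlt
    rw [not_le] at hlt
    have hc : f.coeff f.order ≠ 0 := fun h => hne (HahnSeries.coeff_order_eq_zero.mp h)
    apply hc
    by_cases hdvd : (N : ℤ) ∣ f.order
    · obtain ⟨j, hj⟩ := hdvd
      have hNpos : (0 : ℤ) < N := by exact_mod_cast Nat.pos_of_ne_zero (NeZero.ne N)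
      have hj' : j < -1 := by
        by_contra hge
        rw [not_lt] at hge
        have : (N : ℤ) * (-1) ≤ (N : ℤ) * j := mul_le_mul_of_nonneg_left hge hNpos.le
        rw [← hj] at this
        omega
      rw [hj, hf, qExpand_coeff_mul, coeffMap_coeff, coeff_jq_of_lt hj', map_zero]
    · rw [hf]
      exact qExpand_coeff_of_not_dvd N _ hdvd

variable [Algebra Kbar ℂ]

/-- **P2.** The embedding package at the cusps: hypothesis `hinf` of
`RamGlue.modularRamificationData`. -/
theorem hinf (N : ℕ) [NeZero N] :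
    ∃ g : SL(2, ℤ), Subgroup.zpowers g = Subgroup.zpowers ModularGroup.T ∧
      HasEmbeddings N (jBar N)⁻¹ g N := by
  refine hinf_of_evData (EvDataInst.evData N) (fun d hd => EvDataInst.evFun_genJ N hd)
    (fun d hd g => CuspGen.jD_comp_mem N d hd g) ?_
  rw [CuspGen.cuspLaurent_jFun, order_qExpand_jq]

end Fermat.Agent.S24.CuspPackage
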