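/-
S24, block II (cusp): behaviour of `q`-expansions under upper-triangular translates
`τ ↦ (a τ + b) / d'`, at the level of `HasSum` expansions (Mathlib only).  Owner: helper66.

If `𝕢 h₁ τ ^ m * F τ = ∑ₙ c n * 𝕢 h₁ τ ^ n` for all `τ : ℍ`, and `a * h = e * d' * h₁`, then
`F ((a τ + b) / d')` has an expansion in `𝕢 h τ` whose coefficients are
`ω ^ (k / e) * c (k / e)` for `e ∣ k` and `0` otherwise, `ω = exp (2πi b / (d' h₁))`.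
-/
import Mathlib

set_option autoImplicit false

open Complex UpperHalfPlane

namespace Fermat.Agent.S24.CuspTranslate

local notation "𝕢" => Function.Periodic.qParam

/-- The root of unity `exp (2πi b / (d' h₁))`. -/
noncomputable def omega (b : ℤ) (d' h₁ : ℕ) : ℂ :=
  cexp (2 * Real.pi * Complex.I * (b : ℂ) / ((d' : ℂ) * (h₁ : ℂ)))

theorem omega_ne_zero (b : ℤ) (d' h₁ : ℕ) : omega b d' h₁ ≠ 0 := exp_ne_zero _

/-- `𝕢 h₁ ((a z + b) / d') = ω * (𝕢 h z) ^ e` when `a * h = e * d' * h₁`. -/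
theorem qParam_translate {a d' e h h₁ : ℕ} (b : ℤ) (hd' : 0 < d') (hh : 0 < h) (hh₁ : 0 < h₁)
    (hrel : a * h = e * d' * h₁) (z : ℂ) :
    𝕢 (h₁ : ℝ) (((a : ℂ) * z + (b : ℂ)) / (d' : ℂ)) = omega b d' h₁ * 𝕢 (h : ℝ) z ^ e := by
  have h1 : (d' : ℂ) ≠ 0 := by exact_mod_cast hd'.ne'
  have h2 : (h : ℂ) ≠ 0 := by exact_mod_cast hh.ne'
  have h3 : (h₁ : ℂ) ≠ 0 := by exact_mod_cast hh₁.ne'
  have hrel' : (a : ℂ) * (h : ℂ) = (e : ℂ) * (d' : ℂ) * (h₁ : ℂ) := by exact_mod_cast hrel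
  rw [Function.Periodic.qParam, Function.Periodic.qParam, omega, ← Complex.exp_nat_mul,
    ← Complex.exp_add]
  congr 1
  push_cast
  field_simp
  linear_combination z * hrel'

/-- Reindexing a power series in `ω * Q ^ e` as a power series in `Q`. -/
theorem hasSum_reindex {c : ℕ → ℂ} {ω Q S : ℂ} {e : ℕ} (he : 0 < e)
    (hS : HasSum (fun n : ℕ => c n * (ω * Q ^ e) ^ n) S) :
    HasSum (fun k : ℕ => (if e ∣ k then ω ^ (k / e) * c (k / e) else 0) * Q ^ k) S := by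
  have hinj : Function.Injective (fun n : ℕ => e * n) := fun x y hxy =>
    Nat.eq_of_mul_eq_mul_left he hxy
  rw [← hinj.hasSum_iff]
  · convert hS using 2 with n
    simp only [Function.comp_apply, dvd_mul_right, if_true, Nat.mul_div_cancel_left _ he]
    rw [mul_pow, ← pow_mul]
    ring
  · intro k hk
    have : ¬ e ∣ k := fun ⟨n, hn⟩ => hk ⟨n, hn.symm⟩
    simp [this]

/-- **Upper-triangular translates.**  If `𝕢 h₁ τ ^ m * F τ = ∑ₙ c n * 𝕢 h₁ τ ^ n` on `ℍ`, and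
`φ τ = (a τ + b) / d'` with `a * h = e * d' * h₁`, then
`ω ^ m * 𝕢 h τ ^ (e * m) * F (φ τ) = ∑ₖ c' k * 𝕢 h τ ^ k`. -/
theorem hasSum_translate {F : ℍ → ℂ} {c : ℕ → ℂ} {m a d' e h h₁ : ℕ} (b : ℤ)
    (hd' : 0 < d') (he : 0 < e) (hh : 0 < h) (hh₁ : 0 < h₁) (hrel : a * h = e * d' * h₁)
    (hF : ∀ τ : ℍ, HasSum (fun n : ℕ => c n * 𝕢 (h₁ : ℝ) τ ^ n) (𝕢 (h₁ : ℝ) τ ^ m * F τ))
    {φ : ℍ → ℍ} (hφ : ∀ τ : ℍ, (φ τ : ℂ) = ((a : ℂ) * τ + (b : ℂ)) / (d' : ℂ)) (τ : ℍ) :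
    HasSum (fun k : ℕ =>
        (if e ∣ k then omega b d' h₁ ^ (k / e) * c (k / e) else 0) * 𝕢 (h : ℝ) τ ^ k)
      (omega b d' h₁ ^ m * 𝕢 (h : ℝ) τ ^ (e * m) * F (φ τ)) := by
  have h1 := hF (φ τ)
  rw [hφ τ, qParam_translate b hd' hh hh₁ hrel] at h1
  have h2 := hasSum_reindex he h1
  convert h2 using 1
  rw [mul_pow, ← pow_mul]

/-- The translate `τ ↦ τ + 1`: special case of `hasSum_translate`. -/
theorem hasSum_vadd_one {F : ℍ → ℂ} {c : ℕ → ℂ} {m h : ℕ} (hh : 0 < h)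
    (hF : ∀ τ : ℍ, HasSum (fun n : ℕ => c n * 𝕢 (h : ℝ) τ ^ n) (𝕢 (h : ℝ) τ ^ m * F τ))
    (τ : ℍ) :
    HasSum (fun k : ℕ => (omega 1 1 h ^ k * c k) * 𝕢 (h : ℝ) τ ^ k)
      (omega 1 1 h ^ m * 𝕢 (h : ℝ) τ ^ m * F ((1 : ℝ) +ᵥ τ)) := by
  have hφ : ∀ τ : ℍ, (((1 : ℝ) +ᵥ τ : ℍ) : ℂ) = ((1 : ℕ) * (τ : ℂ) + ((1 : ℤ) : ℂ)) / ((1 : ℕ) : ℂ) := by
    intro τ
    simp [UpperHalfPlane.coe_vadd, add_comm]
  have h1 := hasSum_translate (F := F) (c := c) (m := m) (a := 1) (d' := 1) (e := 1) (h := h)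
    (h₁ := h) 1 one_pos one_pos hh hh (by ring) hF hφ τ
  simpa using h1

/-- The coefficients of the translated expansion, normalised so that the sum is
`𝕢 h τ ^ (e * m) * F (φ τ)`. -/
noncomputable def translateCoeff (c : ℕ → ℂ) (ω : ℂ) (m e : ℕ) (k : ℕ) : ℂ :=
  (ω ^ m)⁻¹ * (if e ∣ k then ω ^ (k / e) * c (k / e) else 0)

theorem hasSum_translate' {F : ℍ → ℂ} {c : ℕ → ℂ} {m a d' e h h₁ : ℕ} (b : ℤ)
    (hd' : 0 < d') (he : 0 < e) (hh : 0 < h) (hh₁ : 0 < h₁) (hrel : a * h = e * d' * h₁)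
    (hF : ∀ τ : ℍ, HasSum (fun n : ℕ => c n * 𝕢 (h₁ : ℝ) τ ^ n) (𝕢 (h₁ : ℝ) τ ^ m * F τ))
    {φ : ℍ → ℍ} (hφ : ∀ τ : ℍ, (φ τ : ℂ) = ((a : ℂ) * τ + (b : ℂ)) / (d' : ℂ)) (τ : ℍ) :
    HasSum (fun k : ℕ => translateCoeff c (omega b d' h₁) m e k * 𝕢 (h : ℝ) τ ^ k)
      (𝕢 (h : ℝ) τ ^ (e * m) * F (φ τ)) := by
  have h1 := (hasSum_translate b hd' he hh hh₁ hrel hF hφ τ).mul_left ((omega b d' h₁ ^ m)⁻¹)
  have hω : omega b d' h₁ ^ m ≠ 0 := pow_ne_zero _ (omega_ne_zero _ _ _)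
  have h2 : (fun k : ℕ => translateCoeff c (omega b d' h₁) m e k * 𝕢 (h : ℝ) τ ^ k) =
      fun i : ℕ => (omega b d' h₁ ^ m)⁻¹ *
        ((if e ∣ i then omega b d' h₁ ^ (i / e) * c (i / e) else 0) * 𝕢 (h : ℝ) τ ^ i) := by
    funext k
    simp only [translateCoeff]
    ring
  have h3 : 𝕢 (h : ℝ) τ ^ (e * m) * F (φ τ) =
      (omega b d' h₁ ^ m)⁻¹ * (omega b d' h₁ ^ m * 𝕢 (h : ℝ) τ ^ (e * m) * F (φ τ)) := by
    field_simp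
  rw [h2, h3]
  exact h1

/-- Translates of a function meromorphic at `i∞` are meromorphic at `i∞`. -/
theorem isBoundedAtImInfty_translate {F : ℍ → ℂ} {c : ℕ → ℂ} {m a d' e h h₁ : ℕ} (b : ℤ)
    (hd' : 0 < d') (he : 0 < e) (hh : 0 < h) (hh₁ : 0 < h₁) (hrel : a * h = e * d' * h₁)
    (hF : ∀ τ : ℍ, HasSum (fun n : ℕ => c n * 𝕢 (h₁ : ℝ) τ ^ n) (𝕢 (h₁ : ℝ) τ ^ m * F τ))
    {φ : ℍ → ℍ} (hφ : ∀ τ : ℍ, (φ τ : ℂ) = ((a : ℂ) * τ + (b : ℂ)) / (d' : ℂ)) :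
    IsBoundedAtImInfty (fun τ : ℍ => 𝕢 (h : ℝ) τ ^ (e * m) * F (φ τ)) := by
  have hh' : (0 : ℝ) < (h : ℝ) := by exact_mod_cast hh
  refine UpperHalfPlane.isBoundedAtImInfty_of_hasSum_qExpansion
    (c := translateCoeff c (omega b d' h₁) m e) hh' ?_
  intro τ
  simpa [smul_eq_mul] using hasSum_translate' b hd' he hh hh₁ hrel hF hφ τ

end Fermat.Agent.S24.CuspTranslate
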