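import Mathlib

/-!
# S24, piece B4.alg: degree bounds for field extensions

* `finrank_le_of_forall_natDegree_minpoly_le`: if `k` has characteristic zero and every element
  of `F` is algebraic over `k` of degree at most `m`, then `F / k` is finite of degree at most `m`.
* `le_finrank_of_injective_algHom`: a family of `m` pairwise distinct `k`-embeddings of a finite
  extension `F / k` into a domain `L` forces `m ≤ [F : k]`.
-/

set_option autoImplicit false

open IntermediateField Module

namespace Fermat.Agent.S24.DegreeBound

variable {k F : Type*} [Field k] [Field F] [Algebra k F]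

/-- In characteristic zero, an algebraic extension all of whose elements have degree at most `m`
is generated by one element (of maximal degree). -/
theorem exists_adjoin_simple_eq_top [CharZero k] (m : ℕ)
    (h : ∀ f : F, IsIntegral k f ∧ (minpoly k f).natDegree ≤ m) :
    ∃ α : F, k⟮α⟯ = ⊤ := by
  classical
  haveI : Algebra.IsAlgebraic k F := ⟨fun x => (h x).1.isAlgebraic⟩
  haveI : Infinite k := CharZero.infinite k
  haveI : Algebra.IsSeparable k F := inferInstance
  -- an element of maximal degree
  obtain ⟨α, hα⟩ : ∃ α : F, ∀ β : F, (minpoly k β).natDegree ≤ (minpoly k α).natDegree := by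
    by_contra hcon
    push_neg at hcon
    -- degrees are unbounded: contradiction with the bound `m`
    have : ∀ n : ℕ, ∃ β : F, n ≤ (minpoly k β).natDegree := by
      intro n
      induction n with
      | zero => exact ⟨0, Nat.zero_le _⟩
      | succ n ih =>
        obtain ⟨β, hβ⟩ := ih
        obtain ⟨β', hβ'⟩ := hcon β
        exact ⟨β', by omega⟩
    obtain ⟨β, hβ⟩ := this (m + 1)
    have := (h β).2
    omega
  refine ⟨α, ?_⟩
  rw [eq_top_iff]
  intro β _
  obtain ⟨γ, hγ⟩ := Field.primitive_element_inf_aux k α β
  have hαint : IsIntegral k α := (h α).1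
  have hγint : IsIntegral k γ := (h γ).1
  have hle : k⟮α⟯ ≤ k⟮γ⟯ := by
    rw [← hγ]
    exact adjoin.mono k _ _ (by simp)
  haveI : FiniteDimensional k k⟮γ⟯ := adjoin.finiteDimensional hγint
  have hfr : finrank k k⟮γ⟯ ≤ finrank k k⟮α⟯ := by
    rw [adjoin.finrank hγint, adjoin.finrank hαint]
    exact hα γ
  have heq : k⟮α⟯ = k⟮γ⟯ := eq_of_le_of_finrank_le hle hfr
  rw [heq, ← hγ]
  exact subset_adjoin k _ (by simp)

/-- **Bounded element degree ⟹ bounded extension degree** (characteristic zero). -/
theorem finrank_le_of_forall_natDegree_minpoly_le [CharZero k] (m : ℕ)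
    (h : ∀ f : F, IsIntegral k f ∧ (minpoly k f).natDegree ≤ m) :
    FiniteDimensional k F ∧ finrank k F ≤ m := by
  obtain ⟨α, hα⟩ := exists_adjoin_simple_eq_top m h
  have hαint : IsIntegral k α := (h α).1
  haveI : FiniteDimensional k k⟮α⟯ := adjoin.finiteDimensional hαint
  have e : k⟮α⟯ ≃ₐ[k] F := (IntermediateField.equivOfEq hα).trans IntermediateField.topEquiv
  refine ⟨e.toLinearEquiv.finiteDimensional, ?_⟩
  rw [← e.toLinearEquiv.finrank_eq, adjoin.finrank hαint]
  exact (h α).2

/-- Variant with a monic annihilating polynomial of degree `≤ m` for every element. -/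
theorem finrank_le_of_forall_exists_monic [CharZero k] (m : ℕ)
    (h : ∀ f : F, ∃ P : Polynomial k, P.Monic ∧ P.natDegree ≤ m ∧ Polynomial.aeval f P = 0) :
    FiniteDimensional k F ∧ finrank k F ≤ m := by
  refine finrank_le_of_forall_natDegree_minpoly_le m fun f => ?_
  obtain ⟨P, hP, hdeg, h0⟩ := h f
  have hint : IsIntegral k f := ⟨P, hP, by simpa [Polynomial.aeval_def] using h0⟩
  refine ⟨hint, le_trans ?_ hdeg⟩
  exact Polynomial.natDegree_le_natDegree (minpoly.min k f hP h0)

/-- `m` pairwise distinct `k`-algebra homomorphisms from a finite extension `F / k` into a domain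
force `m ≤ [F : k]`. -/
theorem le_finrank_of_injective_algHom [FiniteDimensional k F]
    {L : Type*} [CommRing L] [IsDomain L] [Algebra k L]
    {ι : Type*} [Fintype ι] (σ : ι → F →ₐ[k] L) (hσ : Function.Injective σ) :
    Fintype.card ι ≤ finrank k F := by
  classical
  haveI : Finite (F →ₐ[k] L) := inferInstance
  calc Fintype.card ι = Nat.card ι := (Nat.card_eq_fintype_card).symm
    _ ≤ Nat.card (F →ₐ[k] L) := Nat.card_le_card_of_injective σ hσ
    _ ≤ finrank k F := card_algHom_le_finrank k F L

end Fermat.Agent.S24.DegreeBound
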