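import Mathlib
import Fermat.Agent.S24.AnalyticRealization
import Fermat.Agent.S24.FieldGen
import Fermat.Agent.S24.JD
import Fermat.Agent.S24.JdInv

/-!
# S24 (block II): the evaluation hom `evN N : genAlg N →ₐ[ℚ̄] (ℍ → ℂ)`

From the analytic realization `Phi N : FBar N →+* Mer` (piece B1) we extract the evaluation
homomorphism on the `ℚ̄`-algebra `genAlg N` generated by the `J_d`, `d ∣ N`:
`evN N (J_d) = jD d = (τ ↦ j (d τ))`.  It is injective, takes values in holomorphic functions, is
`Γ₀(N)`-invariant, and `Γ₀(N)` is its exact stabiliser.  These are the inputs `ev`, `ev_inj`,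
`ev_inv`, `ev_dist` of `EmbFamily.exists_family`.

Everything is stated for an arbitrary `[Algebra Kbar ℂ]`.
-/

set_option autoImplicit false

open UpperHalfPlane Complex ModularForm
open scoped MatrixGroups Manifold Topology

noncomputable section

namespace Fermat.Agent.S24.EvN

open Fermat.Agent.S24.HolRing Fermat.Agent.S24.Scale Fermat.Agent.S24.FBarGen
  Fermat.Agent.S24.FieldGen Fermat.Agent.S24.AnalyticRealization ModularCurve

variable [Algebra Kbar ℂ] (N : ℕ) [NeZero N]

omit [Algebra Kbar ℂ] in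
theorem neZero_of_dvd {d : ℕ} (hd : d ∣ N) : NeZero d :=
  ⟨fun h => NeZero.ne N (by rw [h] at hd; exact Nat.eq_zero_of_zero_dvd hd)⟩

omit [Algebra Kbar ℂ] in
theorem incl_genJ {d : ℕ} [NeZero d] (hd : d ∣ N) :
    incl N ⟨genJ d, genJ_mem_genAlg hd⟩ = jBarD N d hd :=
  Subtype.ext (genJ_eq d)

/-- `Phi` maps the generated algebra into (the image of) the holomorphic functions. -/
theorem Phi_incl_mem_range (a : genAlg N) :
    Phi N (incl N a) ∈ (algebraMap holRing Mer).range := by
  obtain ⟨x, hx⟩ := a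
  have key : ∀ (x : LaurentSeries Kbar) (hx : x ∈ Algebra.adjoin Kbar (gens N)),
      Phi N (incl N ⟨x, hx⟩) ∈ (algebraMap holRing Mer).range := by
    intro x hx
    induction hx using Algebra.adjoin_induction with
    | mem y hy =>
      obtain ⟨d, hd, rfl⟩ := hy
      have hd' : d ∣ N := hd
      have := neZero_of_dvd N hd'
      have : incl N ⟨genJ d, Algebra.subset_adjoin ⟨d, hd, rfl⟩⟩ = jBarD N d hd' :=
        Subtype.ext (genJ_eq d)
      rw [this, Phi_jBarD]
      exact ⟨_, rfl⟩
    | algebraMap c =>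
      have : incl N ⟨algebraMap Kbar (LaurentSeries Kbar) c, Subalgebra.algebraMap_mem _ c⟩
          = algebraMap Kbar (FBar N) c := Subtype.ext rfl
      rw [this, Phi_algebraMap, IsScalarTower.algebraMap_apply ℂ holRing Mer]
      exact ⟨_, rfl⟩
    | add y z hy hz ihy ihz =>
      have : incl N ⟨y + z, add_mem hy hz⟩ = incl N ⟨y, hy⟩ + incl N ⟨z, hz⟩ := Subtype.ext rfl
      rw [this, RingHom.map_add]
      exact add_mem ihy ihz
    | mul y z hy hz ihy ihz =>
      have : incl N ⟨y * z, mul_mem hy hz⟩ = incl N ⟨y, hy⟩ * incl N ⟨z, hz⟩ := Subtype.ext rfl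
      rw [this, RingHom.map_mul]
      exact mul_mem ihy ihz
  exact key x hx

/-- The holomorphic function attached to an element of the generated algebra. -/
def evHolFun (a : genAlg N) : holRing := Classical.choose (Phi_incl_mem_range N a)

theorem algebraMap_evHolFun (a : genAlg N) :
    algebraMap holRing Mer (evHolFun N a) = Phi N (incl N a) :=
  Classical.choose_spec (Phi_incl_mem_range N a)

theorem evHolFun_eq_iff (a : genAlg N) (f : holRing) :
    evHolFun N a = f ↔ algebraMap holRing Mer f = Phi N (incl N a) := by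
  constructor
  · rintro rfl
    exact algebraMap_evHolFun N a
  · intro h
    apply IsFractionRing.injective holRing Mer
    rw [algebraMap_evHolFun, h]

omit [Algebra Kbar ℂ] in
theorem incl_mul (a b : genAlg N) : incl N (a * b) = incl N a * incl N b := Subtype.ext rfl

omit [Algebra Kbar ℂ] in
theorem incl_add (a b : genAlg N) : incl N (a + b) = incl N a + incl N b := Subtype.ext rfl

omit [Algebra Kbar ℂ] in
theorem incl_one : incl N 1 = 1 := Subtype.ext rfl

omit [Algebra Kbar ℂ] in
theorem incl_zero : incl N 0 = 0 := Subtype.ext rfl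

/-- The evaluation homomorphism, with values in `holRing`. -/
def evHolN : genAlg N →+* holRing where
  toFun := evHolFun N
  map_one' := by
    rw [evHolFun_eq_iff, incl_one, RingHom.map_one, RingHom.map_one]
  map_mul' a b := by
    rw [evHolFun_eq_iff, incl_mul, RingHom.map_mul, RingHom.map_mul, algebraMap_evHolFun,
      algebraMap_evHolFun]
  map_zero' := by
    rw [evHolFun_eq_iff, incl_zero, RingHom.map_zero, RingHom.map_zero]
  map_add' a b := by
    rw [evHolFun_eq_iff, incl_add, RingHom.map_add, RingHom.map_add, algebraMap_evHolFun,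
      algebraMap_evHolFun]

theorem algebraMap_evHolN (a : genAlg N) :
    algebraMap holRing Mer (evHolN N a) = Phi N (incl N a) :=
  algebraMap_evHolFun N a

theorem evHolN_eq_iff (a : genAlg N) (f : holRing) :
    evHolN N a = f ↔ algebraMap holRing Mer f = Phi N (incl N a) :=
  evHolFun_eq_iff N a f

theorem evHolN_injective : Function.Injective (evHolN N) := by
  intro a b h
  apply incl_injective N
  apply Phi_injective N
  rw [← algebraMap_evHolN, ← algebraMap_evHolN, h]

theorem evHolN_algebraMap (c : Kbar) :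
    evHolN N (algebraMap Kbar (genAlg N) c) = algebraMap ℂ holRing (algebraMap Kbar ℂ c) := by
  rw [evHolN_eq_iff, AlgHom.commutes, Phi_algebraMap, ← IsScalarTower.algebraMap_apply ℂ holRing Mer]

theorem evHolN_genJ {d : ℕ} [NeZero d] (hd : d ∣ N) :
    evHolN N ⟨genJ d, genJ_mem_genAlg hd⟩ = JHol d := by
  rw [evHolN_eq_iff, incl_genJ N hd, Phi_jBarD]

/-- **The evaluation homomorphism** `genAlg N →ₐ[ℚ̄] (ℍ → ℂ)`, `J_d ↦ (τ ↦ j (d τ))`. -/
def evN : genAlg N →ₐ[Kbar] (ℍ → ℂ) where
  toFun a := ((evHolN N a : holRing) : ℍ → ℂ)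
  map_one' := by rw [map_one]; rfl
  map_mul' a b := by rw [map_mul]; rfl
  map_zero' := by rw [map_zero]; rfl
  map_add' a b := by rw [map_add]; rfl
  commutes' c := by
    rw [evHolN_algebraMap]
    rfl

theorem evN_apply (a : genAlg N) : evN N a = ((evHolN N a : holRing) : ℍ → ℂ) := rfl

theorem evN_injective : Function.Injective (evN N) := by
  intro a b h
  exact evHolN_injective N (Subtype.ext h)

theorem evN_mdiff (a : genAlg N) : MDiff (evN N a) := (evHolN N a).2

omit [Algebra Kbar ℂ] [NeZero N] in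
theorem JHol_eq_jD (d : ℕ) [NeZero d] : ((JHol d : holRing) : ℍ → ℂ) = jD d := by
  funext τ
  rw [JHol_apply, jD_def]
  congr 1
  exact (scaleH_eq (Nat.pos_of_ne_zero (NeZero.ne d)) (coe_scale d τ)).symm

theorem evN_genJ {d : ℕ} (hd : d ∣ N) : evN N ⟨genJ d, genJ_mem_genAlg hd⟩ = jD d := by
  have := neZero_of_dvd N hd
  rw [evN_apply, evHolN_genJ N hd, JHol_eq_jD]

/-- `Γ₀(N)`-invariance of the evaluation. -/
theorem evN_smul_of_mem_Gamma0 (a : genAlg N) (γ : SL(2, ℤ))
    (hγ : γ ∈ CongruenceSubgroup.Gamma0 N) (τ : ℍ) : evN N a (γ • τ) = evN N a τ := by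
  have h1 : actHol γ (evHolN N a) = evHolN N a := by
    apply IsFractionRing.injective holRing Mer
    rw [← actMer_algebraMap, algebraMap_evHolN, actMer_Phi N hγ]
  have := congrArg (fun f : holRing => (f : ℍ → ℂ) τ) h1
  exact this

/-- `Γ₀(N)` is the exact stabiliser of the evaluation. -/
theorem evN_dist (γ : SL(2, ℤ)) (h : ∀ a τ, evN N a (γ • τ) = evN N a τ) :
    γ ∈ CongruenceSubgroup.Gamma0 N := by
  apply JdInv.mem_Gamma0_of_jD_smul (Nat.pos_of_ne_zero (NeZero.ne N))
  intro τ
  have := h ⟨genJ N, genJ_mem_genAlg dvd_rfl⟩ τ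
  rwa [evN_genJ N dvd_rfl] at this

end Fermat.Agent.S24.EvN
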