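import Mathlib
import Fermat.Agent.S24.Degree
import Fermat.Agent.S24.EvN
import Fermat.Agent.S24.CuspExpansion
import Fermat.Agent.S24.CuspGen
import Fermat.Agent.S24.EmbFamily
import Fermat.Agent.S24.FiniteDatum

/-!
# S24, piece B4 (final, unconditional): `[ℚ̄(X₀(N)) : ℚ̄(j)] = ψ(N)`

The first three fields of `ModularRamificationData N`:

* `DegreeFinal.transcendental N : Transcendental Kbar (jBar N)`;
* `DegreeFinal.finiteDimensional N : FiniteDimensional Kbar⟮jBar N⟯ (FBar N)`;
* `DegreeFinal.finrank_eq N : Module.finrank Kbar⟮jBar N⟯ (FBar N) = dedekindPsi N`.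
-/

set_option autoImplicit false

open ModularCurve UpperHalfPlane IntermediateField
open scoped MatrixGroups

namespace Fermat.Agent.S24.DegreeFinal

open Fermat.Agent.S24.FieldGen Fermat.Agent.S24.EvN Fermat.Agent.S24.CuspExpansion
  Fermat.Agent.S24.CuspGen Fermat.Agent.S24.FiniteDatum

section Cusp

variable [Algebra Kbar ℂ] (N : ℕ) [NeZero N]

omit [NeZero N] in
lemma coeffMap_genJ (d : ℕ) [NeZero d] :
    coeffMap (algebraMap Kbar ℂ) (genJ d) = coeffMap (algebraMap ℚ ℂ) (qExpand ℚ d jq) := by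
  rw [genJ_eq, coeffEmb, coeffMap_coeffMap]
  exact coeffMap_congr (Subsingleton.elim _ _) _

/-- The evaluation `evN` lands in the functions meromorphic at the cusp of width one, and the cusp
expansion of `evN a` is the original `q`-series of `a`. -/
lemma evN_cusp (a : genAlg N) :
    ∃ h : evN N a ∈ merCuspAlg 1,
      cuspLaurentHom 1 ⟨evN N a, h⟩ = coeffMap (algebraMap Kbar ℂ) (a : LaurentSeries Kbar) := by
  have htop : Algebra.adjoin Kbar ((↑) ⁻¹' gens N : Set (genAlg N)) = ⊤ :=
    Algebra.adjoin_adjoin_coe_preimage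
  have ha : a ∈ Algebra.adjoin Kbar ((↑) ⁻¹' gens N : Set (genAlg N)) := by
    rw [htop]; trivial
  induction ha using Algebra.adjoin_induction with
  | mem x hx =>
    obtain ⟨d, hd, hdx⟩ := hx
    have hx' : x = ⟨genJ d, genJ_mem_genAlg hd⟩ := Subtype.ext hdx.symm
    have hd0 : NeZero d := neZero_of_dvd N hd
    have hmem : evN N x ∈ merCuspAlg 1 := by
      rw [hx', evN_genJ N hd]
      exact merAtCusp_jD_one d
    refine ⟨hmem, ?_⟩
    rw [cuspLaurentHom_apply]
    show cuspLaurent 1 (evN N x) = _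
    rw [hx', evN_genJ N hd, cuspLaurent_jD_one, coeffMap_genJ]
  | algebraMap c =>
    have h1 : evN N (algebraMap Kbar (genAlg N) c) = fun _ : ℍ => algebraMap Kbar ℂ c := by
      rw [AlgHom.commutes]; rfl
    have hmem : evN N (algebraMap Kbar (genAlg N) c) ∈ merCuspAlg 1 := by
      rw [h1]; exact MerAtCusp.const _
    refine ⟨hmem, ?_⟩
    rw [cuspLaurentHom_apply]
    show cuspLaurent 1 (evN N (algebraMap Kbar (genAlg N) c)) = _
    rw [h1, cuspLaurent_const]
    have h2 : ((algebraMap Kbar (genAlg N) c : genAlg N) : LaurentSeries Kbar) =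
        algebraMap Kbar (LaurentSeries Kbar) c := rfl
    rw [h2, ModularCurve.algebraMap_laurentSeries_eq_single, coeffMap_single]
    rfl
  | add x y _ _ hx hy =>
    obtain ⟨hxm, hxe⟩ := hx
    obtain ⟨hym, hye⟩ := hy
    have hmem : evN N (x + y) ∈ merCuspAlg 1 := by
      rw [map_add]; exact add_mem hxm hym
    refine ⟨hmem, ?_⟩
    have h1 : (⟨evN N (x + y), hmem⟩ : merCuspAlg 1) = ⟨evN N x, hxm⟩ + ⟨evN N y, hym⟩ :=
      Subtype.ext (map_add (evN N) x y)
    rw [h1, map_add, hxe, hye]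
    push_cast
    rw [map_add]
  | mul x y _ _ hx hy =>
    obtain ⟨hxm, hxe⟩ := hx
    obtain ⟨hym, hye⟩ := hy
    have hmem : evN N (x * y) ∈ merCuspAlg 1 := by
      rw [map_mul]; exact mul_mem hxm hym
    refine ⟨hmem, ?_⟩
    have h1 : (⟨evN N (x * y), hmem⟩ : merCuspAlg 1) = ⟨evN N x, hxm⟩ * ⟨evN N y, hym⟩ :=
      Subtype.ext (map_mul (evN N) x y)
    rw [h1, map_mul, hxe, hye]
    push_cast
    rw [map_mul]

/-- Upper bound (for an arbitrary embedding `ℚ̄ → ℂ`). -/
theorem finrank_le_aux :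
    FiniteDimensional Kbar⟮jBar N⟯ (FBar N) ∧
      Module.finrank Kbar⟮jBar N⟯ (FBar N) ≤ ModularCurve.dedekindPsi N :=
  Degree.finrank_le N (evN N) (fun _ hd => evN_genJ N hd) (merCuspAlg 1) (cuspLaurentHom 1)
    (fun a => (evN_cusp N a).1) (fun a => (evN_cusp N a).2)

/-- Degree (for an arbitrary embedding `ℚ̄ → ℂ`). -/
theorem finrank_eq_aux :
    Module.finrank Kbar⟮jBar N⟯ (FBar N) = ModularCurve.dedekindPsi N := by
  classical
  have hmem : ∀ (a : genAlg N) (g : SL(2, ℤ)), (fun τ => evN N a (g⁻¹ • τ)) ∈ holAlg :=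
    fun a g => comp_smul_mem_holAlg g⁻¹ (mem_holAlg_iff_mdiff.mpr (evN_mdiff N a))
  obtain ⟨σ, hσinj, -, hσ⟩ := EmbFamily.exists_family N (evN N) (evN_injective N)
    (evN_smul_of_mem_Gamma0 N) (evN_dist N) holAlg (discHom UpperHalfPlane.I)
    (discHom_injective _) hmem 1 1 (by
      intro f hf hf'
      rw [LaurentAux.rot_one]
      show discHom UpperHalfPlane.I ⟨_, hf'⟩ = discHom UpperHalfPlane.I ⟨f, hf⟩
      congr 1
      apply Subtype.ext
      funext τ
      show f ((1 : SL(2, ℤ))⁻¹ • τ) = f τ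
      rw [inv_one, one_smul])
  have hfin : Finite (SL(2, ℤ) ⧸ CongruenceSubgroup.Gamma0 N) :=
    Subgroup.finite_quotient_of_finiteIndex
  let _ : Fintype (SL(2, ℤ) ⧸ CongruenceSubgroup.Gamma0 N) := Fintype.ofFinite _
  have hjmem : jFun ∈ holAlg := by
    have := hmem ⟨genJ 1, genJ_mem_genAlg (one_dvd N)⟩ 1
    rw [evN_genJ N (one_dvd N), jD_one] at this
    simpa using this
  refine Degree.finrank_eq_of_family N (finrank_le_aux N) σ hσinj
    (discHom UpperHalfPlane.I ⟨jFun, hjmem⟩) ?_ ?_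
  · intro c
    obtain ⟨g, rfl⟩ := QuotientGroup.mk_surjective c
    rw [jBar_eq, hσ g]
    congr 1
    apply Subtype.ext
    funext τ
    show evN N ⟨genJ 1, genJ_mem_genAlg (one_dvd N)⟩ (g⁻¹ • τ) = jFun τ
    rw [evN_genJ N (one_dvd N), jD_one, jFun_smul]
  · rw [← Nat.card_eq_fintype_card]
    exact Comb.card_X0 N

end Cusp

section Final

variable (N : ℕ) [NeZero N]

/-- Field `transcendental` of `ModularRamificationData N`. -/
theorem transcendental : Transcendental Kbar (jBar N) := JTranscendental.transcendental_jBar N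

/-- Field `finite` of `ModularRamificationData N`. -/
theorem finiteDimensional : FiniteDimensional Kbar⟮jBar N⟯ (FBar N) :=
  letI : Algebra Kbar ℂ := AnalyticRealization.algebraKbarComplex
  (finrank_le_aux N).1

/-- Field `degree` of `ModularRamificationData N`. -/
theorem finrank_eq : Module.finrank Kbar⟮jBar N⟯ (FBar N) = ModularCurve.dedekindPsi N :=
  letI : Algebra Kbar ℂ := AnalyticRealization.algebraKbarComplex
  finrank_eq_aux N

end Final

end Fermat.Agent.S24.DegreeFinal
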