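/-
S24, block B4.A1: a Laurent series of negative order is transcendental over the coefficient
field; in particular `jBar N` is transcendental over `ℚ̄`.
-/
import Mathlib
import Fermat.Agent.S24.Defs

set_option autoImplicit false

namespace Fermat.Agent.S24.DegreeTransc

open Polynomial

theorem transcendental_of_order_neg {K : Type*} [Field K] (f : LaurentSeries K)
    (hf : f.order < 0) : Transcendental K f := by
  rintro ⟨p, hp0, hp⟩
  have hf0 : f ≠ 0 := by
    rintro rfl
    simp at hf
  set v := HahnSeries.addVal ℤ K with hv
  have hvf : v f = ((f.order : ℤ) : WithTop ℤ) := HahnSeries.addVal_apply_of_ne hf0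
  have hvc : ∀ c : K, c ≠ 0 → v (algebraMap K (LaurentSeries K) c) = 0 := by
    intro c hc
    have h1 : algebraMap K (LaurentSeries K) c ≠ 0 := by
      rw [ModularCurve.algebraMap_laurentSeries_eq_single]
      intro h0
      have := congrArg (fun x : LaurentSeries K => x.coeff 0) h0
      simp at this
      exact hc this
    rw [hv, HahnSeries.addVal_apply_of_ne h1, ModularCurve.algebraMap_laurentSeries_eq_single,
      HahnSeries.order_single hc]
    rfl
  rw [Polynomial.aeval_eq_sum_range] at hp
  simp_rw [Algebra.smul_def] at hp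
  rw [Finset.sum_range_succ] at hp
  set n := p.natDegree with hn
  have hlead : p.coeff n ≠ 0 := by
    have := Polynomial.leadingCoeff_ne_zero.mpr hp0
    rwa [Polynomial.leadingCoeff] at this
  have hterm : ∀ i : ℕ, p.coeff i ≠ 0 →
      v (algebraMap K (LaurentSeries K) (p.coeff i) * f ^ i)
        = (((i : ℤ) * f.order : ℤ) : WithTop ℤ) := by
    intro i hci
    rw [AddValuation.map_mul, hvc _ hci, zero_add,
      AddValuation.map_pow, hvf, ← WithTop.coe_nsmul, nsmul_eq_mul]
  have htop := hterm n hlead
  have hrest : (((n : ℤ) * f.order : ℤ) : WithTop ℤ)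
      < v (∑ i ∈ Finset.range n, algebraMap K (LaurentSeries K) (p.coeff i) * f ^ i) := by
    apply AddValuation.map_lt_sum v WithTop.coe_ne_top
    intro i hi
    by_cases hci : p.coeff i = 0
    · rw [hci, map_zero, zero_mul, AddValuation.map_zero]
      exact WithTop.coe_lt_top _
    · rw [hterm i hci]
      have hin : i < n := Finset.mem_range.mp hi
      have hin' : (i : ℤ) < (n : ℤ) := by exact_mod_cast hin
      exact_mod_cast (by nlinarith : (n : ℤ) * f.order < (i : ℤ) * f.order)
  have key := AddValuation.map_add_eq_of_lt_left (v := v)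
    (x := algebraMap K (LaurentSeries K) (p.coeff n) * f ^ n)
    (y := ∑ i ∈ Finset.range n, algebraMap K (LaurentSeries K) (p.coeff i) * f ^ i)
    (by rw [htop]; exact hrest)
  rw [add_comm, hp, AddValuation.map_zero, htop] at key
  exact WithTop.coe_ne_top key.symm

open ModularCurve in
theorem transcendental_jBar (N : ℕ) [NeZero N] : Transcendental Kbar (jBar N) := by
  have hinj : Function.Injective (algebraMap (FBar N) (LaurentSeries Kbar)) :=
    (algebraMap (FBar N) (LaurentSeries Kbar)).injective
  rw [← transcendental_algebraMap_iff hinj]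
  apply transcendental_of_order_neg
  have hcoe : algebraMap (FBar N) (LaurentSeries Kbar) (jBar N) = coeffEmb Kbar jq := rfl
  rw [hcoe]
  have hc : (coeffEmb Kbar jq).coeff (-1 : ℤ) ≠ 0 := by
    rw [coeffEmb_coeff, coeff_jq_neg_one, map_one]
    exact one_ne_zero
  exact lt_of_le_of_lt (HahnSeries.order_le_of_coeff_ne_zero hc) (by norm_num)

end Fermat.Agent.S24.DegreeTransc
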