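import Mathlib
import Fermat.Agent.S23.HolAtInfty

/-!
# S24, piece S3.dinf: the normalized derivative `D = (2πi)⁻¹ d/dτ` at `i∞`

For `f : ℍ → ℂ` one-periodic, holomorphic and bounded at `i∞` (`Fermat.Agent.S23.HolAtInfty f`):

* `D_eq` : `D f τ = q · G'(q)` where `G = cuspFunction 1 f`, `q = 𝕢 1 τ`;
* `D_isZeroAtImInfty` : `D f` tends to `0` at `i∞`;
* `D_holAtInfty` : `D f` is again one-periodic, holomorphic and bounded at `i∞`;
* `tendsto_serreDerivative` : `serreDerivative k f → -(k/12) · f(i∞)`.
-/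

set_option autoImplicit false

open UpperHalfPlane hiding I
open Filter Complex
open scoped MatrixGroups ModularForm Manifold Topology Derivative Real

namespace Fermat.Agent.S24.DerivAtInfty

open Fermat.Agent.S23 (HolAtInfty)
open Derivative

variable {f : ℍ → ℂ}

/-- On the upper half plane, `f ∘ ofComplex` agrees with `cuspFunction 1 f ∘ 𝕢 1`. -/
theorem comp_ofComplex_eventuallyEq (hf : HolAtInfty f) (τ : ℍ) :
    (f ∘ ofComplex) =ᶠ[𝓝 (τ : ℂ)] fun w : ℂ => cuspFunction 1 f (Function.Periodic.qParam 1 w) := by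
  have hopen : IsOpen {w : ℂ | 0 < w.im} := isOpen_upperHalfPlaneSet
  filter_upwards [hopen.mem_nhds τ.im_pos] with w hw
  have h := eq_cuspFunction (f := f) (ofComplex w) one_ne_zero hf.per
  rw [ofComplex_apply_of_im_pos hw] at h
  simp only [Function.comp_apply]
  rw [ofComplex_apply_of_im_pos hw]
  exact h.symm

theorem hasDerivAt_qParam_one (w : ℂ) :
    HasDerivAt (Function.Periodic.qParam 1) (2 * π * I * Function.Periodic.qParam 1 w) w := by
  have h1 : HasDerivAt (fun z : ℂ => 2 * π * I * z / (1 : ℝ)) (2 * π * I) w := by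
    have := ((hasDerivAt_id w).const_mul (2 * π * I)).div_const ((1 : ℝ) : ℂ)
    simpa using this
  have h2 := h1.cexp
  have h3 : (fun z : ℂ => cexp (2 * π * I * z / (1 : ℝ))) = Function.Periodic.qParam 1 := by
    funext z
    simp [Function.Periodic.qParam]
  rw [h3] at h2
  have h4 : cexp (2 * π * I * w / (1 : ℝ)) = Function.Periodic.qParam 1 w := by
    simp [Function.Periodic.qParam]
  rw [h4] at h2
  exact h2.congr_deriv (mul_comm _ _)

/-- **Key formula**: `D f τ = q · G'(q)` with `G` the cusp function and `q = 𝕢 1 τ`. -/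
theorem D_eq (hf : HolAtInfty f) (τ : ℍ) :
    D f τ = Function.Periodic.qParam 1 τ *
      deriv (cuspFunction 1 f) (Function.Periodic.qParam 1 τ) := by
  have hq : ‖Function.Periodic.qParam 1 (τ : ℂ)‖ < 1 :=
    Function.Periodic.norm_qParam_lt_one one_pos τ.im_pos
  have hG : DifferentiableAt ℂ (cuspFunction 1 f) (Function.Periodic.qParam 1 (τ : ℂ)) :=
    differentiableAt_cuspFunction one_pos hf.per hf.hol hf.bdd hq
  have hcomp : HasDerivAt (fun w : ℂ => cuspFunction 1 f (Function.Periodic.qParam 1 w))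
      (deriv (cuspFunction 1 f) (Function.Periodic.qParam 1 (τ : ℂ)) *
        (2 * π * I * Function.Periodic.qParam 1 (τ : ℂ))) (τ : ℂ) :=
    hG.hasDerivAt.comp (τ : ℂ) (hasDerivAt_qParam_one (τ : ℂ))
  have hderiv : deriv (f ∘ ofComplex) (τ : ℂ) =
      deriv (cuspFunction 1 f) (Function.Periodic.qParam 1 (τ : ℂ)) *
        (2 * π * I * Function.Periodic.qParam 1 (τ : ℂ)) := by
    rw [(comp_ofComplex_eventuallyEq hf τ).deriv_eq]
    exact hcomp.deriv
  have h2pi : (2 * π * I : ℂ) ≠ 0 := Complex.two_pi_I_ne_zero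
  simp only [normalizedDerivOfComplex]
  rw [hderiv]
  field_simp

/-- `D f` vanishes at `i∞`. -/
theorem D_isZeroAtImInfty (hf : HolAtInfty f) : IsZeroAtImInfty (D f) := by
  have hG : AnalyticAt ℂ (cuspFunction 1 f) 0 := hf.analyticAt
  have hG' : ContinuousAt (deriv (cuspFunction 1 f)) 0 := hG.deriv.continuousAt
  have hq : Tendsto (fun τ : ℍ => Function.Periodic.qParam 1 (τ : ℂ)) atImInfty (𝓝 0) :=
    qParam_tendsto_atImInfty one_pos
  have h1 : Tendsto (fun τ : ℍ => deriv (cuspFunction 1 f) (Function.Periodic.qParam 1 (τ : ℂ)))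
      atImInfty (𝓝 (deriv (cuspFunction 1 f) 0)) := hG'.tendsto.comp hq
  have h2 := hq.mul h1
  rw [zero_mul] at h2
  have h3 : (fun τ : ℍ => Function.Periodic.qParam 1 (τ : ℂ) *
      deriv (cuspFunction 1 f) (Function.Periodic.qParam 1 (τ : ℂ))) = D f := by
    funext τ
    exact (D_eq hf τ).symm
  rw [h3] at h2
  exact h2

theorem D_isBoundedAtImInfty (hf : HolAtInfty f) : IsBoundedAtImInfty (D f) :=
  (D_isZeroAtImInfty hf).boundedAtFilter

theorem qParam_one_add_one (w : ℂ) :
    Function.Periodic.qParam 1 (w + 1) = Function.Periodic.qParam 1 w := by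
  simp only [Function.Periodic.qParam, Complex.ofReal_one, div_one]
  rw [mul_add, Complex.exp_add, mul_one, Complex.exp_two_pi_mul_I, mul_one]

/-- `D f` is again one-periodic, holomorphic and bounded at `i∞`. -/
theorem D_holAtInfty (hf : HolAtInfty f) : HolAtInfty (D f) where
  per := by
    intro w
    by_cases hw : 0 < w.im
    · have hw1 : 0 < (w + 1).im := by simpa using hw
      simp only [Function.comp_apply]
      rw [D_eq hf, D_eq hf, ofComplex_apply_of_im_pos hw1, ofComplex_apply_of_im_pos hw]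
      simp only [qParam_one_add_one]
    · have hw' : w.im ≤ 0 := not_lt.mp hw
      have hw1 : (w + 1).im ≤ 0 := by simpa using hw'
      simp only [Function.comp_apply]
      rw [ofComplex_apply_eq_of_im_nonpos hw1 hw']
  hol := normalizedDerivOfComplex_mdifferentiable hf.hol
  bdd := D_isBoundedAtImInfty hf

/-! ### The Eisenstein series `E2` at `i∞` -/

open EisensteinSeries in
theorem E2_holAtInfty : HolAtInfty E2 where
  per := by
    intro w
    by_cases hw : 0 < w.im
    · have hw1 : 0 < (w + 1).im := by simpa using hw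
      simp only [Function.comp_apply]
      rw [E2_eq_tsum_cexp, E2_eq_tsum_cexp, ofComplex_apply_of_im_pos hw1,
        ofComplex_apply_of_im_pos hw]
      have hq : cexp (2 * π * I * (w + 1)) = cexp (2 * π * I * w) := by
        rw [mul_add, Complex.exp_add, mul_one, Complex.exp_two_pi_mul_I, mul_one]
      simp only [hq]
    · have hw' : w.im ≤ 0 := not_lt.mp hw
      have hw1 : (w + 1).im ≤ 0 := by simpa using hw'
      simp only [Function.comp_apply]
      rw [ofComplex_apply_eq_of_im_nonpos hw1 hw']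
  hol := E2_mdifferentiable
  bdd := isBoundedAtImInfty_E2

open EisensteinSeries in
theorem cuspFunction_E2_zero : cuspFunction 1 E2 0 = 1 := by
  have H := hasFPowerSeriesOnBall_cuspFunction (f := E2) (h := 1)
    (c := fun m : ℕ => (if m = 0 then 1 else -24 * (ArithmeticFunction.sigma 1 m : ℂ)))
    one_pos E2_holAtInfty.analyticAt (fun τ => by
      simpa only [Function.Periodic.qParam, ofReal_one, div_one] using
        hasSum_qExpansion_E2 (z := τ))
  have h0 := H.coeff_zero (fun _ => 0)
  rw [← h0]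
  simp [FormalMultilinearSeries.ofScalars]

open EisensteinSeries in
/-- `E2 → 1` at `i∞`. -/
theorem tendsto_E2_atImInfty : Tendsto E2 atImInfty (𝓝 1) := by
  have h := E2_holAtInfty.tendsto_atImInfty
  rwa [cuspFunction_E2_zero] at h

/-- The limit of the Serre derivative at `i∞`. -/
theorem tendsto_serreDerivative (k : ℂ) (hf : HolAtInfty f) :
    Tendsto (serreDerivative k f) atImInfty (𝓝 (-(k * 12⁻¹ * cuspFunction 1 f 0))) := by
  have h1 : Tendsto (D f) atImInfty (𝓝 0) := D_isZeroAtImInfty hf
  have h2 := hf.tendsto_atImInfty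
  have h3 : Tendsto (fun z : ℍ => k * 12⁻¹ * EisensteinSeries.E2 z * f z) atImInfty
      (𝓝 (k * 12⁻¹ * 1 * cuspFunction 1 f 0)) :=
    (tendsto_E2_atImInfty.const_mul (k * 12⁻¹)).mul h2
  have h4 := h1.sub h3
  rw [mul_one, zero_sub] at h4
  rw [serreDerivative_eq]
  exact h4

theorem isBoundedAtImInfty_serreDerivative (k : ℂ) (hf : HolAtInfty f) :
    IsBoundedAtImInfty (serreDerivative k f) :=
  (tendsto_serreDerivative k hf).isBigO_one ℝ

end Fermat.Agent.S24.DerivAtInfty
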