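/-
S24, piece D1 (DiffOrd): from an embedding `σ : F →ₐ[K] ℂ((u))` inducing the place `w`
(`(σ f).order = m * w.ord f`) compute the Prelude `ordDifferential (g • D x) = ord g + ord x - 1`,
and obtain `DCoordGenerates`, `Nontrivial Ω[F⁄K]`.
Owner: helper6.
-/
import Mathlib
import Fermat.Prelude.Def_AlgebraicCurve_CanonicalDivisor

set_option autoImplicit false

open AlgebraicCurve KaehlerDifferential

namespace Fermat.Agent.S24

variable {K F : Type*} [Field K] [Field F] [Algebra K F] [Algebra K ℂ]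

namespace DiffOrd

section Laurent

open HahnSeries

/-- Interval formula for the coefficients of a product of Laurent series. -/
theorem coeff_mul_Icc (f g : LaurentSeries ℂ) (a b : ℤ) (ha : ∀ i < a, f.coeff i = 0)
    (hb : ∀ j < b, g.coeff j = 0) (n : ℤ) :
    (f * g).coeff n = ∑ i ∈ Finset.Icc a (n - b), f.coeff i * g.coeff (n - i) := by
  rw [HahnSeries.coeff_mul]
  symm
  rw [← Finset.sum_filter_ne_zero]
  refine Finset.sum_nbij' (fun i => (i, n - i)) (fun ij => ij.1) ?_ ?_ ?_ ?_ ?_
  · intro i hi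
    rw [Finset.mem_filter] at hi
    rw [Finset.mem_antidiagonal]
    refine ⟨?_, ?_, by simp⟩
    · exact fun h => hi.2 (by simp only [h, zero_mul])
    · exact fun h => hi.2 (by simp only [h, mul_zero])
  · rintro ⟨i, j⟩ hij
    rw [Finset.mem_antidiagonal] at hij
    obtain ⟨hi, hj, hn⟩ := hij
    simp only at hi hj hn
    have hia : a ≤ i := by
      by_contra h
      exact hi (ha i (not_le.mp h))
    have hjb : b ≤ j := by
      by_contra h
      exact hj (hb j (not_le.mp h))
    have hj' : n - i = j := by omega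
    rw [Finset.mem_filter, Finset.mem_Icc]
    show (a ≤ i ∧ i ≤ n - b) ∧ f.coeff i * g.coeff (n - i) ≠ 0
    rw [hj']
    exact ⟨⟨hia, by omega⟩, mul_ne_zero hi hj⟩
  · intro i _; rfl
  · rintro ⟨i, j⟩ hij
    rw [Finset.mem_antidiagonal] at hij
    obtain ⟨-, -, hn⟩ := hij
    simp only at hn
    simp only [Prod.mk.injEq, true_and]; omega
  · intro i _; rfl

theorem coeff_derivative (f : LaurentSeries ℂ) (n : ℤ) :
    (LaurentSeries.derivative ℂ f).coeff n = ((n : ℂ) + 1) * f.coeff (n + 1) := by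
  rw [LaurentSeries.derivative_apply, LaurentSeries.hasseDeriv_coeff, Nat.cast_one,
    Ring.choose_one_right, zsmul_eq_mul]
  push_cast
  rfl

theorem derivative_mul (f g : LaurentSeries ℂ) :
    LaurentSeries.derivative ℂ (f * g) =
      f * LaurentSeries.derivative ℂ g + g * LaurentSeries.derivative ℂ f := by
  ext n
  have hf : ∀ i < f.order, f.coeff i = 0 := fun i hi => coeff_eq_zero_of_lt_order hi
  have hg : ∀ j < g.order, g.coeff j = 0 := fun j hj => coeff_eq_zero_of_lt_order hj
  have hf' : ∀ i < f.order - 1, (LaurentSeries.derivative ℂ f).coeff i = 0 := fun i hi => by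
    rw [coeff_derivative, hf (i + 1) (by omega), mul_zero]
  have hg' : ∀ j < g.order - 1, (LaurentSeries.derivative ℂ g).coeff j = 0 := fun j hj => by
    rw [coeff_derivative, hg (j + 1) (by omega), mul_zero]
  rw [coeff_add, coeff_derivative, coeff_mul_Icc f g _ _ hf hg,
    coeff_mul_Icc f _ _ _ hf hg', coeff_mul_Icc g _ _ _ hg hf']
  have e1 : n - (g.order - 1) = n + 1 - g.order := by ring
  have e2 : ∑ j ∈ Finset.Icc g.order (n - (f.order - 1)),
        g.coeff j * (LaurentSeries.derivative ℂ f).coeff (n - j) =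
      ∑ i ∈ Finset.Icc f.order (n + 1 - g.order),
        g.coeff (n + 1 - i) * (LaurentSeries.derivative ℂ f).coeff (i - 1) := by
    refine Finset.sum_nbij' (fun j => n + 1 - j) (fun i => n + 1 - i) ?_ ?_ ?_ ?_ ?_
    · intro j hj
      rw [Finset.mem_Icc] at hj ⊢
      constructor <;> omega
    · intro i hi
      rw [Finset.mem_Icc] at hi ⊢
      constructor <;> omega
    · intro j _; ring
    · intro i _; ring
    · intro j _
      rw [show n + 1 - (n + 1 - j) = j by ring, show n + 1 - j - 1 = n - j by ring]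
  rw [e1, e2, Finset.mul_sum, ← Finset.sum_add_distrib]
  refine Finset.sum_congr rfl fun i _ => ?_
  rw [coeff_derivative, coeff_derivative, show n - i + 1 = n + 1 - i by ring,
    show i - 1 + 1 = i by ring]
  push_cast
  ring

theorem derivative_C (c : ℂ) : LaurentSeries.derivative ℂ (HahnSeries.C c) = 0 := by
  ext n
  rw [coeff_derivative, coeff_zero, HahnSeries.C_apply, HahnSeries.coeff_single]
  split_ifs with h
  · have : (n : ℂ) + 1 = 0 := by exact_mod_cast h
    rw [this, zero_mul]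
  · rw [mul_zero]

theorem order_derivative {f : LaurentSeries ℂ} (hf : f ≠ 0) (ho : f.order ≠ 0) :
    LaurentSeries.derivative ℂ f ≠ 0 ∧ (LaurentSeries.derivative ℂ f).order = f.order - 1 := by
  have h1 : (LaurentSeries.derivative ℂ f).coeff (f.order - 1) ≠ 0 := by
    rw [coeff_derivative, sub_add_cancel]
    refine mul_ne_zero ?_ (fun h => hf (coeff_order_eq_zero.mp h))
    have : ((f.order - 1 : ℤ) : ℂ) + 1 = ((f.order : ℤ) : ℂ) := by push_cast; ring
    rw [this]
    exact_mod_cast ho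
  have h0 : LaurentSeries.derivative ℂ f ≠ 0 := fun h => h1 (by rw [h, coeff_zero])
  refine ⟨h0, le_antisymm (order_le_of_coeff_ne_zero h1) ?_⟩
  by_contra hlt
  rw [not_le] at hlt
  apply h0
  apply coeff_order_eq_zero.mp
  rw [coeff_derivative, coeff_eq_zero_of_lt_order (by omega), mul_zero]

theorem derivative_C_mul (c : ℂ) (s : LaurentSeries ℂ) :
    LaurentSeries.derivative ℂ (HahnSeries.C c * s) =
      HahnSeries.C c * LaurentSeries.derivative ℂ s := by
  rw [derivative_mul, derivative_C, mul_zero, add_zero]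

theorem derivative_one : LaurentSeries.derivative ℂ (1 : LaurentSeries ℂ) = 0 := by
  have : (1 : LaurentSeries ℂ) = HahnSeries.C 1 := (map_one HahnSeries.C).symm
  rw [this, derivative_C]

end Laurent


omit [Algebra K ℂ] in
/-- The Prelude's `dCoord` is `d π` for a uniformizer `π`. -/
theorem exists_unif_dCoord (v : Place K F) :
    ∃ π : F, v.ord π = 1 ∧ v.dCoord = KaehlerDifferential.D K F π := by
  refine ⟨_, ?_, rfl⟩
  have hirr := (IsDiscreteValuationRing.exists_irreducible v.toValuationSubring).choose_spec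
  exact v.ord_coe_irreducible hirr

omit [Field F] [Algebra K F] in
theorem algebraMap_laurent (c : K) :
    algebraMap K (LaurentSeries ℂ) c = HahnSeries.C (algebraMap K ℂ c) := by
  show HahnSeries.ofPowerSeries ℤ ℂ (algebraMap K (PowerSeries ℂ) c) = _
  rw [PowerSeries.algebraMap_apply, HahnSeries.ofPowerSeries_C]

omit [Field F] [Algebra K F] in
theorem smul_laurent (c : K) (s : LaurentSeries ℂ) :
    c • s = HahnSeries.C (algebraMap K ℂ c) * s := by
  ext n
  rw [HahnSeries.C_mul_eq_smul, HahnSeries.coeff_smul, HahnSeries.coeff_smul, Algebra.smul_def,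
    smul_eq_mul]

/-- The additive map `Ω[F⁄K] → ℂ((u))`, `σ`-semilinear, sending `d f` to `d(σ f)/du`. -/
theorem exists_lift (σ : F →ₐ[K] LaurentSeries ℂ) :
    ∃ L : Ω[F⁄K] →+ LaurentSeries ℂ, (∀ (c : F) (ω : Ω[F⁄K]), L (c • ω) = σ c * L ω) ∧
      ∀ f : F, L (D K F f) = LaurentSeries.derivative ℂ (σ f) := by
  have hσalg : ∀ c : K, σ (algebraMap K F c) = HahnSeries.C (algebraMap K ℂ c) := fun c => by
    rw [σ.commutes, algebraMap_laurent]
  let _ : Module F (LaurentSeries ℂ) := Module.compHom _ (σ : F →+* LaurentSeries ℂ)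
  have hsmul : ∀ (f : F) (s : LaurentSeries ℂ), f • s = σ f * s := fun _ _ => rfl
  have : IsScalarTower K F (LaurentSeries ℂ) := ⟨fun c f s => by
    rw [hsmul, hsmul, Algebra.smul_def c f, map_mul, hσalg, smul_laurent, mul_assoc]⟩
  let δ : Derivation K F (LaurentSeries ℂ) :=
    { toFun := fun f => LaurentSeries.derivative ℂ (σ f)
      map_add' := fun f g => by rw [map_add, map_add]
      map_smul' := fun c f => by
        rw [RingHom.id_apply, Algebra.smul_def c f, map_mul, hσalg, smul_laurent, derivative_C_mul]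
      map_one_eq_zero' := by
        show LaurentSeries.derivative ℂ (σ 1) = 0
        rw [map_one]; exact derivative_one
      leibniz' := fun f g => by
        show LaurentSeries.derivative ℂ (σ (f * g)) = f • LaurentSeries.derivative ℂ (σ g) + g • LaurentSeries.derivative ℂ (σ f)
        rw [map_mul, derivative_mul, hsmul, hsmul] }
  refine ⟨(δ.liftKaehlerDifferential : Ω[F⁄K] →ₗ[F] LaurentSeries ℂ).toAddMonoidHom, ?_, ?_⟩
  · intro c ω
    show δ.liftKaehlerDifferential (c • ω) = σ c * δ.liftKaehlerDifferential ω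
    rw [map_smul, hsmul]
  · intro f
    show δ.liftKaehlerDifferential (D K F f) = LaurentSeries.derivative ℂ (σ f)
    rw [Derivation.liftKaehlerDifferential_comp_D]
    rfl

end DiffOrd

section main

variable (w : Place K F) (σ : F →ₐ[K] LaurentSeries ℂ) (m : ℤ) (hm : 0 < m)
  (hσ : ∀ f : F, f ≠ 0 → (σ f).order = m * w.ord f)

include hm hσ

theorem DiffOrd.lderiv_emb_ne_zero {x : F} (hx : w.ord x ≠ 0) : LaurentSeries.derivative ℂ (σ x) ≠ 0 := by
  have hx0 : x ≠ 0 := fun h => hx (by rw [h, w.ord_zero])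
  have hσx : σ x ≠ 0 := (map_ne_zero σ).mpr hx0
  exact (DiffOrd.order_derivative hσx (by rw [hσ x hx0]; exact mul_ne_zero hm.ne' hx)).1

theorem DiffOrd.order_lderiv_emb {x : F} (hx : w.ord x ≠ 0) :
    (LaurentSeries.derivative ℂ (σ x)).order = m * w.ord x - 1 := by
  have hx0 : x ≠ 0 := fun h => hx (by rw [h, w.ord_zero])
  have hσx : σ x ≠ 0 := (map_ne_zero σ).mpr hx0
  rw [(DiffOrd.order_derivative hσx (by rw [hσ x hx0]; exact mul_ne_zero hm.ne' hx)).2, hσ x hx0]

theorem DiffOrd.D_ne_zero_of_ord_ne_zero {x : F} (hx : w.ord x ≠ 0) : D K F x ≠ 0 := by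
  obtain ⟨L, -, hLD⟩ := DiffOrd.exists_lift (K := K) σ
  intro h0
  have := hLD x
  rw [h0, map_zero] at this
  exact DiffOrd.lderiv_emb_ne_zero w σ m hm hσ hx this.symm

/-- `Ω[F⁄K]` is nontrivial as soon as some place is induced by an embedding into `ℂ((u))`. -/
theorem nontrivial_kaehler_of_emb : Nontrivial Ω[F⁄K] := by
  obtain ⟨π, hπ, -⟩ := DiffOrd.exists_unif_dCoord w
  exact ⟨⟨D K F π, 0, DiffOrd.D_ne_zero_of_ord_ne_zero w σ m hm hσ (by rw [hπ]; exact one_ne_zero)⟩⟩

theorem dCoord_ne_zero_of_emb : w.dCoord ≠ 0 := by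
  obtain ⟨π, hπ, hd⟩ := DiffOrd.exists_unif_dCoord w
  rw [hd]
  exact DiffOrd.D_ne_zero_of_ord_ne_zero w σ m hm hσ (by rw [hπ]; exact one_ne_zero)

/-- If `Ω[F⁄K]` is generated by one differential `d x₀`, it is generated by `w.dCoord`. -/
theorem dCoordGenerates_of_emb (hspan : ∃ x₀ : F, Submodule.span F {D K F x₀} = ⊤) :
    w.DCoordGenerates := by
  obtain ⟨x₀, hx₀⟩ := hspan
  have hne := dCoord_ne_zero_of_emb w σ m hm hσ
  have hmem : w.dCoord ∈ Submodule.span F {D K F x₀} := hx₀ ▸ Submodule.mem_top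
  obtain ⟨b, hb⟩ := Submodule.mem_span_singleton.mp hmem
  have hb0 : b ≠ 0 := by
    rintro rfl
    rw [zero_smul] at hb
    exact hne hb.symm
  refine ⟨?_⟩
  rw [eq_top_iff, ← hx₀, Submodule.span_singleton_le_iff_mem, Submodule.mem_span_singleton]
  refine ⟨b⁻¹, ?_⟩
  rw [← hb, smul_smul, inv_mul_cancel₀ hb0, one_smul]

/-- The coefficient `c` with `d x = c • w.dCoord` has `w.ord c = w.ord x - 1`. -/
theorem DiffOrd.ord_coeff {x c : F} (hx : w.ord x ≠ 0) (hc : D K F x = c • w.dCoord) :
    c ≠ 0 ∧ w.ord c = w.ord x - 1 := by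
  obtain ⟨π, hπ, hd⟩ := DiffOrd.exists_unif_dCoord w
  obtain ⟨L, hLs, hLD⟩ := DiffOrd.exists_lift (K := K) σ
  have hπ' : w.ord π ≠ 0 := by rw [hπ]; exact one_ne_zero
  have h1 : LaurentSeries.derivative ℂ (σ x) = σ c * LaurentSeries.derivative ℂ (σ π) := by
    rw [← hLD x, hc, hd, hLs, hLD]
  have hx1 := DiffOrd.lderiv_emb_ne_zero w σ m hm hσ hx
  have hπ1 := DiffOrd.lderiv_emb_ne_zero w σ m hm hσ hπ'
  have hc0 : c ≠ 0 := by
    rintro rfl
    rw [map_zero, zero_mul] at h1
    exact hx1 h1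
  refine ⟨hc0, ?_⟩
  have hσc : σ c ≠ 0 := (map_ne_zero σ).mpr hc0
  have h2 := congrArg HahnSeries.order h1
  rw [HahnSeries.order_mul hσc hπ1, DiffOrd.order_lderiv_emb w σ m hm hσ hx,
    DiffOrd.order_lderiv_emb w σ m hm hσ hπ', hσ c hc0, hπ] at h2
  have h3 : m * w.ord c = m * (w.ord x - 1) := by linarith
  exact mul_left_cancel₀ hm.ne' h3

/-- **D1.** Order of the differential `g • d x` at `w`, when `w.ord x ≠ 0`. -/
theorem ordDifferential_smul_D (hspan : ∃ x₀ : F, Submodule.span F {D K F x₀} = ⊤)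
    (x g : F) (hx : w.ord x ≠ 0) (hg : g ≠ 0) :
    w.ordDifferential (g • D K F x) = w.ord g + w.ord x - 1 := by
  have := dCoordGenerates_of_emb w σ m hm hσ hspan
  have := nontrivial_kaehler_of_emb w σ m hm hσ
  obtain ⟨c, hc⟩ := w.exists_eq_smul_dCoord (D K F x)
  obtain ⟨hc0, hcord⟩ := DiffOrd.ord_coeff w σ m hm hσ hx hc
  have h1 : w.differentialCoeff (g • D K F x) = g * c :=
    w.differentialCoeff_unique (by rw [hc, smul_smul])
  rw [Place.ordDifferential, h1, w.ord_mul hg hc0, hcord]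
  ring

/-- **D1, unit case.** If `x - a` is a uniformizer at `w` then `ord_w (g • d x) = ord_w g`. -/
theorem ordDifferential_smul_D_of_ord_sub_eq_one
    (hspan : ∃ x₀ : F, Submodule.span F {D K F x₀} = ⊤)
    (x g : F) (a : K) (hx : w.ord (x - algebraMap K F a) = 1) (hg : g ≠ 0) :
    w.ordDifferential (g • D K F x) = w.ord g := by
  have h := ordDifferential_smul_D w σ m hm hσ hspan (x - algebraMap K F a) g
    (by rw [hx]; exact one_ne_zero) hg
  rw [map_sub, Derivation.map_algebraMap, sub_zero, hx] at h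
  rw [h]; ring

end main

end Fermat.Agent.S24
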