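import Fermat.Agent.S24.DiscExpansion
import Fermat.Agent.S24.HolRing
import Fermat.Agent.S24.LaurentAux

/-!
# S24, piece II2.fin.hom: the disc expansion at `z0` bundled on `HolRing.holRing`

* `discExpHom z0 : holRing →+* ℂ⟦X⟧` and `discLaurentHom z0 : holRing →+* LaurentSeries ℂ`, injective,
  constants go to constants, equivariant for the stabiliser of `z0` (`PowerSeries.rescale` resp.
  `LaurentAux`'s `rot`), order = analytic order.
* multiplicativity of `rotFactor` on the stabiliser, `rotFactor γ⁻¹ = (rotFactor γ)⁻¹`, and the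
  primitive-root facts for `S`, `S * T` and their inverses.
-/

set_option autoImplicit false

open UpperHalfPlane Complex Filter Topology
open scoped ComplexConjugate MatrixGroups Manifold

namespace Fermat.Agent.S24.DiscExpansionHom

open Fermat.Agent.S24.HolRing Fermat.Agent.S24.DiscExpansion

/-! ## `rotFactor` is a character of the stabiliser -/

theorem cd_mul (γ γ' : SL(2, ℤ)) (z : ℂ) :
    cd (γ * γ') z = ((γ 1 0 : ℤ) : ℂ) * ab γ' z + ((γ 1 1 : ℤ) : ℂ) * cd γ' z := by
  simp only [cd, ab, Matrix.SpecialLinearGroup.coe_mul, Matrix.mul_apply, Fin.sum_univ_two]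
  push_cast
  ring

theorem cd_mul_of_fixed (γ γ' : SL(2, ℤ)) {z : ℂ} (h : ab γ' z = z * cd γ' z) :
    cd (γ * γ') z = cd γ z * cd γ' z := by
  rw [cd_mul, h]
  simp only [cd]
  ring

theorem rotFactor_mul (γ γ' : SL(2, ℤ)) (z0 : ℍ) (h' : γ' • z0 = z0) :
    rotFactor (γ * γ') z0 = rotFactor γ z0 * rotFactor γ' z0 := by
  rw [rotFactor, rotFactor, rotFactor, cd_mul_of_fixed γ γ' (ab_eq_of_smul_eq γ' z0 h'),
    cd_mul_of_fixed γ γ' (ab_conj_eq_of_smul_eq γ' z0 h'), mul_div_mul_comm]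

theorem rotFactor_one (z0 : ℍ) : rotFactor 1 z0 = 1 := by
  have h : ∀ z : ℂ, cd 1 z = 1 := by
    intro z
    simp [cd]
  rw [rotFactor, h, h, div_one]

theorem rotFactor_inv (γ : SL(2, ℤ)) (z0 : ℍ) (h : γ • z0 = z0) :
    rotFactor γ⁻¹ z0 = (rotFactor γ z0)⁻¹ := by
  have h1 := rotFactor_mul γ⁻¹ γ z0 h
  rw [inv_mul_cancel, rotFactor_one] at h1
  exact eq_inv_of_mul_eq_one_left h1.symm

theorem inv_smul_eq_of_smul_eq (γ : SL(2, ℤ)) (z0 : ℍ) (h : γ • z0 = z0) : γ⁻¹ • z0 = z0 := by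
  conv_lhs => rw [← h]
  rw [inv_smul_smul]

/-- `rotFactor γ z0` as a unit of `ℂ`. -/
noncomputable def rotUnit (γ : SL(2, ℤ)) (z0 : ℍ) : ℂˣ :=
  Units.mk0 (rotFactor γ z0) (rotFactor_ne_zero γ z0)

@[simp]
theorem coe_rotUnit (γ : SL(2, ℤ)) (z0 : ℍ) : ((rotUnit γ z0 : ℂˣ) : ℂ) = rotFactor γ z0 := rfl

theorem rotUnit_inv (γ : SL(2, ℤ)) (z0 : ℍ) (h : γ • z0 = z0) :
    rotUnit γ⁻¹ z0 = (rotUnit γ z0)⁻¹ := by
  apply Units.ext
  simp [rotFactor_inv γ z0 h]

theorem isPrimitiveRoot_rotFactor_S_inv (z0 : ℍ) (h : ModularGroup.S • z0 = z0) :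
    IsPrimitiveRoot (rotFactor ModularGroup.S⁻¹ z0) 2 := by
  rw [rotFactor_inv _ z0 h]
  exact (isPrimitiveRoot_rotFactor_S z0 h).inv

theorem isPrimitiveRoot_rotFactor_ST_inv (z0 : ℍ)
    (h : (ModularGroup.S * ModularGroup.T) • z0 = z0) :
    IsPrimitiveRoot (rotFactor (ModularGroup.S * ModularGroup.T)⁻¹ z0) 3 := by
  rw [rotFactor_inv _ z0 h]
  exact (isPrimitiveRoot_rotFactor_ST z0 h).inv

/-! ## The bundled expansion homomorphisms -/

theorem differentiableOn_coe (f : holRing) :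
    DifferentiableOn ℂ ((f : ℍ → ℂ) ∘ ofComplex) upperHalfPlaneSet :=
  UpperHalfPlane.mdifferentiable_iff.mp f.2

/-- The Taylor expansion at `z0` in the disc coordinate, as a ring homomorphism on holomorphic
functions. -/
noncomputable def discExpHom (z0 : ℍ) : holRing →+* PowerSeries ℂ where
  toFun f := discExp z0 (f : ℍ → ℂ)
  map_one' := discExp_one z0
  map_mul' f g := discExp_mul z0 (differentiableOn_coe f) (differentiableOn_coe g)
  map_zero' := discExp_zero z0
  map_add' f g := discExp_add z0 (differentiableOn_coe f) (differentiableOn_coe g)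

@[simp]
theorem discExpHom_apply (z0 : ℍ) (f : holRing) : discExpHom z0 f = discExp z0 (f : ℍ → ℂ) := rfl

theorem discExpHom_algebraMap (z0 : ℍ) (c : ℂ) :
    discExpHom z0 (algebraMap ℂ holRing c) = PowerSeries.C c :=
  discExp_const z0 c

theorem discExpHom_injective (z0 : ℍ) : Function.Injective (discExpHom z0) := by
  intro f g h
  exact Subtype.ext (discExp_injective z0 (differentiableOn_coe f) (differentiableOn_coe g) h)

theorem constantCoeff_discExpHom (z0 : ℍ) (f : holRing) :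
    PowerSeries.constantCoeff (discExpHom z0 f) = (f : ℍ → ℂ) z0 :=
  constantCoeff_discExp z0 _

theorem order_discExpHom (z0 : ℍ) (f : holRing) :
    (discExpHom z0 f).order = analyticOrderAt ((f : ℍ → ℂ) ∘ ofComplex) (z0 : ℂ) :=
  order_discExp z0 (differentiableOn_coe f)

/-- Equivariance for the stabiliser of `z0`. -/
theorem discExpHom_actHol (z0 : ℍ) (γ : SL(2, ℤ)) (h : γ • z0 = z0) (f : holRing) :
    discExpHom z0 (actHol γ f) = PowerSeries.rescale (rotFactor γ z0) (discExpHom z0 f) :=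
  discExp_comp_smul γ z0 h (f : ℍ → ℂ)

theorem coeff_discExpHom_actHol (z0 : ℍ) (γ : SL(2, ℤ)) (h : γ • z0 = z0) (f : holRing) (k : ℕ) :
    PowerSeries.coeff k (discExpHom z0 (actHol γ f)) =
      rotFactor γ z0 ^ k * PowerSeries.coeff k (discExpHom z0 f) := by
  rw [discExpHom_actHol z0 γ h, PowerSeries.coeff_rescale]

/-- The expansion at `z0` with values in Laurent series. -/
noncomputable def discLaurentHom (z0 : ℍ) : holRing →+* LaurentSeries ℂ :=
  (HahnSeries.ofPowerSeries ℤ ℂ).comp (discExpHom z0)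

@[simp]
theorem discLaurentHom_apply (z0 : ℍ) (f : holRing) :
    discLaurentHom z0 f = HahnSeries.ofPowerSeries ℤ ℂ (discExp z0 (f : ℍ → ℂ)) := rfl

theorem discLaurentHom_injective (z0 : ℍ) : Function.Injective (discLaurentHom z0) :=
  HahnSeries.ofPowerSeries_injective.comp (discExpHom_injective z0)

theorem discLaurentHom_algebraMap (z0 : ℍ) (c : ℂ) :
    discLaurentHom z0 (algebraMap ℂ holRing c) = HahnSeries.C c := by
  rw [discLaurentHom, RingHom.comp_apply, discExpHom_algebraMap, HahnSeries.ofPowerSeries_C]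

theorem discLaurentHom_algebraMap' (z0 : ℍ) (c : ℂ) :
    discLaurentHom z0 (algebraMap ℂ holRing c) = algebraMap ℂ (LaurentSeries ℂ) c := by
  rw [discLaurentHom_algebraMap, LaurentAux.algebraMap_eq_C]

theorem coeff_discLaurentHom_natCast (z0 : ℍ) (f : holRing) (k : ℕ) :
    (discLaurentHom z0 f).coeff (k : ℤ) = PowerSeries.coeff k (discExpHom z0 f) := by
  rw [discLaurentHom, RingHom.comp_apply, HahnSeries.ofPowerSeries_apply_coeff]

theorem coeff_discLaurentHom_of_neg (z0 : ℍ) (f : holRing) {k : ℤ} (hk : k < 0) :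
    (discLaurentHom z0 f).coeff k = 0 := by
  rw [discLaurentHom, RingHom.comp_apply, HahnSeries.ofPowerSeries_apply]
  refine HahnSeries.embDomain_of_notMem_range ?_
  rintro ⟨m, rfl⟩
  exact absurd hk (not_lt.mpr (Int.natCast_nonneg m))

/-- Equivariance in Laurent form: the stabiliser of `z0` acts through `rot`. -/
theorem discLaurentHom_actHol (z0 : ℍ) (γ : SL(2, ℤ)) (h : γ • z0 = z0) (f : holRing) :
    discLaurentHom z0 (actHol γ f) = rot (rotUnit γ z0) (discLaurentHom z0 f) := by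
  ext k
  rw [coeff_rot]
  rcases lt_or_ge k 0 with hk | hk
  · rw [coeff_discLaurentHom_of_neg z0 _ hk, coeff_discLaurentHom_of_neg z0 _ hk, mul_zero]
  · lift k to ℕ using hk
    rw [coeff_discLaurentHom_natCast, coeff_discLaurentHom_natCast,
      coeff_discExpHom_actHol z0 γ h]
    simp

/-- `f ∘ ε⁻¹` form of the equivariance. -/
theorem discLaurentHom_actHol_inv (z0 : ℍ) (ε : SL(2, ℤ)) (h : ε • z0 = z0) (f : holRing) :
    discLaurentHom z0 (actHol ε⁻¹ f) = rot (rotUnit ε z0)⁻¹ (discLaurentHom z0 f) := by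
  rw [discLaurentHom_actHol z0 ε⁻¹ (inv_smul_eq_of_smul_eq ε z0 h), rotUnit_inv ε z0 h]


/-! ## Orders -/

theorem coeff_ofPowerSeries_of_neg (p : PowerSeries ℂ) {k : ℤ} (hk : k < 0) :
    (HahnSeries.ofPowerSeries ℤ ℂ p).coeff k = 0 := by
  rw [HahnSeries.ofPowerSeries_apply]
  refine HahnSeries.embDomain_of_notMem_range ?_
  rintro ⟨m, rfl⟩
  exact absurd hk (not_lt.mpr (Int.natCast_nonneg m))

/-- The order of a nonzero power series viewed as a Laurent series. -/
theorem order_ofPowerSeries {p : PowerSeries ℂ} {n : ℕ} (h : p.order = n) :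
    (HahnSeries.ofPowerSeries ℤ ℂ p).order = n := by
  have hp : p ≠ 0 := by
    intro h0
    rw [h0, PowerSeries.order_zero] at h
    exact ENat.top_ne_natCast n h
  have hn : PowerSeries.coeff n p ≠ 0 := by
    have := PowerSeries.coeff_order (R := ℂ) hp
    rwa [show p.order.toNat = n by rw [h]; rfl] at this
  have hx : HahnSeries.ofPowerSeries ℤ ℂ p ≠ 0 := by
    intro h0
    exact hp (HahnSeries.ofPowerSeries_injective (by rw [h0, map_zero]))
  apply le_antisymm
  · apply HahnSeries.order_le_of_coeff_ne_zero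
    rw [HahnSeries.ofPowerSeries_apply_coeff]
    exact hn
  · have h1 : (HahnSeries.ofPowerSeries ℤ ℂ p).coeff (HahnSeries.ofPowerSeries ℤ ℂ p).order ≠ 0 :=
      fun h0 => hx (HahnSeries.coeff_order_eq_zero.mp h0)
    rcases lt_or_ge (HahnSeries.ofPowerSeries ℤ ℂ p).order 0 with hneg | hpos
    · exact absurd (coeff_ofPowerSeries_of_neg p hneg) h1
    · obtain ⟨m, hm⟩ := Int.eq_ofNat_of_zero_le hpos
      rw [hm] at h1 ⊢
      rw [HahnSeries.ofPowerSeries_apply_coeff] at h1
      have := PowerSeries.order_le (R := ℂ) m h1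
      rw [h] at this
      exact_mod_cast this

theorem order_discLaurentHom (z0 : ℍ) (f : holRing) {n : ℕ}
    (h : analyticOrderAt ((f : ℍ → ℂ) ∘ ofComplex) (z0 : ℂ) = n) :
    (discLaurentHom z0 f).order = n := by
  rw [discLaurentHom, RingHom.comp_apply]
  exact order_ofPowerSeries (by rw [order_discExpHom, h])

theorem discLaurentHom_ne_zero (z0 : ℍ) {f : holRing} (hf : f ≠ 0) : discLaurentHom z0 f ≠ 0 := by
  intro h
  exact hf (discLaurentHom_injective z0 (by rw [h, map_zero]))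

end Fermat.Agent.S24.DiscExpansionHom
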