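/-
S24 Block B → S20 dictionary: the two cusp facts `hcusp`, `hexp` (helper4, report 701) for the
concrete evaluation `EvDataInst.evData N`:
* every translate `ev a ∘ g⁻¹` lies in `merCuspAlg N` (period `N`, meromorphic at `i∞`);
* the width-one expansion of `ev a` is the series `a` itself, coefficientwise through
  `Kbar → ℂ`.
-/
import Mathlib
import Fermat.Agent.S24.CuspPackage
import Fermat.Agent.S24.CuspGen
import Fermat.Agent.S24.EvDataInst

set_option autoImplicit false

open UpperHalfPlane ModularCurve
open scoped MatrixGroups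

noncomputable section

namespace Fermat.Agent.S24.EvDataCusp

open Fermat.Agent.S24 Fermat.Agent.S24.FieldGen Fermat.Agent.S24.CuspExpansion
  Fermat.Agent.S24.FinitePackage Fermat.Agent.S24.EvDataInst

variable [Algebra Kbar ℂ] (N : ℕ) [NeZero N]

/-- `(evData N).ev` is `evFun N`. -/
theorem evData_ev : (evData N).ev = evFun N := rfl

/-- Translates by any `g : SL(2,ℤ)` of the evaluated functions are `N`-periodic and meromorphic
at `i∞`. -/
theorem translate_mem_merCuspAlg (a : genAlg N) (g : SL(2, ℤ)) :
    (fun τ : ℍ => (evData N).ev a (g • τ)) ∈ merCuspAlg N := by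
  refine CuspPackage.translate_mem (evData N).ev (merCuspAlg N) ?_ a g
  intro d hd g
  rw [evData_ev, evFun_genJ N hd]
  exact CuspGen.jD_comp_mem N d hd g

/-- **hcusp** (report 701). -/
theorem hcusp (a : genAlg N) (g : SL(2, ℤ)) :
    (fun τ : ℍ => (evData N).ev a (g⁻¹ • τ)) ∈ merCuspAlg N :=
  translate_mem_merCuspAlg N a g⁻¹

/-- **hexp** (report 701). -/
theorem hexp (a : genAlg N) :
    MerAtCusp 1 ((evData N).ev a) ∧
      cuspLaurent 1 ((evData N).ev a) = coeffMap (algebraMap Kbar ℂ) (a : LaurentSeries Kbar) := by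
  refine ⟨evFun_merAtCusp N a, ?_⟩
  have h := cuspHomK_evR N a
  rw [cuspHomK_apply, coeffMapAlg_apply] at h
  exact h

/-- Membership in `merCuspAlg N` of the evaluated functions themselves. -/
theorem ev_mem_merCuspAlg (a : genAlg N) : (evData N).ev a ∈ merCuspAlg N := by
  have := translate_mem_merCuspAlg N a 1
  have h2 : (fun τ : ℍ => (evData N).ev a ((1 : SL(2, ℤ)) • τ)) = (evData N).ev a := by
    funext τ
    rw [one_smul]
  rwa [h2] at this

end Fermat.Agent.S24.EvDataCusp
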