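-- S24 / EV (lemmas-queue row 87): the generic "evaluation principle" (pure algebra).
-- Owner: helper61.
import Fermat.Agent.S24.FieldGen
import Fermat.Agent.S24.LaurentAux

set_option autoImplicit false

open ModularCurve

namespace Fermat.Agent.S24.EvGen

open Fermat.Agent.S24.FieldGen

variable [Algebra Kbar ℂ]

/-- Coefficientwise base change `ℚ̄((q)) → ℂ((q))` along `algebraMap ℚ̄ ℂ`, as a `ℚ̄`-algebra
homomorphism. -/
noncomputable def coeffMapAlg : LaurentSeries Kbar →ₐ[Kbar] LaurentSeries ℂ :=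
  { coeffMap (algebraMap Kbar ℂ) with
    commutes' := fun c => by
      show coeffMap (algebraMap Kbar ℂ) (algebraMap Kbar (LaurentSeries Kbar) c) =
        algebraMap Kbar (LaurentSeries ℂ) c
      rw [algebraMap_laurentSeries_eq_single, coeffMap_single, LaurentAux.algebraMap_eq_C']
      rfl }

theorem coeffMapAlg_apply (x : LaurentSeries Kbar) :
    coeffMapAlg x = coeffMap (algebraMap Kbar ℂ) x := rfl

theorem coeffMapAlg_injective :
    Function.Injective (coeffMapAlg : LaurentSeries Kbar →ₐ[Kbar] LaurentSeries ℂ) := by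
  intro x y hxy
  ext k
  have h := congrArg (fun z : LaurentSeries ℂ => z.coeff k) hxy
  simp only [coeffMapAlg_apply, coeffMap_coeff] at h
  exact (algebraMap Kbar ℂ).injective h

theorem coeffMapAlg_coeffEmb (z : LaurentSeries ℚ) :
    coeffMapAlg (coeffEmb Kbar z) = coeffMap (algebraMap ℚ ℂ) z := by
  rw [coeffMapAlg_apply, coeffEmb, coeffMap_coeffMap]
  exact coeffMap_congr (Subsingleton.elim _ _) z

theorem coeffMapAlg_genJ (d : ℕ) [NeZero d] :
    coeffMapAlg (genJ d) = coeffMap (algebraMap ℚ ℂ) (qExpand ℚ d jq) := by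
  rw [genJ_eq, coeffMapAlg_coeffEmb]

theorem exists_ev (N : ℕ) [NeZero N] {R : Type*} [CommRing R] [Algebra Kbar R]
    (Λ : R →ₐ[Kbar] LaurentSeries ℂ) (hΛ : Function.Injective Λ) (jD : ℕ → R)
    (h : ∀ d, d ∣ N → Λ (jD d) = coeffMapAlg (genJ d)) :
    ∃ ev : genAlg N →ₐ[Kbar] R,
      (∀ d (hd : d ∣ N), ev ⟨genJ d, genJ_mem_genAlg hd⟩ = jD d) ∧ Function.Injective ev ∧
      (∀ a, Λ (ev a) = coeffMapAlg (a : LaurentSeries Kbar)) ∧
      (∀ a, ev a ∈ Algebra.adjoin Kbar (jD '' {d | d ∣ N})) := by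
  classical
  -- every element of `genAlg N` is hit by `Λ` from the subalgebra generated by the `jD d`
  have hmem : ∀ a : genAlg N, ∃ r ∈ Algebra.adjoin Kbar (jD '' {d | d ∣ N}),
      Λ r = coeffMapAlg (a : LaurentSeries Kbar) := by
    intro a
    have h1 : coeffMapAlg (a : LaurentSeries Kbar) ∈ (genAlg N).map coeffMapAlg :=
      ⟨a, a.2, rfl⟩
    have h2 : (genAlg N).map (coeffMapAlg : LaurentSeries Kbar →ₐ[Kbar] LaurentSeries ℂ) ≤
        (Algebra.adjoin Kbar (jD '' {d | d ∣ N})).map Λ := by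
      rw [genAlg, AlgHom.map_adjoin, AlgHom.map_adjoin]
      refine Algebra.adjoin_mono ?_
      rintro _ ⟨_, ⟨d, hd, rfl⟩, rfl⟩
      exact ⟨jD d, ⟨d, hd, rfl⟩, h d hd⟩
    obtain ⟨r, hr, hr'⟩ := h2 h1
    exact ⟨r, hr, hr'⟩
  have hrange : ∀ a : genAlg N, (coeffMapAlg.comp (genAlg N).val) a ∈ Λ.range := by
    intro a
    obtain ⟨r, -, hr⟩ := hmem a
    exact ⟨r, hr⟩
  let g : genAlg N →ₐ[Kbar] Λ.range :=
    (coeffMapAlg.comp (genAlg N).val).codRestrict Λ.range hrange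
  let ev : genAlg N →ₐ[Kbar] R := ((AlgEquiv.ofInjective Λ hΛ).symm : Λ.range →ₐ[Kbar] R).comp g
  have hΛev : ∀ a, Λ (ev a) = coeffMapAlg (a : LaurentSeries Kbar) := by
    intro a
    have h1 : (AlgEquiv.ofInjective Λ hΛ) (ev a) = g a :=
      (AlgEquiv.ofInjective Λ hΛ).apply_symm_apply (g a)
    have h2 := congrArg (fun y : Λ.range => (y : LaurentSeries ℂ)) h1
    exact h2
  refine ⟨ev, ?_, ?_, hΛev, ?_⟩
  · intro d hd
    apply hΛ
    rw [hΛev, h d hd]
  · intro a b hab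
    have := congrArg Λ hab
    rw [hΛev, hΛev] at this
    exact Subtype.ext (coeffMapAlg_injective this)
  · intro a
    obtain ⟨r, hr, hr'⟩ := hmem a
    have : r = ev a := hΛ (by rw [hr', hΛev])
    rwa [← this]

end Fermat.Agent.S24.EvGen
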