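import Fermat.Agent.S24.Defs
import Fermat.Agent.S24.Criterion
import Fermat.Agent.S24.PlaceDeg1

/-!
# S24 (block B): counting the places in a fibre from a family of embeddings

Generic instantiation of the embedding criterion: if `x : F` has `n = ∑_{zeros} ord_w x`
(degree of the zero divisor), and we are given `n` distinct `K`-embeddings `σ_c : F → ℂ((u))`
indexed by a finite `G`-set `X`, all with the same value `ξ = σ_c x` of order `e`, and such that an
element `ε : G` acts on the family through the rotation by a primitive `e`-th root of unity, then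
the zeros of `x` are in bijection with the `⟨ε⟩`-orbits on `X`.
-/

set_option autoImplicit false

open AlgebraicCurve

noncomputable section

namespace Fermat.Agent.S24.FibreCount

/-- The orbits of the cyclic group generated by the permutation `toPerm ε` are those of the cyclic
group generated by `ε`. -/
theorem card_orbits_toPerm {G X : Type*} [Group G] [MulAction G X] (ε : G) :
    Nat.card (MulAction.orbitRel.Quotient (Subgroup.zpowers (MulAction.toPerm ε : Equiv.Perm X)) X)
      = Nat.card (MulAction.orbitRel.Quotient (Subgroup.zpowers ε) X) := by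
  have key : ∀ a b : X,
      (MulAction.orbitRel (Subgroup.zpowers (MulAction.toPerm ε : Equiv.Perm X)) X).r a b ↔
      (MulAction.orbitRel (Subgroup.zpowers ε) X).r a b := by
    intro a b
    change a ∈ MulAction.orbit _ b ↔ a ∈ MulAction.orbit _ b
    constructor
    · rintro ⟨⟨p, hp⟩, rfl⟩
      obtain ⟨k, rfl⟩ := Subgroup.mem_zpowers_iff.mp hp
      refine ⟨⟨ε ^ k, Subgroup.zpow_mem_zpowers ε k⟩, ?_⟩
      change ε ^ k • b = ((MulAction.toPerm ε : Equiv.Perm X) ^ k) b
      have : (MulAction.toPerm ε : Equiv.Perm X) ^ k = MulAction.toPerm (ε ^ k) :=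
        (map_zpow (MulAction.toPermHom G X) ε k).symm
      rw [this]
      rfl
    · rintro ⟨⟨g, hg⟩, rfl⟩
      obtain ⟨k, rfl⟩ := Subgroup.mem_zpowers_iff.mp hg
      refine ⟨⟨(MulAction.toPerm ε : Equiv.Perm X) ^ k, Subgroup.zpow_mem_zpowers _ k⟩, ?_⟩
      change ((MulAction.toPerm ε : Equiv.Perm X) ^ k) b = ε ^ k • b
      have : (MulAction.toPerm ε : Equiv.Perm X) ^ k = MulAction.toPerm (ε ^ k) :=
        (map_zpow (MulAction.toPermHom G X) ε k).symm
      rw [this]
      rfl
  exact Nat.card_congr (Quotient.congr (Equiv.refl X) key)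

variable {K F : Type*} [Field K] [Field F] [Algebra K F] [Algebra K ℂ] [IsAlgClosed K]

theorem card_zeros_eq_card_orbits (hF : IsFunctionField1 K F) (x : F)
    (hfin : {v : Place K F | 0 < v.ord x}.Finite) (n : ℕ)
    (hsum : ∑ᶠ v ∈ {v : Place K F | 0 < v.ord x}, v.ord x = (n : ℤ))
    {G X : Type*} [Group G] [MulAction G X] [Finite X] (hcard : Nat.card X = n)
    (σ : X → F →ₐ[K] LaurentSeries ℂ) (hσ : Function.Injective σ)
    (ε : G) (ζ : ℂˣ) (e : ℕ) (he : 0 < e) (hζ : IsPrimitiveRoot (ζ : ℂ) e)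
    (hrot : ∀ c f, σ (ε • c) f = rot ζ (σ c f))
    (ξ : LaurentSeries ℂ) (hξ : ∀ c, σ c x = ξ) (hξ0 : ξ ≠ 0) (hξord : ξ.order = e) :
    Nat.card {v : Place K F | 0 < v.ord x}
      = Nat.card (MulAction.orbitRel.Quotient (Subgroup.zpowers ε) X) := by
  classical
  have : Fintype X := Fintype.ofFinite X
  have hZ : ∀ w : Place K F, w ∈ hfin.toFinset ↔ 0 < w.ord x := fun w => by
    rw [Set.Finite.mem_toFinset]; rfl
  have hsum' : ∑ w ∈ hfin.toFinset, w.ord x = (n : ℤ) := by
    rw [← hsum, finsum_mem_eq_finite_toFinset_sum _ hfin]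
  have hres : ∀ w ∈ hfin.toFinset, ∀ f : F, f ≠ 0 → 0 ≤ w.ord f →
      ∃ c : K, f = algebraMap K F c ∨ 0 < w.ord (f - algebraMap K F c) :=
    fun w _ f hf0 hf => exists_ord_sub_pos hF w f hf hf0
  have hcard' : Fintype.card X = n := by rw [← Nat.card_eq_fintype_card, hcard]
  have h := (criterion x n hfin.toFinset hZ hsum' hres σ hσ hcard' e he ζ hζ
    (MulAction.toPerm ε) (fun i f => hrot i f) ξ hξ hξ0 hξord).1
  rw [card_orbits_toPerm] at h
  rw [h, Nat.card_coe_set_eq, Set.ncard_eq_toFinset_card _ hfin]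

end Fermat.Agent.S24.FibreCount
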