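import Fermat.Agent.S24.FinitePackage
import Fermat.Agent.S24.JLocalOrder

/-!
# S24 (block B): the finite embedding packages, with the S3 local-order hypotheses discharged

`FinitePackage.hasEmbeddings_generic / _zero / _1728` take the local orders of `j` as hypotheses;
`JLocalOrder` proves them.  Here we combine the two.  Owner: helper45.
-/

set_option autoImplicit false

open ModularCurve UpperHalfPlane Complex
open scoped MatrixGroups

noncomputable section

namespace Fermat.Agent.S24.FinitePackageS3

open Fermat.Agent.S24.FieldGen Fermat.Agent.S24.RamGlue Fermat.Agent.S24.FinitePackage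
  Fermat.Agent.S24.JLocalOrder

/-- The generic local order hypothesis of `FinitePackage.hasEmbeddings_generic`. -/
theorem hS3_generic : ∀ z0 : ℍ, jFun z0 ≠ 0 → jFun z0 ≠ 1728 →
    analyticOrderAt (fun z : ℂ => jFun (ofComplex z) - jFun z0) (z0 : ℂ) = 1 :=
  fun _ h0 h1 => analyticOrderAt_jFun_sub_generic rfl h0 h1

/-- The local order hypothesis of `FinitePackage.hasEmbeddings_zero`. -/
theorem hS3_zero : ∃ z0 : ℍ, (ModularGroup.S * ModularGroup.T) • z0 = z0 ∧
    analyticOrderAt (fun z : ℂ => jFun (ofComplex z)) (z0 : ℂ) = 3 := by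
  refine ⟨rho, ST_smul_rho, ?_⟩
  have h := analyticOrderAt_jFun_of_ST_smul_eq ST_smul_rho
  simpa using h

/-- The local order hypothesis of `FinitePackage.hasEmbeddings_1728`. -/
theorem hS3_1728 : ∃ z0 : ℍ, ModularGroup.S • z0 = z0 ∧
    analyticOrderAt (fun z : ℂ => jFun (ofComplex z) - 1728) (z0 : ℂ) = 2 :=
  ⟨UpperHalfPlane.I, S_smul_I, analyticOrderAt_jFun_of_S_smul_eq S_smul_I⟩

variable [Algebra Kbar ℂ] {N : ℕ} [NeZero N]

/-- The package over a generic value `a ∉ {0, 1728}`, unconditionally in the local orders. -/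
theorem hasEmbeddings_generic (D : EvData N) (a : Kbar) (ha0 : a ≠ 0) (ha1 : a ≠ 1728) :
    HasEmbeddings N (jBar N - algebraMap Kbar (FBar N) a) 1 1 :=
  FinitePackage.hasEmbeddings_generic D hS3_generic a ha0 ha1

/-- The package over `a = 0`, unconditionally in the local orders. -/
theorem hasEmbeddings_zero (D : EvData N) :
    ∃ g : SL(2, ℤ), Subgroup.zpowers g = Subgroup.zpowers (ModularGroup.S * ModularGroup.T) ∧
      HasEmbeddings N (jBar N - algebraMap Kbar (FBar N) 0) g 3 :=
  FinitePackage.hasEmbeddings_zero D hS3_zero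

/-- The package over `a = 1728`, unconditionally in the local orders. -/
theorem hasEmbeddings_1728 (D : EvData N) :
    ∃ g : SL(2, ℤ), Subgroup.zpowers g = Subgroup.zpowers ModularGroup.S ∧
      HasEmbeddings N (jBar N - algebraMap Kbar (FBar N) 1728) g 2 :=
  FinitePackage.hasEmbeddings_1728 D hS3_1728

end Fermat.Agent.S24.FinitePackageS3
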