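/-
S24 / S20 support: the normalised derivative `Dj = (2πi)⁻¹ j' = -E₄² E₆ / Δ` of the analytic
`j`-function as a weakly holomorphic modular form of weight `2`.  Owner: helper45.
-/
import Fermat.Agent.S24.JLocalOrder
import Fermat.Agent.S24.JD
import Fermat.Agent.S24.CuspExpansion

set_option autoImplicit false

namespace Fermat.Agent.S24.JPrime

open UpperHalfPlane hiding I
open ModularForm ModularFormClass MatrixGroups EisensteinSeries Complex Derivative
  Filter Topology CongruenceSubgroup SlashInvariantForm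
open scoped Manifold Real
open Fermat.Agent.S24.JLocalOrder Fermat.Agent.S24.CuspExpansion

local notation "𝕢" => Function.Periodic.qParam

/-! ### Definition and derivative -/

/-- `Dj = -E₄² E₆ / Δ`, the normalised derivative `(2πi)⁻¹ dj/dz` of `j`. -/
noncomputable def Dj (z : ℍ) : ℂ := -(E₄ z ^ 2 * E₆ z) / ModularForm.discriminant z

theorem Dj_def (z : ℍ) : Dj z = -(E₄ z ^ 2 * E₆ z) / ModularForm.discriminant z := rfl

/-- `j' = 2πi · Dj`. -/
theorem hasDerivAt_jFun (z : ℍ) : HasDerivAt (jFun ∘ ofComplex) (2 * π * I * Dj z) z :=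
  JLocalOrder.hasDerivAt_jFun z

theorem deriv_jFun (z : ℍ) : deriv (jFun ∘ ofComplex) z = 2 * π * I * Dj z :=
  (hasDerivAt_jFun z).deriv

/-- `D j = Dj` for Mathlib's normalised derivative `D`. -/
theorem D_jFun : D jFun = Dj := by
  funext z
  have h2 : (2 * (π : ℂ) * I) ≠ 0 := two_pi_I_ne_zero
  simp only [normalizedDerivOfComplex, deriv_jFun]
  field_simp

theorem mdiff_jFun : MDiff jFun :=
  UpperHalfPlane.mdifferentiable_iff.mpr differentiableOn_jFun_comp_ofComplex

theorem mdiff_Dj : MDiff Dj := by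
  rw [← D_jFun]
  exact normalizedDerivOfComplex_mdifferentiable mdiff_jFun

theorem Dj_eq_zero_iff (z : ℍ) : Dj z = 0 ↔ E₄ z = 0 ∨ E₆ z = 0 := by
  rw [Dj, div_eq_zero_iff, neg_eq_zero, mul_eq_zero, pow_eq_zero_iff (by norm_num)]
  simp [discriminant_ne_zero z]

theorem Dj_eq_zero_iff' (z : ℍ) : Dj z = 0 ↔ jFun z = 0 ∨ jFun z = 1728 := by
  rw [Dj_eq_zero_iff, jFun_eq_zero_iff, jFun_eq_1728_iff]

/-! ### Weight two modularity -/

/-- The transformation rule of `Δ`. -/
lemma discriminant_smul_eq (γ : SL(2, ℤ)) (z : ℍ) :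
    ModularForm.discriminant (γ • z) = denom γ z ^ (12 : ℤ) * ModularForm.discriminant z := by
  have h12 : SlashInvariantFormClass (CuspForm 𝒮ℒ 12) Γ(1) 12 :=
    Gamma_one_coe_eq_SL ▸ inferInstance
  have e12 := slash_action_eqn_SL'' CuspForm.discriminant (mem_Gamma_one γ) z
  rwa [CuspForm.coe_discriminant] at e12

/-- `Dj (γ z) = (c z + d)² Dj z` for `γ ∈ SL(2, ℤ)`. -/
theorem Dj_smul (γ : SL(2, ℤ)) (z : ℍ) : Dj (γ • z) = denom γ z ^ 2 * Dj z := by
  have e4 := levelOne_smul_eq E₄ γ z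
  have e6 := levelOne_smul_eq E₆ γ z
  have e12 := discriminant_smul_eq γ z
  have hd : denom γ z ≠ 0 := denom_ne_zero _ _
  have hΔ : ModularForm.discriminant z ≠ 0 := discriminant_ne_zero z
  rw [Dj, Dj, e4, e6, e12]
  generalize denom γ z = d at hd ⊢
  generalize E₄ z = a
  generalize E₆ z = b
  generalize ModularForm.discriminant z = c at hΔ ⊢
  rw [zpow_ofNat, zpow_ofNat, zpow_ofNat]
  field_simp

/-- `Dj` is invariant under the weight `2` slash action of `SL(2, ℤ)`. -/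
theorem Dj_slash (γ : SL(2, ℤ)) : Dj ∣[(2 : ℤ)] γ = Dj := by
  funext z
  rw [ModularForm.SL_slash_apply, Dj_smul]
  have hd : denom γ z ≠ 0 := denom_ne_zero _ _
  generalize denom γ z = d at hd ⊢
  rw [zpow_neg, zpow_ofNat]
  field_simp

/-- Multiplying a function by `Dj` turns composition with `γ` into the weight `2` slash
action. -/
theorem mul_Dj_slash (g : ℍ → ℂ) (γ : SL(2, ℤ)) :
    (g * Dj) ∣[(2 : ℤ)] γ = (fun z => g (γ • z)) * Dj := by
  funext z
  rw [ModularForm.SL_slash_apply]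
  simp only [Pi.mul_apply]
  rw [Dj_smul]
  have hd : denom γ z ≠ 0 := denom_ne_zero _ _
  generalize denom γ z = d at hd ⊢
  rw [zpow_neg, zpow_ofNat]
  field_simp

/-- If `g` is invariant under `γ`, then `g * Dj` is invariant under the weight `2` slash
action of `γ`. -/
theorem mul_Dj_slash_of_invariant {g : ℍ → ℂ} {γ : SL(2, ℤ)} (hg : ∀ z, g (γ • z) = g z) :
    (g * Dj) ∣[(2 : ℤ)] γ = g * Dj := by
  rw [mul_Dj_slash]
  funext z
  simp only [Pi.mul_apply, hg]

/-! ### Behaviour at `i∞` -/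

/-- `q / Δ → 1` at `i∞`. -/
lemma tendsto_qParam_div_discriminant :
    Tendsto (fun z : ℍ => 𝕢 1 z / ModularForm.discriminant z) atImInfty (𝓝 1) := by
  have h := tendsto_atImInfty_tprod_one_sub_eta_q_pow
  have h1 : Tendsto (fun x : ℍ => (∏' (n : ℕ), (1 - eta_q n x) ^ 24)⁻¹) atImInfty (𝓝 1) := by
    have := h.inv₀ one_ne_zero
    rwa [inv_one] at this
  refine h1.congr fun z => ?_
  have hq : 𝕢 1 (z : ℂ) ≠ 0 := Function.Periodic.qParam_ne_zero _
  have hΔ := discriminant_ne_zero z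
  rw [discriminant_eq_q_prod] at hΔ ⊢
  have hp : (∏' (n : ℕ), (1 - eta_q n z) ^ 24) ≠ 0 := right_ne_zero_of_mul hΔ
  field_simp

/-- `q · Dj → -1` at `i∞`: `Dj = -q⁻¹ + O(q)`. -/
theorem tendsto_qParam_mul_Dj :
    Tendsto (fun z : ℍ => 𝕢 1 z * Dj z) atImInfty (𝓝 (-1)) := by
  have h := ((tendsto_E4.pow 2).mul tendsto_E6).neg.mul tendsto_qParam_div_discriminant
  have hval : -((1 : ℂ) ^ 2 * 1) * 1 = -1 := by norm_num
  rw [hval] at h
  refine h.congr fun z => ?_
  rw [Dj]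
  have hΔ := discriminant_ne_zero z
  field_simp

/-- `Dj` is `1`-periodic. -/
lemma periodic_Dj : Function.Periodic (Dj ∘ ofComplex) (1 : ℝ) := by
  have h4 := periodic_levelOne E₄
  have h6 := periodic_levelOne E₆
  have h12 : Function.Periodic ((CuspForm.discriminant : ℍ → ℂ) ∘ ofComplex) (1 : ℝ) :=
    SlashInvariantFormClass.periodic_comp_ofComplex CuspForm.discriminant one_mem_strictPeriods_SL
  intro w
  have e4 := h4 w
  have e6 := h6 w
  have e12 := h12 w
  simp only [Function.comp_apply, CuspForm.coe_discriminant] at e4 e6 e12 ⊢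
  rw [Dj, Dj, e4, e6, e12]

/-! ### Laurent expansions at the cusp: order from a limit -/

/-- A Hahn series whose coefficients vanish below `n` and whose `n`-th coefficient is nonzero
has order `n`. -/
lemma order_eq_of_coeff {x : LaurentSeries ℂ} {n : ℤ} (hn : x.coeff n ≠ 0)
    (hlt : ∀ k < n, x.coeff k = 0) : x.order = n := by
  have hx : x ≠ 0 := by
    rintro rfl
    simp at hn
  refine le_antisymm (HahnSeries.order_le_of_coeff_ne_zero hn) ?_
  by_contra hcon
  rw [not_le] at hcon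
  exact hx (HahnSeries.coeff_order_eq_zero.mp (hlt _ hcon))

/-- If `u ^ m · f → c ≠ 0` at `i∞` then the Laurent expansion of `f` at the cusp has order `-m`
and leading coefficient `c`. -/
theorem cuspLaurent_of_tendsto {h : ℕ} [NeZero h] {f : ℍ → ℂ} (hf : MerAtCusp h f) {m : ℕ}
    {c : ℂ} (hlim : Tendsto (qh h ^ m * f) atImInfty (𝓝 c)) :
    (cuspLaurent h f).coeff (-(m : ℤ)) = c ∧ ∀ k < -(m : ℤ), (cuspLaurent h f).coeff k = 0 := by
  have hb : IsBoundedAtImInfty (qh h ^ m * f) := hlim.isBigO_one ℝ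
  have hol : HolAtCusp h (qh h ^ m * f) := hf.holAtCusp_mul hb
  have h0 : (qExpansion (h : ℝ) (qh h ^ m * f)).coeff 0 = c := by
    rw [qExpansion_coeff_zero (hpos h) hol.analyticAt hol.per]
    exact hlim.limUnder_eq
  constructor
  · rw [coeff_cuspLaurent hf hb, if_pos (by omega)]
    have : (-(m : ℤ) + (m : ℤ)).toNat = 0 := by omega
    rw [this, h0]
  · intro k hk
    rw [coeff_cuspLaurent hf hb, if_neg (by omega)]

theorem order_cuspLaurent_of_tendsto {h : ℕ} [NeZero h] {f : ℍ → ℂ} (hf : MerAtCusp h f)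
    {m : ℕ} {c : ℂ} (hc : c ≠ 0) (hlim : Tendsto (qh h ^ m * f) atImInfty (𝓝 c)) :
    (cuspLaurent h f).order = -(m : ℤ) := by
  obtain ⟨h1, h2⟩ := cuspLaurent_of_tendsto hf hlim
  exact order_eq_of_coeff (by rw [h1]; exact hc) h2

/-! ### `Dj` at the cusp -/

lemma qh_one_eq (z : ℍ) : qh 1 z = 𝕢 1 z := by
  simp [qh]

/-- `Dj` is meromorphic at the cusp `i∞` (width `1`). -/
theorem merAtCusp_one_Dj : MerAtCusp 1 Dj where
  per := by
    have := periodic_Dj
    simpa using this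
  hol := mdiff_Dj
  mer := by
    refine ⟨1, ?_⟩
    have h := tendsto_qParam_mul_Dj
    have h' : Tendsto (qh 1 ^ 1 * Dj) atImInfty (𝓝 (-1)) := by
      refine h.congr fun z => ?_
      simp [qh_one_eq]
    exact h'.isBigO_one ℝ

lemma tendsto_qh_one_mul_Dj : Tendsto (qh 1 ^ 1 * Dj) atImInfty (𝓝 (-1)) := by
  refine tendsto_qParam_mul_Dj.congr fun z => ?_
  simp [qh_one_eq]

/-- The Laurent expansion of `Dj` in `q` is `-q⁻¹ + O(1)`. -/
theorem coeff_cuspLaurent_one_Dj :
    (cuspLaurent 1 Dj).coeff (-1) = -1 ∧ ∀ k < (-1 : ℤ), (cuspLaurent 1 Dj).coeff k = 0 := by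
  have := cuspLaurent_of_tendsto merAtCusp_one_Dj tendsto_qh_one_mul_Dj
  simpa using this

theorem order_cuspLaurent_one_Dj : (cuspLaurent 1 Dj).order = -1 := by
  have := order_cuspLaurent_of_tendsto merAtCusp_one_Dj (by norm_num) tendsto_qh_one_mul_Dj
  simpa using this

/-- `Dj` is meromorphic at the cusp `i∞` for every width `h`; in the parameter `u = q^(1/h)` its
expansion is `-u⁻ʰ + O(1)`. -/
theorem merAtCusp_Dj (h : ℕ) [NeZero h] : MerAtCusp h Dj :=
  (MerAtCusp.of_width_one (h := h) merAtCusp_one_Dj).1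

theorem coeff_cuspLaurent_Dj (h : ℕ) [NeZero h] :
    (cuspLaurent h Dj).coeff (-(h : ℤ)) = -1 ∧
      ∀ k < -(h : ℤ), (cuspLaurent h Dj).coeff k = 0 := by
  have hk := (MerAtCusp.of_width_one (h := h) merAtCusp_one_Dj).2
  have hh : (0 : ℤ) < h := by exact_mod_cast Nat.pos_of_ne_zero (NeZero.ne h)
  constructor
  · rw [hk, if_pos (dvd_neg.mpr dvd_rfl)]
    have : -(h : ℤ) / h = -1 := by
      rw [Int.neg_ediv_of_dvd dvd_rfl, Int.ediv_self hh.ne']
    rw [this]
    exact coeff_cuspLaurent_one_Dj.1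
  · intro k hklt
    rw [hk]
    split_ifs with hdvd
    · apply coeff_cuspLaurent_one_Dj.2
      obtain ⟨t, rfl⟩ := hdvd
      rw [Int.mul_ediv_cancel_left _ hh.ne']
      by_contra hcon
      rw [not_lt] at hcon
      have : -(h : ℤ) ≤ h * t := by nlinarith
      omega
    · rfl

theorem order_cuspLaurent_Dj (h : ℕ) [NeZero h] : (cuspLaurent h Dj).order = -(h : ℤ) := by
  obtain ⟨h1, h2⟩ := coeff_cuspLaurent_Dj h
  exact order_eq_of_coeff (by rw [h1]; norm_num) h2

/-! ### The derivative of `j(dτ)` -/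

/-- `(j(dτ))' = 2πi · d · Dj(dτ)`. -/
theorem hasDerivAt_jD {d : ℕ} (hd : 0 < d) (z : ℍ) :
    HasDerivAt (jD d ∘ ofComplex) (2 * π * I * (d * Dj (scaleH d z))) z := by
  have h1 : HasDerivAt (fun w : ℂ => (d : ℂ) * w) (d : ℂ) (z : ℂ) := by
    simpa using (hasDerivAt_id (z : ℂ)).const_mul (d : ℂ)
  have h2 := hasDerivAt_jFun (scaleH d z)
  rw [coe_scaleH hd] at h2
  have h3 : HasDerivAt ((jFun ∘ ofComplex) ∘ fun w : ℂ => (d : ℂ) * w)
      (2 * π * I * Dj (scaleH d z) * d) (z : ℂ) := h2.comp (z : ℂ) h1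
  have heq : (jD d ∘ ofComplex) =ᶠ[𝓝 (z : ℂ)] ((jFun ∘ ofComplex) ∘ fun w : ℂ => (d : ℂ) * w) := by
    filter_upwards [isOpen_upperHalfPlaneSet.mem_nhds z.im_pos] with w hw
    have hw' : 0 < w.im := hw
    have hdw : 0 < ((d : ℂ) * w).im := by
      have : ((d : ℂ) * w).im = (d : ℝ) * w.im := by simp
      rw [this]
      exact mul_pos (by exact_mod_cast hd) hw'
    simp only [Function.comp_apply, ofComplex_apply_of_im_pos hw', jD_def,
      ofComplex_apply_of_im_pos hdw]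
    congr 1
    apply UpperHalfPlane.ext
    rw [coe_scaleH hd]
  exact (h3.congr_of_eventuallyEq heq).congr_deriv (by ring)

theorem mdiff_jD {d : ℕ} (hd : 0 < d) : MDiff (jD d) := by
  rw [UpperHalfPlane.mdifferentiable_iff]
  intro w hw
  exact (hasDerivAt_jD hd ⟨w, hw⟩).differentiableAt.differentiableWithinAt

/-- `D (j(dτ)) = d · Dj(dτ)`. -/
theorem D_jD {d : ℕ} (hd : 0 < d) (z : ℍ) : D (jD d) z = d * Dj (scaleH d z) := by
  have h2 : (2 * (π : ℂ) * I) ≠ 0 := two_pi_I_ne_zero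
  simp only [normalizedDerivOfComplex, (hasDerivAt_jD hd z).deriv]
  field_simp

/-! ### The zeros of `Dj` -/

lemma analyticAt_Dj (z : ℍ) : AnalyticAt ℂ (Dj ∘ ofComplex) z :=
  analyticAt_comp_ofComplex mdiff_Dj z

/-- `ord_{z0} Dj + 1 = ord_{z0} (j - j z0)`. -/
theorem analyticOrderAt_Dj_add_one (z0 : ℍ) :
    analyticOrderAt (Dj ∘ ofComplex) z0 + 1 =
      analyticOrderAt (fun w : ℂ => jFun (ofComplex w) - jFun z0) z0 := by
  have h := (analyticAt_jFun z0).analyticOrderAt_deriv_add_one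
  have heq : deriv (jFun ∘ ofComplex) =ᶠ[𝓝 (z0 : ℂ)]
      ((fun _ : ℂ => 2 * (π : ℂ) * I) * (Dj ∘ ofComplex)) := by
    filter_upwards [isOpen_upperHalfPlaneSet.mem_nhds z0.im_pos] with w hw
    have hw' : 0 < w.im := hw
    have := deriv_jFun ⟨w, hw'⟩
    simpa [ofComplex_apply_of_im_pos hw'] using this
  have hc : analyticOrderAt (fun _ : ℂ => 2 * (π : ℂ) * I) (z0 : ℂ) = 0 := by
    rw [analyticAt_const.analyticOrderAt_eq_zero]
    exact two_pi_I_ne_zero
  rw [analyticOrderAt_congr heq, analyticOrderAt_mul analyticAt_const (analyticAt_Dj z0), hc,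
    zero_add] at h
  rw [h]
  simp

/-- The order of vanishing of `Dj` at `z0` is `2`, `1`, `0` according to whether
`j z0 = 0`, `j z0 = 1728`, or neither. -/
theorem analyticOrderAt_Dj (z0 : ℍ) :
    analyticOrderAt (Dj ∘ ofComplex) z0 =
      if jFun z0 = 0 then 2 else if jFun z0 = 1728 then 1 else 0 := by
  have h := analyticOrderAt_Dj_add_one z0
  rw [analyticOrderAt_jFun_sub z0] at h
  split_ifs at h ⊢ with h0 h1
  · have h' : analyticOrderAt (Dj ∘ ofComplex) (z0 : ℂ) + 1 = 2 + 1 := by rw [h]; rfl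
    exact ENat.add_left_injective_of_ne_top ENat.one_ne_top h'
  · have h' : analyticOrderAt (Dj ∘ ofComplex) (z0 : ℂ) + 1 = 1 + 1 := by rw [h]; rfl
    exact ENat.add_left_injective_of_ne_top ENat.one_ne_top h'
  · have h' : analyticOrderAt (Dj ∘ ofComplex) (z0 : ℂ) + 1 = 0 + 1 := by rw [h]; rfl
    exact ENat.add_left_injective_of_ne_top ENat.one_ne_top h'

end Fermat.Agent.S24.JPrime
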