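import Mathlib
import Fermat.Agent.S24.HolRing
import Fermat.Agent.S24.LaurentAux

/-!
# S24, piece II6 (abstract part): from an expansion homomorphism on `holRing` to a family of
embeddings `F →ₐ[K] ℂ((u))` indexed by `SL(2, ℤ)`

Input: an injective ring homomorphism `E : holRing →+* ℂ⟦X⟧` sending constants to constants
(the Taylor expansion at a point `z₀ ∈ ℍ` in some local coordinate), a ring homomorphism
`Φ : F →+* Mer` compatible with the constants, invariant under a subgroup `Γ`.
Output: `τ g f := Ê (actMer g⁻¹ (Φ f))` with the properties consumed by the ramification glue.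
-/

set_option autoImplicit false

open UpperHalfPlane Complex
open scoped MatrixGroups

noncomputable section

namespace Fermat.Agent.S24.PointFamilyAbs

open Fermat.Agent.S24 Fermat.Agent.S24.HolRing

/-! ### `ofPowerSeries` versus `rot` and `order` -/

theorem coeff_ofPowerSeries_neg (p : PowerSeries ℂ) {k : ℤ} (hk : k < 0) :
    (HahnSeries.ofPowerSeries ℤ ℂ p).coeff k = 0 := by
  by_contra h
  have hmem : k ∈ (HahnSeries.ofPowerSeries ℤ ℂ p).support := h
  have h0 : (0 : ℤ) ≤ k := by
    have := HahnSeries.order_le_of_coeff_ne_zero h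
    have h2 : (0 : ℤ) ≤ (HahnSeries.ofPowerSeries ℤ ℂ p).order := by
      by_cases hp : HahnSeries.ofPowerSeries ℤ ℂ p = 0
      · rw [hp]; simp
      · rw [HahnSeries.order_of_ne hp]
        apply Set.IsWF.le_min_iff _ _ |>.2
        intro b hb
        rw [HahnSeries.ofPowerSeries_apply] at hb
        simp only [HahnSeries.mem_support, ne_eq] at hb
        by_contra hlt
        apply hb
        apply HahnSeries.embDomain_of_notMem_range
        simp only [Set.mem_range, not_exists]
        intro n hn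
        simp at hn
        omega
    omega
  omega

theorem coeff_ofPowerSeries_natCast (p : PowerSeries ℂ) (n : ℕ) :
    (HahnSeries.ofPowerSeries ℤ ℂ p).coeff (n : ℤ) = PowerSeries.coeff n p :=
  HahnSeries.ofPowerSeries_apply_coeff p n

/-- If the coefficients of `p'` are `ζ ^ k` times those of `p`, then `p'` is the rotation of `p`. -/
theorem ofPowerSeries_eq_rot {p p' : PowerSeries ℂ} (ζ : ℂˣ)
    (h : ∀ k : ℕ, PowerSeries.coeff k p' = (ζ : ℂ) ^ k * PowerSeries.coeff k p) :
    HahnSeries.ofPowerSeries ℤ ℂ p' = rot ζ (HahnSeries.ofPowerSeries ℤ ℂ p) := by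
  ext k
  rw [coeff_rot]
  rcases lt_or_ge k 0 with hk | hk
  · rw [coeff_ofPowerSeries_neg _ hk, coeff_ofPowerSeries_neg _ hk, mul_zero]
  · obtain ⟨n, rfl⟩ := Int.eq_ofNat_of_zero_le hk
    rw [coeff_ofPowerSeries_natCast, coeff_ofPowerSeries_natCast, h n, zpow_natCast]

theorem order_ofPowerSeries {p : PowerSeries ℂ} (hp : p ≠ 0) :
    ((HahnSeries.ofPowerSeries ℤ ℂ p).order : ℤ) = (p.order.toNat : ℤ) := by
  have hp' : HahnSeries.ofPowerSeries ℤ ℂ p ≠ 0 := fun h =>
    hp (HahnSeries.ofPowerSeries_injective (h.trans (map_zero _).symm))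
  have hfin : p.order ≠ ⊤ := fun h => hp (PowerSeries.order_eq_top.mp h)
  obtain ⟨n, hn⟩ := ENat.ne_top_iff_exists.mp hfin
  have hn' : p.order.toNat = n := by rw [← hn]; simp
  rw [hn']
  apply le_antisymm
  · apply HahnSeries.order_le_of_coeff_ne_zero
    rw [coeff_ofPowerSeries_natCast]
    have := PowerSeries.coeff_order hp
    rwa [hn'] at this
  · by_contra hlt
    rw [not_le] at hlt
    have hc : (HahnSeries.ofPowerSeries ℤ ℂ p).coeff (HahnSeries.ofPowerSeries ℤ ℂ p).order ≠ 0 :=
      fun h => hp' (HahnSeries.coeff_order_eq_zero.mp h)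
    set k := (HahnSeries.ofPowerSeries ℤ ℂ p).order with hk
    rcases lt_or_ge k 0 with hneg | hpos
    · exact hc (coeff_ofPowerSeries_neg _ hneg)
    · obtain ⟨m, hm⟩ := Int.eq_ofNat_of_zero_le hpos
      rw [hm, coeff_ofPowerSeries_natCast] at hc
      apply hc
      apply PowerSeries.coeff_of_lt_order
      rw [← hn]
      have : m < n := by omega
      exact_mod_cast this

/-! ### Expansion data on `holRing` and its extension to `Mer` -/

/-- An injective ring homomorphism `holRing →+* ℂ⟦X⟧` which sends constants to constants. -/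
structure ExpData where
  E : holRing →+* PowerSeries ℂ
  inj : Function.Injective E
  const : ∀ c : ℂ, E (algebraMap ℂ holRing c) = PowerSeries.C c

namespace ExpData

variable (D : ExpData)

/-- The expansion as a Laurent series. -/
def toLaurent : holRing →+* LaurentSeries ℂ := (HahnSeries.ofPowerSeries ℤ ℂ).comp D.E

theorem toLaurent_injective : Function.Injective D.toLaurent :=
  HahnSeries.ofPowerSeries_injective.comp D.inj

/-- The expansion extended to the field of meromorphic functions. -/
def merHom : Mer →+* LaurentSeries ℂ := IsFractionRing.lift D.toLaurent_injective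

@[simp] theorem merHom_algebraMap (f : holRing) :
    D.merHom (algebraMap holRing Mer f) = HahnSeries.ofPowerSeries ℤ ℂ (D.E f) :=
  IsFractionRing.lift_algebraMap _ f

theorem merHom_injective : Function.Injective D.merHom := D.merHom.injective

theorem merHom_const (c : ℂ) : D.merHom (algebraMap ℂ Mer c) = HahnSeries.C c := by
  rw [IsScalarTower.algebraMap_apply ℂ holRing Mer, merHom_algebraMap, D.const,
    HahnSeries.ofPowerSeries_C]

/-- Rotation equivariance passes from `holRing` to `Mer`. -/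
theorem merHom_actMer (ε : SL(2, ℤ)) (ζ : ℂˣ)
    (h : ∀ (f : holRing) (k : ℕ),
      PowerSeries.coeff k (D.E (actHol ε f)) = (ζ : ℂ) ^ k * PowerSeries.coeff k (D.E f))
    (m : Mer) : D.merHom (actMer ε m) = rot ζ (D.merHom m) := by
  obtain ⟨a, b, hb, rfl⟩ := IsFractionRing.div_surjective (A := holRing) m
  rw [map_div₀, map_div₀, map_div₀, actMer_algebraMap, actMer_algebraMap, merHom_algebraMap,
    merHom_algebraMap, merHom_algebraMap, merHom_algebraMap,
    ofPowerSeries_eq_rot ζ (h a), ofPowerSeries_eq_rot ζ (h b), map_div₀]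

end ExpData

theorem actMer_const (γ : SL(2, ℤ)) (c : ℂ) : actMer γ (algebraMap ℂ Mer c) = algebraMap ℂ Mer c := by
  rw [IsScalarTower.algebraMap_apply ℂ holRing Mer, actMer_algebraMap]
  rfl

/-! ### The family of embeddings -/

section Family

variable {K F : Type*} [Field K] [Field F] [Algebra K F] [Algebra K ℂ]

/-- The structure map `K → ℂ((u))` is `C ∘ algebraMap K ℂ` (whatever the instance path). -/
theorem algebraMap_laurent' (c : K) :
    algebraMap K (LaurentSeries ℂ) c = HahnSeries.C (algebraMap K ℂ c) :=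
  LaurentAux.algebraMap_eq_C' c

variable (D : ExpData) (Φ : F →+* Mer)
  (hΦ : ∀ c : K, Φ (algebraMap K F c) = algebraMap ℂ Mer (algebraMap K ℂ c))

/-- The embedding attached to `g`: expand `(Φ f) ∘ g⁻¹`. -/
def fam (g : SL(2, ℤ)) : F →ₐ[K] LaurentSeries ℂ :=
  { (D.merHom.comp ((actMer g⁻¹).toRingHom.comp Φ)) with
    commutes' := fun c => by
      show D.merHom (actMer g⁻¹ (Φ (algebraMap K F c))) = algebraMap K (LaurentSeries ℂ) c
      rw [hΦ, actMer_const, D.merHom_const, algebraMap_laurent'] }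

theorem fam_apply (g : SL(2, ℤ)) (f : F) :
    fam D Φ hΦ g f = D.merHom (actMer g⁻¹ (Φ f)) := rfl

/-- The family is constant on left cosets of any subgroup fixing the image of `Φ`. -/
theorem fam_mul_right (Γ : Subgroup SL(2, ℤ))
    (hinv : ∀ δ ∈ Γ, ∀ f : F, actMer δ (Φ f) = Φ f)
    (g : SL(2, ℤ)) (δ : SL(2, ℤ)) (hδ : δ ∈ Γ) : fam D Φ hΦ (g * δ) = fam D Φ hΦ g := by
  apply AlgHom.ext
  intro f
  rw [fam_apply, fam_apply, mul_inv_rev, actMer_mul, hinv δ⁻¹ (Γ.inv_mem hδ)]

/-- The family separates the left cosets of `Γ`, given a separation property of `Φ`. -/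
theorem fam_inj (Γ : Subgroup SL(2, ℤ))
    (hsep : ∀ δ : SL(2, ℤ), (∀ f : F, actMer δ (Φ f) = Φ f) → δ ∈ Γ)
    (g g' : SL(2, ℤ)) (h : fam D Φ hΦ g = fam D Φ hΦ g') : g⁻¹ * g' ∈ Γ := by
  apply hsep
  intro f
  have h1 : fam D Φ hΦ g f = fam D Φ hΦ g' f := by rw [h]
  rw [fam_apply, fam_apply] at h1
  have h2 := D.merHom_injective h1
  have h3 := congrArg (actMer g') h2
  rw [← actMer_mul, ← actMer_mul, inv_mul_cancel, actMer_one] at h3
  exact h3

/-- Rotation equivariance: if `s⁻¹` acts on expansions by `u ↦ ζ u`, then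
`τ (s * g) = rot ζ ∘ τ g`. -/
theorem fam_mul_left (s : SL(2, ℤ)) (ζ : ℂˣ)
    (h : ∀ (f : holRing) (k : ℕ),
      PowerSeries.coeff k (D.E (actHol s⁻¹ f)) = (ζ : ℂ) ^ k * PowerSeries.coeff k (D.E f))
    (g : SL(2, ℤ)) (f : F) : fam D Φ hΦ (s * g) f = rot ζ (fam D Φ hΦ g f) := by
  rw [fam_apply, fam_apply, mul_inv_rev, actMer_mul, D.merHom_actMer s⁻¹ ζ h]

/-- On an `SL(2, ℤ)`-invariant holomorphic function the family is constant. -/
theorem fam_of_invariant (y : F) (J : holRing) (hy : Φ y = algebraMap holRing Mer J)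
    (hJ : ∀ γ : SL(2, ℤ), actHol γ J = J) (g : SL(2, ℤ)) :
    fam D Φ hΦ g y = HahnSeries.ofPowerSeries ℤ ℂ (D.E J) := by
  rw [fam_apply, hy, actMer_algebraMap, hJ, D.merHom_algebraMap]

end Family

end Fermat.Agent.S24.PointFamilyAbs
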