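import Mathlib
import Fermat.Agent.S24.LaurentAux
import Fermat.Agent.S24.DiscExpansion
import Fermat.Agent.S24.PointFamilyAbs
import Fermat.Agent.S24.JSurjective

/-!
# S24, piece II6.fin (local datum at a finite point): the algebra of holomorphic functions on `ℍ`,
its expansion `discLaurent z0 : holAlg →ₐ[ℂ] ℂ((u))` at `z0` in the disc coordinate, the rotation
equivariance under the stabiliser of `z0`, and the order of the expansion.
-/

set_option autoImplicit false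

open UpperHalfPlane Complex
open scoped MatrixGroups Manifold ComplexConjugate

noncomputable section

namespace Fermat.Agent.S24.PointDatum

open Fermat.Agent.S24 Fermat.Agent.S24.DiscExpansion Fermat.Agent.S24.PointFamilyAbs

/-! ### Holomorphic functions on `ℍ` as a `ℂ`-subalgebra of `ℍ → ℂ` -/

/-- The `ℂ`-algebra of holomorphic functions on the upper half plane. -/
def holAlg : Subalgebra ℂ (ℍ → ℂ) where
  carrier := {f | MDiff f}
  mul_mem' hf hg := hf.mul hg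
  add_mem' hf hg := hf.add hg
  algebraMap_mem' _ := mdifferentiable_const

theorem mem_holAlg {f : ℍ → ℂ} : f ∈ holAlg ↔ MDiff f := Iff.rfl

theorem diffOn_of_mdiff {f : ℍ → ℂ} (hf : MDiff f) :
    DifferentiableOn ℂ (f ∘ ofComplex) upperHalfPlaneSet :=
  UpperHalfPlane.mdifferentiable_iff.mp hf

theorem mdiff_of_diffOn {f : ℍ → ℂ} (hf : DifferentiableOn ℂ (f ∘ ofComplex) upperHalfPlaneSet) :
    MDiff f :=
  UpperHalfPlane.mdifferentiable_iff.mpr hf

theorem mdiff_comp_smul (γ : SL(2, ℤ)) {f : ℍ → ℂ} (hf : MDiff f) :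
    MDiff (fun τ : ℍ => f (γ • τ)) :=
  Fermat.Agent.S24.HolRing.mdiff_comp_smul γ hf

/-- Precomposition with `γ ∈ SL(2, ℤ)` on `holAlg`. -/
def compSmul (γ : SL(2, ℤ)) (f : holAlg) : holAlg :=
  ⟨fun τ => (f : ℍ → ℂ) (γ • τ), mdiff_comp_smul γ f.2⟩

@[simp] theorem compSmul_apply (γ : SL(2, ℤ)) (f : holAlg) (τ : ℍ) :
    (compSmul γ f : ℍ → ℂ) τ = (f : ℍ → ℂ) (γ • τ) := rfl

/-! ### The expansion at `z0` -/

/-- The expansion of a holomorphic function at `z0` in the disc coordinate, as a Laurent series. -/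
def discLaurent (z0 : ℍ) : holAlg →ₐ[ℂ] LaurentSeries ℂ where
  toFun f := HahnSeries.ofPowerSeries ℤ ℂ (discExp z0 (f : ℍ → ℂ))
  map_one' := by
    show HahnSeries.ofPowerSeries ℤ ℂ (discExp z0 (1 : ℍ → ℂ)) = 1
    rw [discExp_one, map_one]
  map_mul' f g := by
    show HahnSeries.ofPowerSeries ℤ ℂ (discExp z0 ((f : ℍ → ℂ) * (g : ℍ → ℂ))) = _
    rw [discExp_mul z0 (diffOn_of_mdiff f.2) (diffOn_of_mdiff g.2), map_mul]
  map_zero' := by
    show HahnSeries.ofPowerSeries ℤ ℂ (discExp z0 (0 : ℍ → ℂ)) = 0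
    rw [discExp_zero, map_zero]
  map_add' f g := by
    show HahnSeries.ofPowerSeries ℤ ℂ (discExp z0 ((f : ℍ → ℂ) + (g : ℍ → ℂ))) = _
    rw [discExp_add z0 (diffOn_of_mdiff f.2) (diffOn_of_mdiff g.2), map_add]
  commutes' c := by
    show HahnSeries.ofPowerSeries ℤ ℂ (discExp z0 (fun _ => c)) = _
    rw [discExp_const, HahnSeries.ofPowerSeries_C, LaurentAux.algebraMap_eq_C]

theorem discLaurent_apply (z0 : ℍ) (f : holAlg) :
    discLaurent z0 f = HahnSeries.ofPowerSeries ℤ ℂ (discExp z0 (f : ℍ → ℂ)) := rfl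

theorem discLaurent_injective (z0 : ℍ) : Function.Injective (discLaurent z0) := by
  intro f g h
  rw [discLaurent_apply, discLaurent_apply] at h
  have h1 := HahnSeries.ofPowerSeries_injective h
  exact Subtype.ext (discExp_injective z0 (diffOn_of_mdiff f.2) (diffOn_of_mdiff g.2) h1)

/-- The rotation factor as a unit of `ℂ`. -/
def rotUnit (γ : SL(2, ℤ)) (z0 : ℍ) : ℂˣ := Units.mk0 (rotFactor γ z0) (rotFactor_ne_zero γ z0)

@[simp] theorem coe_rotUnit (γ : SL(2, ℤ)) (z0 : ℍ) : ((rotUnit γ z0 : ℂˣ) : ℂ) = rotFactor γ z0 := rfl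

/-- Equivariance of the expansion under the stabiliser of `z0`. -/
theorem discLaurent_compSmul (γ : SL(2, ℤ)) (z0 : ℍ) (h : γ • z0 = z0) (f : holAlg) :
    discLaurent z0 (compSmul γ f) = rot (rotUnit γ z0) (discLaurent z0 f) := by
  rw [discLaurent_apply, discLaurent_apply]
  apply ofPowerSeries_eq_rot
  intro k
  show PowerSeries.coeff k (discExp z0 (fun z => (f : ℍ → ℂ) (γ • z))) = _
  rw [discExp_comp_smul γ z0 h, PowerSeries.coeff_rescale, coe_rotUnit]

/-- The order of the expansion is the analytic order. -/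
theorem order_discLaurent (z0 : ℍ) (f : holAlg) (hf : f ≠ 0) :
    ((discLaurent z0 f).order : ℤ) = ((analyticOrderAt ((f : ℍ → ℂ) ∘ ofComplex) (z0 : ℂ)).toNat : ℤ) := by
  have h0 : discExp z0 (f : ℍ → ℂ) ≠ 0 := by
    intro h
    apply hf
    exact Subtype.ext (eq_zero_of_discExp_eq_zero z0 (diffOn_of_mdiff f.2) h)
  rw [discLaurent_apply, order_ofPowerSeries h0, order_discExp z0 (diffOn_of_mdiff f.2)]

/-! ### The inverse of a stabilising element -/

theorem cd_inv (γ : SL(2, ℤ)) (z : ℂ) :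
    cd γ⁻¹ z = -((γ 1 0 : ℤ) : ℂ) * z + ((γ 0 0 : ℤ) : ℂ) := by
  have h10 : (γ⁻¹ : SL(2, ℤ)) 1 0 = -γ 1 0 := by
    rw [Matrix.SpecialLinearGroup.coe_inv, Matrix.adjugate_fin_two]; simp
  have h11 : (γ⁻¹ : SL(2, ℤ)) 1 1 = γ 0 0 := by
    rw [Matrix.SpecialLinearGroup.coe_inv, Matrix.adjugate_fin_two]; simp
  simp only [cd, h10, h11]
  push_cast
  ring

theorem cd_mul_cd_inv (γ : SL(2, ℤ)) (p : ℂ) (h : ab γ p = p * cd γ p) :
    cd γ p * cd γ⁻¹ p = 1 := by
  have hdet : ((γ 0 0 : ℤ) : ℂ) * ((γ 1 1 : ℤ) : ℂ) - ((γ 0 1 : ℤ) : ℂ) * ((γ 1 0 : ℤ) : ℂ) = 1 := by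
    have := Matrix.SpecialLinearGroup.det_coe γ
    rw [Matrix.det_fin_two] at this
    exact_mod_cast this
  rw [cd_inv]
  simp only [cd, ab] at h ⊢
  linear_combination hdet + ((γ 1 0 : ℤ) : ℂ) * h

theorem rotFactor_inv (γ : SL(2, ℤ)) (z0 : ℍ) (h : γ • z0 = z0) :
    rotFactor γ⁻¹ z0 = (rotFactor γ z0)⁻¹ := by
  have h1 := cd_mul_cd_inv γ (z0 : ℂ) (ab_eq_of_smul_eq γ z0 h)
  have h2 := cd_mul_cd_inv γ (conj (z0 : ℂ)) (ab_conj_eq_of_smul_eq γ z0 h)
  have hz : cd γ (z0 : ℂ) ≠ 0 := left_ne_zero_of_mul_eq_one h1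
  have hz' : cd γ (conj (z0 : ℂ)) ≠ 0 := left_ne_zero_of_mul_eq_one h2
  have hi : cd γ⁻¹ (z0 : ℂ) ≠ 0 := right_ne_zero_of_mul_eq_one h1
  rw [rotFactor, rotFactor, inv_div, div_eq_div_iff hi hz']
  linear_combination h2 - h1

theorem inv_smul_eq_of_smul_eq (γ : SL(2, ℤ)) (z0 : ℍ) (h : γ • z0 = z0) : γ⁻¹ • z0 = z0 := by
  rw [inv_smul_eq_iff, h]

theorem isPrimitiveRoot_rotUnit_inv {γ : SL(2, ℤ)} {z0 : ℍ} (h : γ • z0 = z0) {e : ℕ}
    (hζ : IsPrimitiveRoot (rotFactor γ z0) e) :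
    IsPrimitiveRoot ((rotUnit γ⁻¹ z0 : ℂˣ) : ℂ) e := by
  rw [coe_rotUnit, rotFactor_inv γ z0 h]
  exact hζ.inv


/-! ### The elliptic points `i` and `ρ` -/

theorem S_smul_I : ModularGroup.S • UpperHalfPlane.I = UpperHalfPlane.I := by
  rw [UpperHalfPlane.modular_S_smul]
  apply UpperHalfPlane.ext
  simp

/-- The fixed point of `S` in `ℍ` is unique. -/
theorem eq_I_of_S_smul_eq (z0 : ℍ) (h : ModularGroup.S • z0 = z0) : z0 = UpperHalfPlane.I := by
  have h1 := sq_eq_of_S_smul_eq z0 h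
  apply UpperHalfPlane.ext
  have h2 : ((z0 : ℂ) - Complex.I) * ((z0 : ℂ) + Complex.I) = 0 := by
    linear_combination h1 - Complex.I_sq
  rcases mul_eq_zero.mp h2 with h3 | h3
  · show (z0 : ℂ) = Complex.I
    linear_combination h3
  · exfalso
    have h4 : (z0 : ℂ) = -Complex.I := by linear_combination h3
    have h5 := congrArg Complex.im h4
    have h6 := z0.im_pos
    simp only [Complex.neg_im, Complex.I_im] at h5
    have h7 : (z0 : ℂ).im = z0.im := rfl
    linarith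

/-- The point `ρ = (-1 + i √3) / 2`. -/
def rho : ℍ := ⟨-1/2 + (Real.sqrt 3 / 2 : ℝ) * Complex.I, by simp⟩

theorem rho_quad : (rho : ℂ) ^ 2 + rho + 1 = 0 := by
  have h3 : ((Real.sqrt 3 : ℝ) : ℂ) ^ 2 = 3 := by
    rw [← Complex.ofReal_pow, Real.sq_sqrt (by norm_num)]; norm_num
  show (-1/2 + ((Real.sqrt 3 / 2 : ℝ) : ℂ) * Complex.I) ^ 2
    + (-1/2 + ((Real.sqrt 3 / 2 : ℝ) : ℂ) * Complex.I) + 1 = 0
  push_cast
  linear_combination (-1/4 : ℂ) * h3 + (1/4 : ℂ) * ((Real.sqrt 3 : ℝ) : ℂ) ^ 2 * Complex.I_sq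

theorem ST_smul_rho : (ModularGroup.S * ModularGroup.T) • rho = rho := by
  rw [mul_smul, UpperHalfPlane.modular_T_smul, UpperHalfPlane.modular_S_smul]
  apply UpperHalfPlane.ext
  have h := rho_quad
  have h1 : (rho : ℂ) + 1 ≠ 0 := by
    intro h0
    have : (rho : ℂ) = -1 := by linear_combination h0
    rw [this] at h; norm_num at h
  show (-(((1 : ℝ) +ᵥ rho : ℍ) : ℂ))⁻¹ = (rho : ℂ)
  rw [UpperHalfPlane.coe_vadd]
  push_cast
  have h2 : -((1 : ℂ) + (rho : ℂ)) ≠ 0 := by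
    intro h0; apply h1; linear_combination -h0
  have h3 : (rho : ℂ) ≠ 0 := by
    intro h0; rw [h0] at h; norm_num at h
  rw [inv_eq_iff_eq_inv]
  field_simp
  linear_combination -h

/-- The fixed point of `S * T` in `ℍ` is unique. -/
theorem eq_rho_of_ST_smul_eq (z0 : ℍ) (h : (ModularGroup.S * ModularGroup.T) • z0 = z0) :
    z0 = rho := by
  have h1 := quad_eq_of_ST_smul_eq z0 h
  have h2 := rho_quad
  apply UpperHalfPlane.ext
  have h3 : ((z0 : ℂ) - (rho : ℂ)) * ((z0 : ℂ) + (rho : ℂ) + 1) = 0 := by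
    linear_combination h1 - h2
  rcases mul_eq_zero.mp h3 with h4 | h4
  · show (z0 : ℂ) = (rho : ℂ)
    linear_combination h4
  · exfalso
    have h5 : (z0 : ℂ) = -(rho : ℂ) - 1 := by linear_combination h4
    have h6 := congrArg Complex.im h5
    have h7 := z0.im_pos
    have h8 := rho.im_pos
    simp only [Complex.sub_im, Complex.neg_im, Complex.one_im, sub_zero] at h6
    have h9 : (z0 : ℂ).im = z0.im := rfl
    have h10 : (rho : ℂ).im = rho.im := rfl
    linarith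

/-! ### The rotation data for `s = 1`, `s = S` (at `i`) and `s = S * T` (at `ρ`)

In each case `ε = s⁻¹` fixes `z0` and acts on expansions at `z0` through `rot ζ` with `ζ` a
primitive `e`-th root of unity, `e = 1, 2, 3`. -/

theorem discLaurent_compSmul_inv {s : SL(2, ℤ)} {z0 : ℍ} (h : s • z0 = z0) (f : holAlg) :
    discLaurent z0 (compSmul s⁻¹ f) = rot (rotUnit s⁻¹ z0) (discLaurent z0 f) :=
  discLaurent_compSmul s⁻¹ z0 (inv_smul_eq_of_smul_eq s z0 h) f

theorem isPrimitiveRoot_rotUnit_S_inv :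
    IsPrimitiveRoot ((rotUnit ModularGroup.S⁻¹ UpperHalfPlane.I : ℂˣ) : ℂ) 2 :=
  isPrimitiveRoot_rotUnit_inv S_smul_I (isPrimitiveRoot_rotFactor_S _ S_smul_I)

theorem isPrimitiveRoot_rotUnit_ST_inv :
    IsPrimitiveRoot ((rotUnit (ModularGroup.S * ModularGroup.T)⁻¹ rho : ℂˣ) : ℂ) 3 :=
  isPrimitiveRoot_rotUnit_inv ST_smul_rho (isPrimitiveRoot_rotFactor_ST _ ST_smul_rho)

theorem rotFactor_one (z0 : ℍ) : rotFactor 1 z0 = 1 := by
  have h0 : cd 1 (z0 : ℂ) = 1 := by simp [cd]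
  have h1 : cd 1 (conj (z0 : ℂ)) = 1 := by simp [cd]
  rw [rotFactor, h0, h1, div_one]

theorem rotUnit_one_inv (z0 : ℍ) : rotUnit (1 : SL(2, ℤ))⁻¹ z0 = 1 := by
  apply Units.ext
  rw [coe_rotUnit, inv_one, rotFactor_one, Units.val_one]

/-! ### The `j`-function -/

theorem mdiff_jFun : MDiff jFun := mdiff_of_diffOn differentiableOn_jFun_comp_ofComplex

/-- `j` as an element of `holAlg`. -/
def jHol : holAlg := ⟨jFun, mdiff_jFun⟩

/-- `j - a` as an element of `holAlg`. -/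
def jSub (a : ℂ) : holAlg := jHol - algebraMap ℂ holAlg a

theorem jSub_apply (a : ℂ) (τ : ℍ) : (jSub a : ℍ → ℂ) τ = jFun τ - a := rfl

theorem compSmul_jSub (γ : SL(2, ℤ)) (a : ℂ) : compSmul γ (jSub a) = jSub a := by
  apply Subtype.ext
  funext τ
  rw [compSmul_apply, jSub_apply, jSub_apply, jFun_smul]

theorem jSub_ne_zero (a : ℂ) : jSub a ≠ 0 := by
  intro h
  have h1 : ∀ τ : ℍ, jFun τ = a := by
    intro τ
    have := congrArg (fun f : holAlg => (f : ℍ → ℂ) τ) h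
    simp only [jSub_apply] at this
    have h0 : ((0 : holAlg) : ℍ → ℂ) τ = 0 := rfl
    rw [h0] at this
    exact sub_eq_zero.mp this
  obtain ⟨τ, hτ⟩ := jFun_surjective (a + 1)
  rw [h1 τ] at hτ
  simp at hτ

/-- The expansion of `j - a` at `z0` is nonzero and its order is the analytic order of
`z ↦ j z - a` at `z0`. -/
theorem discLaurent_jSub_ne_zero (z0 : ℍ) (a : ℂ) : discLaurent z0 (jSub a) ≠ 0 := by
  intro h
  exact jSub_ne_zero a (discLaurent_injective z0 (h.trans (map_zero _).symm))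

theorem order_discLaurent_jSub (z0 : ℍ) (a : ℂ) {e : ℕ}
    (h : analyticOrderAt (fun z : ℂ => jFun (ofComplex z) - a) (z0 : ℂ) = e) :
    (discLaurent z0 (jSub a)).order = e := by
  rw [order_discLaurent z0 _ (jSub_ne_zero a)]
  have : ((jSub a : holAlg) : ℍ → ℂ) ∘ ofComplex = fun z : ℂ => jFun (ofComplex z) - a := rfl
  rw [this, h]
  simp

end Fermat.Agent.S24.PointDatum
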