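import Fermat.Agent.S24.PrincipalDegreeCore
import Fermat.Agent.S24.ZerosBackupThm

/-!
# S24, piece A7: principal divisors have degree zero

For a function field of one variable `F / K` over an algebraically closed field `K` and
`f : F` nonzero, only finitely many places `v` have `v.ord f ≠ 0`, and `∑ᶠ v, v.ord f = 0`.
This file instantiates `PrincipalDegreeCore` with the zeros theorem A1
(`ZerosBackup.zerosTheorem`), so the statements are unconditional (characteristic zero).
-/

set_option autoImplicit false

open AlgebraicCurve IntermediateField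

namespace Fermat.Agent.S24.PrincipalDegree

variable {K F : Type*} [Field K] [Field F] [Algebra K F] [IsAlgClosed K] [CharZero K]

/-- The zeros theorem A1 in the packaged form consumed by `PrincipalDegreeCore`. -/
theorem zerosTheorem : PrincipalDegreeCore.ZerosTheorem K F :=
  ZerosBackup.zerosTheorem

theorem ord_algebraMap_eq_zero (v : Place K F) (c : K) : v.ord (algebraMap K F c) = 0 :=
  PrincipalDegreeCore.ord_algebraMap_eq_zero v c

theorem ord_support_finite (hF : IsFunctionField1 K F) (f : F) (hf : f ≠ 0) :
    {v : Place K F | v.ord f ≠ 0}.Finite :=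
  PrincipalDegreeCore.ord_support_finite zerosTheorem hF f hf

theorem sum_ord_eq_zero (hF : IsFunctionField1 K F) (f : F) (hf : f ≠ 0) :
    ∑ᶠ v : Place K F, v.ord f = 0 :=
  PrincipalDegreeCore.sum_ord_eq_zero zerosTheorem hF f hf

theorem degree_eq_finsum (hF : IsFunctionField1 K F) (D : Divisor K F) :
    Divisor.degree D = ∑ᶠ v : Place K F, D v :=
  PrincipalDegreeCore.degree_eq_finsum hF D

theorem degree_eq_zero_of_forall_eq_ord (hF : IsFunctionField1 K F) (f : F) (hf : f ≠ 0)
    (D : Divisor K F) (hD : ∀ v : Place K F, D v = v.ord f) : Divisor.degree D = 0 :=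
  PrincipalDegreeCore.degree_eq_zero_of_forall_eq_ord zerosTheorem hF f hf D hD

theorem degree_eq_zero_of_mem_principal (hF : IsFunctionField1 K F) {D : Divisor K F}
    (hD : D ∈ Divisor.principal (K := K) (F := F)) : Divisor.degree D = 0 :=
  PrincipalDegreeCore.degree_eq_zero_of_mem_principal zerosTheorem hF hD

theorem exists_divisor_eq_ord (hF : IsFunctionField1 K F) (f : F) (hf : f ≠ 0) :
    ∃ D : Divisor K F, ∀ v : Place K F, D v = v.ord f :=
  PrincipalDegreeCore.exists_divisor_eq_ord zerosTheorem hF f hf

theorem hasPrincipalDivisors (hF : IsFunctionField1 K F) : HasPrincipalDivisors K F :=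
  PrincipalDegreeCore.hasPrincipalDivisors zerosTheorem hF

end Fermat.Agent.S24.PrincipalDegree
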