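import Fermat.Agent.S24.RamGlue

/-!
# S24, Block B glue: embedding packages from families indexed by group elements

`Fermat.Agent.S24.RamGlue.HasEmbeddings N y s e` asks for a family of embeddings indexed by the
left cosets `SL(2, ℤ) ⧸ Γ₀(N)`.  The analytic construction naturally produces a family
`τ g` indexed by group elements `g : SL(2, ℤ)` (the expansion at a base point of `f ∘ g⁻¹`),
constant on left cosets.  This file turns such a family into an embedding package.
-/

set_option autoImplicit false

namespace Fermat.Agent.S24.RamGlueFamily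

open AlgebraicCurve Fermat.Agent.S24 Fermat.Agent.S24.RamGlue
open scoped MatrixGroups

variable (N : ℕ) [Algebra Kbar ℂ]

/-- From a family of embeddings indexed by `SL(2, ℤ)`, constant on left cosets of `Γ₀(N)`,
separating these cosets, and equivariant under left multiplication by `s` up to the rotation
`rot ζ`, to an embedding package in the sense of `RamGlue.HasEmbeddings`. -/
theorem hasEmbeddings_of_family (y : FBar N) (s : SL(2, ℤ)) (e : ℕ)
    (τ : SL(2, ℤ) → FBar N →ₐ[Kbar] LaurentSeries ℂ)
    (hτΓ : ∀ g : SL(2, ℤ), ∀ δ ∈ CongruenceSubgroup.Gamma0 N, τ (g * δ) = τ g)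
    (hτinj : ∀ g g' : SL(2, ℤ), τ g = τ g' → g⁻¹ * g' ∈ CongruenceSubgroup.Gamma0 N)
    (ζ : ℂˣ) (hζ : IsPrimitiveRoot (ζ : ℂ) e)
    (hrot : ∀ (g : SL(2, ℤ)) (f : FBar N), τ (s * g) f = rot ζ (τ g f))
    (ξ : LaurentSeries ℂ) (hξ : ∀ g, τ g y = ξ) (hξ0 : ξ ≠ 0) (hξord : ξ.order = e) :
    HasEmbeddings N y s e := by
  let σ : Cosets N → FBar N →ₐ[Kbar] LaurentSeries ℂ := fun c =>
    Quotient.liftOn' c τ (fun a b hab => by
      have hab' : a⁻¹ * b ∈ CongruenceSubgroup.Gamma0 N := QuotientGroup.leftRel_apply.mp hab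
      have : b = a * (a⁻¹ * b) := by group
      rw [this, hτΓ a _ hab'])
  have hσmk : ∀ g : SL(2, ℤ), σ (QuotientGroup.mk g) = τ g := fun g => rfl
  refine ⟨σ, ζ, ξ, ?_, hζ, ?_, ?_, hξ0, hξord⟩
  · intro c c' h
    induction c using QuotientGroup.induction_on with
    | H g =>
      induction c' using QuotientGroup.induction_on with
      | H g' =>
        rw [hσmk, hσmk] at h
        exact QuotientGroup.eq.mpr (hτinj g g' h)
  · intro c f
    induction c using QuotientGroup.induction_on with
    | H g =>
      change σ (QuotientGroup.mk (s * g)) f = rot ζ (σ (QuotientGroup.mk g) f)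
      rw [hσmk, hσmk]
      exact hrot g f
  · intro c
    induction c using QuotientGroup.induction_on with
    | H g => rw [hσmk]; exact hξ g

end Fermat.Agent.S24.RamGlueFamily
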