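import Fermat.Agent.S24.RamGlue
import Fermat.Agent.S24.CombNumerics

/-!
# S24, piece B8.glue (continued)

* `HasGroupFamily`: the group-indexed shape of an embedding family (`τ : SL(2,ℤ) → ...`,
  right-`Γ₀(N)`-invariant, separating cosets), and its conversion to `RamGlue.HasEmbeddings`.
* `modularRamificationData_of_families`: Block B from degree data, the zeros theorem and four
  families; the orbit numerics are discharged by `CombNumerics`.
-/

set_option autoImplicit false

open AlgebraicCurve ModularCurve IntermediateField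
open scoped MatrixGroups

namespace Fermat.Agent.S24.RamGlue

variable (N : ℕ) [NeZero N] [Algebra Kbar ℂ]

/-- Group-indexed embedding family: `τ g` is (morally) `f ↦ expansion at z₀ of (Φ f) ∘ g⁻¹`. -/
def HasGroupFamily (y : FBar N) (s : SL(2, ℤ)) (e : ℕ) : Prop :=
  ∃ (τ : SL(2, ℤ) → FBar N →ₐ[Kbar] LaurentSeries ℂ) (ζ : ℂˣ) (ξ : LaurentSeries ℂ),
    (∀ g, ∀ δ ∈ CongruenceSubgroup.Gamma0 N, τ (g * δ) = τ g) ∧
    (∀ g g', τ g = τ g' → g⁻¹ * g' ∈ CongruenceSubgroup.Gamma0 N) ∧
    IsPrimitiveRoot (ζ : ℂ) e ∧ (∀ g f, τ (s * g) f = rot ζ (τ g f)) ∧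
    (∀ g, τ g y = ξ) ∧ ξ ≠ 0 ∧ ξ.order = e

variable {N}

omit [NeZero N] in
theorem HasGroupFamily.hasEmbeddings {y : FBar N} {s : SL(2, ℤ)} {e : ℕ}
    (h : HasGroupFamily N y s e) : HasEmbeddings N y s e := by
  obtain ⟨τ, ζ, ξ, hΓ, hinj, hζ, hrot, hξ, hξ0, hξord⟩ := h
  have hwd : ∀ a b : SL(2, ℤ), QuotientGroup.leftRel (CongruenceSubgroup.Gamma0 N) a b →
      τ a = τ b := by
    intro a b hab
    rw [QuotientGroup.leftRel_apply] at hab
    have := hΓ a (a⁻¹ * b) hab
    rw [mul_inv_cancel_left] at this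
    exact this.symm
  let σ : Cosets N → FBar N →ₐ[Kbar] LaurentSeries ℂ := Quotient.lift τ hwd
  have hσ : ∀ g : SL(2, ℤ), σ (QuotientGroup.mk g) = τ g := fun g => rfl
  refine ⟨σ, ζ, ξ, ?_, hζ, ?_, ?_, hξ0, hξord⟩
  · intro x x' hxx'
    induction x using QuotientGroup.induction_on with
    | H g =>
      induction x' using QuotientGroup.induction_on with
      | H g' =>
        rw [hσ, hσ] at hxx'
        exact QuotientGroup.eq.mpr (hinj g g' hxx')
  · intro x f
    induction x using QuotientGroup.induction_on with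
    | H g =>
      have : s • (QuotientGroup.mk g : Cosets N) = QuotientGroup.mk (s * g) := rfl
      rw [this, hσ, hσ]
      exact hrot g f
  · intro x
    induction x using QuotientGroup.induction_on with
    | H g => rw [hσ]; exact hξ g

/-- **Block B from four families** (group-indexed shape), degree data and the zeros theorem.
The orbit numerics come from `CombNumerics`. -/
theorem modularRamificationData_of_families
    (htr : Transcendental Kbar (jBar N))
    (hfd : FiniteDimensional Kbar⟮jBar N⟯ (FBar N))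
    (hdeg : Module.finrank Kbar⟮jBar N⟯ (FBar N) = dedekindPsi N)
    (hzeros : ∀ y : FBar N, Transcendental Kbar y → FiniteDimensional Kbar⟮y⟯ (FBar N) →
      {v : Place Kbar (FBar N) | 0 < v.ord y}.Finite ∧
      ∑ᶠ v ∈ {v : Place Kbar (FBar N) | 0 < v.ord y}, v.ord y =
        (Module.finrank Kbar⟮y⟯ (FBar N) : ℤ))
    (hgen : ∀ a : Kbar, a ≠ 0 → a ≠ 1728 →
      HasEmbeddings N (jBar N - algebraMap Kbar (FBar N) a) 1 1)
    (h0 : ∃ g : SL(2, ℤ), Subgroup.zpowers g = Subgroup.zpowers (ModularGroup.S * ModularGroup.T) ∧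
      HasEmbeddings N (jBar N - algebraMap Kbar (FBar N) 0) g 3)
    (h1728 : ∃ g : SL(2, ℤ), Subgroup.zpowers g = Subgroup.zpowers ModularGroup.S ∧
      HasEmbeddings N (jBar N - algebraMap Kbar (FBar N) 1728) g 2)
    (hinf : ∃ g : SL(2, ℤ), Subgroup.zpowers g = Subgroup.zpowers ModularGroup.T ∧
      HasEmbeddings N (jBar N)⁻¹ g N) :
    ModularRamificationData N :=
  modularRamificationData htr hfd hdeg hzeros (Comb.card_X0 N) (Comb.three_mul_numOrbits_ST N)
    (Comb.two_mul_numOrbits_S N) (Comb.numOrbits_T N) hgen h0 h1728 hinf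

end Fermat.Agent.S24.RamGlue
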