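import Fermat.Agent.S24.JSurjective

/-!
# S24, piece II.sep: separation for `J_N(z) = j(N z)`

* `tendsto_jFun_mul_qParam` : `j(z) q(z) → 1` at `i∞` (sharp growth), and its norm form
  `tendsto_norm_jFun_mul_exp`.
* `mem_Gamma0_of_forall_eq` : if `J_N ∘ δ = J_N` for `δ ∈ SL(2, ℤ)` then `δ ∈ Γ₀(N)`.
* `forall_eq_of_mem_Gamma0` : the converse.
* `quotient_mk_eq_of_forall_eq` : the map `SL(2, ℤ) ⧸ Γ₀(N) → (ℍ → ℂ)`, `γ Γ₀(N) ↦ J_N ∘ γ⁻¹` is
  injective.
-/

open UpperHalfPlane ModularForm Filter Topology Complex CongruenceSubgroup MatrixGroups Function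

local notation "𝕢" => Function.Periodic.qParam

namespace Fermat.Agent.S24.SeparationJ

open Fermat.Agent.S24

/-- Sharp growth of `j` at `i∞`: `j(z) q(z) → 1`. -/
theorem tendsto_jFun_mul_qParam :
    Tendsto (fun z : ℍ => jFun z * 𝕢 1 z) atImInfty (𝓝 1) := by
  have h1 := tendsto_atImInfty_tprod_one_sub_eta_q_pow
  have h2 := tendsto_E₄_atImInfty.pow 3
  have key : ∀ z : ℍ, jFun z * 𝕢 1 z = E₄ z ^ 3 / (∏' n, (1 - eta_q n z) ^ 24) := by
    intro z
    have hΔ := discriminant_ne_zero z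
    rw [jFun, discriminant_eq_q_prod] at *
    have hq : 𝕢 1 (z : ℂ) ≠ 0 := left_ne_zero_of_mul hΔ
    have hp : (∏' n, (1 - eta_q n z) ^ 24) ≠ 0 := right_ne_zero_of_mul hΔ
    field_simp
  simp_rw [key]
  have := h2.div h1 one_ne_zero
  rw [div_one, one_pow] at this
  exact this

theorem norm_qParam_one (z : ℍ) : ‖𝕢 1 (z : ℂ)‖ = Real.exp (-2 * Real.pi * z.im) := by
  simp [Function.Periodic.qParam, Complex.norm_exp]

/-- Norm form: `‖j(z)‖ e^{-2π Im z} → 1`. -/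
theorem tendsto_norm_jFun_mul_exp :
    Tendsto (fun z : ℍ => ‖jFun z‖ * Real.exp (-2 * Real.pi * z.im)) atImInfty (𝓝 1) := by
  have := tendsto_jFun_mul_qParam.norm
  simp only [norm_mul, norm_one, norm_qParam_one] at this
  exact this

/-- The point `N z` of the upper half plane. -/
noncomputable def scale (N : ℕ) [NeZero N] (z : ℍ) : ℍ :=
  ⟨(N : ℂ) * z, by
    have hN : (0 : ℝ) < N := by exact_mod_cast Nat.pos_of_ne_zero (NeZero.ne N)
    simpa using mul_pos hN z.im_pos⟩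

@[simp] theorem coe_scale (N : ℕ) [NeZero N] (z : ℍ) : ((scale N z : ℍ) : ℂ) = (N : ℂ) * z := rfl

theorem im_scale (N : ℕ) [NeZero N] (z : ℍ) : (scale N z).im = N * z.im := by
  change ((N : ℂ) * z).im = _
  simp

/-- The point `i (n+1)`. -/
noncomputable def zn (n : ℕ) : ℍ := ⟨Complex.I * ((n : ℂ) + 1), by
  have : (0 : ℝ) < (n : ℝ) + 1 := by positivity
  simpa using this⟩

@[simp] theorem coe_zn (n : ℕ) : ((zn n : ℍ) : ℂ) = Complex.I * ((n : ℂ) + 1) := rfl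

theorem im_zn (n : ℕ) : (zn n).im = (n : ℝ) + 1 := by
  change (Complex.I * ((n : ℂ) + 1)).im = _
  simp

/-- arithmetic: Hermite data for the column `(N a, c)` -/
theorem exists_hermite_data (N : ℕ) [NeZero N] (a b c d : ℤ) (hdet : a * d - b * c = 1) :
    ∃ g x0 y0 E u v : ℤ, 0 < g ∧ g * x0 = N * a ∧ g * y0 = c ∧ g * E = N ∧
      v * x0 - u * y0 = 1 := by
  have hN : (N : ℤ) ≠ 0 := by exact_mod_cast NeZero.ne N
  have hac : IsCoprime c a := ⟨-b, d, by linarith⟩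
  set g : ℤ := (Int.gcd (N * a) c : ℤ) with hg
  have hgpos : 0 < g := by
    rw [hg]
    have : 0 < Int.gcd (N * a) c := by
      rw [Int.gcd_pos_iff]
      by_cases hc : c = 0
      · left
        have ha : a ≠ 0 := by
          rintro rfl
          simp [hc] at hdet
        exact mul_ne_zero hN ha
      · right; exact hc
    exact_mod_cast this
  have hg1 : g ∣ N * a := Int.gcd_dvd_left _ _
  have hg2 : g ∣ c := Int.gcd_dvd_right _ _
  obtain ⟨x0, hx0⟩ := hg1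
  obtain ⟨y0, hy0⟩ := hg2
  have hga : IsCoprime g a := IsCoprime.of_isCoprime_of_dvd_left hac ⟨y0, hy0⟩
  have hgN : g ∣ N := hga.dvd_of_dvd_mul_right ⟨x0, hx0⟩
  obtain ⟨E, hE⟩ := hgN
  have hcop : IsCoprime x0 y0 := by
    rw [Int.isCoprime_iff_gcd_eq_one]
    have h := Int.gcd_div_gcd_div_gcd (i := (N : ℤ) * a) (j := c) (by
      have : 0 < g := hgpos
      rw [hg] at this
      exact_mod_cast this)
    have e1 : (N : ℤ) * a / (Int.gcd (N * a) c : ℤ) = x0 := by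
      rw [← hg, hx0, Int.mul_ediv_cancel_left _ hgpos.ne']
    have e2 : c / (Int.gcd (N * a) c : ℤ) = y0 := by
      rw [← hg]
      conv_lhs => rw [hy0]
      rw [Int.mul_ediv_cancel_left _ hgpos.ne']
    rwa [e1, e2] at h
  obtain ⟨s, t, hst⟩ := hcop
  exact ⟨g, x0, y0, E, -t, s, hgpos, hx0.symm, hy0.symm, hE.symm, by linarith⟩

/-- Key coordinate computation. -/
theorem coe_smul_scale_smul (N : ℕ) [NeZero N] (δ : SL(2, ℤ)) (g x0 y0 E u v : ℤ)
    (hg : 0 < g) (hx0 : g * x0 = N * δ 0 0) (hy0 : g * y0 = δ 1 0) (hE : g * E = N)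
    (huv : v * x0 - u * y0 = 1) (hdet : δ 0 0 * δ 1 1 - δ 0 1 * δ 1 0 = 1)
    (δ'' : SL(2, ℤ)) (h00 : δ'' 0 0 = v) (h01 : δ'' 0 1 = -u) (h10 : δ'' 1 0 = -y0)
    (h11 : δ'' 1 1 = x0) (z : ℍ) :
    ((δ'' • scale N (δ • z) : ℍ) : ℂ) =
      ((g : ℂ) * z + ((v * N * δ 0 1 - u * δ 1 1 : ℤ) : ℂ)) / (E : ℂ) := by
  have hD : ((δ 1 0 : ℤ) : ℂ) * z + ((δ 1 1 : ℤ) : ℂ) ≠ 0 := by
    have := denom_ne_zero δ z
    rw [ModularGroup.denom_apply] at this
    exact this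
  have hgC : (g : ℂ) ≠ 0 := by exact_mod_cast hg.ne'
  have hNC : (N : ℂ) ≠ 0 := by exact_mod_cast NeZero.ne N
  have hEC : (E : ℂ) ≠ 0 := by
    intro h
    have : (E : ℤ) = 0 := by exact_mod_cast h
    rw [this, mul_zero] at hE
    exact (NeZero.ne N) (by exact_mod_cast hE.symm)
  have e1 : (g : ℂ) * x0 = N * (δ 0 0 : ℤ) := by exact_mod_cast hx0
  have e2 : (g : ℂ) * y0 = (δ 1 0 : ℤ) := by exact_mod_cast hy0
  have e3 : (g : ℂ) * E = N := by exact_mod_cast hE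
  have e4 : (v : ℂ) * x0 - u * y0 = 1 := by exact_mod_cast huv
  have e5 : ((δ 0 0 : ℤ) : ℂ) * (δ 1 1 : ℤ) - (δ 0 1 : ℤ) * (δ 1 0 : ℤ) = 1 := by exact_mod_cast hdet
  rw [coe_specialLinearGroup_apply, coe_scale, coe_specialLinearGroup_apply, h00, h01, h10, h11]
  simp only [algebraMap_int_eq, eq_intCast, Int.cast_neg, ofReal_intCast, ofReal_neg]
  set A : ℂ := ((δ 0 0 : ℤ) : ℂ) with hA
  set B : ℂ := ((δ 0 1 : ℤ) : ℂ) with hB
  set C : ℂ := ((δ 1 0 : ℤ) : ℂ) with hC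
  set D : ℂ := ((δ 1 1 : ℤ) : ℂ) with hD'
  -- numerator and denominator
  set Dn : ℂ := C * z + D with hDn
  set q : ℂ := (A * z + B) / Dn with hq
  have hqD : q * Dn = A * z + B := div_mul_cancel₀ _ hD
  have hg' : (v : ℂ) * N * A - u * C = g := by
    have : (g : ℂ) * ((v : ℂ) * N * A - u * C) = g * g := by
      linear_combination (v : ℂ) * g * e1.symm - (u : ℂ) * g * e2.symm + (g : ℂ) * g * e4
    exact mul_left_cancel₀ hgC this
  have h1 : -(y0 : ℂ) * N * A + x0 * C = 0 := by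
    have : (g : ℂ) * (-(y0 : ℂ) * N * A + x0 * C) = g * 0 := by
      linear_combination (C : ℂ) * e1 - (N : ℂ) * A * e2
    exact mul_left_cancel₀ hgC this
  have h2 : -(y0 : ℂ) * N * B + x0 * D = E := by
    have : (g : ℂ) * (-(y0 : ℂ) * N * B + x0 * D) = g * E := by
      linear_combination (D : ℂ) * e1 - (N : ℂ) * B * e2 + (N : ℂ) * e5 - e3
    exact mul_left_cancel₀ hgC this
  have hnum : (v : ℂ) * ((N : ℂ) * q) + -(u : ℂ) =
      ((g : ℂ) * z + ((v : ℂ) * N * B - u * D)) / Dn := by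
    rw [eq_div_iff hD]
    linear_combination (v : ℂ) * N * hqD + (z : ℂ) * hg'
  have hden : -(y0 : ℂ) * ((N : ℂ) * q) + (x0 : ℂ) = (E : ℂ) / Dn := by
    rw [eq_div_iff hD]
    linear_combination -(y0 : ℂ) * N * hqD + (z : ℂ) * h1 + h2
  rw [hnum, hden]
  push_cast
  field_simp
  rw [hB, hD']

/-- **Separation**: if `J_N ∘ δ = J_N` for `J_N z = j (N z)` and `δ ∈ SL(2, ℤ)`, then
`δ ∈ Γ₀(N)`. -/
theorem mem_Gamma0_of_forall_eq (N : ℕ) [NeZero N] (JN : ℍ → ℂ)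
    (hJN : ∀ z w : ℍ, (w : ℂ) = (N : ℂ) * (z : ℂ) → JN z = jFun w)
    (δ : SL(2, ℤ)) (h : ∀ z : ℍ, JN (δ • z) = JN z) : δ ∈ Gamma0 N := by
  have hdet : δ 0 0 * δ 1 1 - δ 0 1 * δ 1 0 = 1 := by
    have := δ.det_coe
    rw [Matrix.det_fin_two] at this
    exact this
  obtain ⟨g, x0, y0, E, u, v, hg, hx0, hy0, hE, huv⟩ :=
    exists_hermite_data N (δ 0 0) (δ 0 1) (δ 1 0) (δ 1 1) hdet
  let δ'' : SL(2, ℤ) := ⟨!![v, -u; -y0, x0], by rw [Matrix.det_fin_two_of]; linarith⟩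
  have hNposZ : (0 : ℤ) < N := by exact_mod_cast Nat.pos_of_ne_zero (NeZero.ne N)
  have hNpos : (0 : ℝ) < N := by exact_mod_cast Nat.pos_of_ne_zero (NeZero.ne N)
  have hEpos : 0 < E := by
    by_contra hle
    push Not at hle
    have : g * E ≤ 0 := mul_nonpos_of_nonneg_of_nonpos hg.le hle
    rw [hE] at this
    omega
  have hgR : (0 : ℝ) < g := by exact_mod_cast hg
  have hER : (0 : ℝ) < E := by exact_mod_cast hEpos
  set B : ℤ := v * N * δ 0 1 - u * δ 1 1 with hB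
  let w2 : ℕ → ℍ := fun n => δ'' • scale N (δ • zn n)
  let w3 : ℕ → ℍ := fun n => scale N (zn n)
  have hw2coe : ∀ n, ((w2 n : ℍ) : ℂ) = ((g : ℂ) * (zn n) + (B : ℂ)) / E := fun n =>
    coe_smul_scale_smul N δ g x0 y0 E u v hg hx0 hy0 hE huv hdet δ'' rfl rfl rfl rfl (zn n)
  have hw2im : ∀ n, (w2 n).im = (g : ℝ) / E * ((n : ℝ) + 1) := by
    intro n
    have := congrArg Complex.im (hw2coe n)
    rw [UpperHalfPlane.coe_im] at this
    rw [this, coe_zn]
    have hEC : ((E : ℂ)) = ((E : ℝ) : ℂ) := by push_cast; rfl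
    rw [hEC, Complex.div_ofReal_im]
    simp
    field_simp
  have hw3im : ∀ n, (w3 n).im = (N : ℝ) * ((n : ℝ) + 1) := by
    intro n
    rw [im_scale, im_zn]
  have hJeq : ∀ n, jFun (w2 n) = jFun (w3 n) := by
    intro n
    have e1 : jFun (w2 n) = jFun (scale N (δ • zn n)) := jFun_smul _ _
    rw [e1, ← hJN (δ • zn n) (scale N (δ • zn n)) (coe_scale _ _), h,
      hJN (zn n) (w3 n) (coe_scale _ _)]
  have hG := tendsto_norm_jFun_mul_exp
  have hnat : Tendsto (fun n : ℕ => (n : ℝ) + 1) atTop atTop :=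
    tendsto_atTop_add_const_right _ _ tendsto_natCast_atTop_atTop
  have ht2 : Tendsto w2 atTop atImInfty := by
    rw [atImInfty, tendsto_comap_iff]
    have : (UpperHalfPlane.im ∘ w2) = fun n : ℕ => (g : ℝ) / E * ((n : ℝ) + 1) := funext hw2im
    rw [this]
    exact hnat.const_mul_atTop (by positivity)
  have ht3 : Tendsto w3 atTop atImInfty := by
    rw [atImInfty, tendsto_comap_iff]
    have : (UpperHalfPlane.im ∘ w3) = fun n : ℕ => (N : ℝ) * ((n : ℝ) + 1) := funext hw3im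
    rw [this]
    exact hnat.const_mul_atTop hNpos
  have hA := hG.comp ht2
  have hB' := hG.comp ht3
  have hdiv := hA.div hB' one_ne_zero
  rw [div_one] at hdiv
  set κ : ℝ := (N : ℝ) - (g : ℝ) / E with hκ
  have hs : Tendsto (fun n : ℕ => Real.exp (2 * Real.pi * κ * ((n : ℝ) + 1))) atTop (𝓝 1) := by
    refine hdiv.congr' ?_
    have hev : ∀ᶠ n in atTop, (‖jFun (w3 n)‖ * Real.exp (-2 * Real.pi * (w3 n).im)) ≠ 0 := by
      have := hB'.eventually (isOpen_ne.mem_nhds (one_ne_zero : (1 : ℝ) ≠ 0))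
      exact this
    filter_upwards [hev] with n hn
    simp only [Function.comp_apply, Pi.div_apply]
    have hJ0 : ‖jFun (w3 n)‖ ≠ 0 := left_ne_zero_of_mul hn
    rw [hJeq n, hw2im, hw3im, mul_div_mul_left _ _ hJ0, ← Real.exp_sub]
    congr 1
    rw [hκ]
    ring
  -- deduce κ = 0
  have hκ0 : κ = 0 := by
    have h1 := hs.comp (tendsto_add_atTop_nat 1)
    have h2 := hs.mul_const (Real.exp (2 * Real.pi * κ))
    have h3 : (fun n : ℕ => Real.exp (2 * Real.pi * κ * ((n : ℝ) + 1)) *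
        Real.exp (2 * Real.pi * κ)) =
        (fun n : ℕ => Real.exp (2 * Real.pi * κ * ((n : ℝ) + 1))) ∘ (fun n => n + 1) := by
      funext n
      simp only [Function.comp_apply]
      rw [← Real.exp_add]
      congr 1
      push_cast
      ring
    rw [h3] at h2
    have := tendsto_nhds_unique h1 h2
    rw [one_mul] at this
    have h4 : 2 * Real.pi * κ = 0 := Real.exp_eq_one_iff _ |>.mp this.symm
    have hpi : (2 * Real.pi) ≠ 0 := by positivity
    exact (mul_eq_zero.mp h4).resolve_left hpi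
  -- arithmetic conclusion
  have hNE : (N : ℤ) * E = g := by
    have : (N : ℝ) * E = g := by
      have := sub_eq_zero.mp hκ0
      field_simp at this
      linarith
    exact_mod_cast this
  have hE1 : E = 1 := by
    have : (N : ℤ) * (E * E) = N * 1 := by
      calc (N : ℤ) * (E * E) = (N * E) * E := by ring
        _ = g * E := by rw [hNE]
        _ = N * 1 := by rw [hE, mul_one]
    have hEE : E * E = 1 := mul_left_cancel₀ hNposZ.ne' this
    nlinarith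
  have hgN : g = N := by rw [← hNE, hE1, mul_one]
  rw [Gamma0_mem]
  rw [ZMod.intCast_zmod_eq_zero_iff_dvd]
  exact ⟨y0, by rw [← hy0, hgN]⟩

/-- The converse: `J_N` is invariant under `Γ₀(N)`. -/
theorem forall_eq_of_mem_Gamma0 (N : ℕ) [NeZero N] (JN : ℍ → ℂ)
    (hJN : ∀ z w : ℍ, (w : ℂ) = (N : ℂ) * (z : ℂ) → JN z = jFun w)
    (δ : SL(2, ℤ)) (hδ : δ ∈ Gamma0 N) (z : ℍ) : JN (δ • z) = JN z := by
  rw [Gamma0_mem, ZMod.intCast_zmod_eq_zero_iff_dvd] at hδ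
  obtain ⟨c', hc'⟩ := hδ
  have hdet : δ 0 0 * δ 1 1 - δ 0 1 * δ 1 0 = 1 := by
    have := δ.det_coe
    rw [Matrix.det_fin_two] at this
    exact this
  let δ₂ : SL(2, ℤ) := ⟨!![δ 0 0, N * δ 0 1; c', δ 1 1], by
    rw [Matrix.det_fin_two_of]; rw [hc'] at hdet; linarith⟩
  have hpt : scale N (δ • z) = δ₂ • scale N z := by
    apply UpperHalfPlane.ext
    rw [coe_scale, coe_specialLinearGroup_apply, coe_specialLinearGroup_apply, coe_scale]
    have h00 : δ₂ 0 0 = δ 0 0 := rfl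
    have h01 : δ₂ 0 1 = N * δ 0 1 := rfl
    have h10 : δ₂ 1 0 = c' := rfl
    have h11 : δ₂ 1 1 = δ 1 1 := rfl
    rw [h00, h01, h10, h11, hc']
    simp only [algebraMap_int_eq, eq_intCast, ofReal_intCast]
    have hD : ((δ 1 0 : ℤ) : ℂ) * z + ((δ 1 1 : ℤ) : ℂ) ≠ 0 := by
      have := denom_ne_zero δ z
      rw [ModularGroup.denom_apply] at this
      exact this
    rw [hc'] at hD
    push_cast at hD ⊢
    have hD2 : (c' : ℂ) * ((N : ℂ) * z) + ((δ 1 1 : ℤ) : ℂ) ≠ 0 := by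
      intro h0
      apply hD
      linear_combination h0
    rw [mul_div_assoc', div_eq_div_iff hD hD2]
    ring
  rw [hJN (δ • z) (scale N (δ • z)) (coe_scale _ _), hpt, jFun_smul,
    ← hJN z (scale N z) (coe_scale _ _)]

/-- The map `γ Γ₀(N) ↦ J_N ∘ γ⁻¹` on left cosets is injective. -/
theorem quotient_mk_eq_of_forall_eq (N : ℕ) [NeZero N] (JN : ℍ → ℂ)
    (hJN : ∀ z w : ℍ, (w : ℂ) = (N : ℂ) * (z : ℂ) → JN z = jFun w)
    (γ γ' : SL(2, ℤ)) (h : ∀ z : ℍ, JN (γ⁻¹ • z) = JN (γ'⁻¹ • z)) :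
    (QuotientGroup.mk γ : SL(2, ℤ) ⧸ Gamma0 N) = QuotientGroup.mk γ' := by
  rw [QuotientGroup.eq]
  apply mem_Gamma0_of_forall_eq N JN hJN
  intro z
  have := h (γ' • z)
  rw [inv_smul_smul, ← mul_smul] at this
  exact this

/-- The concrete function `J_N z = j (N z)`. -/
noncomputable def jN (N : ℕ) [NeZero N] (z : ℍ) : ℂ := jFun (scale N z)

theorem jN_spec (N : ℕ) [NeZero N] (z w : ℍ) (hw : (w : ℂ) = (N : ℂ) * (z : ℂ)) :
    jN N z = jFun w := by
  have : w = scale N z := UpperHalfPlane.ext (by rw [hw, coe_scale])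
  rw [this, jN]

theorem jN_smul_eq_iff (N : ℕ) [NeZero N] (δ : SL(2, ℤ)) :
    (∀ z : ℍ, jN N (δ • z) = jN N z) ↔ δ ∈ Gamma0 N :=
  ⟨mem_Gamma0_of_forall_eq N (jN N) (jN_spec N) δ,
    fun hδ z => forall_eq_of_mem_Gamma0 N (jN N) (jN_spec N) δ hδ z⟩

end Fermat.Agent.S24.SeparationJ
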