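import Mathlib
import Fermat.Agent.S24.PlaceOfPrime
import Fermat.Agent.S24.PlaceOfEmb
import Fermat.Agent.S24.InertiaOne
import Fermat.Agent.S24.PrincipalDegreeCore

/-!
# S24, piece A1.b: the zeros theorem (counting half)

Abstract form: `B` a Dedekind domain, finite and torsion-free over `K[X]` (`K` algebraically
closed), with fraction field `F`.  With `y` the image of `X` in `F`:
the places of `F / K` at which `y` has positive order correspond to the primes of `B` over `(X)`,
the order of `y` is the ramification index, and hence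
`∑ ord_v y = rank_{K[X]} B`.

Instantiation: for `y : F` transcendental over `K` with `F / K(y)` finite (char. zero), take
`B` = integral closure of `K[X]` (acting through `X ↦ y`) in `F`; this gives
`zeros_finite`, `sum_ord_zeros` and `zerosTheorem : PrincipalDegreeCore.ZerosTheorem K F`.
-/

set_option autoImplicit false
set_option linter.unusedSectionVars false
set_option linter.style.haveILetI false

noncomputable section

namespace Fermat.Agent.S24.ZerosCount

open AlgebraicCurve IsDedekindDomain Polynomial IntermediateField Fermat.Agent.S24.PlaceOfPrime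

section Abstract

variable {K F : Type*} [Field K] [IsAlgClosed K] [Field F] [Algebra K F]
variable {B : Type*} [CommRing B] [IsDedekindDomain B] [Algebra B F] [IsFractionRing B F]
variable [Algebra K B] [IsScalarTower K B F]
variable [Algebra K[X] B] [IsScalarTower K K[X] B] [Module.Finite K[X] B] [FaithfulSMul K[X] B]

variable (K B) in
/-- The image of `X` in `B`. -/
def yB : B := algebraMap K[X] B X

variable (K F B) in
/-- The image of `X` in `F`. -/
def yF : F := algebraMap B F (yB K B)

variable (K) in
/-- The prime `(X)` of `K[X]`, written as `(X - C 0)` to match `InertiaOne`. -/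
def pX : Ideal K[X] := Ideal.span {(X - C (0 : K) : K[X])}

omit [IsAlgClosed K] in
theorem X_mem_pX : (X : K[X]) ∈ pX K := by
  unfold pX
  rw [C_0, sub_zero]
  exact Ideal.subset_span rfl

instance : (pX K).IsMaximal := InertiaOne.span_X_sub_C_isMaximal (0 : K)

omit [IsAlgClosed K] [IsDedekindDomain B] [Algebra K B] [IsScalarTower K K[X] B]
  [Module.Finite K[X] B] in
theorem yB_ne_zero : yB K B ≠ 0 := by
  unfold yB
  intro h
  have := (FaithfulSMul.algebraMap_injective K[X] B) (h.trans (map_zero _).symm)
  exact X_ne_zero this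

omit [IsAlgClosed K] [Algebra K B] [IsScalarTower K K[X] B] [Module.Finite K[X] B]
  [FaithfulSMul K[X] B] in
theorem map_pX : (pX K).map (algebraMap K[X] B) = Ideal.span {yB K B} := by
  unfold pX yB
  rw [Ideal.map_span, Set.image_singleton, C_0, sub_zero]

/-- `K[X] → F`, through `B`. -/
def polyToF : K[X] →+* F := (algebraMap B F).comp (algebraMap K[X] B)

theorem polyToF_C (c : K) : polyToF (K := K) (F := F) (B := B) (C c) = algebraMap K F c := by
  unfold polyToF
  rw [RingHom.comp_apply, ← Polynomial.algebraMap_eq, ← IsScalarTower.algebraMap_apply K K[X] B,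
    ← IsScalarTower.algebraMap_apply K B F]

theorem polyToF_X : polyToF (K := K) (F := F) (B := B) X = yF K F B := rfl

/-- If `y ∈ O_v` then the image of `K[X]` lies in `O_v`. -/
theorem polyToF_mem (v : Place K F) (hy : yF K F B ∈ v.toValuationSubring) (r : K[X]) :
    polyToF (K := K) (F := F) (B := B) r ∈ v.toValuationSubring := by
  induction r using Polynomial.induction_on' with
  | add p q hp hq =>
    rw [map_add]
    exact v.toValuationSubring.add_mem _ _ hp hq
  | monomial n c =>
    rw [← C_mul_X_pow_eq_monomial, map_mul, map_pow, polyToF_C, polyToF_X]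
    exact v.toValuationSubring.mul_mem _ _ (v.algebraMap_mem' c)
      (pow_mem hy n)

/-- If `y ∈ O_v` then `B ⊆ O_v` (valuation rings are integrally closed). -/
theorem algebraMap_mem_of_yF_mem (v : Place K F) (hy : yF K F B ∈ v.toValuationSubring) (b : B) :
    algebraMap B F b ∈ v.toValuationSubring := by
  let _ : Algebra K[X] F := (polyToF (K := K) (F := F) (B := B)).toAlgebra
  have : IsScalarTower K[X] B F := IsScalarTower.of_algebraMap_eq fun _ => rfl
  exact forall_mem_of_isIntegral v (R := K[X]) (fun r => polyToF_mem v hy r) b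

theorem yF_ne_zero : yF K F B ≠ 0 := by
  unfold yF
  intro h
  exact yB_ne_zero (K := K) (B := B)
    ((IsFractionRing.injective B F) (h.trans (map_zero _).symm))

theorem yF_mem_of_ord_pos (v : Place K F) (h : 0 < v.ord (yF K F B)) :
    yF K F B ∈ v.toValuationSubring :=
  (Fermat.Agent.S24.PlaceAux.mem_iff_ord_nonneg v (yF_ne_zero (K := K) (F := F) (B := B))).mpr h.le

/-- The set of zeros of `y`. -/
def zeros : Set (Place K F) := {v | 0 < v.ord (yF K F B)}

theorem forall_mem_of_mem_zeros (v : Place K F) (hv : v ∈ zeros (K := K) (F := F) (B := B))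
    (b : B) : algebraMap B F b ∈ v.toValuationSubring :=
  algebraMap_mem_of_yF_mem v (yF_mem_of_ord_pos v hv) b

theorem yB_mem_center (v : Place K F) (hv : v ∈ zeros (K := K) (F := F) (B := B)) :
    yB K B ∈ (center v (forall_mem_of_mem_zeros v hv)).asIdeal :=
  (mem_center_iff_ord_pos v _ (yB_ne_zero (K := K) (B := B))).mpr hv

theorem center_liesOver (v : Place K F) (hv : v ∈ zeros (K := K) (F := F) (B := B)) :
    (center v (forall_mem_of_mem_zeros v hv)).asIdeal.LiesOver (pX K) := by
  constructor
  have hprime : ((center v (forall_mem_of_mem_zeros v hv)).asIdeal.under K[X]).IsPrime :=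
    Ideal.IsPrime.under K[X] _
  refine Ideal.IsMaximal.eq_of_le inferInstance hprime.ne_top ?_
  unfold pX
  rw [Ideal.span_le, Set.singleton_subset_iff, C_0, sub_zero]
  exact yB_mem_center v hv

/-- zeros of `y` ⟶ primes over `(X)`. -/
def toPrime (v : zeros (K := K) (F := F) (B := B)) : (pX K).primesOver B :=
  ⟨(center v.1 (forall_mem_of_mem_zeros v.1 v.2)).asIdeal,
    (center v.1 (forall_mem_of_mem_zeros v.1 v.2)).isPrime, center_liesOver v.1 v.2⟩

theorem yB_mem_of_primesOver (q : (pX K).primesOver B) : yB K B ∈ q.1 := by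
  have h1 : (X : K[X]) ∈ q.1.under K[X] := by
    have := q.2.2.over
    rw [← this]
    exact X_mem_pX
  exact h1

theorem ne_bot_of_primesOver (q : (pX K).primesOver B) : q.1 ≠ ⊥ := by
  intro h
  have := yB_mem_of_primesOver q
  rw [h, Ideal.mem_bot] at this
  exact yB_ne_zero (K := K) (B := B) this

/-- The height one prime attached to a prime over `(X)`. -/
def hos (q : (pX K).primesOver B) : HeightOneSpectrum B :=
  ⟨q.1, q.2.1, ne_bot_of_primesOver q⟩

theorem ofPrime_mem (q : (pX K).primesOver B) :
    Place.ofHeightOneSpectrum (K := K) (F := F) (hos q) ∈ zeros (K := K) (F := F) (B := B) := by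
  show 0 < (Place.ofHeightOneSpectrum (K := K) (F := F) (hos q)).ord (algebraMap B F (yB K B))
  rw [ord_algebraMap_pos_iff (K := K) (hos q) (yB_ne_zero (K := K) (B := B))]
  exact yB_mem_of_primesOver q

/-- primes over `(X)` ⟶ zeros of `y`. -/
def ofPrime (q : (pX K).primesOver B) : zeros (K := K) (F := F) (B := B) :=
  ⟨Place.ofHeightOneSpectrum (K := K) (F := F) (hos q), ofPrime_mem q⟩

/-- The zeros of `y` correspond to the primes of `B` over `(X)`. -/
def zerosEquiv : zeros (K := K) (F := F) (B := B) ≃ (pX K).primesOver B where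
  toFun := toPrime
  invFun := ofPrime
  left_inv v := by
    apply Subtype.ext
    exact (eq_ofHeightOneSpectrum_center v.1 (forall_mem_of_mem_zeros v.1 v.2)).symm
  right_inv q := by
    apply Subtype.ext
    have := center_ofHeightOneSpectrum (K := K) (F := F) (hos q)
    exact congrArg HeightOneSpectrum.asIdeal this

theorem map_pX_ne_bot : (pX K).map (algebraMap K[X] B) ≠ ⊥ := by
  rw [map_pX, Ne, Ideal.span_singleton_eq_bot]
  exact yB_ne_zero (K := K) (B := B)

/-- The order of `y` at a zero is the ramification index of the corresponding prime. -/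
theorem ord_eq_ramificationIdx (v : zeros (K := K) (F := F) (B := B)) :
    v.1.ord (yF K F B) = ((toPrime v).1.ramificationIdx K[X] : ℤ) := by
  have h1 := ord_algebraMap_eq_multiplicity_center v.1 (forall_mem_of_mem_zeros v.1 v.2)
    (yB_ne_zero (K := K) (B := B))
  have hprime : (toPrime v).1.IsPrime := (toPrime v).2.1
  have hlies : (toPrime v).1.LiesOver (pX K) := (toPrime v).2.2
  have h2 := Ideal.IsDedekindDomain.ramificationIdx_eq_multiplicity (pX K) (toPrime v).1
    (map_pX_ne_bot (K := K) (B := B))
  rw [map_pX] at h2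
  unfold yF
  rw [h1, h2]
  rfl

theorem inertiaDeg_eq_one (q : (pX K).primesOver B) : q.1.inertiaDeg K[X] = 1 := by
  have hprime : q.1.IsPrime := q.2.1
  have hlies : q.1.LiesOver (Ideal.span {(X - C (0 : K) : K[X])}) := q.2.2
  exact InertiaOne.inertiaDeg_X_sub_C (0 : K) q.1

theorem sum_ramificationIdx :
    ∑ q : (pX K).primesOver B, q.1.ramificationIdx K[X] = Module.finrank K[X] B := by
  rw [← Ideal.sum_ramification_inertia_eq_finrank (pX K) B]
  refine Finset.sum_congr rfl fun q _ => ?_
  rw [inertiaDeg_eq_one q, mul_one]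

/-- **Abstract zeros theorem, finiteness.** -/
theorem zeros_finite_abstract : (zeros (K := K) (F := F) (B := B)).Finite := by
  rw [← Set.finite_coe_iff]
  exact Finite.of_equiv _ (zerosEquiv (K := K) (F := F) (B := B)).symm

/-- **Abstract zeros theorem, counting.** -/
theorem sum_ord_zeros_abstract :
    ∑ᶠ v ∈ zeros (K := K) (F := F) (B := B), v.ord (yF K F B) =
      (Module.finrank K[X] B : ℤ) := by
  rw [← finsum_set_coe_eq_finsum_mem (zeros (K := K) (F := F) (B := B))]
  have h1 : ∀ v : zeros (K := K) (F := F) (B := B),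
      v.1.ord (yF K F B) = (((zerosEquiv v).1.ramificationIdx K[X] : ℕ) : ℤ) :=
    fun v => ord_eq_ramificationIdx v
  rw [finsum_congr h1,
    finsum_comp_equiv (zerosEquiv (K := K) (F := F) (B := B))
      (f := fun q : (pX K).primesOver B => ((q.1.ramificationIdx K[X] : ℕ) : ℤ)),
    finsum_eq_sum_of_fintype, ← sum_ramificationIdx (K := K) (B := B), Nat.cast_sum]

end Abstract

section Inst

variable {K F : Type*} [Field K] [IsAlgClosed K] [CharZero K] [Field F] [Algebra K F]

/-- The `K[X]`-algebra structure on `F` given by `X ↦ y`. -/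
@[reducible] def polyAlgF (y : F) : Algebra K[X] F := (aeval y : K[X] →ₐ[K] F).toRingHom.toAlgebra

/-- The `K[X]`-algebra structure on `K(y)` given by `X ↦ y`. -/
@[reducible] def polyAlgE (y : F) : Algebra K[X] K⟮y⟯ :=
  (aeval (AdjoinSimple.gen K y) : K[X] →ₐ[K] K⟮y⟯).toRingHom.toAlgebra

theorem scalarTower_K_poly_F (y : F) :
    letI := polyAlgF (K := K) y
    IsScalarTower K K[X] F := by
  letI := polyAlgF (K := K) y
  refine IsScalarTower.of_algebraMap_eq fun c => ?_
  show algebraMap K F c = aeval y (algebraMap K K[X] c)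
  rw [Polynomial.algebraMap_eq, aeval_C]

theorem scalarTower_poly_E_F (y : F) :
    letI := polyAlgF (K := K) y
    letI := polyAlgE (K := K) y
    IsScalarTower K[X] K⟮y⟯ F := by
  letI := polyAlgF (K := K) y
  letI := polyAlgE (K := K) y
  refine IsScalarTower.of_algebraMap_eq fun p => ?_
  show aeval y p = algebraMap K⟮y⟯ F (aeval (AdjoinSimple.gen K y) p)
  rw [← Polynomial.aeval_algebraMap_apply, AdjoinSimple.algebraMap_gen]

theorem faithful_poly_E (y : F) (hy : Transcendental K y) :
    letI := polyAlgE (K := K) y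
    FaithfulSMul K[X] K⟮y⟯ := by
  letI := polyAlgE (K := K) y
  rw [faithfulSMul_iff_algebraMap_injective]
  intro p q hpq
  have h1 : aeval (AdjoinSimple.gen K y) p = aeval (AdjoinSimple.gen K y) q := hpq
  have h2 := congrArg (algebraMap K⟮y⟯ F) h1
  rw [← Polynomial.aeval_algebraMap_apply, ← Polynomial.aeval_algebraMap_apply,
    AdjoinSimple.algebraMap_gen] at h2
  exact (transcendental_iff_injective.mp hy) h2

theorem isFractionRing_poly_E (y : F) (hy : Transcendental K y) :
    letI := polyAlgE (K := K) y
    IsFractionRing K[X] K⟮y⟯ := by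
  letI := polyAlgE (K := K) y
  haveI := faithful_poly_E y hy
  refine IsFractionRing.of_field K[X] K⟮y⟯ fun z => ?_
  obtain ⟨r, s, hz⟩ := (IntermediateField.mem_adjoin_simple_iff K z.1).mp z.2
  refine ⟨r, s, ?_⟩
  apply Subtype.ext
  show z.1 = _
  rw [hz]
  have h : ∀ p : K[X], ((aeval (AdjoinSimple.gen K y) p : K⟮y⟯) : F) = aeval y p := fun p => by
    rw [← IntermediateField.algebraMap_apply, ← Polynomial.aeval_algebraMap_apply,
      AdjoinSimple.algebraMap_gen]
  show _ = ((aeval (AdjoinSimple.gen K y) r / aeval (AdjoinSimple.gen K y) s : K⟮y⟯) : F)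
  rw [IntermediateField.coe_div, h, h]


theorem zeros_main (y : F) (hy : Transcendental K y) [FiniteDimensional K⟮y⟯ F] :
    {v : Place K F | 0 < v.ord y}.Finite ∧
      ∑ᶠ v ∈ {v : Place K F | 0 < v.ord y}, v.ord y = (Module.finrank K⟮y⟯ F : ℤ) := by
  letI := polyAlgF (K := K) y
  letI := polyAlgE (K := K) y
  haveI := scalarTower_K_poly_F (K := K) y
  haveI := scalarTower_poly_E_F (K := K) y
  haveI := faithful_poly_E y hy
  haveI := isFractionRing_poly_E y hy
  haveI : Algebra.IsSeparable K⟮y⟯ F := inferInstance
  let B := integralClosure K[X] F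
  haveI : IsDedekindDomain B := integralClosure.isDedekindDomain K[X] K⟮y⟯ F
  haveI : IsFractionRing B F := integralClosure.isFractionRing_of_finite_extension K⟮y⟯ F
  haveI : Module.Finite K[X] B := IsIntegralClosure.finite K[X] K⟮y⟯ F B
  haveI : IsScalarTower K B F := inferInstance
  haveI : IsScalarTower K K[X] B := inferInstance
  haveI : FaithfulSMul K[X] B := by
    rw [faithfulSMul_iff_algebraMap_injective]
    intro p q hpq
    have h2 := congrArg (algebraMap B F) hpq
    rw [← IsScalarTower.algebraMap_apply K[X] B F, ← IsScalarTower.algebraMap_apply K[X] B F] at h2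
    exact (transcendental_iff_injective.mp hy) h2
  have hyF : yF K F B = y := by
    show aeval y X = y
    exact aeval_X y
  have h1 := zeros_finite_abstract (K := K) (F := F) (B := B)
  have h2 := sum_ord_zeros_abstract (K := K) (F := F) (B := B)
  unfold zeros at h1 h2
  rw [hyF] at h1 h2
  refine ⟨h1, ?_⟩
  rw [h2, IsFractionRing.finrank_eq K[X] K⟮y⟯ B F]


/-- **A1.b, finiteness**: a transcendental `y` with `F / K(y)` finite has finitely many zeros. -/
theorem zeros_finite (y : F) (hy : Transcendental K y) [FiniteDimensional K⟮y⟯ F] :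
    {v : Place K F | 0 < v.ord y}.Finite :=
  (zeros_main y hy).1

/-- **A1.b, counting**: the orders of the zeros of `y` sum to `[F : K(y)]`. -/
theorem sum_ord_zeros (y : F) (hy : Transcendental K y) [FiniteDimensional K⟮y⟯ F] :
    ∑ᶠ v ∈ {v : Place K F | 0 < v.ord y}, v.ord y = (Module.finrank K⟮y⟯ F : ℤ) :=
  (zeros_main y hy).2

/-- **The zeros theorem**, in the shape consumed by `PrincipalDegreeCore` and `Hurwitz`. -/
theorem zerosTheorem : Fermat.Agent.S24.PrincipalDegreeCore.ZerosTheorem K F :=
  fun y hy hfd => by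
    haveI := hfd
    exact zeros_main y hy

end Inst

end Fermat.Agent.S24.ZerosCount
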